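import Fermat.Prelude.Def_ModularCurve_HeckeModule
import Fermat.Prelude.Def_ModularCurve_ReductionModL

/-!
# S37 (item 79): interface file (architect: helper8)

`S37` = `SpecializationExists ℚ ℚ̄ N p (JZero N)`.  The formal construction (`S37/Asm_helper8.lean`)
needs, for every prime `ℓ ∤ N` and every valuation subring `A` of `ℚ̄` over `ℓ`, only ONE subgroup
`K0 ⊆ J₀(N)(ℚ̄)` ("the kernel of reduction mod `ℓ`") with the four properties of
`H8S37.IsReductionKernel`.  The slices `R1`, `R2`, `R3` + `S18` below give it for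
`K0 = ker (reductionModL A N)`; any other `K0` with the four properties is just as good.
-/

set_option autoImplicit false

noncomputable section

namespace H8S37

open ModularCurve

/-- The absolute Galois group of `ℚ`. -/
abbrev GQ : Type := AlgebraicClosure ℚ ≃ₐ[ℚ] AlgebraicClosure ℚ

/-- **The abstract input of the formal construction.**  `K0` is a subgroup of `J₀(N)(ℚ̄)` that
behaves like the kernel of the reduction map at `A` (a place of `ℚ̄` over `ℓ`):
* `inertia`: inertia acts trivially modulo `K0`;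
* `frobenius`: Frobenius elements preserve `K0`;
* `congruence`: Eichler–Shimura: `φ² - T_ℓ φ + ℓ` maps `J` into `K0` (`φ` a Frobenius at `A`,
  `T_ℓ = heckeOperatorBar N ℓ`);
* `torsion_free`: `K0` has no prime-to-`ℓ` torsion. -/
structure IsReductionKernel (N : ℕ) [NeZero N] (ℓ : ℕ) (hℓ : ℓ.Prime)
    (A : ValuationSubring (AlgebraicClosure ℚ)) (K0 : AddSubgroup (JZero N)) : Prop where
  inertia : ∀ σ ∈ A.inertiaSubgroupIn ℚ, ∀ x : JZero N, σ • x - x ∈ K0
  frobenius : ∀ σ : GQ, A.IsFrobeniusAt σ ℓ → ∀ x ∈ K0, σ • x ∈ K0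
  congruence : ∀ σ : GQ, A.IsFrobeniusAt σ ℓ → ∀ x : JZero N,
    σ • σ • x - heckeOperatorBar N ⟨ℓ, hℓ⟩ (σ • x) + ℓ • x ∈ K0
  torsion_free : ∀ m : ℕ, ¬ ℓ ∣ m → ∀ x ∈ K0, m • x = 0 → x = 0

/-- What the assembly consumes: at every place over every prime `ℓ ∤ N` there is a reduction
kernel. -/
def KernelStatement (N : ℕ) [NeZero N] : Prop :=
  ∀ (ℓ : ℕ) (hℓ : ℓ.Prime), ¬ ℓ ∣ N →
    ∀ A : ValuationSubring (AlgebraicClosure ℚ), A.LiesOverPrime ℓ →
      ∃ K0 : AddSubgroup (JZero N), IsReductionKernel N ℓ hℓ A K0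

/-! ## The geometric slices, for `K0 = ker (reductionModL A N)` -/

/-- **R0**: the Hecke correspondence `T_ℓ` at level `N` is the real one (otherwise
`heckeOperatorBar N ℓ = 0` by the prelude's `if`). -/
def R0Statement (N : ℕ) [NeZero N] : Prop :=
  ∀ (ℓ : ℕ) (hℓ : ℓ.Prime), ¬ ℓ ∣ N →
    haveI : NeZero ℓ := ⟨hℓ.ne_zero⟩
    HeckeInputsAlong (AlgebraicClosure ℚ) N ℓ

/-- **R2**: the prelude's reduction inputs hold at every place over `ℓ ∤ N` (so that
`reductionModL A N` is the real reduction map and not `0`). -/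
def R2Statement (N : ℕ) [NeZero N] : Prop :=
  ∀ (ℓ : ℕ), ℓ.Prime → ¬ ℓ ∣ N →
    ∀ A : ValuationSubring (AlgebraicClosure ℚ), A.LiesOverPrime ℓ → ReductionInputsModL A N

/-- **R1 (inertia half)**: `red (σ x) = red x` for `σ` in the inertia group of `A`. -/
def R1InertiaStatement (N : ℕ) [NeZero N] : Prop :=
  ∀ (ℓ : ℕ), ℓ.Prime → ¬ ℓ ∣ N →
    ∀ A : ValuationSubring (AlgebraicClosure ℚ), A.LiesOverPrime ℓ →
      ∀ σ ∈ A.inertiaSubgroupIn ℚ, ∀ x : JZero N,
        reductionModL A N (σ • x) = reductionModL A N x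

/-- **R1 (Frobenius half)**, weak form: a Frobenius at `A` preserves `ker red`
(true because `red (φ x) = Fr (red x)` with `Fr` the coefficientwise `ℓ`-Frobenius). -/
def R1FrobeniusStatement (N : ℕ) [NeZero N] : Prop :=
  ∀ (ℓ : ℕ), ℓ.Prime → ¬ ℓ ∣ N →
    ∀ A : ValuationSubring (AlgebraicClosure ℚ), A.LiesOverPrime ℓ →
      ∀ σ : GQ, A.IsFrobeniusAt σ ℓ → ∀ x : JZero N,
        reductionModL A N x = 0 → reductionModL A N (σ • x) = 0

/-- **R3**: the Eichler–Shimura congruence relation, in the form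
`red ((φ² - T_ℓ φ + ℓ) x) = 0` for a Frobenius `φ` at `A`. -/
def R3Statement (N : ℕ) [NeZero N] : Prop :=
  ∀ (ℓ : ℕ) (hℓ : ℓ.Prime), ¬ ℓ ∣ N →
    ∀ A : ValuationSubring (AlgebraicClosure ℚ), A.LiesOverPrime ℓ →
      ∀ σ : GQ, A.IsFrobeniusAt σ ℓ → ∀ x : JZero N,
        reductionModL A N (σ • σ • x - heckeOperatorBar N ⟨ℓ, hℓ⟩ (σ • x) + ℓ • x) = 0

/-- **S18** (item 75), as a hypothesis: the frozen statement `S18` verbatim (it assumes
`ReductionInputsModL A N`, which is `R2`). -/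
def S18Statement (N : ℕ) [NeZero N] : Prop :=
  ∀ (ℓ : ℕ), ℓ.Prime → ¬ ℓ ∣ N →
    ∀ A : ValuationSubring (AlgebraicClosure ℚ), A.LiesOverPrime ℓ →
      ReductionInputsModL A N → ∀ m : ℕ, ¬ ℓ ∣ m → ∀ z : JZero N,
        m • z = 0 → reductionModL A N z = 0 → z = 0

/-- The slices give the kernel statement, with `K0 = ker (reductionModL A N)`. -/
theorem kernelStatement_of_slices (N : ℕ) [NeZero N]
    (h2 : R2Statement N) (h1i : R1InertiaStatement N) (h1f : R1FrobeniusStatement N)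
    (h3 : R3Statement N) (h18 : S18Statement N) : KernelStatement N := by
  intro ℓ hℓ hℓN A hA
  refine ⟨(reductionModL A N).ker, ?_, ?_, ?_, ?_⟩
  · intro σ hσ x
    rw [AddMonoidHom.mem_ker, map_sub, h1i ℓ hℓ hℓN A hA σ hσ x, sub_self]
  · intro σ hσ x hx
    exact h1f ℓ hℓ hℓN A hA σ hσ x hx
  · intro σ hσ x
    exact h3 ℓ hℓ hℓN A hA σ hσ x
  · intro m hm x hx hmx
    exact h18 ℓ hℓ hℓN A hA (h2 ℓ hℓ hℓN A hA) m hm x hmx hx

end H8S37

end
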