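import Mathlib
import Fermat.Prelude.Def_ModularCurve_HeckeOperatorTotal
import Fermat.Agent.S24.A0
import Fermat.Agent.S24.BDegreeFinal

/-!
# S37 (item 79), slice R0, modular half (helper2)

`HeckeInputsAlong ℚ̄ N ℓ` from the generic function-field facts FF1–FF3 (helper27):

* `H2R0.finiteAlong` : a `K`-algebra map between function fields of one variable is finite;
* `H2R0.isIntegral_along` : and integral;
* `H2R0.heckeInputsAlong_of_generic` : the wiring, with FF1–FF3 as hypotheses.
-/

set_option autoImplicit false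
set_option linter.style.haveILetI false

noncomputable section

open AlgebraicCurve IntermediateField

namespace H2R0

section generic

variable {K F F' : Type*} [Field K] [Field F] [Field F'] [Algebra K F] [Algebra K F']

/-- the image of a transcendental element under a `K`-algebra map of fields is transcendental -/
theorem h2r0_transcendental_map (φ : F →ₐ[K] F') {y : F} (hy : Transcendental K y) :
    Transcendental K (φ y) := by
  intro h
  apply hy
  obtain ⟨p, hp0, hp⟩ := h
  refine ⟨p, hp0, ?_⟩
  apply φ.toRingHom.injective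
  rw [map_zero]
  have : φ (Polynomial.aeval y p) = Polynomial.aeval (φ y) p := by
    rw [Polynomial.aeval_algHom_apply]
  exact this.trans hp

/-- **finite along**: a `K`-algebra map `F → F'` of function fields of one variable is finite. -/
theorem finiteAlong (φ : F →ₐ[K] F') (y : F) (hy : Transcendental K y) (y' : F')
    [FiniteDimensional K⟮y'⟯ F'] : FiniteAlong K φ := by
  have hφy : Transcendental K (φ y) := h2r0_transcendental_map φ hy
  haveI : FiniteDimensional K⟮φ y⟯ F' :=
    RH24.finiteDimensional_adjoin_of_transcendental y' (φ y) hφy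
  have hle : K⟮φ y⟯ ≤ φ.fieldRange := by
    rw [IntermediateField.adjoin_le_iff]
    rintro x hx
    rw [Set.mem_singleton_iff] at hx
    subst hx
    exact ⟨y, rfl⟩
  let e : F ≃ₐ[K] φ.fieldRange := AlgEquiv.ofInjectiveField φ
  let ψ : K⟮φ y⟯ →+* F :=
    (e.symm : φ.fieldRange →+* F).comp (IntermediateField.inclusion hle).toRingHom
  have hψ : ∀ x : K⟮φ y⟯, φ (ψ x) = (x : F') := by
    intro x
    have h1 : (e (e.symm (IntermediateField.inclusion hle x)) : F') = φ (ψ x) := rfl
    rw [← h1, AlgEquiv.apply_symm_apply]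
    rfl
  letI := algebraAlong φ
  letI : Algebra K⟮φ y⟯ F := ψ.toAlgebra
  haveI : IsScalarTower K⟮φ y⟯ F F' := IsScalarTower.of_algebraMap_eq fun x => (hψ x).symm
  show Module.Finite F F'
  exact Module.Finite.of_restrictScalars_finite K⟮φ y⟯ F F'

/-- **integral along** -/
theorem isIntegral_along (φ : F →ₐ[K] F') (y : F) (hy : Transcendental K y) (y' : F')
    [FiniteDimensional K⟮y'⟯ F'] : φ.toRingHom.IsIntegral := by
  have hfin := finiteAlong φ y hy y'
  letI := algebraAlong φ
  haveI : Module.Finite F F' := hfin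
  haveI : Algebra.IsIntegral F F' := Algebra.IsIntegral.of_finite F F'
  intro x
  exact Algebra.IsIntegral.isIntegral (R := F) x

end generic

section modular

open ModularCurve RH24

variable (N ℓ : ℕ) [NeZero N] [NeZero ℓ]

theorem h2r0_finiteDimensional (M : ℕ) [NeZero M] :
    FiniteDimensional Kbar⟮Jbar M⟯ (modularFunctionFieldBar M) := (B_degree M).1

theorem heckeAlphaBarIntegral : HeckeAlphaBarIntegral Kbar N ℓ := by
  haveI := h2r0_finiteDimensional (N * ℓ)
  exact isIntegral_along (heckeAlphaBar Kbar N ℓ) (Jbar N) (B_transcendental N) (Jbar (N * ℓ))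

theorem heckeBetaBarIntegral : HeckeBetaBarIntegral Kbar N ℓ := by
  haveI := h2r0_finiteDimensional (N * ℓ)
  exact isIntegral_along (heckeBetaBar Kbar N ℓ) (Jbar N) (B_transcendental N) (Jbar (N * ℓ))

theorem finiteAlong_alpha : FiniteAlong Kbar (heckeAlphaBar Kbar N ℓ) := by
  haveI := h2r0_finiteDimensional (N * ℓ)
  exact finiteAlong (heckeAlphaBar Kbar N ℓ) (Jbar N) (B_transcendental N) (Jbar (N * ℓ))

theorem finiteAlong_beta : FiniteAlong Kbar (heckeBetaBar Kbar N ℓ) := by
  haveI := h2r0_finiteDimensional (N * ℓ)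
  exact finiteAlong (heckeBetaBar Kbar N ℓ) (Jbar N) (B_transcendental N) (Jbar (N * ℓ))

/-- FF1 (generic, helper27): function fields of one variable have principal divisors. -/
def FF1Statement : Prop :=
  ∀ (F : Type) [Field F] [Algebra Kbar F] (z : F), Transcendental Kbar z →
    FiniteDimensional Kbar⟮z⟯ F → HasPrincipalDivisors Kbar F

/-- FF2 (generic, helper27): the fundamental identity `∑ e = n`. -/
def FF2Statement : Prop :=
  ∀ (F F' : Type) [Field F] [Field F'] [Algebra Kbar F] [Algebra Kbar F'] [Algebra F F']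
    [IsScalarTower Kbar F F'] [Algebra.IsIntegral F F'] [HasPrincipalDivisors Kbar F']
    [Module.Finite F F'] (z : F), Transcendental Kbar z → FiniteDimensional Kbar⟮z⟯ F →
      FundamentalIdentity Kbar F F'

/-- FF3 (generic, helper27): the norm formula `∑_{w | v} f(w|v) ord_w f = ord_v (N f)`. -/
def FF3Statement : Prop :=
  ∀ (F F' : Type) [Field F] [Field F'] [Algebra Kbar F] [Algebra Kbar F'] [Algebra F F']
    [IsScalarTower Kbar F F'] [Algebra.IsIntegral F F'] [HasPrincipalDivisors Kbar F']
    [Module.Finite F F'] (z : F), Transcendental Kbar z → FiniteDimensional Kbar⟮z⟯ F →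
      Divisor.PushforwardNormFormula Kbar F F'

/-- **R0 from the generic facts.** -/
theorem heckeInputsAlong_of_generic (h1 : FF1Statement) (h2 : FF2Statement) (h3 : FF3Statement) :
    HeckeInputsAlong Kbar N ℓ := by
  have hα := heckeAlphaBarIntegral N ℓ
  have hβ := heckeBetaBarIntegral N ℓ
  haveI hP : HasPrincipalDivisors Kbar (laurentBaseChange Kbar (modularFunctionFieldFull (N * ℓ))) :=
    h1 (modularFunctionFieldBar (N * ℓ)) (Jbar (N * ℓ)) (B_transcendental (N * ℓ))
      (h2r0_finiteDimensional (N * ℓ))
  have hfinα := finiteAlong_alpha N ℓ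
  have hfinβ := finiteAlong_beta N ℓ
  refine ⟨hα, hβ, hP, hfinα, ?_, ?_⟩
  · exact @h2 (modularFunctionFieldBar N) (modularFunctionFieldBar (N * ℓ)) _ _ _ _
      (algebraAlong (heckeBetaBar Kbar N ℓ)) (isScalarTower_along (heckeBetaBar Kbar N ℓ))
      (AlgebraicCurve.isIntegral_along (heckeBetaBar Kbar N ℓ) hβ) hP hfinβ (Jbar N)
      (B_transcendental N) (h2r0_finiteDimensional N)
  · exact @h3 (modularFunctionFieldBar N) (modularFunctionFieldBar (N * ℓ)) _ _ _ _
      (algebraAlong (heckeAlphaBar Kbar N ℓ)) (isScalarTower_along (heckeAlphaBar Kbar N ℓ))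
      (AlgebraicCurve.isIntegral_along (heckeAlphaBar Kbar N ℓ) hα) hP hfinα (Jbar N)
      (B_transcendental N) (h2r0_finiteDimensional N)

end modular

end H2R0

end
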