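import Fermat.Agent.S37.RDefs
import Fermat.Agent.S24.BDefs
import Fermat.Agent.S28.Interface

/-!
# S37 (item 79): the slices of R3 (helper8)

`T_ℓ = α_* β^*` with `α = heckeAlphaBar` (inclusion `F_N ⊆ F_{Nℓ}`) and `β = heckeBetaBar`
(`q ↦ q^ℓ`).  On principal divisors `T_ℓ (div y) = div (Norm_α (β y))`.

* `WStatement N ℓ`  (R3-W)   : the partial Atkin–Lehner swap `W : F_{Nℓ} → ℂ((q))`,
  `j(q^d) ↦ j(q^{dℓ})`, `j(q^{dℓ}) ↦ j(q^d)` (`d ∣ N`).
* `NormStatement N ℓ` (R3-NORM): `Norm_α (β y) (t^ℓ) = y(t^{ℓ²}) ∏_{i<ℓ} y(ζ^i t)`.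
-/

set_option autoImplicit false
set_option linter.style.haveILetI false

noncomputable section

namespace H8S37

open ModularCurve AlgebraicCurve HahnSeries

/-- **R3-W**: the partial Atkin–Lehner swap at level `N ℓ`. -/
def WStatement (N ℓ : ℕ) [NeZero N] [NeZero ℓ] : Prop :=
  ∃ W : modularFunctionFieldBar (N * ℓ) →+* LaurentSeries ℂ,
    (∀ c : AlgebraicClosure ℚ,
      W (algebraMap (AlgebraicClosure ℚ) _ c) = algebraMap ℂ (LaurentSeries ℂ) (RH24.iota c)) ∧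
    (∀ (d : ℕ) (hd : d ∣ N),
      W (RH24.Jgen (N := N * ℓ) ⟨d, hd.mul_right ℓ⟩) =
        RH24.JC (N := N * ℓ) ⟨d * ℓ, mul_dvd_mul_right hd ℓ⟩) ∧
    (∀ (d : ℕ) (hd : d ∣ N),
      W (RH24.Jgen (N := N * ℓ) ⟨d * ℓ, mul_dvd_mul_right hd ℓ⟩) =
        RH24.JC (N := N * ℓ) ⟨d, hd.mul_right ℓ⟩)

/-- the norm of `β y` down to `F_N` (along `α`), as a Laurent series. -/
def h8r_normBeta (N ℓ : ℕ) [NeZero N] [NeZero ℓ] (y : modularFunctionFieldBar N) :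
    modularFunctionFieldBar N :=
  letI := algebraAlong (heckeAlphaBar (AlgebraicClosure ℚ) N ℓ)
  Algebra.norm (modularFunctionFieldBar N) (heckeBetaBar (AlgebraicClosure ℚ) N ℓ y)

/-- **R3-NORM**: the norm of `β y` is the product of the `ℓ + 1` conjugates. -/
def NormStatement (N ℓ : ℕ) [NeZero N] [NeZero ℓ] : Prop :=
  ∀ (ζ : (AlgebraicClosure ℚ)ˣ), IsPrimitiveRoot (ζ : AlgebraicClosure ℚ) ℓ →
    ∀ y : modularFunctionFieldBar N,
      qExpand (AlgebraicClosure ℚ) ℓ ((h8r_normBeta N ℓ y : modularFunctionFieldBar N) :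
          LaurentSeries (AlgebraicClosure ℚ)) =
        qExpand (AlgebraicClosure ℚ) (ℓ * ℓ) (y : LaurentSeries (AlgebraicClosure ℚ)) *
          ∏ i ∈ Finset.range ℓ, H28S28.tw (ζ ^ i) (y : LaurentSeries (AlgebraicClosure ℚ))

end H8S37

end
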