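import Fermat.Agent.S37.Core_helper8
import Fermat.Agent.S37.R3Defs

/-!
# S37: assembly of the Eichler–Shimura congruence (helper8)

`CongruenceStatement N` from `R0` (Hecke inputs), `RiemannWeak`, `NormStatement`, `RedStatement`.
-/

set_option autoImplicit false
set_option linter.style.haveILetI false

noncomputable section

namespace H8S37

open ModularCurve AlgebraicCurve HahnSeries

/-- **R3-RED**, in the form consumed by the assembly: if `y'(t^ℓ) = y(t^{ℓ²}) ∏ y(ζ^i t)` with `y`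
`A`-integral, then `y'` is `A`-integral and its reduction is `(τ⁻¹ ȳ)^ℓ · τ ȳ`, `τ` the
Frobenius automorphism of the residue field. -/
def RedStatement (ℓ : ℕ) [NeZero ℓ] : Prop :=
  ∀ (A : ValuationSubring (AlgebraicClosure ℚ)), A.LiesOverPrime ℓ →
    ∀ (ζ : (AlgebraicClosure ℚ)ˣ), IsPrimitiveRoot (ζ : AlgebraicClosure ℚ) ℓ →
    ∀ (τ : IsLocalRing.ResidueField A ≃+* IsLocalRing.ResidueField A), (∀ a, τ a = a ^ ℓ) →
    ∀ (y₀ : LaurentSeries A) (y' : LaurentSeries (AlgebraicClosure ℚ)),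
      qExpand (AlgebraicClosure ℚ) ℓ y' =
        qExpand (AlgebraicClosure ℚ) (ℓ * ℓ) (coeffMap A.subtype y₀) *
          ∏ i ∈ Finset.range ℓ, H28S28.tw (ζ ^ i) (coeffMap A.subtype y₀) →
      ∃ y'₀ : LaurentSeries A, coeffMap A.subtype y'₀ = y' ∧
        coeffMap (IsLocalRing.residue A) y'₀ =
          (coeffMap (τ.symm : _ →+* _) (coeffMap (IsLocalRing.residue A) y₀)) ^ ℓ *
            coeffMap (τ : _ →+* _) (coeffMap (IsLocalRing.residue A) y₀)

section DivAction

variable {K F : Type*} [Field K] [Field F] [Algebra K F]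

/-- `div (g • f) = g • div f`, pointwise. -/
theorem h8a_ord_smul' (g : SemilinearAut K F) (Q : Place K F) (f : F) :
    Q.ord (g • f) = (g⁻¹ • Q).ord f := by
  have h := SemilinearAut.ord_smul g (g⁻¹ • Q) f
  rwa [smul_inv_smul] at h

theorem h8a_ord_inv_smul' (g : SemilinearAut K F) (Q : Place K F) (f : F) :
    Q.ord (g⁻¹ • f) = (g • Q).ord f := by
  have h := h8a_ord_smul' g⁻¹ Q f
  rwa [inv_inv] at h

/-- `Ψ = g_* + ℓ g⁻¹_*` on divisors. -/
def h8aPsi (g : SemilinearAut K F) (ℓ : ℕ) : Divisor K F →+ Divisor K F :=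
  DistribSMul.toAddMonoidHom (Divisor K F) g + ℓ • DistribSMul.toAddMonoidHom (Divisor K F) g⁻¹

theorem h8aPsi_apply (g : SemilinearAut K F) (ℓ : ℕ) (D : Divisor K F) (Q : Place K F) :
    h8aPsi g ℓ D Q = D (g⁻¹ • Q) + ℓ * D (g • Q) := by
  unfold h8aPsi
  rw [AddMonoidHom.add_apply, Finsupp.add_apply, AddMonoidHom.smul_apply, Finsupp.smul_apply,
    DistribSMul.toAddMonoidHom_apply, DistribSMul.toAddMonoidHom_apply,
    SemilinearAut.divisor_smul_apply, SemilinearAut.divisor_smul_apply, inv_inv, nsmul_eq_mul]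

theorem h8aPsi_single_bounds (g : SemilinearAut K F) (ℓ : ℕ) (Q' Q : Place K F) :
    0 ≤ h8aPsi g ℓ (Finsupp.single Q' 1) Q ∧ h8aPsi g ℓ (Finsupp.single Q' 1) Q ≤ ℓ + 1 := by
  classical
  rw [h8aPsi_apply, Finsupp.single_apply, Finsupp.single_apply]
  have hℓ0 : (0 : ℤ) ≤ (ℓ : ℤ) := Int.natCast_nonneg ℓ
  split_ifs <;> constructor <;> simp only [mul_one, mul_zero, add_zero, zero_add] <;> omega

end DivAction

end H8S37

end

noncomputable section

namespace H8S37

open ModularCurve AlgebraicCurve HahnSeries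

/-! ### T4: `T_ℓ (div y) = div (Norm (β y))` -/

section T4

variable {N ℓ : ℕ} [NeZero N] [NeZero ℓ]

theorem h8a_hecke_div (hα : HeckeAlphaBarIntegral (AlgebraicClosure ℚ) N ℓ)
    (hβ : HeckeBetaBarIntegral (AlgebraicClosure ℚ) N ℓ)
    [HasPrincipalDivisors (AlgebraicClosure ℚ) (modularFunctionFieldBar (N * ℓ))]
    (hfin : FiniteAlong (AlgebraicClosure ℚ) (heckeAlphaBar (AlgebraicClosure ℚ) N ℓ))
    (hNF : NormFormulaAlong (AlgebraicClosure ℚ) (heckeAlphaBar (AlgebraicClosure ℚ) N ℓ) hfin)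
    (y : modularFunctionFieldBar N) (hy : y ≠ 0)
    (D : Divisor (AlgebraicClosure ℚ) (modularFunctionFieldBar N))
    (hD : ∀ v, D v = v.ord y) (v : Place (AlgebraicClosure ℚ) (modularFunctionFieldBar N)) :
    (heckeDivBar hα hβ D) v = v.ord (h8r_normBeta N ℓ y) := by
  have h1 : ∀ w, Divisor.pullbackAlong (heckeBetaBar (AlgebraicClosure ℚ) N ℓ) hβ D w =
      w.ord (heckeBetaBar (AlgebraicClosure ℚ) N ℓ y) := by
    intro w
    letI := algebraAlong (heckeBetaBar (AlgebraicClosure ℚ) N ℓ)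
    haveI := isScalarTower_along (heckeBetaBar (AlgebraicClosure ℚ) N ℓ)
    haveI := isIntegral_along (heckeBetaBar (AlgebraicClosure ℚ) N ℓ) hβ
    exact Divisor.pullback_apply_eq_ord hD w
  have hβy : heckeBetaBar (AlgebraicClosure ℚ) N ℓ y ≠ 0 := by
    intro h
    exact hy ((map_eq_zero _).mp h)
  show Divisor.pushforwardAlong (heckeAlphaBar (AlgebraicClosure ℚ) N ℓ) hα
    (Divisor.pullbackAlong (heckeBetaBar (AlgebraicClosure ℚ) N ℓ) hβ D) v = _
  exact hNF _ hβy _ h1 v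

end T4

end H8S37

end

noncomputable section

namespace H8S37

open ModularCurve AlgebraicCurve HahnSeries

/-! ### Effectivity and degree of `T_ℓ P` -/

section Bound

variable {N ℓ : ℕ} [NeZero N] [NeZero ℓ]

theorem h8a_hecke_single_nonneg (hα : HeckeAlphaBarIntegral (AlgebraicClosure ℚ) N ℓ)
    (hβ : HeckeBetaBarIntegral (AlgebraicClosure ℚ) N ℓ)
    [HasPrincipalDivisors (AlgebraicClosure ℚ) (modularFunctionFieldBar (N * ℓ))]
    (P v : Place (AlgebraicClosure ℚ) (modularFunctionFieldBar N)) :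
    0 ≤ (heckeDivBar hα hβ (Finsupp.single P 1)) v := by
  classical
  have hα' : (heckeAlphaBar (AlgebraicClosure ℚ) N ℓ).toRingHom.IsIntegral := hα
  have hβ' : (heckeBetaBar (AlgebraicClosure ℚ) N ℓ).toRingHom.IsIntegral := hβ
  show 0 ≤ (Divisor.pushforwardAlong (heckeAlphaBar (AlgebraicClosure ℚ) N ℓ) hα'
    (Divisor.pullbackAlong (heckeBetaBar (AlgebraicClosure ℚ) N ℓ) hβ' (Finsupp.single P 1))) v
  rw [Divisor.pullbackAlong_single, map_sum, Finsupp.finsetSum_apply]
  refine Finset.sum_nonneg fun W _ => ?_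
  rw [Divisor.pushforwardAlong_single, Finsupp.single_apply]
  split_ifs
  · positivity
  · exact le_rfl

theorem h8a_hecke_single_degree (hα : HeckeAlphaBarIntegral (AlgebraicClosure ℚ) N ℓ)
    (hβ : HeckeBetaBarIntegral (AlgebraicClosure ℚ) N ℓ)
    [HasPrincipalDivisors (AlgebraicClosure ℚ) (modularFunctionFieldBar (N * ℓ))]
    (hFI : FundamentalIdentityAlong (AlgebraicClosure ℚ) (heckeBetaBar (AlgebraicClosure ℚ) N ℓ) hβ)
    (hdeg : ∀ P : Place (AlgebraicClosure ℚ) (modularFunctionFieldBar N), P.deg = 1)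
    (P : Place (AlgebraicClosure ℚ) (modularFunctionFieldBar N)) :
    Divisor.degree (heckeDivBar hα hβ (Finsupp.single P 1)) =
      (finrankAlong (AlgebraicClosure ℚ) (heckeBetaBar (AlgebraicClosure ℚ) N ℓ) : ℤ) := by
  have hα' : (heckeAlphaBar (AlgebraicClosure ℚ) N ℓ).toRingHom.IsIntegral := hα
  have hβ' : (heckeBetaBar (AlgebraicClosure ℚ) N ℓ).toRingHom.IsIntegral := hβ
  show Divisor.degree (Divisor.correspondence _ _ hβ' hα' (Finsupp.single P 1)) = _
  rw [Divisor.degree_correspondence _ _ hβ' hα' hFI, Divisor.degree_single, hdeg, Nat.cast_one,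
    mul_one, mul_one]

end Bound

end H8S37

end

set_option synthInstance.maxHeartbeats 400000
set_option maxHeartbeats 1000000

noncomputable section

namespace H8S37

open ModularCurve AlgebraicCurve HahnSeries

/-! ### The congruence on divisors of integral functions -/

section Hint

variable {N ℓ : ℕ} [NeZero N] [NeZero ℓ] {A : ValuationSubring (AlgebraicClosure ℚ)}

theorem h8a_coeffMap_injective {R S : Type*} [CommRing R] [CommRing S] (f : R →+* S)
    (hf : Function.Injective f) : Function.Injective (coeffMap f) := by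
  intro x y h
  ext k
  apply hf
  have := congrArg (fun z : LaurentSeries S => z.coeff k) h
  simpa using this

theorem h8a_hint (hℓ : ℓ.Prime)
    (hα : HeckeAlphaBarIntegral (AlgebraicClosure ℚ) N ℓ)
    (hβ : HeckeBetaBarIntegral (AlgebraicClosure ℚ) N ℓ)
    [HasPrincipalDivisors (AlgebraicClosure ℚ) (modularFunctionFieldBar (N * ℓ))]
    (hfin : FiniteAlong (AlgebraicClosure ℚ) (heckeAlphaBar (AlgebraicClosure ℚ) N ℓ))
    (hNF : NormFormulaAlong (AlgebraicClosure ℚ) (heckeAlphaBar (AlgebraicClosure ℚ) N ℓ) hfin)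
    (hNorm : NormStatement N ℓ) (hRed : RedStatement ℓ) (hA : A.LiesOverPrime ℓ)
    (τ : IsLocalRing.ResidueField A ≃+* IsLocalRing.ResidueField A) (hτ : ∀ a, τ a = a ^ ℓ)
    {r : Place (AlgebraicClosure ℚ) (modularFunctionFieldBar N) →
      Place (IsLocalRing.ResidueField A)
        (modularFunctionFieldFullC (IsLocalRing.ResidueField A) N)}
    (hr : IsPlaceReductionModL A N r)
    (D : Divisor (AlgebraicClosure ℚ) (modularFunctionFieldBar N))
    (hD : D ∈ integralPrincipalDivisors A (IsLocalRing.residue A) N) :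
    Finsupp.mapDomain r (heckeDivBar hα hβ D) =
      h8aPsi (h8r_arithBar N τ) ℓ (Finsupp.mapDomain r D) := by
  obtain ⟨y₀, hy, hyk, hne, hDy⟩ := hD
  have hy0 : (⟨coeffMap A.subtype y₀, hy⟩ : modularFunctionFieldBar N) ≠ 0 := by
    intro h0
    have h1 : coeffMap A.subtype y₀ = 0 := congrArg Subtype.val h0
    have h2 : y₀ = 0 :=
      h8a_coeffMap_injective A.subtype Subtype.val_injective (by rw [h1, map_zero])
    exact hne (by rw [h2, map_zero])
  -- a primitive root of unity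
  haveI : NeZero ((ℓ : ℕ) : ℚ) := ⟨by exact_mod_cast hℓ.ne_zero⟩
  obtain ⟨ζ, hζ⟩ := HasEnoughRootsOfUnity.exists_primitiveRoot (AlgebraicClosure ℚ) ℓ
  have hζu : IsUnit ζ := hζ.isUnit hℓ.ne_zero
  have hζ' : IsPrimitiveRoot ((hζu.unit : (AlgebraicClosure ℚ)ˣ) : AlgebraicClosure ℚ) ℓ := by
    rw [IsUnit.unit_spec]
    exact hζ
  have hn := hNorm hζu.unit hζ' ⟨coeffMap A.subtype y₀, hy⟩
  obtain ⟨y'₀, e1, e2⟩ := hRed A hA hζu.unit hζ' τ hτ y₀ _ hn
  have hτinj : Function.Injective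
      (coeffMap (τ : IsLocalRing.ResidueField A →+* IsLocalRing.ResidueField A)) :=
    h8a_coeffMap_injective _ τ.injective
  have hτsinj : Function.Injective
      (coeffMap (τ.symm : IsLocalRing.ResidueField A →+* IsLocalRing.ResidueField A)) :=
    h8a_coeffMap_injective _ τ.symm.injective
  have hy' : coeffMap A.subtype y'₀ ∈ modularFunctionFieldBar N := by
    rw [e1]
    exact (h8r_normBeta N ℓ ⟨coeffMap A.subtype y₀, hy⟩).2
  have hyk' : coeffMap (IsLocalRing.residue A) y'₀ ∈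
      modularFunctionFieldFullC (IsLocalRing.ResidueField A) N := by
    rw [e2]
    exact mul_mem (pow_mem (h8r_coeffMap_mem N _ hyk) ℓ) (h8r_coeffMap_mem N _ hyk)
  have hne' : coeffMap (IsLocalRing.residue A) y'₀ ≠ 0 := by
    rw [e2]
    refine mul_ne_zero (pow_ne_zero _ ?_) ?_
    · exact fun h => hne (hτsinj (by rw [h, map_zero]))
    · exact fun h => hne (hτinj (by rw [h, map_zero]))
  have hΘ : ∀ P, (heckeDivBar hα hβ D) P =
      P.ord (⟨coeffMap A.subtype y'₀, hy'⟩ : modularFunctionFieldBar N) := by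
    intro P
    rw [h8a_hecke_div hα hβ hfin hNF ⟨coeffMap A.subtype y₀, hy⟩ hy0 D hDy P]
    exact congrArg P.ord (Subtype.ext e1.symm)
  ext Q
  rw [hr.2 y'₀ hy' hyk' hne' _ hΘ Q, h8aPsi_apply, hr.2 y₀ hy hyk hne D hDy,
    hr.2 y₀ hy hyk hne D hDy, ← h8a_ord_smul', ← h8a_ord_inv_smul']
  have hprod : (⟨coeffMap (IsLocalRing.residue A) y'₀, hyk'⟩ :
      modularFunctionFieldFullC (IsLocalRing.ResidueField A) N) =
      ((h8r_arithBar N τ)⁻¹ • (⟨coeffMap (IsLocalRing.residue A) y₀, hyk⟩ :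
        modularFunctionFieldFullC (IsLocalRing.ResidueField A) N)) ^ ℓ *
      (h8r_arithBar N τ • (⟨coeffMap (IsLocalRing.residue A) y₀, hyk⟩ :
        modularFunctionFieldFullC (IsLocalRing.ResidueField A) N)) :=
    Subtype.ext e2
  have hg1 : (h8r_arithBar N τ • (⟨coeffMap (IsLocalRing.residue A) y₀, hyk⟩ :
      modularFunctionFieldFullC (IsLocalRing.ResidueField A) N)) ≠ 0 := by
    rw [Ne, smul_eq_zero_iff_eq]
    exact fun h => hne (congrArg Subtype.val h)
  have hg2 : ((h8r_arithBar N τ)⁻¹ • (⟨coeffMap (IsLocalRing.residue A) y₀, hyk⟩ :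
      modularFunctionFieldFullC (IsLocalRing.ResidueField A) N)) ≠ 0 := by
    rw [Ne, smul_eq_zero_iff_eq]
    exact fun h => hne (congrArg Subtype.val h)
  rw [hprod, Place.ord_mul _ (pow_ne_zero _ hg2) hg1, ← zpow_natCast, Place.ord_zpow]
  ring

end Hint

end H8S37

end

set_option synthInstance.maxHeartbeats 400000
set_option maxHeartbeats 1000000

noncomputable section

namespace H8S37

open ModularCurve AlgebraicCurve HahnSeries

/-! ### The congruence on divisors of degree `0`, and on `Pic0` -/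

section Final

variable {N ℓ : ℕ} [NeZero N] [NeZero ℓ] {A : ValuationSubring (AlgebraicClosure ℚ)}

theorem h8a_divisor (hℓ : ℓ.Prime)
    (hα : HeckeAlphaBarIntegral (AlgebraicClosure ℚ) N ℓ)
    (hβ : HeckeBetaBarIntegral (AlgebraicClosure ℚ) N ℓ)
    [HasPrincipalDivisors (AlgebraicClosure ℚ) (modularFunctionFieldBar (N * ℓ))]
    (hFI : FundamentalIdentityAlong (AlgebraicClosure ℚ) (heckeBetaBar (AlgebraicClosure ℚ) N ℓ) hβ)
    (hfin : FiniteAlong (AlgebraicClosure ℚ) (heckeAlphaBar (AlgebraicClosure ℚ) N ℓ))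
    (hNF : NormFormulaAlong (AlgebraicClosure ℚ) (heckeAlphaBar (AlgebraicClosure ℚ) N ℓ) hfin)
    (hRW : RiemannWeak (AlgebraicClosure ℚ) (modularFunctionFieldBar N))
    (hdeg : ∀ P : Place (AlgebraicClosure ℚ) (modularFunctionFieldBar N), P.deg = 1)
    (hNorm : NormStatement N ℓ) (hRed : RedStatement ℓ) (hA : A.LiesOverPrime ℓ)
    (τ : IsLocalRing.ResidueField A ≃+* IsLocalRing.ResidueField A) (hτ : ∀ a, τ a = a ^ ℓ)
    {r : Place (AlgebraicClosure ℚ) (modularFunctionFieldBar N) →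
      Place (IsLocalRing.ResidueField A)
        (modularFunctionFieldFullC (IsLocalRing.ResidueField A) N)}
    (hr : IsPlaceReductionModL A N r)
    (hgen : PrincipalGeneratedByIntegral A (IsLocalRing.residue A) N)
    (E : Divisor (AlgebraicClosure ℚ) (modularFunctionFieldBar N))
    (hE : Divisor.degree E = 0) :
    Finsupp.mapDomain r (heckeDivBar hα hβ E) =
      h8aPsi (h8r_arithBar N τ) ℓ (Finsupp.mapDomain r E) := by
  refine h8c_core hgen hRW hdeg (heckeDivBar hα hβ) (h8aPsi (h8r_arithBar N τ) ℓ)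
    ((finrankAlong (AlgebraicClosure ℚ) (heckeBetaBar (AlgebraicClosure ℚ) N ℓ) : ℤ) + (ℓ + 1))
    (fun P Q => ?_)
    (fun D hD => h8a_hint hℓ hα hβ hfin hNF hNorm hRed hA τ hτ hr D hD) E hE
  have h1 := h8c_mapDomain_bounds r hdeg (heckeDivBar hα hβ (Finsupp.single P 1))
    (fun v => h8a_hecke_single_nonneg hα hβ P v) Q
  rw [h8a_hecke_single_degree hα hβ hFI hdeg P] at h1
  have h2 := h8aPsi_single_bounds (h8r_arithBar N τ) ℓ (r P) Q
  rw [abs_le]
  constructor <;> omega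

end Final

/-- **The Eichler–Shimura congruence** from the slices. -/
theorem h8a_congruence_of (N : ℕ) [NeZero N] (hR0 : R0Statement N)
    (hRW : RiemannWeak (AlgebraicClosure ℚ) (modularFunctionFieldBar N))
    (hdeg : ∀ P : Place (AlgebraicClosure ℚ) (modularFunctionFieldBar N), P.deg = 1)
    (hNorm : ∀ (ℓ : ℕ) [NeZero ℓ], ℓ.Prime → ¬ ℓ ∣ N → NormStatement N ℓ)
    (hRed : ∀ (ℓ : ℕ) [NeZero ℓ], ℓ.Prime → RedStatement ℓ) :
    CongruenceStatement N := by
  intro ℓ hℓ hℓN A hA φ hφ x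
  haveI : NeZero ℓ := ⟨hℓ.ne_zero⟩
  by_cases h : ReductionInputsModL A N
  swap
  · rw [reductionModL_of_not h]
    simp only [AddMonoidHom.zero_apply]
    have e1 := smul_zero (A := JZeroC (IsLocalRing.ResidueField A) N)
      (h8r_arithBar N (h8r_resAut A φ hφ.mem_decompositionSubgroup))
    have e2 := smul_zero (A := JZeroC (IsLocalRing.ResidueField A) N)
      (h8r_arithBar N (h8r_resAut A φ hφ.mem_decompositionSubgroup))⁻¹
    rw [e1, e2, smul_zero, add_zero]
  obtain ⟨hα, hβ, hP, hfin, hFI, hNF⟩ := hR0 ℓ hℓ hℓN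
  haveI := hP
  obtain ⟨D, rfl⟩ := Pic0.mk_surjective x
  have hT : heckeOperatorBar N ⟨ℓ, hℓ⟩ (Pic0.mk D) =
      Pic0.mk (Pic0.degZeroCorrespondence (heckeBetaBar (AlgebraicClosure ℚ) N ℓ)
        (heckeAlphaBar (AlgebraicClosure ℚ) N ℓ) hβ hα hFI D) := by
    have e := heckeOperatorAlong_eq hα hβ hFI hfin hNF
    show (heckeOperatorAlong (AlgebraicClosure ℚ) N ℓ) (Pic0.mk D) = _
    rw [e]
    rfl
  rw [hT, reductionModL_mk h, reductionModL_mk h, SemilinearAut.pic0_smul_mk,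
    SemilinearAut.pic0_smul_mk]
  have hdiv := h8a_divisor hℓ hα hβ hFI hfin hNF hRW hdeg (hNorm ℓ hℓ hℓN) (hRed ℓ hℓ) hA
    (h8r_resAut A φ hφ.mem_decompositionSubgroup) (h8r_resAut_frobenius A hφ)
    (isPlaceReductionModL_placeReductionModL h) h.choose_spec.2 D D.2
  show _ = Pic0.mk (_ + ℓ • _)
  refine congrArg Pic0.mk (Subtype.ext ?_)
  rw [AddSubgroup.coe_add, AddSubgroup.coe_nsmul]
  exact hdiv

end H8S37

end
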