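import Mathlib
import Fermat.Agent.S24.A4Final
import Fermat.Agent.S24.BDegreeFinal
import Fermat.Agent.S24.BLocalGen
import Fermat.Agent.S24.C1
import Fermat.Agent.S28.WP2Psi
import Fermat.Prelude.Def_ModularCurve_HeckeOperator

/-!
# S37 (item 79), slice R3-NORM, part 1 (helper13): degrees

* `H13R3.finrank_bar_eq N : [F_N ℚ̄ : ℚ̄(j)] = ψ(N)` (exact degree, from the S24 local data at a
  generic fibre);
* `H13R3.finrank_along_alpha` : `[F_{Nℓ} ℚ̄ : F_N ℚ̄] = ℓ + 1` for a prime `ℓ ∤ N` (along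
  `α = heckeAlphaBar`, the inclusion).
-/

set_option autoImplicit false
set_option linter.style.haveILetI false

noncomputable section

open UpperHalfPlane ModularForm MatrixGroups CongruenceSubgroup AlgebraicCurve IntermediateField
open ModularCurve RH24

namespace H13R3

/-- the exact degree `[F_N ℚ̄ : ℚ̄(j)] = #(SL₂(ℤ)/Γ₀(N))`. -/
theorem finrank_bar_eq_card (N : ℕ) [NeZero N] :
    Module.finrank Kbar⟮Jbar N⟯ (modularFunctionFieldBar N) = Nat.card (SL(2, ℤ) ⧸ Gamma0 N) := by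
  haveI : FiniteDimensional Kbar⟮Jbar N⟯ (modularFunctionFieldBar N) := (B_degree N).1
  have hdeg := (B_degree N).2
  obtain ⟨Z, hZm, hZs, hZc⟩ := h5a_fibre_data
    (h5a_A1_holds (Jbar N) (B_transcendental N)) (Jbar N) (B_transcendental N)
    (h5a_A5_holds (SL(2, ℤ) ⧸ Gamma0 N)) hdeg 1 ⊥
    (B_local_generic N 1 one_ne_zero (by norm_num))
  rw [h5a_card_quotient_bot] at hZc
  have h := h5a_all_one Z (fun v => v.ord (Jbar N - algebraMap Kbar _ 1)) _
    (fun v hv => (hZm v).mp hv) hZs (by rw [hZc]; exact_mod_cast hdeg)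
  rw [hZc] at h
  exact_mod_cast h.1.symm

/-- the exact degree `[F_N ℚ̄ : ℚ̄(j)] = ψ(N)`. -/
theorem finrank_bar_eq (N : ℕ) [NeZero N] :
    Module.finrank Kbar⟮Jbar N⟯ (modularFunctionFieldBar N) = dedekindPsi N := by
  rw [finrank_bar_eq_card, card_cosets]

section Along

variable (N ℓ : ℕ) [NeZero N] [NeZero ℓ]

theorem alpha_Jbar : heckeAlphaBar Kbar N ℓ (Jbar N) = Jbar (N * ℓ) :=
  Subtype.ext rfl

set_option synthInstance.maxHeartbeats 400000 in
set_option maxHeartbeats 1600000 in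
/-- `[F_{Nℓ} ℚ̄ : F_N ℚ̄] = ℓ + 1` along `α`, for a prime `ℓ ∤ N`. -/
theorem finrank_along_alpha (hℓ : ℓ.Prime) (hℓN : ¬ ℓ ∣ N) :
    letI := algebraAlong (heckeAlphaBar Kbar N ℓ)
    Module.finrank (modularFunctionFieldBar N) (modularFunctionFieldBar (N * ℓ)) = ℓ + 1 := by
  letI := algebraAlong (heckeAlphaBar Kbar N ℓ)
  letI algAC : Algebra Kbar⟮Jbar N⟯ (modularFunctionFieldBar (N * ℓ)) :=
    ((algebraMap (modularFunctionFieldBar N) (modularFunctionFieldBar (N * ℓ))).comp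
      (algebraMap Kbar⟮Jbar N⟯ (modularFunctionFieldBar N))).toAlgebra
  haveI : IsScalarTower Kbar⟮Jbar N⟯ (modularFunctionFieldBar N)
      (modularFunctionFieldBar (N * ℓ)) := IsScalarTower.of_algebraMap_eq (fun _ => rfl)
  have htower := Module.finrank_mul_finrank Kbar⟮Jbar N⟯ (modularFunctionFieldBar N)
    (modularFunctionFieldBar (N * ℓ))
  have hmap : (Kbar⟮Jbar N⟯).map (heckeAlphaBar Kbar N ℓ) = Kbar⟮Jbar (N * ℓ)⟯ := by
    rw [IntermediateField.adjoin_map, Set.image_singleton, alpha_Jbar]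
  let i : Kbar⟮Jbar N⟯ ≃+* Kbar⟮Jbar (N * ℓ)⟯ :=
    ((IntermediateField.equivMap Kbar⟮Jbar N⟯ (heckeAlphaBar Kbar N ℓ)).trans
      (IntermediateField.equivOfEq hmap)).toRingEquiv
  have h2 : Module.finrank Kbar⟮Jbar N⟯ (modularFunctionFieldBar (N * ℓ))
      = Module.finrank Kbar⟮Jbar (N * ℓ)⟯ (modularFunctionFieldBar (N * ℓ)) :=
    Algebra.finrank_eq_of_equiv_equiv i (RingEquiv.refl _) (by ext a; rfl)
  have hpsi : dedekindPsi (N * ℓ) = (ℓ + 1) * dedekindPsi N := by
    rw [mul_comm N ℓ]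
    exact H28S28.h10_psi_mul_of_not_dvd hℓ (NeZero.ne N) hℓN
  rw [h2, finrank_bar_eq, finrank_bar_eq, hpsi] at htower
  have hpos : 0 < dedekindPsi N := by
    rw [← finrank_bar_eq]
    haveI : FiniteDimensional Kbar⟮Jbar N⟯ (modularFunctionFieldBar N) := (B_degree N).1
    exact Module.finrank_pos
  have h3 : dedekindPsi N * Module.finrank (modularFunctionFieldBar N)
      (modularFunctionFieldBar (N * ℓ)) = dedekindPsi N * (ℓ + 1) := by
    rw [htower]; ring
  exact Nat.eq_of_mul_eq_mul_left hpos h3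

set_option synthInstance.maxHeartbeats 400000 in
theorem finiteDimensional_along_alpha (hℓ : ℓ.Prime) (hℓN : ¬ ℓ ∣ N) :
    letI := algebraAlong (heckeAlphaBar Kbar N ℓ)
    FiniteDimensional (modularFunctionFieldBar N) (modularFunctionFieldBar (N * ℓ)) := by
  letI := algebraAlong (heckeAlphaBar Kbar N ℓ)
  apply Module.finite_of_finrank_pos
  rw [finrank_along_alpha N ℓ hℓ hℓN]
  omega

end Along

end H13R3

end
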