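/-
S37 (item 79), slice R3-W (helper29): the partial Atkin–Lehner swap `W` at level `N ℓ`, `ℓ ∤ N`.

`h29w_W N ℓ hℓ hℓN : F̄_{Nℓ} →+* ℂ((t))` with
  `W (j(q^d)) = j(t^{dℓ})`,  `W (j(q^{dℓ})) = j(t^d)`   (`d ∣ N`),
and `W = (coefficientwise ι)` on constants.  Restricted to `F̄_N` (generated by the `j(q^d)`,
`d ∣ N`) it is the substitution `q ↦ t^ℓ`; so `W` is one of the `ℓ + 1` embeddings of `F̄_{Nℓ}`
over `F̄_N` into `ℂ((t))`, `t^ℓ = q` (the other ones are its twists by `t ↦ ζ t` and `q ↦ t^ℓ`).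

Analytic input: the substitution `z ↦ γ • (ℓ z)`, `γ = (1, -y; N, ℓ x) ∈ Γ₀(N)` (`ℓ x + N y = 1`),
and the `q`-expansion principle `RH24.qexp_principle` at level `N ℓ`
(same proof as helper11's Fricke involution `S16/BridgeW_helper11.lean`).
-/
import Mathlib
import Fermat.Agent.S24.BJ3
import Fermat.Agent.S24.BA12
import Fermat.Agent.S24.BJ12
import Fermat.Agent.H23.DeltaN

set_option autoImplicit false
set_option linter.style.longLine false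
set_option linter.unusedVariables false
set_option linter.unusedSectionVars false
set_option linter.style.haveILetI false

noncomputable section

open UpperHalfPlane ModularForm MatrixGroups CongruenceSubgroup
open H23 ModularCurve RH24
open scoped Manifold

namespace H29W

variable (N : ℕ) [NeZero N] (ℓ : ℕ) [NeZero ℓ]

/-- the swap of the `ℓ`-part on the divisors of `N ℓ`: `d ↦ d ℓ` if `ℓ ∤ d`, `d ↦ d / ℓ` if `ℓ ∣ d` -/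
def h29w_swap (hℓ : ℓ.Prime) (d : Dv (N * ℓ)) : Dv (N * ℓ) :=
  if h : ℓ ∣ d.1 then
    ⟨d.1 / ℓ, (Nat.div_dvd_of_dvd h).trans d.2⟩
  else
    ⟨d.1 * ℓ, Nat.mul_dvd_mul_right
      ((Nat.Coprime.dvd_mul_right ((Nat.Prime.coprime_iff_not_dvd hℓ).mpr h).symm).mp d.2) ℓ⟩

theorem h29w_swap_of_dvd (hℓ : ℓ.Prime) (d : Dv (N * ℓ)) (h : ℓ ∣ d.1) :
    (h29w_swap N ℓ hℓ d).1 = d.1 / ℓ := by
  unfold h29w_swap
  rw [dif_pos h]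

theorem h29w_swap_of_not_dvd (hℓ : ℓ.Prime) (d : Dv (N * ℓ)) (h : ¬ ℓ ∣ d.1) :
    (h29w_swap N ℓ hℓ d).1 = d.1 * ℓ := by
  unfold h29w_swap
  rw [dif_neg h]

theorem h29w_dvd_of_not_dvd (hℓ : ℓ.Prime) (d : Dv (N * ℓ)) (h : ¬ ℓ ∣ d.1) : d.1 ∣ N :=
  (Nat.Coprime.dvd_mul_right ((Nat.Prime.coprime_iff_not_dvd hℓ).mpr h).symm).mp d.2

theorem h29w_div_dvd_of_dvd (hℓ : ℓ.Prime) (d : Dv (N * ℓ)) (h : ℓ ∣ d.1) : d.1 / ℓ ∣ N := by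
  obtain ⟨k, hk⟩ := h
  have h1 : d.1 / ℓ = k := by rw [hk, Nat.mul_div_cancel_left _ hℓ.pos]
  rw [h1]
  have h2 : ℓ * k ∣ ℓ * N := by rw [← hk, mul_comm ℓ N]; exact d.2
  exact (Nat.mul_dvd_mul_iff_left hℓ.pos).mp h2

theorem h29w_swap_swap (hℓ : ℓ.Prime) (hℓN : ¬ ℓ ∣ N) (d : Dv (N * ℓ)) :
    h29w_swap N ℓ hℓ (h29w_swap N ℓ hℓ d) = d := by
  apply Subtype.ext
  by_cases h : ℓ ∣ d.1
  · have h1 : ¬ ℓ ∣ (h29w_swap N ℓ hℓ d).1 := by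
      rw [h29w_swap_of_dvd N ℓ hℓ d h]
      intro h2
      exact hℓN (h2.trans (h29w_div_dvd_of_dvd N ℓ hℓ d h))
    rw [h29w_swap_of_not_dvd N ℓ hℓ _ h1, h29w_swap_of_dvd N ℓ hℓ d h]
    exact Nat.div_mul_cancel h
  · have h1 : ℓ ∣ (h29w_swap N ℓ hℓ d).1 := by
      rw [h29w_swap_of_not_dvd N ℓ hℓ d h]
      exact Dvd.intro_left _ rfl
    rw [h29w_swap_of_dvd N ℓ hℓ _ h1, h29w_swap_of_not_dvd N ℓ hℓ d h]
    exact Nat.mul_div_cancel _ hℓ.pos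

/-! ### The analytic substitution `z ↦ γ • (ℓ z)` -/

theorem h29w_mem_Gamma0 {g : SL(2, ℤ)} (h : (N : ℤ) ∣ g 1 0) : g ∈ Gamma0 N :=
  Gamma0_mem.mpr ((ZMod.intCast_zmod_eq_zero_iff_dvd _ _).mpr h)

omit [NeZero N] [NeZero ℓ] in
theorem h29w_exists_bezout (hℓ : ℓ.Prime) (hℓN : ¬ ℓ ∣ N) :
    ∃ x y : ℤ, (ℓ : ℤ) * x - (-y) * (N : ℤ) = 1 := by
  have h1 : Nat.Coprime ℓ N := (Nat.Prime.coprime_iff_not_dvd hℓ).mpr hℓN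
  have h2 : IsCoprime (ℓ : ℤ) (N : ℤ) := Nat.isCoprime_iff_coprime.mpr h1
  obtain ⟨u, v, huv⟩ := h2
  exact ⟨u, v, by linear_combination huv⟩

/-- `γ = (1, -y; N, ℓ x)` -/
def h29w_gam (x y : ℤ) (h : (ℓ : ℤ) * x - (-y) * (N : ℤ) = 1) : SL(2, ℤ) :=
  h12_mkSL 1 (-y) N (ℓ * x) (by linear_combination h)

/-- `γ' = (ℓ, -y; N, x)` -/
def h29w_gam' (x y : ℤ) (h : (ℓ : ℤ) * x - (-y) * (N : ℤ) = 1) : SL(2, ℤ) :=
  h12_mkSL ℓ (-y) N x h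

theorem h29w_gam_mem (x y : ℤ) (h : (ℓ : ℤ) * x - (-y) * (N : ℤ) = 1) :
    h29w_gam N ℓ x y h ∈ Gamma0 N :=
  h29w_mem_Gamma0 N (by
    show (N : ℤ) ∣ (!![(1 : ℤ), -y; (N : ℤ), (ℓ : ℤ) * x] : Matrix (Fin 2) (Fin 2) ℤ) 1 0
    simp)

theorem h29w_gam'_mem (x y : ℤ) (h : (ℓ : ℤ) * x - (-y) * (N : ℤ) = 1) :
    h29w_gam' N ℓ x y h ∈ Gamma0 N :=
  h29w_mem_Gamma0 N (by
    show (N : ℤ) ∣ (!![(ℓ : ℤ), -y; (N : ℤ), x] : Matrix (Fin 2) (Fin 2) ℤ) 1 0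
    simp)

/-- the substitution `w z = γ • (ℓ z)` -/
def h29w_w (x y : ℤ) (h : (ℓ : ℤ) * x - (-y) * (N : ℤ) = 1) (z : ℍ) : ℍ :=
  h29w_gam N ℓ x y h • (heckeDiagMatrix ℓ • z)

/-- `j(d ℓ z)` as `j(d · (ℓ z))` -/
theorem h29w_jd_diag (d : ℕ) (hd : d ≠ 0) (z : ℍ) :
    jd d (heckeDiagMatrix ℓ • z) = jd (d * ℓ) z := by
  have hℓ0 : ℓ ≠ 0 := NeZero.ne ℓ
  unfold jd
  congr 1
  apply UpperHalfPlane.ext
  rw [ModularForm.coe_heckeDiagMatrix_smul hd, ModularForm.coe_heckeDiagMatrix_smul hℓ0,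
    ModularForm.coe_heckeDiagMatrix_smul (Nat.mul_ne_zero hd hℓ0)]
  push_cast
  ring

/-- `j(d · w z) = j(d ℓ z)` for `d ∣ N` -/
theorem h29w_jd_w (x y : ℤ) (h : (ℓ : ℤ) * x - (-y) * (N : ℤ) = 1) (d : ℕ) (hd : d ∣ N) (z : ℍ) :
    jd d (h29w_w N ℓ x y h z) = jd (d * ℓ) z := by
  unfold h29w_w
  rw [jd_smul_of_mem_Gamma0 N ⟨d, hd⟩ _ (h29w_gam_mem N ℓ x y h)]
  exact h29w_jd_diag ℓ d (Dv_ne_zero (N := N) ⟨d, hd⟩) z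

/-- `j(d ℓ · w z) = j(d z)` for `d ∣ N` -/
theorem h29w_jdl_w (x y : ℤ) (h : (ℓ : ℤ) * x - (-y) * (N : ℤ) = 1) (d : ℕ) (hd : d ∣ N) (z : ℍ) :
    jd (d * ℓ) (h29w_w N ℓ x y h z) = jd d z := by
  have hℓ0 : ℓ ≠ 0 := NeZero.ne ℓ
  have hd0 : d ≠ 0 := Dv_ne_zero (N := N) ⟨d, hd⟩
  rw [← jd_smul_of_mem_Gamma0 N ⟨d, hd⟩ _ (h29w_gam'_mem N ℓ x y h) z]
  unfold jd h29w_w
  congr 1
  apply UpperHalfPlane.ext
  rw [ModularForm.coe_heckeDiagMatrix_smul (Nat.mul_ne_zero hd0 hℓ0),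
    ModularForm.coe_heckeDiagMatrix_smul hd0, UpperHalfPlane.coe_specialLinearGroup_apply,
    UpperHalfPlane.coe_specialLinearGroup_apply, ModularForm.coe_heckeDiagMatrix_smul hℓ0]
  have hden : (N : ℂ) * (z : ℂ) + (x : ℂ) ≠ 0 := by
    intro h0
    have h1 := congrArg Complex.im h0
    simp only [Complex.add_im, Complex.mul_im, Complex.natCast_re, Complex.natCast_im,
      Complex.intCast_im, Complex.zero_im, zero_mul, add_zero, UpperHalfPlane.coe_im] at h1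
    have h2 : (N : ℝ) ≠ 0 := by exact_mod_cast NeZero.ne N
    exact (mul_ne_zero h2 z.im_pos.ne') h1
  have hℓC : (ℓ : ℂ) ≠ 0 := by exact_mod_cast hℓ0
  simp only [h29w_gam, h29w_gam', h12_mkSL, algebraMap_int_eq, eq_intCast]
  simp only [Matrix.of_apply, Matrix.cons_val', Matrix.cons_val_zero,
    Matrix.cons_val_one, Matrix.cons_val_fin_one]
  push_cast
  field_simp

/-! ### The formal swap -/

/-- the analytic generators at `w z` are the swapped generators at `z` -/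
theorem h29w_jd_swap (hℓ : ℓ.Prime) (x y : ℤ) (h : (ℓ : ℤ) * x - (-y) * (N : ℤ) = 1)
    (d : Dv (N * ℓ)) (z : ℍ) :
    jd (h29w_swap N ℓ hℓ d).1 z = jd d.1 (h29w_w N ℓ x y h z) := by
  by_cases hd : ℓ ∣ d.1
  · rw [h29w_swap_of_dvd N ℓ hℓ d hd]
    have h1 := h29w_jdl_w N ℓ x y h (d.1 / ℓ) (h29w_div_dvd_of_dvd N ℓ hℓ d hd) z
    rw [Nat.div_mul_cancel hd] at h1
    exact h1.symm
  · rw [h29w_swap_of_not_dvd N ℓ hℓ d hd]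
    exact (h29w_jd_w N ℓ x y h d.1 (h29w_dvd_of_not_dvd N ℓ hℓ d hd) z).symm

theorem h29w_eval_rename (hℓ : ℓ.Prime) (x y : ℤ) (h : (ℓ : ℤ) * x - (-y) * (N : ℤ) = 1)
    (P : MvPolynomial (Dv (N * ℓ)) ℂ) (z : ℍ) :
    MvPolynomial.eval (fun d : Dv (N * ℓ) => jd d.1 z)
        (MvPolynomial.rename (h29w_swap N ℓ hℓ) P) =
      MvPolynomial.eval (fun d : Dv (N * ℓ) => jd d.1 (h29w_w N ℓ x y h z)) P := by
  have hfun : ((fun d : Dv (N * ℓ) => jd d.1 z) ∘ h29w_swap N ℓ hℓ) =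
      fun d : Dv (N * ℓ) => jd d.1 (h29w_w N ℓ x y h z) := by
    funext d
    simp only [Function.comp_apply]
    exact h29w_jd_swap N ℓ hℓ x y h d z
  rw [MvPolynomial.eval_rename, hfun]

theorem h29w_rename_rename (hℓ : ℓ.Prime) (hℓN : ¬ ℓ ∣ N) (P : MvPolynomial (Dv (N * ℓ)) ℂ) :
    MvPolynomial.rename (h29w_swap N ℓ hℓ) (MvPolynomial.rename (h29w_swap N ℓ hℓ) P) = P := by
  rw [MvPolynomial.rename_rename]
  have : h29w_swap N ℓ hℓ ∘ h29w_swap N ℓ hℓ = id := by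
    funext d
    exact h29w_swap_swap N ℓ hℓ hℓN d
  rw [this, MvPolynomial.rename_id_apply]

theorem h29w_formal_swap_imp (hℓ : ℓ.Prime) (hℓN : ¬ ℓ ∣ N) (P : MvPolynomial (Dv (N * ℓ)) ℂ)
    (h : formalEval (N * ℓ) P = 0) :
    formalEval (N * ℓ) (MvPolynomial.rename (h29w_swap N ℓ hℓ) P) = 0 := by
  obtain ⟨x, y, hxy⟩ := h29w_exists_bezout N ℓ hℓ hℓN
  rw [qexp_principle] at h ⊢
  intro z
  rw [h29w_eval_rename N ℓ hℓ x y hxy]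
  exact h _

/-- a formal relation between the `j(q^d)`, `d ∣ N ℓ`, holds iff the swapped one holds -/
theorem h29w_formal_swap (hℓ : ℓ.Prime) (hℓN : ¬ ℓ ∣ N) (P : MvPolynomial (Dv (N * ℓ)) ℂ) :
    formalEval (N * ℓ) P = 0 ↔
      formalEval (N * ℓ) (MvPolynomial.rename (h29w_swap N ℓ hℓ) P) = 0 := by
  constructor
  · exact h29w_formal_swap_imp N ℓ hℓ hℓN P
  · intro h
    have := h29w_formal_swap_imp N ℓ hℓ hℓN _ h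
    rwa [h29w_rename_rename N ℓ hℓ hℓN] at this

theorem h29w_exists_W (hℓ : ℓ.Prime) (hℓN : ¬ ℓ ∣ N) :
    ∃ φ : ModularCurve.modularFunctionFieldBar (N * ℓ) →+* LaurentSeries ℂ,
      (∀ d, φ (Jgen d) = JC (h29w_swap N ℓ hℓ d)) ∧
      ∀ c : Kbar, φ (algebraMap Kbar _ c) = algebraMap ℂ (LaurentSeries ℂ) (iota c) := by
  refine exists_real (N * ℓ) (algebraMap ℂ (LaurentSeries ℂ))
    (fun d => JC (h29w_swap N ℓ hℓ d)) ?_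
  intro P
  rw [h29w_formal_swap N ℓ hℓ hℓN]
  have : MvPolynomial.eval₂ (algebraMap ℂ (LaurentSeries ℂ))
      (fun d => JC (h29w_swap N ℓ hℓ d)) P =
      formalEval (N * ℓ) (MvPolynomial.rename (h29w_swap N ℓ hℓ) P) := by
    unfold formalEval
    rw [MvPolynomial.aeval_rename]
    rfl
  rw [this]

/-- **the partial Atkin–Lehner swap** `W : F̄_{Nℓ} → ℂ((t))`,
`j(q^d) ↦ j(t^{dℓ})`, `j(q^{dℓ}) ↦ j(t^d)` (`d ∣ N`) -/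
def h29w_W (hℓ : ℓ.Prime) (hℓN : ¬ ℓ ∣ N) :
    ModularCurve.modularFunctionFieldBar (N * ℓ) →+* LaurentSeries ℂ :=
  (h29w_exists_W N ℓ hℓ hℓN).choose

theorem h29w_W_Jgen (hℓ : ℓ.Prime) (hℓN : ¬ ℓ ∣ N) (d : Dv (N * ℓ)) :
    h29w_W N ℓ hℓ hℓN (Jgen d) = JC (h29w_swap N ℓ hℓ d) :=
  (h29w_exists_W N ℓ hℓ hℓN).choose_spec.1 d

theorem h29w_W_const (hℓ : ℓ.Prime) (hℓN : ¬ ℓ ∣ N) (c : Kbar) :
    h29w_W N ℓ hℓ hℓN (algebraMap Kbar _ c) = algebraMap ℂ (LaurentSeries ℂ) (iota c) :=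
  (h29w_exists_W N ℓ hℓ hℓN).choose_spec.2 c

/-- `W (j(q^d)) = j(t^{dℓ})` for `d ∣ N` -/
theorem h29w_W_low (hℓ : ℓ.Prime) (hℓN : ¬ ℓ ∣ N) (d : ℕ) (hd : d ∣ N) [NeZero (d * ℓ)] :
    h29w_W N ℓ hℓ hℓN (Jgen (⟨d, hd.mul_right ℓ⟩ : Dv (N * ℓ))) =
      ModularCurve.qExpand ℂ (d * ℓ) (ModularCurve.jqModC ℂ) := by
  have hnd : ¬ ℓ ∣ (⟨d, hd.mul_right ℓ⟩ : Dv (N * ℓ)).1 := fun h => hℓN (h.trans hd)
  rw [h29w_W_Jgen]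
  haveI : NeZero ((h29w_swap N ℓ hℓ (⟨d, hd.mul_right ℓ⟩ : Dv (N * ℓ))).1) := ⟨Dv_ne_zero _⟩
  exact qExpand_congr (h29w_swap_of_not_dvd N ℓ hℓ _ hnd) _

/-- `W (j(q^{dℓ})) = j(t^d)` for `d ∣ N` -/
theorem h29w_W_high (hℓ : ℓ.Prime) (hℓN : ¬ ℓ ∣ N) (d : ℕ) (hd : d ∣ N) [NeZero d] :
    h29w_W N ℓ hℓ hℓN (Jgen (⟨d * ℓ, Nat.mul_dvd_mul_right hd ℓ⟩ : Dv (N * ℓ))) =
      ModularCurve.qExpand ℂ d (ModularCurve.jqModC ℂ) := by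
  have hdv : ℓ ∣ (⟨d * ℓ, Nat.mul_dvd_mul_right hd ℓ⟩ : Dv (N * ℓ)).1 := Dvd.intro_left _ rfl
  rw [h29w_W_Jgen]
  haveI : NeZero ((h29w_swap N ℓ hℓ (⟨d * ℓ, Nat.mul_dvd_mul_right hd ℓ⟩ : Dv (N * ℓ))).1) :=
    ⟨Dv_ne_zero _⟩
  have h1 : (h29w_swap N ℓ hℓ (⟨d * ℓ, Nat.mul_dvd_mul_right hd ℓ⟩ : Dv (N * ℓ))).1 = d := by
    rw [h29w_swap_of_dvd N ℓ hℓ _ hdv]
    exact Nat.mul_div_cancel _ hℓ.pos
  exact qExpand_congr h1 _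

end H29W

end
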