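import Mathlib
import Fermat.Agent.S37.R3Deg_helper13
import Fermat.Agent.S37.R3Defs
import Fermat.Agent.S37.R3W_helper29
import Fermat.Agent.S28.WP3Sub
import Fermat.Agent.S28.ModEq.Universal

/-!
# S37 (item 79), slice R3-NORM (helper13): `Norm_α (β y) (t^ℓ) = y(t^{ℓ²}) ∏_{i<ℓ} y(ζ^i t)`

`F = F_N ℚ̄ ⊆ F' = F_{Nℓ} ℚ̄` (`α` = inclusion), `β = (q ↦ q^ℓ) : F → F'`, `ℓ` prime, `ℓ ∤ N`.
The `ℓ + 1 = [F' : F]` embeddings of `F'` over `F` into `ℂ((t))`, `q = t^ℓ`, are
`z ↦ z(t^ℓ)` and `tw (ζ^i) ∘ W` (`i < ℓ`), `W` the partial Atkin–Lehner swap of helper29.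
-/

set_option autoImplicit false
set_option linter.style.haveILetI false
set_option linter.unusedSectionVars false
set_option linter.unusedVariables false

noncomputable section

open UpperHalfPlane ModularForm MatrixGroups CongruenceSubgroup AlgebraicCurve IntermediateField
open ModularCurve RH24 H28S28 HahnSeries

namespace H13R3

/-! ### ring homomorphisms out of `F_M ℚ̄` are determined by the generators -/

theorem coe_Jgen {M : ℕ} [NeZero M] (d : Dv M) [NeZero d.1] :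
    ((Jgen d : modularFunctionFieldBar M) : LaurentSeries Kbar)
      = qExpand Kbar d.1 (jqModC Kbar) := by
  show coeffEmb Kbar (qExpand ℚ d.1 jq) = _
  rw [h8b_coeffEmb_qExpand, h8b_coeffEmb_jq]

theorem ringHom_ext_bar {M : ℕ} [NeZero M] {R : Type*} [Field R]
    (f g : modularFunctionFieldBar M →+* R)
    (hc : ∀ c : Kbar, f (algebraMap Kbar _ c) = g (algebraMap Kbar _ c))
    (hj : ∀ d : Dv M, f (Jgen d) = g (Jgen d)) : f = g := by
  have key : ∀ (x : LaurentSeries Kbar) (hx : x ∈ modularFunctionFieldFullC Kbar M),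
      ∀ hx' : x ∈ modularFunctionFieldBar M, f ⟨x, hx'⟩ = g ⟨x, hx'⟩ := by
    intro x hx
    unfold modularFunctionFieldFullC at hx
    induction hx using IntermediateField.adjoin_induction with
    | mem x hx =>
      intro hx'
      obtain ⟨d, hne, hd, rfl⟩ := hx
      haveI := hne
      have h1 : (⟨qExpand Kbar d (jqModC Kbar), hx'⟩ : modularFunctionFieldBar M)
          = Jgen (⟨d, hd⟩ : Dv M) := by
        apply Subtype.ext
        haveI : NeZero (⟨d, hd⟩ : Dv M).1 := hne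
        rw [coe_Jgen]
      rw [h1]
      exact hj _
    | algebraMap c =>
      intro hx'
      exact hc c
    | add x y hx hy ihx ihy =>
      intro hx'
      have hxm : x ∈ modularFunctionFieldBar M := by rw [h8b_bar_eq]; exact hx
      have hym : y ∈ modularFunctionFieldBar M := by rw [h8b_bar_eq]; exact hy
      have e : (⟨x + y, hx'⟩ : modularFunctionFieldBar M) = ⟨x, hxm⟩ + ⟨y, hym⟩ := rfl
      rw [e, map_add, map_add, ihx hxm, ihy hym]
    | inv x hx ihx =>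
      intro hx'
      have hxm : x ∈ modularFunctionFieldBar M := by rw [h8b_bar_eq]; exact hx
      have e : (⟨x⁻¹, hx'⟩ : modularFunctionFieldBar M) = (⟨x, hxm⟩)⁻¹ := rfl
      rw [e, map_inv₀, map_inv₀, ihx hxm]
    | mul x y hx hy ihx ihy =>
      intro hx'
      have hxm : x ∈ modularFunctionFieldBar M := by rw [h8b_bar_eq]; exact hx
      have hym : y ∈ modularFunctionFieldBar M := by rw [h8b_bar_eq]; exact hy
      have e : (⟨x * y, hx'⟩ : modularFunctionFieldBar M) = ⟨x, hxm⟩ * ⟨y, hym⟩ := rfl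
      rw [e, map_mul, map_mul, ihx hxm, ihy hym]
  ext ⟨x, hx⟩
  exact key x (by rw [← h8b_bar_eq]; exact hx) hx

/-! ### the embeddings -/

section Emb

variable (N ℓ : ℕ) [NeZero N] [NeZero ℓ]

/-- coefficientwise `ι : ℚ̄ → ℂ` -/
def cI : LaurentSeries Kbar →+* LaurentSeries ℂ := coeffMap iota

theorem cI_injective : Function.Injective cI := by
  intro x y h
  ext n
  have := congrArg (fun z => z.coeff n) h
  simp only [cI, coeffMap_coeff] at this
  exact iota.injective this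

theorem cI_qExpand (d : ℕ) [NeZero d] (x : LaurentSeries Kbar) :
    cI (qExpand Kbar d x) = qExpand ℂ d (cI x) :=
  coeffMap_qExpand _ d x

theorem cI_jq : cI (jqModC Kbar) = jqModC ℂ := coeffMap_jqModC _

theorem cI_algebraMap (c : Kbar) :
    cI (algebraMap Kbar (LaurentSeries Kbar) c) = algebraMap ℂ (LaurentSeries ℂ) (iota c) := by
  rw [algebraMap_laurentSeries_eq_single, algebraMap_laurentSeries_eq_single, cI,
    coeffMap_single]

/-- the base embedding `F → ℂ((t))`, `y ↦ y(t^ℓ)` -/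
def e0 : modularFunctionFieldBar N →+* LaurentSeries ℂ :=
  (cI.comp (qExpand Kbar ℓ)).comp (modularFunctionFieldBar N).val.toRingHom

theorem e0_apply (y : modularFunctionFieldBar N) :
    e0 N ℓ y = cI (qExpand Kbar ℓ (y : LaurentSeries Kbar)) := rfl

/-- the embedding `ι_∞ : F' → ℂ((t))`, `z ↦ z(t^ℓ)` -/
def embInf : modularFunctionFieldBar (N * ℓ) →+* LaurentSeries ℂ :=
  (cI.comp (qExpand Kbar ℓ)).comp (modularFunctionFieldBar (N * ℓ)).val.toRingHom

theorem embInf_apply (z : modularFunctionFieldBar (N * ℓ)) :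
    embInf N ℓ z = cI (qExpand Kbar ℓ (z : LaurentSeries Kbar)) := rfl

/-- `F → ℂ((t))`, `y ↦ y(t)` -/
def e1 : modularFunctionFieldBar N →+* LaurentSeries ℂ :=
  cI.comp (modularFunctionFieldBar N).val.toRingHom

theorem e1_apply (y : modularFunctionFieldBar N) :
    e1 N y = cI (y : LaurentSeries Kbar) := rfl

variable (hℓ : ℓ.Prime) (hℓN : ¬ ℓ ∣ N)

theorem alpha_Jgen (d : Dv N) :
    heckeAlphaBar Kbar N ℓ (Jgen d) = Jgen (⟨d.1, d.2.mul_right ℓ⟩ : Dv (N * ℓ)) :=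
  Subtype.ext rfl

theorem beta_Jgen (d : Dv N) :
    heckeBetaBar Kbar N ℓ (Jgen d) = Jgen (⟨d.1 * ℓ, Nat.mul_dvd_mul_right d.2 ℓ⟩ : Dv (N * ℓ)) := by
  haveI : NeZero d.1 := ⟨Dv_ne_zero d⟩
  haveI : NeZero (d.1 * ℓ) := ⟨Nat.mul_ne_zero (Dv_ne_zero d) (NeZero.ne ℓ)⟩
  apply Subtype.ext
  rw [coe_heckeBetaBar]
  haveI h1 : NeZero (⟨d.1 * ℓ, Nat.mul_dvd_mul_right d.2 ℓ⟩ : Dv (N * ℓ)).1 := ‹_›
  rw [coe_Jgen, coe_Jgen, qExpand_qExpand]
  exact qExpand_congr (mul_comm _ _) _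

/-- `W ∘ α = (y ↦ y(t^ℓ))` -/
theorem W_alpha (y : modularFunctionFieldBar N) :
    H29W.h29w_W N ℓ hℓ hℓN (heckeAlphaBar Kbar N ℓ y) = e0 N ℓ y := by
  have h := ringHom_ext_bar
    ((H29W.h29w_W N ℓ hℓ hℓN).comp (heckeAlphaBar Kbar N ℓ).toRingHom) (e0 N ℓ) ?_ ?_
  · exact congrArg (fun f => f y) h
  · intro c
    show H29W.h29w_W N ℓ hℓ hℓN (heckeAlphaBar Kbar N ℓ (algebraMap Kbar _ c)) = _
    rw [AlgHom.commutes, H29W.h29w_W_const, e0_apply]
    have h1 : qExpand Kbar ℓ (algebraMap Kbar (LaurentSeries Kbar) c)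
        = algebraMap Kbar (LaurentSeries Kbar) c := by
      rw [algebraMap_laurentSeries_eq_single, qExpand_single, mul_zero]
    show _ = cI (qExpand Kbar ℓ (algebraMap Kbar (LaurentSeries Kbar) c))
    rw [h1, cI_algebraMap]
  · intro d
    haveI : NeZero d.1 := ⟨Dv_ne_zero d⟩
    haveI : NeZero (d.1 * ℓ) := ⟨Nat.mul_ne_zero (Dv_ne_zero d) (NeZero.ne ℓ)⟩
    show H29W.h29w_W N ℓ hℓ hℓN (heckeAlphaBar Kbar N ℓ (Jgen d)) = _
    rw [alpha_Jgen, H29W.h29w_W_low N ℓ hℓ hℓN d.1 d.2, e0_apply, coe_Jgen, cI_qExpand,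
      cI_qExpand, cI_jq, qExpand_qExpand]
    exact qExpand_congr (mul_comm _ _) _

/-- `W ∘ β = (y ↦ y(t))` -/
theorem W_beta (y : modularFunctionFieldBar N) :
    H29W.h29w_W N ℓ hℓ hℓN (heckeBetaBar Kbar N ℓ y) = e1 N y := by
  have h := ringHom_ext_bar
    ((H29W.h29w_W N ℓ hℓ hℓN).comp (heckeBetaBar Kbar N ℓ).toRingHom) (e1 N) ?_ ?_
  · exact congrArg (fun f => f y) h
  · intro c
    show H29W.h29w_W N ℓ hℓ hℓN (heckeBetaBar Kbar N ℓ (algebraMap Kbar _ c)) = _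
    rw [AlgHom.commutes, H29W.h29w_W_const, e1_apply]
    exact (cI_algebraMap c).symm
  · intro d
    haveI : NeZero d.1 := ⟨Dv_ne_zero d⟩
    show H29W.h29w_W N ℓ hℓ hℓN (heckeBetaBar Kbar N ℓ (Jgen d)) = _
    rw [beta_Jgen, H29W.h29w_W_high N ℓ hℓ hℓN d.1 d.2, e1_apply, coe_Jgen, cI_qExpand, cI_jq]

/-- `ζ` in `ℂ` -/
def zC (ζ : Kbarˣ) : ℂˣ := Units.map (iota : Kbar →* ℂ) ζ

theorem cI_tw (ζ : Kbarˣ) (x : LaurentSeries Kbar) :
    cI (tw ζ x) = tw (zC ζ) (cI x) :=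
  H23M.h22u_coeffMap_tw iota ζ x

/-- the embeddings `ι_i = tw (ζ^i) ∘ W` -/
def embTw (ζ : Kbarˣ) (i : ℕ) : modularFunctionFieldBar (N * ℓ) →+* LaurentSeries ℂ :=
  (tw (zC ζ ^ i)).comp (H29W.h29w_W N ℓ hℓ hℓN)

theorem embTw_alpha (ζ : Kbarˣ) (hζ : (ζ : Kbar) ^ ℓ = 1) (i : ℕ)
    (y : modularFunctionFieldBar N) :
    embTw N ℓ hℓ hℓN ζ i (heckeAlphaBar Kbar N ℓ y) = e0 N ℓ y := by
  show tw (zC ζ ^ i) (H29W.h29w_W N ℓ hℓ hℓN (heckeAlphaBar Kbar N ℓ y)) = _
  rw [W_alpha, e0_apply, cI_qExpand]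
  apply H18WP3.h18_tw_qExpand_of_pow_eq_one
  rw [← pow_mul, mul_comm, pow_mul]
  have : zC ζ ^ ℓ = 1 := by
    apply Units.ext
    show (iota (ζ : Kbar)) ^ ℓ = 1
    rw [← map_pow, hζ, map_one]
  rw [this, one_pow]

theorem embTw_beta (ζ : Kbarˣ) (i : ℕ) (y : modularFunctionFieldBar N) :
    embTw N ℓ hℓ hℓN ζ i (heckeBetaBar Kbar N ℓ y)
      = cI (tw (ζ ^ i) (y : LaurentSeries Kbar)) := by
  show tw (zC ζ ^ i) (H29W.h29w_W N ℓ hℓ hℓN (heckeBetaBar Kbar N ℓ y)) = _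
  rw [W_beta, e1_apply, cI_tw]
  congr 2
  show Units.map (iota : Kbar →* ℂ) ζ ^ i = Units.map (iota : Kbar →* ℂ) (ζ ^ i)
  rw [map_pow]

theorem embInf_alpha (y : modularFunctionFieldBar N) :
    embInf N ℓ (heckeAlphaBar Kbar N ℓ y) = e0 N ℓ y := by
  rw [embInf_apply, e0_apply, coe_heckeAlphaBar]

theorem embInf_beta (y : modularFunctionFieldBar N) :
    embInf N ℓ (heckeBetaBar Kbar N ℓ y)
      = cI (qExpand Kbar (ℓ * ℓ) (y : LaurentSeries Kbar)) := by
  rw [embInf_apply, coe_heckeBetaBar, qExpand_qExpand]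

end Emb

/-! ### the norm formula -/

section Norm

variable (N ℓ : ℕ) [NeZero N] [NeZero ℓ] (hℓ : ℓ.Prime) (hℓN : ¬ ℓ ∣ N)

/-- the family of the `ℓ + 1` ring embeddings `F' → ℂ((t))` -/
def embFam (ζ : Kbarˣ) : Option (Fin ℓ) → (modularFunctionFieldBar (N * ℓ) →+* LaurentSeries ℂ)
  | none => embInf N ℓ
  | some i => embTw N ℓ hℓ hℓN ζ i

theorem embFam_alpha (ζ : Kbarˣ) (hζ : (ζ : Kbar) ^ ℓ = 1) (o : Option (Fin ℓ))
    (y : modularFunctionFieldBar N) :
    embFam N ℓ hℓ hℓN ζ o (heckeAlphaBar Kbar N ℓ y) = e0 N ℓ y := by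
  cases o with
  | none => exact embInf_alpha N ℓ y
  | some i => exact embTw_alpha N ℓ hℓ hℓN ζ hζ i y

/-- the coefficient of `t⁻¹` of the image of `β j` -/
def cfFam (ζ : Kbarˣ) : Option (Fin ℓ) → Kbar
  | none => 0
  | some i => (((ζ ^ (i : ℕ)) ^ (-1 : ℤ) : Kbarˣ) : Kbar)

theorem embFam_beta_Jbar_coeff (ζ : Kbarˣ) (o : Option (Fin ℓ)) :
    (embFam N ℓ hℓ hℓN ζ o (heckeBetaBar Kbar N ℓ (Jbar N))).coeff (-1)
      = iota (cfFam ℓ ζ o) := by
  have hJ : ((Jbar N : modularFunctionFieldBar N) : LaurentSeries Kbar) = jqModC Kbar := by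
    rw [coe_Jbar, h8b_coeffEmb_jq]
  cases o with
  | none =>
    show (embInf N ℓ (heckeBetaBar Kbar N ℓ (Jbar N))).coeff (-1) = iota 0
    rw [embInf_beta, map_zero, cI, coeffMap_coeff, qExpand_coeff_of_not_dvd, map_zero]
    intro h
    have h2 : (2 : ℤ) ≤ ((ℓ * ℓ : ℕ) : ℤ) := by
      have := hℓ.two_le
      have h3 : 2 ≤ ℓ * ℓ := by nlinarith
      exact_mod_cast h3
    have h4 := Int.le_of_dvd (by norm_num) ((dvd_neg).mp h)
    omega
  | some i =>
    show (embTw N ℓ hℓ hℓN ζ i (heckeBetaBar Kbar N ℓ (Jbar N))).coeff (-1) = _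
    rw [embTw_beta, cI, coeffMap_coeff, tw_coeff, hJ, coeff_jqModC_neg_one, mul_one]
    rfl

theorem cfFam_injective (ζ : Kbarˣ) (hζ : IsPrimitiveRoot (ζ : Kbar) ℓ) :
    Function.Injective (cfFam ℓ ζ) := by
  intro o o' h
  cases o with
  | none =>
    cases o' with
    | none => rfl
    | some i' =>
      exfalso
      exact (Units.ne_zero _) h.symm
  | some i =>
    cases o' with
    | none =>
      exfalso
      exact (Units.ne_zero _) h
    | some i' =>
      have h1 : ((ζ ^ (i : ℕ)) ^ (-1 : ℤ) : Kbarˣ) = (ζ ^ (i' : ℕ)) ^ (-1 : ℤ) := Units.ext h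
      have h2 : ζ ^ (i : ℕ) = ζ ^ (i' : ℕ) := by
        have := congrArg (fun u : Kbarˣ => u ^ (-1 : ℤ)) h1
        simpa using this
      have h3 : (ζ : Kbar) ^ (i : ℕ) = (ζ : Kbar) ^ (i' : ℕ) := by
        have := congrArg (fun u : Kbarˣ => (u : Kbar)) h2
        simpa using this
      have h4 := hζ.pow_inj i.2 i'.2 h3
      exact congrArg some (Fin.ext h4)

set_option synthInstance.maxHeartbeats 400000 in
set_option maxHeartbeats 3200000 in
/-- **R3-NORM**: the norm of `β y` down to `F` is the product of the `ℓ + 1` conjugates. -/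
theorem norm_formula (hℓ : ℓ.Prime) (hℓN : ¬ ℓ ∣ N) (ζ : Kbarˣ)
    (hζ : IsPrimitiveRoot (ζ : Kbar) ℓ) (y : modularFunctionFieldBar N) :
    qExpand Kbar ℓ ((H8S37.h8r_normBeta N ℓ y : modularFunctionFieldBar N) : LaurentSeries Kbar) =
      qExpand Kbar (ℓ * ℓ) (y : LaurentSeries Kbar) *
        ∏ i ∈ Finset.range ℓ, tw (ζ ^ i) (y : LaurentSeries Kbar) := by
  classical
  letI iA : Algebra (modularFunctionFieldBar N) (modularFunctionFieldBar (N * ℓ)) :=
    algebraAlong (heckeAlphaBar Kbar N ℓ)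
  haveI hfd : FiniteDimensional (modularFunctionFieldBar N) (modularFunctionFieldBar (N * ℓ)) :=
    finiteDimensional_along_alpha N ℓ hℓ hℓN
  have hrank : Module.finrank (modularFunctionFieldBar N) (modularFunctionFieldBar (N * ℓ))
      = ℓ + 1 := finrank_along_alpha N ℓ hℓ hℓN
  letI iE : Algebra (modularFunctionFieldBar N) (AlgebraicClosure (LaurentSeries ℂ)) :=
    ((algebraMap (LaurentSeries ℂ) (AlgebraicClosure (LaurentSeries ℂ))).comp (e0 N ℓ)).toAlgebra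
  haveI : CharZero (modularFunctionFieldBar N) :=
    charZero_of_injective_algebraMap (algebraMap Kbar (modularFunctionFieldBar N)).injective
  haveI : Algebra.IsSeparable (modularFunctionFieldBar N) (modularFunctionFieldBar (N * ℓ)) :=
    inferInstance
  -- the algebra embeddings
  let g : Option (Fin ℓ) → (modularFunctionFieldBar (N * ℓ) →ₐ[modularFunctionFieldBar N]
      AlgebraicClosure (LaurentSeries ℂ)) := fun o =>
    { toRingHom := (algebraMap (LaurentSeries ℂ) (AlgebraicClosure (LaurentSeries ℂ))).comp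
        (embFam N ℓ hℓ hℓN ζ o)
      commutes' := fun y => by
        show algebraMap (LaurentSeries ℂ) (AlgebraicClosure (LaurentSeries ℂ))
            (embFam N ℓ hℓ hℓN ζ o (heckeAlphaBar Kbar N ℓ y))
          = algebraMap (LaurentSeries ℂ) (AlgebraicClosure (LaurentSeries ℂ)) (e0 N ℓ y)
        rw [embFam_alpha N ℓ hℓ hℓN ζ hζ.pow_eq_one] }
  have hg_apply : ∀ o (z : modularFunctionFieldBar (N * ℓ)),
      g o z = algebraMap (LaurentSeries ℂ) (AlgebraicClosure (LaurentSeries ℂ))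
        (embFam N ℓ hℓ hℓN ζ o z) := fun _ _ => rfl
  have hinjE : Function.Injective
      (algebraMap (LaurentSeries ℂ) (AlgebraicClosure (LaurentSeries ℂ))) :=
    (algebraMap (LaurentSeries ℂ) (AlgebraicClosure (LaurentSeries ℂ))).injective
  have hg_inj : Function.Injective g := by
    intro o o' h
    apply cfFam_injective ℓ ζ hζ
    apply iota.injective
    rw [← embFam_beta_Jbar_coeff N ℓ hℓ hℓN ζ o, ← embFam_beta_Jbar_coeff N ℓ hℓ hℓN ζ o']
    have h1 := congrArg (fun σ => σ (heckeBetaBar Kbar N ℓ (Jbar N))) h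
    simp only [hg_apply] at h1
    rw [hinjE h1]
  have hcard : Fintype.card (Option (Fin ℓ)) =
      Fintype.card (modularFunctionFieldBar (N * ℓ) →ₐ[modularFunctionFieldBar N]
        AlgebraicClosure (LaurentSeries ℂ)) := by
    rw [AlgHom.card, hrank, Fintype.card_option, Fintype.card_fin]
  have hg : Function.Bijective g := (Fintype.bijective_iff_injective_and_card g).2 ⟨hg_inj, hcard⟩
  have hnorm := Algebra.norm_eq_prod_embeddings (modularFunctionFieldBar N)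
    (AlgebraicClosure (LaurentSeries ℂ)) (heckeBetaBar Kbar N ℓ y)
  rw [← Fintype.prod_bijective g hg (fun o => g o (heckeBetaBar Kbar N ℓ y)) _ (fun _ => rfl),
    Fintype.prod_option] at hnorm
  simp only [hg_apply] at hnorm
  have hL : algebraMap (modularFunctionFieldBar N) (AlgebraicClosure (LaurentSeries ℂ))
      (Algebra.norm (modularFunctionFieldBar N) (heckeBetaBar Kbar N ℓ y))
      = algebraMap (LaurentSeries ℂ) (AlgebraicClosure (LaurentSeries ℂ))
        (cI (qExpand Kbar ℓ ((H8S37.h8r_normBeta N ℓ y : modularFunctionFieldBar N) :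
          LaurentSeries Kbar))) := rfl
  rw [hL] at hnorm
  have hR1 : embFam N ℓ hℓ hℓN ζ none (heckeBetaBar Kbar N ℓ y)
      = cI (qExpand Kbar (ℓ * ℓ) (y : LaurentSeries Kbar)) := embInf_beta N ℓ y
  have hR2 : ∀ i : Fin ℓ, embFam N ℓ hℓ hℓN ζ (some i) (heckeBetaBar Kbar N ℓ y)
      = cI (tw (ζ ^ (i : ℕ)) (y : LaurentSeries Kbar)) := fun i => embTw_beta N ℓ hℓ hℓN ζ i y
  rw [hR1] at hnorm
  simp only [hR2] at hnorm
  rw [← map_prod, ← map_prod, ← map_mul, ← map_mul,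
    Fin.prod_univ_eq_prod_range (fun i => tw (ζ ^ i) (y : LaurentSeries Kbar)) ℓ] at hnorm
  exact cI_injective (hinjE hnorm)

/-- **R3-NORM** in the shape of `H8S37.NormStatement`. -/
theorem normStatement (hℓ : ℓ.Prime) (hℓN : ¬ ℓ ∣ N) : H8S37.NormStatement N ℓ :=
  fun ζ hζ y => norm_formula N ℓ hℓ hℓN ζ hζ y

end Norm

end H13R3

end
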