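import Mathlib
import Fermat.Agent.S28.ModEq.ConjMap

/-!
# S37 (item 79), slice R3-RED (helper23): integrality and reduction of the norm

For an `A`-integral Laurent series `y` (`A` a valuation ring of `L` with residue map `π : A → k`,
`char k = ℓ`) and `ζ ∈ Aˣ` with `π ζ = 1` (e.g. an `ℓ`-th root of unity), the "norm"
`y(t^(ℓ²)) · ∏_{i<ℓ} y(ζ^i t)` is `A`-integral and reduces to `ȳ(t^(ℓ²)) · ȳ(t)^ℓ`.  If it is of
the form `y'(t^ℓ)`, then `y'` is `A`-integral and `ȳ' = ȳ(q^ℓ) · Fr(ȳ)`, `Fr` the coefficientwise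
Frobenius.

* `h23r3_frobenius`: `x ^ ℓ = qExpand ℓ (coeffMap Frob x)` for Laurent series in characteristic `ℓ`;
* `h23r3_red`: the statement above.
-/

set_option autoImplicit false
set_option linter.style.longLine false
set_option linter.style.haveILetI false

open ModularCurve HahnSeries H28S28

noncomputable section

namespace H23R3

section Frobenius

variable {k : Type} [CommRing k] (ℓ : ℕ) [Fact ℓ.Prime] [CharP k ℓ]

theorem h23r3_qExpand_ofPowerSeries {R : Type} [CommRing R] (n : ℕ) [NeZero n] (g : PowerSeries R) :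
    qExpand R n (HahnSeries.ofPowerSeries ℤ R g) =
      HahnSeries.ofPowerSeries ℤ R (PowerSeries.expand n (NeZero.ne n) g) := by
  ext m
  by_cases hd : (n : ℤ) ∣ m
  · obtain ⟨c, rfl⟩ := hd
    rw [qExpand_coeff_mul]
    rcases lt_or_ge c 0 with hc | hc
    · rw [ofPowerSeries_coeff_of_neg g hc, ofPowerSeries_coeff_of_neg]
      have hn : (0 : ℤ) < n := by exact_mod_cast Nat.pos_of_ne_zero (NeZero.ne n)
      exact mul_neg_of_pos_of_neg hn hc
    · lift c to ℕ using hc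
      have h1 : ((n : ℤ) * (c : ℤ)) = ((n * c : ℕ) : ℤ) := by push_cast; ring
      rw [h1, LaurentSeries.coeff_coe_powerSeries, LaurentSeries.coeff_coe_powerSeries,
        PowerSeries.coeff_expand_mul]
  · rw [qExpand_coeff_of_not_dvd n _ hd]
    rcases lt_or_ge m 0 with hm | hm
    · rw [ofPowerSeries_coeff_of_neg _ hm]
    · lift m to ℕ using hm
      rw [LaurentSeries.coeff_coe_powerSeries, PowerSeries.coeff_expand_of_not_dvd]
      intro h
      exact hd (by exact_mod_cast h)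

theorem h23r3_pow_powerSeries (f : PowerSeries k) :
    f ^ ℓ = PowerSeries.map (frobenius k ℓ)
      (PowerSeries.expand ℓ (Fact.out : ℓ.Prime).ne_zero f) :=
  (MvPowerSeries.map_frobenius_expand ℓ (Fact.out : ℓ.Prime).ne_zero (f := f)).symm

/-- **Frobenius for Laurent series** in characteristic `ℓ`. -/
theorem h23r3_frobenius (x : LaurentSeries k) :
    haveI : NeZero ℓ := ⟨(Fact.out : ℓ.Prime).ne_zero⟩
    x ^ ℓ = qExpand k ℓ (coeffMap (frobenius k ℓ) x) := by
  haveI : NeZero ℓ := ⟨(Fact.out : ℓ.Prime).ne_zero⟩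
  have hx := LaurentSeries.single_order_mul_powerSeriesPart x
  set n := x.order
  set f := x.powerSeriesPart
  have h1 : x ^ ℓ = HahnSeries.single ((ℓ : ℤ) * n) (1 : k) *
      HahnSeries.ofPowerSeries ℤ k (f ^ ℓ) := by
    rw [← hx, mul_pow, HahnSeries.single_pow, one_pow, map_pow, nsmul_eq_mul]
  have h2 : coeffMap (frobenius k ℓ) x = HahnSeries.single n (1 : k) *
      HahnSeries.ofPowerSeries ℤ k (f.map (frobenius k ℓ)) := by
    rw [← hx, map_mul, coeffMap_single, map_one, coeffMap_ofPowerSeries]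
  rw [h1, h2, map_mul, qExpand_single, h23r3_qExpand_ofPowerSeries, h23r3_pow_powerSeries,
    PowerSeries.map_expand]

end Frobenius

section Lift

variable {L : Type} [Field L] (A : ValuationSubring L)

theorem h23r3_coeffMap_subtype_injective :
    Function.Injective (coeffMap A.subtype : LaurentSeries A → LaurentSeries L) := by
  intro a b hab
  ext n
  have := congrArg (fun z : LaurentSeries L => z.coeff n) hab
  simp only [coeffMap_coeff] at this
  exact this

/-- a series with coefficients in `A` comes from a series over `A` -/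
theorem h23r3_exists_lift (x : LaurentSeries L) (h : ∀ n, x.coeff n ∈ A) :
    ∃ x₀ : LaurentSeries A, coeffMap A.subtype x₀ = x := by
  refine ⟨⟨fun n => ⟨x.coeff n, h n⟩, x.isPWO_support.mono ?_⟩, ?_⟩
  · intro n hn
    rw [Function.mem_support] at hn
    rw [HahnSeries.mem_support]
    intro h0
    exact hn (Subtype.ext h0)
  · ext n
    rfl

end Lift

section Main

variable {L k : Type} [Field L] [Field k] (A : ValuationSubring L) (π : A →+* k)
  (ℓ : ℕ) [Fact ℓ.Prime] [CharP k ℓ]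

/-- an `ℓ`-th root of unity reduces to `1` in characteristic `ℓ` -/
theorem h23r3_pi_zeta (ζ : A) (hζ : ζ ^ ℓ = 1) : π ζ = 1 := by
  have h1 : (π ζ) ^ ℓ = 1 := by rw [← map_pow, hζ, map_one]
  have h2 : (π ζ - 1) ^ ℓ = 0 := by
    rw [sub_pow_char, h1, one_pow, sub_self]
  exact sub_eq_zero.mp (pow_eq_zero_iff (Fact.out : ℓ.Prime).ne_zero |>.mp h2)

/-- the norm series over `A` -/
def h23r3_norm (ζ : Aˣ) (y₀ : LaurentSeries A) : LaurentSeries A :=
  haveI : NeZero ℓ := ⟨(Fact.out : ℓ.Prime).ne_zero⟩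
  qExpand A (ℓ * ℓ) y₀ * ∏ i ∈ Finset.range ℓ, tw (ζ ^ i) y₀

theorem h23r3_coeffMap_norm {B : Type} [CommRing B] (f : A →+* B) (ζ : Aˣ)
    (y₀ : LaurentSeries A) :
    haveI : NeZero ℓ := ⟨(Fact.out : ℓ.Prime).ne_zero⟩
    coeffMap f (h23r3_norm A ℓ ζ y₀) =
      qExpand B (ℓ * ℓ) (coeffMap f y₀) *
        ∏ i ∈ Finset.range ℓ, tw ((Units.map (f : A →* B) ζ) ^ i) (coeffMap f y₀) := by
  haveI : NeZero ℓ := ⟨(Fact.out : ℓ.Prime).ne_zero⟩
  unfold h23r3_norm
  rw [map_mul, coeffMap_qExpand, map_prod]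
  congr 1
  refine Finset.prod_congr rfl fun i _ => ?_
  rw [H23M.h21_coeffMap_tw, map_pow]

/-- reduction of the norm series -/
theorem h23r3_red_norm (ζ : Aˣ) (hζ : π ζ = 1) (y₀ : LaurentSeries A) :
    haveI : NeZero ℓ := ⟨(Fact.out : ℓ.Prime).ne_zero⟩
    coeffMap π (h23r3_norm A ℓ ζ y₀) =
      qExpand k ℓ (qExpand k ℓ (coeffMap π y₀) * coeffMap (frobenius k ℓ) (coeffMap π y₀)) := by
  haveI : NeZero ℓ := ⟨(Fact.out : ℓ.Prime).ne_zero⟩
  rw [h23r3_coeffMap_norm]
  have h1 : Units.map (π : A →* k) ζ = 1 := by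
    apply Units.ext
    exact hζ
  have h2 : ∀ i ∈ Finset.range ℓ,
      tw ((Units.map (π : A →* k) ζ) ^ i) (coeffMap π y₀) = coeffMap π y₀ := by
    intro i _
    rw [h1, one_pow]
    ext n
    simp
  rw [Finset.prod_congr rfl h2, Finset.prod_const, Finset.card_range, h23r3_frobenius ℓ,
    map_mul, qExpand_qExpand]

/-- **R3-RED.**  If `y'(t^ℓ) = y(t^(ℓ²)) · ∏_{i<ℓ} y(ζ^i t)` with `y` `A`-integral and
`π ζ = 1`, then `y'` is `A`-integral and `ȳ' = ȳ(q^ℓ) · Fr(ȳ)`. -/
theorem h23r3_red (ζ : Aˣ) (hζ : π ζ = 1) (y₀ : LaurentSeries A) (y' : LaurentSeries L)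
    (hy' : (haveI : NeZero ℓ := ⟨(Fact.out : ℓ.Prime).ne_zero⟩;
      qExpand L ℓ y' = qExpand L (ℓ * ℓ) (coeffMap A.subtype y₀) *
        ∏ i ∈ Finset.range ℓ,
          tw ((Units.map (A.subtype : A →* L) ζ) ^ i) (coeffMap A.subtype y₀))) :
    haveI : NeZero ℓ := ⟨(Fact.out : ℓ.Prime).ne_zero⟩
    ∃ y'₀ : LaurentSeries A, coeffMap A.subtype y'₀ = y' ∧
      coeffMap π y'₀ =
        qExpand k ℓ (coeffMap π y₀) * coeffMap (frobenius k ℓ) (coeffMap π y₀) := by
  haveI : NeZero ℓ := ⟨(Fact.out : ℓ.Prime).ne_zero⟩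
  rw [← h23r3_coeffMap_norm A ℓ A.subtype ζ y₀] at hy'
  have hcoeff : ∀ n, y'.coeff n ∈ A := by
    intro n
    have h1 := qExpand_coeff_mul (R := L) ℓ y' n
    rw [hy', coeffMap_coeff] at h1
    rw [← h1]
    exact (Subtype.property _)
  obtain ⟨y'₀, hy'₀⟩ := h23r3_exists_lift A y' hcoeff
  refine ⟨y'₀, hy'₀, ?_⟩
  have h2 : qExpand A ℓ y'₀ = h23r3_norm A ℓ ζ y₀ := by
    apply h23r3_coeffMap_subtype_injective A
    rw [coeffMap_qExpand, hy'₀, hy']
  have h3 := congrArg (coeffMap π) h2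
  rw [coeffMap_qExpand, h23r3_red_norm A π ℓ ζ hζ] at h3
  exact qExpand_injective ℓ h3

end Main

end H23R3

end
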