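import Fermat.Agent.S37.CongAsm_helper8
import Fermat.Agent.S37.R3Red_helper23
import Fermat.Agent.S54.Frobenius

/-!
# S37: `RedStatement ℓ` from helper23's `h23r3_red` (helper8)
-/

set_option autoImplicit false
set_option linter.style.haveILetI false

noncomputable section

namespace H8S37

open ModularCurve AlgebraicCurve HahnSeries

/-- the residue field of a valuation ring of `ℚ̄` over `ℓ` has characteristic `ℓ`. -/
theorem h8rb_charP (A : ValuationSubring (AlgebraicClosure ℚ)) {ℓ : ℕ} (hℓ : ℓ.Prime)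
    (hA : A.LiesOverPrime ℓ) : CharP (IsLocalRing.ResidueField A) ℓ := by
  rw [CharP.charP_iff_prime_eq_zero hℓ]
  have h1 : ((ℓ : A) : AlgebraicClosure ℚ) ∈ A.nonunits := by
    have : ((ℓ : A) : AlgebraicClosure ℚ) = (ℓ : AlgebraicClosure ℚ) := by simp
    rw [this]
    exact hA
  rw [ValuationSubring.coe_mem_nonunits_iff] at h1
  have h2 : IsLocalRing.residue A (ℓ : A) = 0 := (IsLocalRing.residue_eq_zero_iff _).mpr h1
  rwa [map_natCast] at h2

theorem h8rb_red (ℓ : ℕ) [NeZero ℓ] (hℓ : ℓ.Prime) : RedStatement ℓ := by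
  intro A hA ζ hζ τ hτ y₀ y' hy'
  haveI : Fact ℓ.Prime := ⟨hℓ⟩
  haveI : CharP (IsLocalRing.ResidueField A) ℓ := h8rb_charP A hℓ hA
  -- `ζ` as a unit of `A`
  have hζint : IsIntegral ℤ (ζ : AlgebraicClosure ℚ) := hζ.isIntegral hℓ.pos
  have hζA : (ζ : AlgebraicClosure ℚ) ∈ A := Fermat.Agent.H9.h9_mem_of_isIntegral A hζint
  have hζinvint : IsIntegral ℤ ((ζ⁻¹ : (AlgebraicClosure ℚ)ˣ) : AlgebraicClosure ℚ) := by
    have h1 : ((ζ⁻¹ : (AlgebraicClosure ℚ)ˣ) : AlgebraicClosure ℚ) =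
        (ζ : AlgebraicClosure ℚ) ^ (ℓ - 1) := by
      rw [Units.val_inv_eq_inv_val]
      have h2 : (ζ : AlgebraicClosure ℚ) ^ ℓ = 1 := hζ.pow_eq_one
      have h3 : (ζ : AlgebraicClosure ℚ) * (ζ : AlgebraicClosure ℚ) ^ (ℓ - 1) = 1 := by
        rw [← pow_succ', Nat.sub_add_cancel hℓ.pos, h2]
      exact inv_eq_of_mul_eq_one_right h3
    rw [h1]
    exact hζint.pow _
  have hζinvA : ((ζ⁻¹ : (AlgebraicClosure ℚ)ˣ) : AlgebraicClosure ℚ) ∈ A :=
    Fermat.Agent.H9.h9_mem_of_isIntegral A hζinvint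
  let ζA : Aˣ := ⟨⟨ζ, hζA⟩, ⟨_, hζinvA⟩, Subtype.ext (by simp), Subtype.ext (by simp)⟩
  have hζA1 : (ζA : A) ^ ℓ = 1 := Subtype.ext (by
    show (ζ : AlgebraicClosure ℚ) ^ ℓ = 1
    exact hζ.pow_eq_one)
  have hπ : IsLocalRing.residue A (ζA : A) = 1 :=
    H23R3.h23r3_pi_zeta A (IsLocalRing.residue A) ℓ ζA hζA1
  have hunits : Units.map (A.subtype : A →* AlgebraicClosure ℚ) ζA = ζ := Units.ext rfl
  have hy'' : qExpand (AlgebraicClosure ℚ) ℓ y' =
      qExpand (AlgebraicClosure ℚ) (ℓ * ℓ) (coeffMap A.subtype y₀) *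
        ∏ i ∈ Finset.range ℓ,
          H28S28.tw ((Units.map (A.subtype : A →* AlgebraicClosure ℚ) ζA) ^ i)
            (coeffMap A.subtype y₀) := by
    rw [hunits]
    exact hy'
  obtain ⟨y'₀, h1, h2⟩ := H23R3.h23r3_red A (IsLocalRing.residue A) ℓ ζA hπ y₀ y' hy''
  refine ⟨y'₀, h1, ?_⟩
  rw [h2]
  have hτF : (τ : IsLocalRing.ResidueField A →+* IsLocalRing.ResidueField A) =
      frobenius (IsLocalRing.ResidueField A) ℓ := RingHom.ext fun a => by
    rw [frobenius_def]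
    exact hτ a
  have e1 := H23R3.h23r3_frobenius ℓ
    (coeffMap (τ.symm : IsLocalRing.ResidueField A →+* IsLocalRing.ResidueField A)
      (coeffMap (IsLocalRing.residue A) y₀))
  have e2 : coeffMap (frobenius (IsLocalRing.ResidueField A) ℓ)
      (coeffMap (τ.symm : IsLocalRing.ResidueField A →+* IsLocalRing.ResidueField A)
        (coeffMap (IsLocalRing.residue A) y₀)) = coeffMap (IsLocalRing.residue A) y₀ := by
    rw [← hτF, coeffMap_coeffMap,
      coeffMap_congr (g := RingHom.id _) (RingHom.ext fun a => τ.apply_symm_apply a), coeffMap_id]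
  rw [e2] at e1
  rw [e1, hτF]

end H8S37

end
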