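import Fermat.Agent.S37.Bounded_helper8
import Fermat.Prelude.Def_ModularCurve_ReductionModL

/-!
# S37: the core of R1 and R3 (helper8)

`h8c_core`: let `r` be a place reduction (`IsPlaceReductionAlong` + `PrincipalGeneratedByIntegral`),
`Θ` an additive endomorphism of `Div(F)` and `Ψ` one of `Div(Fbar)`.  If `r_* Θ = Ψ r_*` holds on
the divisors of `A`-integral functions and `r_* Θ - Ψ r_*` is bounded on places, then
`r_* Θ E = Ψ r_* E` for every divisor `E` of degree `0` (given Riemann's inequality on `F`).
-/

set_option autoImplicit false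

noncomputable section

namespace H8S37

open ModularCurve AlgebraicCurve HahnSeries

variable {L : Type*} [Field L] [Algebra ℚ L] {A : ValuationSubring L}
variable {k : Type*} [Field k] {π : A →+* k} {N : ℕ}
variable {r : Place L (laurentBaseChange L (modularFunctionFieldFull N)) →
  Place k (modularFunctionFieldFullC k N)}

/-- The core lemma. -/
theorem h8c_core (hgen : PrincipalGeneratedByIntegral A π N)
    (hRW : RiemannWeak L (laurentBaseChange L (modularFunctionFieldFull N)))
    (hdeg : ∀ P : Place L (laurentBaseChange L (modularFunctionFieldFull N)), P.deg = 1)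
    (Θ : Divisor L (laurentBaseChange L (modularFunctionFieldFull N)) →+
      Divisor L (laurentBaseChange L (modularFunctionFieldFull N)))
    (Ψ : Divisor k (modularFunctionFieldFullC k N) →+ Divisor k (modularFunctionFieldFullC k N))
    (C : ℤ)
    (hbound : ∀ P Q, |(Finsupp.mapDomain r (Θ (Finsupp.single P 1))) Q -
      (Ψ (Finsupp.single (r P) 1)) Q| ≤ C)
    (hint : ∀ D ∈ integralPrincipalDivisors A π N,
      Finsupp.mapDomain r (Θ D) = Ψ (Finsupp.mapDomain r D))
    (E : Divisor L (laurentBaseChange L (modularFunctionFieldFull N)))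
    (hE : Divisor.degree E = 0) :
    Finsupp.mapDomain r (Θ E) = Ψ (Finsupp.mapDomain r E) := by
  classical
  -- the difference, as an additive map
  set δ : Divisor L (laurentBaseChange L (modularFunctionFieldFull N)) →+
      Divisor k (modularFunctionFieldFullC k N) :=
    (Finsupp.mapDomain.addMonoidHom r).comp Θ - Ψ.comp (Finsupp.mapDomain.addMonoidHom r) with hδ
  have hδapp : ∀ D, δ D = Finsupp.mapDomain r (Θ D) - Ψ (Finsupp.mapDomain r D) := fun D => rfl
  have hδprin : ∀ D ∈ Divisor.principal (K := L)
      (F := laurentBaseChange L (modularFunctionFieldFull N)), δ D = 0 := by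
    intro D hD
    have hD' := hgen hD
    clear hD
    induction hD' using AddSubgroup.closure_induction with
    | mem E hE => rw [hδapp, hint E hE, sub_self]
    | zero => exact map_zero δ
    | add E E' _ _ hE hE' => rw [map_add, hE, hE', add_zero]
    | neg E _ hE => rw [map_neg, hE, neg_zero]
  have hzero : δ E = 0 := by
    ext Q
    rw [Finsupp.zero_apply]
    have := h8b_eq_zero_of_bounded hRW hdeg ((Finsupp.applyAddHom Q).comp δ)
      (fun D hD => by
        rw [AddMonoidHom.comp_apply, hδprin D hD]
        rfl) C
      (fun P => by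
        rw [AddMonoidHom.comp_apply, hδapp, Finsupp.mapDomain_single]
        exact hbound P Q) E hE
    exact this
  rw [hδapp, sub_eq_zero] at hzero
  exact hzero

/-- For an effective divisor `E`, `0 ≤ (r_* E) Q ≤ deg E` (all places of degree `1`). -/
theorem h8c_mapDomain_bounds {K F k' F' : Type*} [Field K] [Field F] [Algebra K F]
    [Field k'] [Field F'] [Algebra k' F'] (r : Place K F → Place k' F')
    (hdeg : ∀ P : Place K F, P.deg = 1) (E : Divisor K F) (hE : ∀ P, 0 ≤ E P)
    (Q : Place k' F') :
    0 ≤ (Finsupp.mapDomain r E) Q ∧ (Finsupp.mapDomain r E) Q ≤ Divisor.degree E := by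
  classical
  induction E using Finsupp.induction with
  | zero => simp
  | single_add P n D hP hn ih =>
    have hn0 : 0 ≤ n := by
      have := hE P
      rw [Finsupp.add_apply, Finsupp.single_eq_same, Finsupp.notMem_support_iff.mp hP,
        add_zero] at this
      exact this
    have hD' : ∀ Q, 0 ≤ D Q := by
      intro Q
      by_cases hQ : Q = P
      · rw [hQ, Finsupp.notMem_support_iff.mp hP]
      · have := hE Q
        rwa [Finsupp.add_apply, Finsupp.single_eq_of_ne hQ, zero_add] at this
    obtain ⟨h1, h2⟩ := ih hD'
    rw [Finsupp.mapDomain_add, Finsupp.add_apply, Finsupp.mapDomain_single, map_add,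
      Divisor.degree_single, hdeg, Nat.cast_one, mul_one, Finsupp.single_apply]
    split_ifs <;> constructor <;> omega

end H8S37

end
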