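import Fermat.Agent.S37.RDefs
import Fermat.Agent.S37.Core_helper8

/-!
# S37 (item 79), slice R1Strong (helper10)

The reduction map `reductionModL A N : J₀(N)(ℚ̄) → Pic⁰(Fbar)` is equivariant for the
decomposition group of `A`: `red (σ x) = ŝ • red x`, where `ŝ` is the coefficientwise action on
`Fbar` of the residue automorphism of `σ`.

* `h10r1_smul_div` : `div (g • f) = g • div f` for a semilinear automorphism `g`;
* `h10r1_hint`     : `r_* (σ_* D) = ŝ_* (r_* D)` for the divisor `D` of an `A`-integral function;
* `h10r1_bound`    : the difference `r_* σ_* - ŝ_* r_*` is bounded by `2` on places;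
* `h10r1_divisor`  : `r_* (σ_* E) = ŝ_* (r_* E)` for every divisor `E` of degree `0`;
* `h10r1_strong_of` : `R1StrongStatement N` from Riemann's theorem (weak form) and `deg P = 1`.
-/

set_option autoImplicit false
set_option linter.style.haveILetI false
set_option synthInstance.maxHeartbeats 400000
set_option maxHeartbeats 1000000

noncomputable section

namespace H10R1

open ModularCurve AlgebraicCurve HahnSeries H8S37

/-! ### Semilinear automorphisms and principal divisors -/

section General

variable {K F : Type*} [Field K] [Field F] [Algebra K F]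

/-- `div (g • f) = g • div f`, pointwise. -/
theorem h10r1_smul_div (g : SemilinearAut K F) (D : Divisor K F) (f : F)
    (hD : ∀ P : Place K F, D P = P.ord f) (Q : Place K F) :
    (g • D) Q = Q.ord (g • f) := by
  rw [SemilinearAut.divisor_smul_apply, hD]
  have h := SemilinearAut.ord_smul g (g⁻¹ • Q) f
  rw [smul_inv_smul] at h
  exact h.symm

/-- `coeffMap` of an injective ring homomorphism is injective. -/
theorem h10r1_coeffMap_injective {R S : Type*} [CommRing R] [CommRing S] (f : R →+* S)
    (hf : Function.Injective f) : Function.Injective (coeffMap f) := by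
  intro x y h
  ext k
  apply hf
  have := congrArg (fun z : LaurentSeries S => z.coeff k) h
  simpa using this

end General

/-! ### The restriction of `σ` to `A` -/

section Restrict

variable (A : ValuationSubring (AlgebraicClosure ℚ))

/-- the restriction to `A` of an element of the decomposition group. -/
def h10r1_resA (σ : GQ) (hσ : σ ∈ A.decompositionSubgroup ℚ) : A →+* A :=
  MulSemiringAction.toRingHom (A.decompositionSubgroup ℚ) A ⟨σ, hσ⟩

theorem h10r1_subtype_comp (σ : GQ) (hσ : σ ∈ A.decompositionSubgroup ℚ) :
    A.subtype.comp (h10r1_resA A σ hσ) =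
      (σ : AlgebraicClosure ℚ →+* AlgebraicClosure ℚ).comp A.subtype :=
  RingHom.ext fun _ => rfl

theorem h10r1_residue_comp (σ : GQ) (hσ : σ ∈ A.decompositionSubgroup ℚ) :
    (IsLocalRing.residue A).comp (h10r1_resA A σ hσ) =
      ((h8r_resAut A σ hσ : IsLocalRing.ResidueField A ≃+* IsLocalRing.ResidueField A) :
        IsLocalRing.ResidueField A →+* IsLocalRing.ResidueField A).comp (IsLocalRing.residue A) :=
  RingHom.ext fun _ => rfl

end Restrict

/-! ### The main computation -/

section Main

variable (N : ℕ) (A : ValuationSubring (AlgebraicClosure ℚ))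

/-- On the divisor of an `A`-integral function, `r_* σ_* = ŝ_* r_*`. -/
theorem h10r1_hint (σ : GQ) (hσ : σ ∈ A.decompositionSubgroup ℚ)
    {r : Place (AlgebraicClosure ℚ) (modularFunctionFieldBar N) →
      Place (IsLocalRing.ResidueField A)
        (modularFunctionFieldFullC (IsLocalRing.ResidueField A) N)}
    (hr : IsPlaceReductionModL A N r)
    (D : Divisor (AlgebraicClosure ℚ) (modularFunctionFieldBar N))
    (hD : D ∈ integralPrincipalDivisors A (IsLocalRing.residue A) N) :
    Finsupp.mapDomain r (arithmeticGalois (modularFunctionFieldFull N) σ • D) =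
      h8r_arithBar N (h8r_resAut A σ hσ) • Finsupp.mapDomain r D := by
  obtain ⟨y, hy, hyk, hne, hDy⟩ := hD
  have e1 : coeffMap A.subtype (coeffMap (h10r1_resA A σ hσ) y) =
      coeffMap (σ : AlgebraicClosure ℚ →+* AlgebraicClosure ℚ) (coeffMap A.subtype y) := by
    rw [coeffMap_coeffMap, coeffMap_coeffMap, h10r1_subtype_comp]
  have e2 : coeffMap (IsLocalRing.residue A) (coeffMap (h10r1_resA A σ hσ) y) =
      coeffMap ((h8r_resAut A σ hσ : IsLocalRing.ResidueField A ≃+* IsLocalRing.ResidueField A) :
        IsLocalRing.ResidueField A →+* IsLocalRing.ResidueField A)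
        (coeffMap (IsLocalRing.residue A) y) := by
    rw [coeffMap_coeffMap, coeffMap_coeffMap, h10r1_residue_comp]
  have hy' : coeffMap A.subtype (coeffMap (h10r1_resA A σ hσ) y) ∈
      laurentBaseChange (AlgebraicClosure ℚ) (modularFunctionFieldFull N) := by
    rw [e1]
    exact coeffMap_mem_laurentBaseChange σ hy
  have hyk' : coeffMap (IsLocalRing.residue A) (coeffMap (h10r1_resA A σ hσ) y) ∈
      modularFunctionFieldFullC (IsLocalRing.ResidueField A) N := by
    rw [e2]
    exact h8r_coeffMap_mem N _ hyk
  have hne' : coeffMap (IsLocalRing.residue A) (coeffMap (h10r1_resA A σ hσ) y) ≠ 0 := by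
    rw [e2]
    intro h0
    apply hne
    apply h10r1_coeffMap_injective
      ((h8r_resAut A σ hσ : IsLocalRing.ResidueField A ≃+* IsLocalRing.ResidueField A) :
        IsLocalRing.ResidueField A →+* IsLocalRing.ResidueField A)
      (h8r_resAut A σ hσ).injective
    rw [map_zero]
    exact h0
  ext Q
  rw [hr.2 (coeffMap (h10r1_resA A σ hσ) y) hy' hyk' hne'
    (arithmeticGalois (modularFunctionFieldFull N) σ • D) (fun P => ?_) Q]
  · rw [h10r1_smul_div (h8r_arithBar N (h8r_resAut A σ hσ)) (Finsupp.mapDomain r D)
      ⟨coeffMap (IsLocalRing.residue A) y, hyk⟩ (fun Q' => hr.2 y hy hyk hne D hDy Q') Q]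
    exact congrArg Q.ord (Subtype.ext e2)
  · rw [h10r1_smul_div (arithmeticGalois (modularFunctionFieldFull N) σ) D
      ⟨coeffMap A.subtype y, hy⟩ hDy P]
    exact congrArg P.ord (Subtype.ext e1.symm)

/-- The difference `r_* σ_* - ŝ_* r_*` is bounded on places. -/
theorem h10r1_bound {K F k' F' : Type*} [Field K] [Field F] [Algebra K F]
    [Field k'] [Field F'] [Algebra k' F'] (r : Place K F → Place k' F')
    (g : SemilinearAut K F) (s : SemilinearAut k' F') (P : Place K F) (Q : Place k' F') :
    |(Finsupp.mapDomain r (DistribSMul.toAddMonoidHom (Divisor K F) g (Finsupp.single P 1))) Q -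
      (DistribSMul.toAddMonoidHom (Divisor k' F') s (Finsupp.single (r P) 1)) Q| ≤ 2 := by
  classical
  rw [DistribSMul.toAddMonoidHom_apply, DistribSMul.toAddMonoidHom_apply,
    SemilinearAut.smul_single, SemilinearAut.smul_single, Finsupp.mapDomain_single,
    Finsupp.single_apply, Finsupp.single_apply, abs_le]
  split_ifs <;> constructor <;> omega

/-- `r_* (σ_* E) = ŝ_* (r_* E)` for every divisor `E` of degree `0`. -/
theorem h10r1_divisor
    (hRW : RiemannWeak (AlgebraicClosure ℚ) (modularFunctionFieldBar N))
    (hdeg : ∀ P : Place (AlgebraicClosure ℚ) (modularFunctionFieldBar N), P.deg = 1)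
    (σ : GQ) (hσ : σ ∈ A.decompositionSubgroup ℚ)
    {r : Place (AlgebraicClosure ℚ) (modularFunctionFieldBar N) →
      Place (IsLocalRing.ResidueField A)
        (modularFunctionFieldFullC (IsLocalRing.ResidueField A) N)}
    (hr : IsPlaceReductionModL A N r)
    (hgen : PrincipalGeneratedByIntegral A (IsLocalRing.residue A) N)
    (E : Divisor (AlgebraicClosure ℚ) (modularFunctionFieldBar N))
    (hE : Divisor.degree E = 0) :
    Finsupp.mapDomain r (arithmeticGalois (modularFunctionFieldFull N) σ • E) =
      h8r_arithBar N (h8r_resAut A σ hσ) • Finsupp.mapDomain r E :=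
  h8c_core hgen hRW hdeg
    (DistribSMul.toAddMonoidHom _ (arithmeticGalois (modularFunctionFieldFull N) σ))
    (DistribSMul.toAddMonoidHom _ (h8r_arithBar N (h8r_resAut A σ hσ))) 2
    (fun P Q => h10r1_bound r _ _ P Q)
    (fun D hD => h10r1_hint N A σ hσ hr D hD) E hE

end Main

/-- **R1, strong form**, from Riemann's theorem (weak form) and `deg P = 1`. -/
theorem h10r1_strong_of (N : ℕ) [NeZero N]
    (hRW : RiemannWeak (AlgebraicClosure ℚ) (modularFunctionFieldBar N))
    (hdeg : ∀ P : Place (AlgebraicClosure ℚ) (modularFunctionFieldBar N), P.deg = 1) :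
    R1StrongStatement N := by
  intro ℓ _ _ A _ σ hσ x
  by_cases h : ReductionInputsModL A N
  swap
  · rw [reductionModL_of_not h]
    exact (smul_zero (A := JZeroC (IsLocalRing.ResidueField A) N)
      (h8r_arithBar N (h8r_resAut A σ hσ))).symm
  obtain ⟨D, rfl⟩ := Pic0.mk_surjective x
  rw [galois_smul_pic0_def, SemilinearAut.pic0_smul_mk, reductionModL_mk h, reductionModL_mk h,
    SemilinearAut.pic0_smul_mk]
  refine congrArg Pic0.mk (Subtype.ext ?_)
  exact h10r1_divisor N A hRW hdeg σ hσ (isPlaceReductionModL_placeReductionModL h)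
    h.choose_spec.2 D D.2

end H10R1

end
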