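/-
helper18 (architect of item 79 slice R2): INTERFACE of R2 = `H8S37.R2Statement`
(construction of the place reduction `r` with NET COUNT).  Exact Props of the sub-slices.

Notation: `(A, K, k, π)` valuation ring of an algebraically closed field `K` with residue map,
`F / K`, `Fb / k` function fields, `O ⊆ F` the Gauss valuation ring with `red : O → Fb`
(`PreDatum` = `H9S18.RedDatum` without `r`; instance: helper28's `gvOF`, `gvRedF`).
A CHART is a function `t ∈ O` with `red t` transcendental and `[F : K(t)] = [Fb : k(red t)]`.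
For `c ∈ k`:  `FD(t,c) = {P | t(P) ∈ A, π (t(P)) = c}` (fibre disc, `InDisc`),
              `Fib(t,c) = {Q | (red t)(Q) = c}`.

ABSTRACT LAYER (pure algebra, no modular forms):
* `FNCStatement`   fibre net count   `∑_{P ∈ FD(t,c)} ord_P y = ∑_{Q ∈ Fib(t,c)} ord_Q (red y)`
                   (norm to `K(t)`, norm commutes with `red` (`H18S18.h18_norm_red`), norm
                   formula on both sides, Gauss lemma for polynomials over `A`);
* `RegStatement`   `y ∈ O` without poles on `FD(t,c)` ⇒ `red y` has no poles on `Fib(t,c)`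
                   (`O ∩ (integral closure of K[t]) = integral closure of A[t]`);
* `SheetStatement` FNC + REG + UNIF at `(t,c)` ⇒ `r_c : FD(t,c) → Fib(t,c)` with net count
                   (induction on the number of zeros; helper27's P3);
* `AsmStatement`   the charts `(t, c)`, `c ∈ k`, and `(t⁻¹, 0)` glue to `r` with net count.
The only non-formal input is `UnifAt` ("the special fibre is normal over `c`").
-/
import Mathlib
import Fermat.Agent.S18.ADefs

set_option autoImplicit false

noncomputable section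

open AlgebraicCurve IntermediateField

namespace H18R2

open H9S18 (ValAt IsDivOf)

/-- A constant reduction datum WITHOUT the map `r` (`H9S18.RedDatum` minus `r`). -/
structure PreDatum (K F k Fb : Type*) [Field K] [Field F] [Algebra K F]
    [Field k] [Field Fb] [Algebra k Fb] where
  /-- valuation ring of the constant field -/
  A : ValuationSubring K
  /-- residue map of `A` -/
  π : A →+* k
  /-- the Gauss valuation ring of `F` -/
  O : ValuationSubring F
  /-- the reduction map -/
  red : O →+* Fb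
  π_surj : Function.Surjective π
  π_nonunit : ∀ a : A, ¬ IsUnit a → π a = 0
  red_surj : Function.Surjective red
  red_nonunit : ∀ y : O, ¬ IsUnit y → red y = 0
  const_mem : ∀ a : K, a ∈ A → algebraMap K F a ∈ O
  red_const : ∀ (a : K) (ha : a ∈ A),
    red ⟨algebraMap K F a, const_mem a ha⟩ = algebraMap k Fb (π ⟨a, ha⟩)
  unit_scale : ∀ f : F, f ≠ 0 →
    ∃ c : K, c ≠ 0 ∧ ∃ h : algebraMap K F c * f ∈ O, red ⟨algebraMap K F c * f, h⟩ ≠ 0

section Abstract

variable {K F k Fb : Type*} [Field K] [Field F] [Algebra K F] [Field k] [Field Fb] [Algebra k Fb]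
variable (R : PreDatum K F k Fb)

/-- `P ∈ FD(t, c)`: `t` is regular at `P`, its value lies in `A` and reduces to `c`. -/
def InDisc (t : F) (c : k) (P : Place K F) : Prop :=
  ∃ (a : K) (ha : a ∈ R.A), ValAt P t a ∧ R.π ⟨a, ha⟩ = c

/-- The chart ring `A[t] ⊆ F`. -/
def chartRing (t : F) : Subring F :=
  Subring.closure (Set.range (fun a : R.A => algebraMap K F (a : K)) ∪ {t})

/-- `b` is integral over the chart ring `A[t]`. -/
def IntChart (t b : F) : Prop := IsIntegral (chartRing R t) b

/-- Standing hypotheses on a chart `t`. -/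
structure Setting (t : F) : Prop where
  algK : IsAlgClosed K
  char0 : CharZero K
  algk : IsAlgClosed k
  ht : t ∈ R.O
  htK : Transcendental K t
  htk : Transcendental k (R.red ⟨t, ht⟩)
  fin : FiniteDimensional K⟮t⟯ F
  finb : FiniteDimensional k⟮R.red ⟨t, ht⟩⟯ Fb
  sepb : Algebra.IsSeparable k⟮R.red ⟨t, ht⟩⟯ Fb
  deg : Module.finrank K⟮t⟯ F = Module.finrank k⟮R.red ⟨t, ht⟩⟯ Fb

open Classical in
/-- FIBRE NET COUNT at `(t, c)`. -/
def FNCAt (t : F) (ht : t ∈ R.O) (c : k) : Prop :=
  ∀ (y : F) (hy : y ∈ R.O), R.red ⟨y, hy⟩ ≠ 0 →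
    ∀ (D : Divisor K F) (Db : Divisor k Fb), IsDivOf y D → IsDivOf (R.red ⟨y, hy⟩) Db →
      (∑ P ∈ D.support with InDisc R t c P, D P) =
        ∑ Q ∈ Db.support with ValAt Q (R.red ⟨t, ht⟩) c, Db Q

/-- REG at `(t, c)`: no poles on the fibre disc ⇒ the reduction has no poles on the fibre. -/
def RegAt (t : F) (ht : t ∈ R.O) (c : k) : Prop :=
  ∀ (y : F) (hy : y ∈ R.O), R.red ⟨y, hy⟩ ≠ 0 →
    (∀ P : Place K F, InDisc R t c P → 0 ≤ P.ord y) →
    ∀ Q : Place k Fb, ValAt Q (R.red ⟨t, ht⟩) c → 0 ≤ Q.ord (R.red ⟨y, hy⟩)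

/-- UNIF at `(t, c)` ("the special fibre is normal over `c`"): every place `Q` of the fibre
has a uniformizer which is the reduction of a function integral over `A[t]` and which is a
unit at the other places of the fibre. -/
def UnifAt (t : F) (ht : t ∈ R.O) (c : k) : Prop :=
  ∀ Q : Place k Fb, ValAt Q (R.red ⟨t, ht⟩) c →
    ∃ (g : F) (hg : g ∈ R.O), IntChart R t g ∧ Q.ord (R.red ⟨g, hg⟩) = 1 ∧
      ∀ Q' : Place k Fb, ValAt Q' (R.red ⟨t, ht⟩) c → Q' ≠ Q → Q'.ord (R.red ⟨g, hg⟩) = 0

open Classical in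
/-- SHEET at `(t, c)`: a map `r` defined on the fibre disc with the net count. -/
def SheetAt (t : F) (ht : t ∈ R.O) (c : k) : Prop :=
  ∃ r : Place K F → Place k Fb,
    (∀ P, InDisc R t c P → ValAt (r P) (R.red ⟨t, ht⟩) c) ∧
    ∀ (y : F) (hy : y ∈ R.O), R.red ⟨y, hy⟩ ≠ 0 → ∀ D : Divisor K F, IsDivOf y D →
      ∀ Q : Place k Fb, ValAt Q (R.red ⟨t, ht⟩) c →
        (∑ P ∈ D.support with (InDisc R t c P ∧ r P = Q), D P) = Q.ord (R.red ⟨y, hy⟩)

/-- The conclusion of R2 in abstract form (= the fields `r`, `deg_r`, `netcount` of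
`H9S18.RedDatum`). -/
def HasReduction : Prop :=
  ∃ r : Place K F → Place k Fb, (∀ P, (r P).deg = P.deg) ∧
    ∀ (y : F) (hy : y ∈ R.O), R.red ⟨y, hy⟩ ≠ 0 → ∀ D : Divisor K F, IsDivOf y D →
      ∀ Q : Place k Fb, Finsupp.mapDomain r D Q = Q.ord (R.red ⟨y, hy⟩)

end Abstract

/-! ### The abstract slices -/

/-- **R2-FNC** (fibre net count). -/
def FNCStatement : Prop :=
  ∀ (K F k Fb : Type) [Field K] [Field F] [Algebra K F] [Field k] [Field Fb] [Algebra k Fb]
    (R : PreDatum K F k Fb) (t : F) (S : Setting R t) (c : k), FNCAt R t S.ht c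

/-- **R2-REG**. -/
def RegStatement : Prop :=
  ∀ (K F k Fb : Type) [Field K] [Field F] [Algebra K F] [Field k] [Field Fb] [Algebra k Fb]
    (R : PreDatum K F k Fb) (t : F) (S : Setting R t) (c : k), RegAt R t S.ht c

/-- **R2-SHEET**. -/
def SheetStatement : Prop :=
  ∀ (K F k Fb : Type) [Field K] [Field F] [Algebra K F] [Field k] [Field Fb] [Algebra k Fb]
    (R : PreDatum K F k Fb) (t : F) (S : Setting R t) (c : k),
    FNCAt R t S.ht c → RegAt R t S.ht c → UnifAt R t S.ht c → SheetAt R t S.ht c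

/-- **R2-INV**: the chart `t⁻¹`. -/
def InvStatement : Prop :=
  ∀ (K F k Fb : Type) [Field K] [Field F] [Algebra K F] [Field k] [Field Fb] [Algebra k Fb]
    (R : PreDatum K F k Fb) (t : F), Setting R t → Setting R t⁻¹

/-- **R2-ASM**: the charts `(t, c)`, `c ∈ k`, and `(t⁻¹, 0)` glue. -/
def AsmStatement : Prop :=
  ∀ (K F k Fb : Type) [Field K] [Field F] [Algebra K F] [Field k] [Field Fb] [Algebra k Fb]
    (R : PreDatum K F k Fb) (t : F) (S : Setting R t) (ht' : t⁻¹ ∈ R.O),
    (∀ c : k, SheetAt R t S.ht c) → SheetAt R t⁻¹ ht' 0 → HasReduction R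

/-- The abstract form of R2: a chart with UNIF everywhere has a reduction map. -/
def AbstractStatement : Prop :=
  ∀ (K F k Fb : Type) [Field K] [Field F] [Algebra K F] [Field k] [Field Fb] [Algebra k Fb]
    (R : PreDatum K F k Fb) (t : F) (S : Setting R t) (ht' : t⁻¹ ∈ R.O),
    (∀ c : k, UnifAt R t S.ht c) → UnifAt R t⁻¹ ht' 0 → HasReduction R

/-- Assembly of the abstract layer. -/
theorem abstract_of_slices (hF : FNCStatement) (hR : RegStatement) (hS : SheetStatement)
    (hI : InvStatement) (hA : AsmStatement) : AbstractStatement := by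
  intro K F k Fb _ _ _ _ _ _ R t S ht' hU hU'
  have S' : Setting R t⁻¹ := hI K F k Fb R t S
  refine hA K F k Fb R t S ht' (fun c => ?_) ?_
  · exact hS K F k Fb R t S c (hF K F k Fb R t S c) (hR K F k Fb R t S c) (hU c)
  · exact hS K F k Fb R t⁻¹ S' 0 (hF K F k Fb R t⁻¹ S' 0) (hR K F k Fb R t⁻¹ S' 0) hU'

end H18R2

end
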