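/-
helper18: item 79 (S37), slice R2: basic lemmas on a `PreDatum` (shared).
-/
import Mathlib
import Fermat.Agent.S37.R2Defs_helper18
import Fermat.Agent.S18.A1Basic

set_option autoImplicit false
set_option linter.unusedSectionVars false

noncomputable section

open AlgebraicCurve IntermediateField Polynomial

namespace H18R2

open H9S18 (ValAt IsDivOf)

section PreDatum

variable {K F k Fb : Type*} [Field K] [Field F] [Algebra K F] [Field k] [Field Fb] [Algebra k Fb]
variable (R : PreDatum K F k Fb)

/-- the constants `A → O` -/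
def PreDatum.constHom : R.A →+* R.O where
  toFun a := ⟨algebraMap K F (a : K), R.const_mem a a.2⟩
  map_one' := by ext; simp
  map_mul' x y := by ext; simp
  map_zero' := by ext; simp
  map_add' x y := by ext; simp

@[simp] theorem PreDatum.coe_constHom (a : R.A) :
    ((R.constHom a : R.O) : F) = algebraMap K F (a : K) := rfl

theorem PreDatum.red_constHom (a : R.A) : R.red (R.constHom a) = algebraMap k Fb (R.π a) :=
  R.red_const a a.2

theorem PreDatum.red_comp_constHom :
    R.red.comp R.constHom = (algebraMap k Fb).comp R.π :=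
  RingHom.ext fun a => R.red_constHom a

/-- an element of `O` with nonzero reduction is a unit of `O` -/
theorem PreDatum.isUnit_of_red_ne_zero (y : R.O) (hy : R.red y ≠ 0) : IsUnit y := by
  by_contra h
  exact hy (R.red_nonunit y h)

/-- a unit of `O` has nonzero reduction -/
theorem PreDatum.red_ne_zero_of_isUnit (y : R.O) (hy : IsUnit y) : R.red y ≠ 0 :=
  (hy.map R.red).ne_zero

theorem PreDatum.inv_mem_of_red_ne_zero {y : F} (hy : y ∈ R.O) (h : R.red ⟨y, hy⟩ ≠ 0) :
    y⁻¹ ∈ R.O := by
  obtain ⟨u, hu⟩ := R.isUnit_of_red_ne_zero ⟨y, hy⟩ h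
  have h1 : ((u⁻¹ : (R.O)ˣ) : R.O) * ⟨y, hy⟩ = 1 := by rw [← hu]; exact u.inv_mul
  have h2 : (((u⁻¹ : (R.O)ˣ) : R.O) : F) * y = 1 := by
    have := congrArg (fun z : R.O => (z : F)) h1
    simpa using this
  have h3 : y⁻¹ = (((u⁻¹ : (R.O)ˣ) : R.O) : F) := (eq_inv_of_mul_eq_one_left h2).symm
  rw [h3]
  exact ((u⁻¹ : (R.O)ˣ) : R.O).2

/-- a unit of `A` has nonzero residue -/
theorem PreDatum.pi_ne_zero_of_isUnit (a : R.A) (ha : IsUnit a) : R.π a ≠ 0 :=
  (ha.map R.π).ne_zero

/-- `O ∩ K = A` -/
theorem PreDatum.mem_A_of_mem_O {a : K} (h : algebraMap K F a ∈ R.O) : a ∈ R.A := by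
  by_contra ha
  have ha0 : a ≠ 0 := fun h0 => ha (h0 ▸ R.A.zero_mem)
  have hinv : a⁻¹ ∈ R.A := (R.A.mem_or_inv_mem a).resolve_left ha
  have hnu : ¬ IsUnit (⟨a⁻¹, hinv⟩ : R.A) := by
    intro hu
    obtain ⟨b, hb⟩ := hu.exists_right_inv
    have hb' : a⁻¹ * (b : K) = 1 := by
      have := congrArg (fun z : R.A => (z : K)) hb
      simpa using this
    have : (b : K) = a := by
      field_simp at hb'
      exact hb'
    exact ha (this ▸ b.2)
  have h0 : R.red (R.constHom ⟨a⁻¹, hinv⟩) = 0 := by
    rw [R.red_constHom, R.π_nonunit _ hnu, map_zero]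
  have hu : IsUnit (R.constHom ⟨a⁻¹, hinv⟩) := by
    refine IsUnit.of_mul_eq_one (⟨algebraMap K F a, h⟩ : R.O) ?_
    apply Subtype.ext
    show algebraMap K F a⁻¹ * algebraMap K F a = 1
    rw [← map_mul, inv_mul_cancel₀ ha0, map_one]
  exact R.red_ne_zero_of_isUnit _ hu h0

/-- the chart ring lies in `O` -/
theorem chartRing_le {t : F} (ht : t ∈ R.O) : chartRing R t ≤ R.O.toSubring := by
  rw [chartRing, Subring.closure_le]
  rintro x (⟨a, rfl⟩ | hx)
  · exact R.const_mem a a.2
  · rw [Set.mem_singleton_iff] at hx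
    rw [hx]
    exact ht

/-- the inclusion of the chart ring in `O` -/
def chartIncl {t : F} (ht : t ∈ R.O) : chartRing R t →+* R.O where
  toFun x := ⟨x.1, chartRing_le R ht x.2⟩
  map_one' := rfl
  map_mul' _ _ := rfl
  map_zero' := rfl
  map_add' _ _ := rfl

/-- functions integral over the chart ring lie in `O` -/
theorem IntChart.mem_O {t b : F} (ht : t ∈ R.O) (hb : IntChart R t b) : b ∈ R.O := by
  obtain ⟨p, hp, hpb⟩ := hb
  have hint : IsIntegral R.O b := by
    refine ⟨p.map (chartIncl R ht), hp.map _, ?_⟩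
    rw [eval₂_map]
    exact hpb
  obtain ⟨y, hy⟩ := (IsIntegrallyClosed.isIntegral_iff (R := R.O) (K := F)).mp hint
  rw [← hy]
  exact y.2

/-- evaluation of polynomials over `A` at an element of `O` commutes with reduction -/
theorem PreDatum.red_eval₂ (p : (R.A)[X]) (T : R.O) :
    R.red (p.eval₂ R.constHom T) = Polynomial.aeval (R.red T) (p.map R.π) := by
  rw [Polynomial.hom_eval₂, R.red_comp_constHom, aeval_def, eval₂_map]

end PreDatum

section ValAt

variable {K F : Type*} [Field K] [Field F] [Algebra K F] (P : Place K F)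

theorem valAt_pow {y : F} {a : K} (h : ValAt P y a) (n : ℕ) : ValAt P (y ^ n) (a ^ n) := by
  induction n with
  | zero =>
    have := H9S18.valAt_const P (1 : K) (F := F)
    simpa using this
  | succ n ih =>
    rw [pow_succ, pow_succ]
    exact ih.mul P h

/-- values of polynomial expressions -/
theorem valAt_aeval {y : F} {a : K} (h : ValAt P y a) (p : K[X]) :
    ValAt P (Polynomial.aeval y p) (p.eval a) := by
  induction p using Polynomial.induction_on' with
  | add p q hp hq =>
    rw [map_add, eval_add]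
    exact hp.add P hq
  | monomial n c =>
    rw [aeval_monomial, eval_monomial]
    exact (H9S18.valAt_const P c).mul P (valAt_pow P h n)

end ValAt

end H18R2

end
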