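/-
helper18: item 79 (S37), slice R2-LN, part 1: the abstract purity theorem for elements which
are INTEGRAL modulo `π` (generalisation of `H18S18.h18_purity_abs`, which is the case of the
equation `x² - x`).

`T` a noetherian UFD with fraction field `L`, `E / L` finite separable, `M₀` the integral closure
of `T` in `E`, `π ∈ T` prime with `T / π` a PID, `O_E = M₀ [ (T ∖ (π))⁻¹ ]`, `𝔪 ∋ π` a maximal ideal
of `T`.  If `M₀` is self-dual for the trace form at `(π)` and at every other prime element of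
`𝔪`, then every element of `O_E / π O_E` which is integral over `T` lies in the image of
`(M₀)_𝔪`: "the special fibre is normal at `𝔪`".
-/
import Mathlib
import Fermat.Agent.S18.H18PurityE

set_option autoImplicit false
set_option linter.unusedSectionVars false

namespace H18R2

open H18S18

section PurityN

variable {T : Type*} (L : Type*) {E : Type*} [CommRing T] [IsDomain T]
  [UniqueFactorizationMonoid T]
  [IsNoetherianRing T] [Field L] [Algebra T L] [IsFractionRing T L]
  [Field E] [Algebra T E] [Algebra L E] [IsScalarTower T L E] [FiniteDimensional L E]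
  [Algebra.IsSeparable L E] [Module.IsTorsionFree T E]

omit [IsDomain T] [UniqueFactorizationMonoid T] [IsNoetherianRing T] [Module.IsTorsionFree T E] in
/-- congruent elements have congruent powers -/
theorem h18pn_pow_congr {π : T} (hπ : Prime π) {u v w : E} (hu : OEp π u) (hv : OEp π v)
    (hw : OEp π w) (h : u - v = algebraMap T E π * w) (i : ℕ) :
    ∃ wi : E, OEp π wi ∧ u ^ i - v ^ i = algebraMap T E π * wi := by
  induction i with
  | zero => exact ⟨0, oEp_zero hπ, by simp⟩
  | succ i ih =>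
    obtain ⟨wi, hwi, hi⟩ := ih
    have hvi : OEp π (v ^ i) := by
      clear hi
      induction i with
      | zero => simpa using oEp_algebraMap (E := E) hπ (1 : T)
      | succ j ihj => rw [pow_succ]; exact oEp_mul hπ ihj hv
    refine ⟨u * wi + w * v ^ i, oEp_add hπ (oEp_mul hπ hu hwi) (oEp_mul hπ hw hvi), ?_⟩
    have : u ^ (i + 1) - v ^ (i + 1) = u * (u ^ i - v ^ i) + (u - v) * v ^ i := by ring
    rw [this, hi, h]
    ring

omit [IsDomain T] [UniqueFactorizationMonoid T] [IsNoetherianRing T] [Module.IsTorsionFree T E] in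
theorem h18pn_oEp_pow {π : T} (hπ : Prime π) {v : E} (hv : OEp π v) (i : ℕ) : OEp π (v ^ i) := by
  induction i with
  | zero => simpa using oEp_algebraMap (E := E) hπ (1 : T)
  | succ j ihj => rw [pow_succ]; exact oEp_mul hπ ihj hv

omit [IsDomain T] [UniqueFactorizationMonoid T] [IsNoetherianRing T] [Module.IsTorsionFree T E] in
theorem h18pn_oEp_sum {π : T} (hπ : Prime π) {ι : Type*} (s : Finset ι) (f : ι → E)
    (hf : ∀ i ∈ s, OEp π (f i)) : OEp π (∑ i ∈ s, f i) := by
  classical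
  induction s using Finset.induction_on with
  | empty => simpa using oEp_zero (E := E) hπ
  | insert a s ha ih =>
    rw [Finset.sum_insert ha]
    exact oEp_add hπ (hf a (Finset.mem_insert_self a s))
      (ih fun i hi => hf i (Finset.mem_insert_of_mem hi))

/-- iterated reducedness of `M₀ / 𝔪 M₀` -/
theorem h18pn_reduced_pow {n : ℕ} (b : Module.Basis (Fin n) L E)
    (s₀ : T) (𝔪 : Ideal T) (h𝔪 : 𝔪.IsMaximal) (π p : T) (hπ : π ∈ 𝔪) (hp : p ∈ 𝔪)
    (h𝔪gen : ∀ x ∈ 𝔪, ∃ α β : T, x = α * π + β * p)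
    (hs₀ : s₀ ∉ 𝔪) (hbi : ∀ i, IsIntegral T (b i))
    (hb : ∀ m : E, IsIntegral T m → ∀ i, ∃ c : T,
      b.repr (algebraMap T E s₀ * m) i = algebraMap T L c)
    (c : T) (hc : c ∉ 𝔪)
    (hdual : ∀ i, IsIntegral T (algebraMap T E c *
      ((Algebra.traceForm L E).dualBasis (traceForm_nondegenerate L E) b i)))
    (k : ℕ) : ∀ (w : E), IsIntegral T w → InmM π p (w ^ (2 ^ k)) → InmM π p w := by
  induction k with
  | zero =>
    intro w _ hw2
    simpa using hw2
  | succ k ih =>
    intro w hw hw2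
    apply h18pc_reduced b s₀ 𝔪 h𝔪 π p hπ hp h𝔪gen hs₀ hbi hb c hc hdual w hw
    apply ih (w * w) (hw.mul hw)
    have : (w * w) ^ (2 ^ k) = w ^ (2 ^ (k + 1)) := by
      rw [← pow_two, ← pow_mul, pow_succ, mul_comm]
    rw [this]
    exact hw2

/-- **Abstract purity theorem for elements integral modulo `π`.** -/
theorem h18_purity_int (π : T) (hπ : Prime π)
    (hPID : IsPrincipalIdealRing (T ⧸ Ideal.span {π}))
    (𝔪 : Ideal T) (h𝔪 : 𝔪.IsMaximal) (hπ𝔪 : π ∈ 𝔪)
    (hG : ∀ y : E, (∀ m : E, IsIntegral T m →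
        ∃ a : T, Algebra.trace L E (y * m) = algebraMap T L a) →
        ∃ s : T, ¬ π ∣ s ∧ IsIntegral T (algebraMap T E s * y))
    (hH : ∀ P : T, Prime P → P ∈ 𝔪 → ¬ Associated P π → ∀ y : E,
        (∀ m : E, IsIntegral T m → ∃ a : T, Algebra.trace L E (y * m) = algebraMap T L a) →
        ∃ s : T, ¬ P ∣ s ∧ IsIntegral T (algebraMap T E s * y))
    (x : E) (hx : OEp π x) (N : ℕ) (cf : ℕ → T) (z : E) (hz : OEp π z)
    (hxx : x ^ N + ∑ i ∈ Finset.range N, algebraMap T E (cf i) * x ^ i = algebraMap T E π * z) :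
    ∃ s : T, s ∉ 𝔪 ∧ ∃ a : E, IsIntegral T a ∧ ∃ z' : E, OEp π z' ∧
      algebraMap T E s * x - a = algebraMap T E π * z' := by
  classical
  have hinjE : Function.Injective (algebraMap T E) := FaithfulSMul.algebraMap_injective T E
  have hπE : algebraMap T E π ≠ 0 := fun h0 => hπ.ne_zero (hinjE (h0.trans (map_zero _).symm))
  -- the adapted basis
  obtain ⟨n, e, hei, ha, s₀, hs₀, hb⟩ := h18pb_basis L (E := E) π hπ hPID
  obtain ⟨b, hbe⟩ := h18pd_basisL L π hπ e ha s₀ hs₀ hb
  have hbi : ∀ i, IsIntegral T (b i) := fun i => by rw [hbe]; exact hei i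
  have hb' : ∀ m : E, IsIntegral T m →
      ∃ c : Fin n → T, algebraMap T E s₀ * m = ∑ i, algebraMap T E (c i) * b i := by
    intro m hm
    obtain ⟨c, hc⟩ := hb m hm
    exact ⟨c, by rw [hc]; exact Finset.sum_congr rfl (fun i _ => by rw [hbe])⟩
  have hcoord := h18pd_coord L b s₀ hb'
  have hs₀𝔪 : s₀ ∉ 𝔪 := by
    intro h
    obtain ⟨d, hd⟩ := hs₀
    have h1 : (1 : T) = s₀ - π * d := by rw [← hd]; ring
    exact h𝔪.ne_top ((Ideal.eq_top_iff_one _).mpr
      (h1 ▸ 𝔪.sub_mem h (𝔪.mul_mem_right _ hπ𝔪)))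
  obtain ⟨c, hc𝔪, hcd⟩ := h18pe_dual_denoms L b s₀ 𝔪 h𝔪.isPrime hs₀𝔪 hcoord π hπ hG hH
  -- by contradiction
  by_contra hcon
  have hD𝔪 : ∀ s : T, (∃ a : E, IsIntegral T a ∧ ∃ z' : E, OEp π z' ∧
      algebraMap T E s * x - a = algebraMap T E π * z') → s ∈ 𝔪 := by
    intro s hs
    by_contra hs𝔪
    exact hcon ⟨s, hs𝔪, hs⟩
  -- the ideal `D`
  let D : Ideal T :=
    { carrier := {s | ∃ a : E, IsIntegral T a ∧ ∃ z' : E, OEp π z' ∧
        algebraMap T E s * x - a = algebraMap T E π * z'}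
      add_mem' := by
        rintro s₁ s₂ ⟨a₁, ha₁, z₁, hz₁, h₁⟩ ⟨a₂, ha₂, z₂, hz₂, h₂⟩
        refine ⟨a₁ + a₂, ha₁.add ha₂, z₁ + z₂, oEp_add hπ hz₁ hz₂, ?_⟩
        rw [map_add, mul_add, ← h₁, ← h₂]; ring
      zero_mem' := ⟨0, isIntegral_zero, 0, oEp_zero hπ, by simp⟩
      smul_mem' := by
        rintro r s ⟨a, ha, z', hz', h⟩
        refine ⟨algebraMap T E r * a, isIntegral_algebraMap.mul ha, algebraMap T E r * z',
          oEp_smul r hz', ?_⟩
        rw [smul_eq_mul, map_mul]
        have : algebraMap T E π * (algebraMap T E r * z') =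
            algebraMap T E r * (algebraMap T E π * z') := by ring
        rw [this, ← h]; ring }
  have hDmem : ∀ s : T, s ∈ D ↔ ∃ a : E, IsIntegral T a ∧ ∃ z' : E, OEp π z' ∧
      algebraMap T E s * x - a = algebraMap T E π * z' := fun s => Iff.rfl
  have hD𝔪' : ∀ s ∈ D, s ∈ 𝔪 := fun s hs => hD𝔪 s ((hDmem s).mp hs)
  set I : Ideal T := Ideal.span {π} with hI
  have hsurj : Function.Surjective (Ideal.Quotient.mk I) := Ideal.Quotient.mk_surjective
  -- generators modulo `π`
  have hgen : ∀ J : Ideal T, ∃ g ∈ J, ∀ d ∈ J, ∃ α β : T, d = α * g + β * π := by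
    intro J
    obtain ⟨g', hg'⟩ := (hPID.principal (J.map (Ideal.Quotient.mk I))).principal
    have hg'mem : g' ∈ J.map (Ideal.Quotient.mk I) := by
      rw [hg']; exact Submodule.mem_span_singleton_self g'
    obtain ⟨g, hgJ, hg⟩ := (Ideal.mem_map_iff_of_surjective _ hsurj).mp hg'mem
    refine ⟨g, hgJ, fun d hd => ?_⟩
    have h1 : Ideal.Quotient.mk I d ∈ J.map (Ideal.Quotient.mk I) := Ideal.mem_map_of_mem _ hd
    rw [hg'] at h1
    obtain ⟨α', hα'⟩ := Ideal.mem_span_singleton'.mp h1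
    obtain ⟨α, rfl⟩ := hsurj α'
    have h2 : Ideal.Quotient.mk I (d - α * g) = 0 := by
      rw [map_sub, map_mul, hg, hα', sub_self]
    obtain ⟨β, hβ⟩ := Ideal.mem_span_singleton.mp (Ideal.Quotient.eq_zero_iff_mem.mp h2)
    exact ⟨α, β, by linear_combination hβ⟩
  obtain ⟨q, hqD, hqgen⟩ := hgen D
  obtain ⟨p, hp𝔪, hpgen⟩ := hgen 𝔪
  have h𝔪gen : ∀ y ∈ 𝔪, ∃ α β : T, y = α * π + β * p := by
    intro y hy
    obtain ⟨α, β, h⟩ := hpgen y hy
    exact ⟨β, α, by rw [h]; ring⟩
  -- Step A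
  obtain ⟨sx, hsx, hsxx⟩ := hx
  have hsxD : sx ∈ D := ⟨algebraMap T E sx * x, hsxx, 0, oEp_zero hπ, by simp⟩
  have hπq : ¬ π ∣ q := by
    intro h
    obtain ⟨α, β, hαβ⟩ := hqgen sx hsxD
    apply hsx
    rw [hαβ]
    exact dvd_add (Dvd.dvd.mul_left h α) (Dvd.intro_left β rfl)
  -- Step B
  obtain ⟨q', β₀, hq⟩ := hpgen q (hD𝔪' q hqD)
  -- Step C
  obtain ⟨a, hai, z₁, hz₁, haz⟩ := (hDmem q).mp hqD
  have hxO : OEp π x := ⟨sx, hsx, hsxx⟩
  have haO : OEp π a := oEp_of_isIntegral hπ hai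
  have hqxO : OEp π (algebraMap T E q * x) := oEp_smul q hxO
  -- powers of `a` and of `q x` are congruent
  have hpow : ∀ i : ℕ, ∃ wi : E, OEp π wi ∧
      (algebraMap T E q * x) ^ i - a ^ i = algebraMap T E π * wi :=
    fun i => h18pn_pow_congr hπ hqxO haO hz₁ haz i
  choose wi hwiO hwi using hpow
  -- the scaled equation
  set W : E := ∑ i ∈ Finset.range N,
    algebraMap T E (cf i) * algebraMap T E q ^ (N - i - 1) * a ^ i with hW
  have hWi : IsIntegral T W := by
    refine IsIntegral.sum _ fun i _ => ?_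
    exact (isIntegral_algebraMap.mul (isIntegral_algebraMap.pow _)).mul (hai.pow _)
  set z₂ : E := algebraMap T E q ^ N * z - wi N
    - ∑ i ∈ Finset.range N,
        algebraMap T E (cf i) * algebraMap T E q ^ (N - i) * wi i with hz₂
  have hz₂O : OEp π z₂ := by
    refine oEp_sub hπ (oEp_sub hπ ?_ (hwiO N)) (h18pn_oEp_sum hπ _ _ fun i _ => ?_)
    · rw [← map_pow]; exact oEp_smul _ hz
    · rw [← map_pow, ← map_mul]; exact oEp_smul _ (hwiO i)
  have hscaled : a ^ N + algebraMap T E q * W = algebraMap T E π * z₂ := by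
    have h1 : algebraMap T E q * W = ∑ i ∈ Finset.range N,
        algebraMap T E (cf i) * algebraMap T E q ^ (N - i) * a ^ i := by
      rw [hW, Finset.mul_sum]
      refine Finset.sum_congr rfl fun i hi => ?_
      have hiN : i < N := Finset.mem_range.mp hi
      have hpw : algebraMap T E q ^ (N - i) =
          algebraMap T E q ^ (N - i - 1) * algebraMap T E q := by
        rw [← pow_succ]; congr 1; omega
      rw [hpw]
      ring
    have h2 : algebraMap T E q ^ N * (x ^ N + ∑ i ∈ Finset.range N,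
        algebraMap T E (cf i) * x ^ i) = (algebraMap T E q * x) ^ N + ∑ i ∈ Finset.range N,
        algebraMap T E (cf i) * algebraMap T E q ^ (N - i) * (algebraMap T E q * x) ^ i := by
      rw [mul_add, mul_pow, Finset.mul_sum]
      congr 1
      refine Finset.sum_congr rfl fun i hi => ?_
      have hiN : i < N := Finset.mem_range.mp hi
      have : algebraMap T E q ^ N = algebraMap T E q ^ (N - i) * algebraMap T E q ^ i := by
        rw [← pow_add]; congr 1; omega
      rw [this, mul_pow]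
      ring
    have h3 : ∀ i, a ^ i = (algebraMap T E q * x) ^ i - algebraMap T E π * wi i := by
      intro i; rw [← hwi i]; ring
    have h4 : algebraMap T E π * (algebraMap T E q ^ N * z) =
        (algebraMap T E q * x) ^ N + ∑ i ∈ Finset.range N,
        algebraMap T E (cf i) * algebraMap T E q ^ (N - i) * (algebraMap T E q * x) ^ i := by
      rw [← h2, hxx]; ring
    have h5 : ∑ i ∈ Finset.range N,
        algebraMap T E (cf i) * algebraMap T E q ^ (N - i) * a ^ i =
        ∑ i ∈ Finset.range N, algebraMap T E (cf i) * algebraMap T E q ^ (N - i) *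
          (algebraMap T E q * x) ^ i -
        algebraMap T E π * ∑ i ∈ Finset.range N,
          algebraMap T E (cf i) * algebraMap T E q ^ (N - i) * wi i := by
      rw [Finset.mul_sum, ← Finset.sum_sub_distrib]
      refine Finset.sum_congr rfl fun i _ => ?_
      rw [h3 i]; ring
    rw [h1, hz₂]
    linear_combination h5 + h3 N - h4
  have hz₂i : IsIntegral T z₂ := by
    apply h18pe_sat hπ hz₂O
    rw [← hscaled]
    exact (hai.pow N).add (isIntegral_algebraMap.mul hWi)
  have haN : InmM π p (a ^ N) := by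
    refine ⟨z₂ - algebraMap T E β₀ * W, - (algebraMap T E q' * W),
      hz₂i.sub (isIntegral_algebraMap.mul hWi), (isIntegral_algebraMap.mul hWi).neg, ?_⟩
    have h1 : algebraMap T E q = algebraMap T E q' * algebraMap T E p +
        algebraMap T E β₀ * algebraMap T E π := by
      rw [hq]; simp only [map_add, map_mul]
    have : a ^ N = algebraMap T E π * z₂ - algebraMap T E q * W := by rw [← hscaled]; ring
    rw [this, h1]
    ring
  have haN2 : InmM π p (a ^ (2 ^ N)) := by
    have hle : N ≤ 2 ^ N := Nat.lt_two_pow_self.le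
    have : a ^ (2 ^ N) = a ^ N * a ^ (2 ^ N - N) := by
      rw [← pow_add]; congr 1; omega
    rw [this]
    exact h18pc_inmM_mul π p haN (hai.pow _)
  -- Step D
  obtain ⟨m₁, m₂, hm₁, hm₂, ham⟩ := h18pn_reduced_pow L b s₀ 𝔪 h𝔪 π p hπ𝔪 hp𝔪 h𝔪gen hs₀𝔪 hbi
    hcoord c hc𝔪 hcd N a hai haN2
  -- Step E
  set z₃ : E := z₁ + m₁ - algebraMap T E β₀ * x with hz₃
  have hz₃O : OEp π z₃ :=
    oEp_sub hπ (oEp_add hπ hz₁ (oEp_of_isIntegral hπ hm₁)) (oEp_smul β₀ hxO)
  have hpz : algebraMap T E p * (algebraMap T E q' * x - m₂) = algebraMap T E π * z₃ := by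
    have h1 : algebraMap T E q = algebraMap T E q' * algebraMap T E p +
        algebraMap T E β₀ * algebraMap T E π := by
      rw [hq]; simp only [map_add, map_mul]
    rw [hz₃]
    linear_combination haz + ham - x * h1
  set z₄ : E := (algebraMap T E q' * x - m₂) / algebraMap T E π with hz₄
  have hπz₄ : algebraMap T E π * z₄ = algebraMap T E q' * x - m₂ := by
    rw [hz₄]; field_simp
  have hpz₄ : algebraMap T E p * z₄ = z₃ := by
    have : algebraMap T E π * (algebraMap T E p * z₄) = algebraMap T E π * z₃ := by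
      rw [← hpz, ← hπz₄]; ring
    exact mul_left_cancel₀ hπE this
  have hπp : ¬ π ∣ p := by
    intro h
    apply hπq
    rw [hq]
    exact dvd_add (Dvd.dvd.mul_left h q') (Dvd.intro_left β₀ rfl)
  have hz₄O : OEp π z₄ := by
    obtain ⟨s₃, hs₃, hs₃z⟩ := hz₃O
    refine ⟨sx, hsx, ?_⟩
    apply H19S18.h19_lemmaU_gen π (s₃ * p) hπ (fun h => (hπ.dvd_or_dvd h).elim hs₃ hπp)
    · have : algebraMap T E π * (algebraMap T E sx * z₄) =
          algebraMap T E q' * (algebraMap T E sx * x) - algebraMap T E sx * m₂ := by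
        have : algebraMap T E π * (algebraMap T E sx * z₄) =
            algebraMap T E sx * (algebraMap T E π * z₄) := by ring
        rw [this, hπz₄]; ring
      rw [this]
      exact (isIntegral_algebraMap.mul hsxx).sub (isIntegral_algebraMap.mul hm₂)
    · have : algebraMap T E (s₃ * p) * (algebraMap T E sx * z₄) =
          algebraMap T E sx * (algebraMap T E s₃ * z₃) := by
        rw [← hpz₄, map_mul]; ring
      rw [this]
      exact isIntegral_algebraMap.mul hs₃z
  have hq'D : q' ∈ D := ⟨m₂, hm₂, z₄, hz₄O, hπz₄.symm⟩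
  -- Step F
  obtain ⟨α', β', hq'⟩ := hqgen q' hq'D
  have h1 : π ∣ q * (1 - α' * p) := by
    refine ⟨β' * p + β₀, ?_⟩
    have : q = (α' * q + β' * π) * p + β₀ * π := by rw [← hq']; exact hq
    linear_combination (1 : T) * this
  have h2 : π ∣ 1 - α' * p := (hπ.dvd_or_dvd h1).resolve_left hπq
  have h3 : (1 : T) ∈ 𝔪 := by
    obtain ⟨d, hd⟩ := h2
    have : (1 : T) = π * d + α' * p := by rw [← hd]; ring
    rw [this]
    exact 𝔪.add_mem (𝔪.mul_mem_right _ hπ𝔪) (𝔪.mul_mem_left _ hp𝔪)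
  exact h𝔪.ne_top ((Ideal.eq_top_iff_one _).mpr h3)

end PurityN

end H18R2
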