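/-
helper18: item 79 (S37), slice R2-LN: LOCAL NORMALITY of the special fibre, generic form over a
DVR (= slices C2, C3 of route Y' of S18 with "idempotent modulo `ϖ`" replaced by
"integral modulo `ϖ`").

* `IntModPi R ϖ t x`        : `x` satisfies a monic equation over `R[t]` modulo `ϖ O_E`;
* `LocalNormalUnrStatement` : at a maximal ideal `𝔪 ∋ ϖ` of `R[t]` through which all places are
                              unramified, such an `x` lies in `(M₀ / ϖ)_𝔪`;
* `LocalNormalTameStatement`: the same at `𝔪 = (ϖ, t - c)` for a tame branch point `c`.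
Both are PROVED here (`h18r2_localNormalUnr`, `h18r2_localNormalTame`).
-/
import Mathlib
import Fermat.Agent.S18.H18PurityH
import Fermat.Agent.S18.C2HbFinal_helper19
import Fermat.Agent.S18.C3Done_helper12
import Fermat.Agent.S37.R2PurityN_helper18

set_option autoImplicit false
set_option linter.unusedSectionVars false
set_option linter.style.haveILetI false

open Polynomial IntermediateField AlgebraicCurve

namespace H18R2

open H7S18

/-- `x` is integral over `R[t]` modulo `ϖ O_E`. -/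
def IntModPi (R : Type) [CommRing R] {E : Type} [Field E] [Algebra R E] (ϖ : R) (t x : E) :
    Prop :=
  ∃ (n : ℕ) (c : ℕ → E), (∀ i, c i ∈ Algebra.adjoin R {t}) ∧
    ModPi R ϖ t (x ^ n + ∑ i ∈ Finset.range n, c i * x ^ i) 0

/-- **R2-LN (unramified point)**. -/
def LocalNormalUnrStatement : Prop :=
  ∀ (R : Type) [CommRing R] [IsDomain R] [IsDiscreteValuationRing R]
    (K : Type) [Field K] [CharZero K] [Algebra R K] [IsFractionRing R K]
    (E : Type) [Field E] [Algebra K E] [Algebra R E] [IsScalarTower R K E]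
    (ϖ : R) (_ : Irreducible ϖ) (t : E) (_ : Transcendental K t)
    (_ : FiniteDimensional K⟮t⟯ E)
    (_ : UnrGauss R K ϖ t)
    (𝔪 : Ideal (Algebra.adjoin R {t})) (_ : 𝔪.IsMaximal)
    (_ : algebraMap R (Algebra.adjoin R {t}) ϖ ∈ 𝔪)
    (_ : ∀ V : Place K E, Through R K t 𝔪 V → ∃ Q : K[X], V.ord (Polynomial.aeval t Q) = 1)
    (x : E) (_ : GInt R ϖ t x) (_ : IntModPi R ϖ t x),
    InChartAt R ϖ t 𝔪 x

/-- **R2-LN (tame branch point)**. -/
def LocalNormalTameStatement : Prop :=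
  ∀ (R : Type) [CommRing R] [IsDomain R] [IsDiscreteValuationRing R]
    (K : Type) [Field K] [CharZero K] [Algebra R K] [IsFractionRing R K]
    (E : Type) [Field E] [Algebra K E] [Algebra R E] [IsScalarTower R K E]
    (ϖ : R) (_ : Irreducible ϖ) (t : E) (_ : Transcendental K t)
    (_ : FiniteDimensional K⟮t⟯ E)
    (_ : UnrGauss R K ϖ t)
    (𝔪 : Ideal (Algebra.adjoin R {t})) (_ : 𝔪.IsMaximal)
    (_ : algebraMap R (Algebra.adjoin R {t}) ϖ ∈ 𝔪)
    (c : R) (_ : ∀ s : Algebra.adjoin R {t}, (s : E) = t - algebraMap R E c → s ∈ 𝔪)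
    (e₀ : ℕ) (_ : IsUnit (e₀ : R)) (_ : ∃ ζ : R, IsPrimitiveRoot ζ e₀)
    (_ : ∀ V : Place K E, Through R K t 𝔪 V → V.ord (t - algebraMap R E c) ≤ 0 →
      ∃ Q : K[X], V.ord (Polynomial.aeval t Q) = 1)
    (_ : ∀ V : Place K E, 0 < V.ord (t - algebraMap R E c) →
      V.ord (t - algebraMap R E c) ∣ (e₀ : ℤ))
    (x : E) (_ : GInt R ϖ t x) (_ : IntModPi R ϖ t x),
    InChartAt R ϖ t 𝔪 x

theorem h18r2_localNormalUnr_of (hHb : H18S18.HbStatement) : LocalNormalUnrStatement := by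
  intro R _ _ _ K _ _ _ _ E _ _ _ _ ϖ hϖ t ht hfin hUnr 𝔪 h𝔪 hπ𝔪 hplaces x hx hxx
  classical
  have htR : Transcendental R t := H19S18.h19_transc R K ht
  haveI : UniqueFactorizationMonoid (Algebra.adjoin R {t}) := H16C2G.h16_adjoin_ufd t htR
  haveI : IsNoetherianRing (Algebra.adjoin R {t}) := H19S18.h19_T_noeth R htR
  letI : Algebra (Algebra.adjoin R {t}) K⟮t⟯ := (H19S18.h19_TtoKt R K t).toAlgebra
  haveI : IsFractionRing (Algebra.adjoin R {t}) K⟮t⟯ := H19S18.h19_T_isFractionRing R K t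
  haveI : IsScalarTower (Algebra.adjoin R {t}) K⟮t⟯ E :=
    IsScalarTower.of_algebraMap_eq (fun _ => rfl)
  haveI : CharZero K⟮t⟯ := charZero_of_injective_algebraMap (algebraMap K K⟮t⟯).injective
  haveI : Algebra.IsSeparable K⟮t⟯ E := inferInstance
  have hπ : Prime (algebraMap R (Algebra.adjoin R {t}) ϖ) := H19S18.h19_T_prime R htR hϖ
  have hPID := H16C2G.h16_adjoin_quot_pid t htR hϖ
  have hcoeπ : algebraMap (Algebra.adjoin R {t}) E (algebraMap R (Algebra.adjoin R {t}) ϖ) =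
      algebraMap R E ϖ := rfl
  -- translation `GInt ↔ OEp`
  have hGO : ∀ y : E, H7S18.GInt R ϖ t y →
      H18S18.OEp (algebraMap R (Algebra.adjoin R {t}) ϖ) y := by
    rintro y ⟨s, hs, hsy⟩
    exact ⟨⟨s, hs.1⟩, (H19S18.h19_gaussUnit_iff R ϖ t ⟨s, hs.1⟩).mp hs, hsy⟩
  have hOG : ∀ y : E, H18S18.OEp (algebraMap R (Algebra.adjoin R {t}) ϖ) y →
      H7S18.GInt R ϖ t y := by
    rintro y ⟨s, hs, hsy⟩
    exact ⟨(s : E), (H19S18.h19_gaussUnit_iff R ϖ t s).mpr hs, hsy⟩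
  -- vertical self-duality
  have hG : ∀ y : E, (∀ m : E, IsIntegral (Algebra.adjoin R {t}) m →
        ∃ a : Algebra.adjoin R {t},
          Algebra.trace K⟮t⟯ E (y * m) = algebraMap (Algebra.adjoin R {t}) K⟮t⟯ a) →
        ∃ s : Algebra.adjoin R {t}, ¬ algebraMap R (Algebra.adjoin R {t}) ϖ ∣ s ∧
          IsIntegral (Algebra.adjoin R {t}) (algebraMap (Algebra.adjoin R {t}) E s * y) := by
    intro y hy
    have h1 : H7S18.GInt R ϖ t y := by
      apply hUnr y
      intro m hm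
      obtain ⟨a, ha⟩ := hy m hm
      refine ⟨1, (a : E), H19S18.h19_gaussUnit_one R htR hϖ, a.2, ?_⟩
      rw [one_mul, ha]
      rfl
    exact hGO y h1
  -- horizontal self-duality
  have hH : ∀ P : Algebra.adjoin R {t}, Prime P → P ∈ 𝔪 →
      ¬ Associated P (algebraMap R (Algebra.adjoin R {t}) ϖ) → ∀ y : E,
        (∀ m : E, IsIntegral (Algebra.adjoin R {t}) m → ∃ a : Algebra.adjoin R {t},
          Algebra.trace K⟮t⟯ E (y * m) = algebraMap (Algebra.adjoin R {t}) K⟮t⟯ a) →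
        ∃ s : Algebra.adjoin R {t}, ¬ P ∣ s ∧
          IsIntegral (Algebra.adjoin R {t}) (algebraMap (Algebra.adjoin R {t}) E s * y) := by
    intro P hP hP𝔪 hPπ y hy
    refine hHb R K E ϖ hϖ t ht hfin 𝔪 h𝔪 hplaces P hP hP𝔪 hPπ y (fun m hm => ?_)
    obtain ⟨a, ha⟩ := hy m hm
    exact ⟨a, by rw [ha]; rfl⟩
  obtain ⟨N, c, hc, z, hz, hxz⟩ := hxx
  rw [sub_zero] at hxz
  choose cf hcf using fun i => (⟨⟨c i, hc i⟩, rfl⟩ : ∃ a : Algebra.adjoin R {t}, (a : E) = c i)
  have hxz' : x ^ N + ∑ i ∈ Finset.range N, algebraMap (Algebra.adjoin R {t}) E (cf i) * x ^ i =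
      algebraMap (Algebra.adjoin R {t}) E (algebraMap R (Algebra.adjoin R {t}) ϖ) * z := by
    rw [hcoeπ, ← hxz]
    congr 1
    refine Finset.sum_congr rfl fun i _ => ?_
    rw [← hcf i]
    rfl
  obtain ⟨s, hs𝔪, a, hai, z', hz', hsz⟩ := h18_purity_int K⟮t⟯
    (algebraMap R (Algebra.adjoin R {t}) ϖ) hπ hPID 𝔪 h𝔪 hπ𝔪 hG hH x (hGO x hx) N cf z (hGO z hz)
    hxz'
  exact ⟨s, hs𝔪, a, hai, z', hOG z' hz', by rw [← hcoeπ]; exact hsz⟩

/-- **R2-LN (unramified point)**, proved. -/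
theorem h18r2_localNormalUnr : LocalNormalUnrStatement :=
  h18r2_localNormalUnr_of H19S18.h19_HbStatement

section Tame

open H12C3

/-- **R2-LN (tame branch point)**, proved: Abhyankar's tower as in C3 of route Y'. -/
theorem h18r2_localNormalTame : LocalNormalTameStatement := by
  intro R _ _ _ K _ _ _ _ E _ _ _ _ ϖ hϖ t ht hfin hunr 𝔪 h𝔪 hϖ𝔪 c hc e₀ he₀ hζ hpl1 hpl2 x hx hxx
  classical
  have he₀pos : 0 < e₀ := by
    rcases Nat.eq_zero_or_pos e₀ with h0 | h0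
    · exfalso
      rw [h0, Nat.cast_zero] at he₀
      exact not_isUnit_zero he₀
    · exact h0
  -- an irreducible factor of `X ^ e₀ - (t - c)`
  set τ : E := t - algebraMap R E c with hτ
  have hne : (X ^ e₀ - C τ : E[X]) ≠ 0 := X_pow_sub_C_ne_zero he₀pos τ
  have hnu : ¬ IsUnit (X ^ e₀ - C τ : E[X]) := by
    intro h
    have := Polynomial.natDegree_eq_zero_of_isUnit h
    rw [Polynomial.natDegree_X_pow_sub_C] at this
    omega
  obtain ⟨f, hf, hfdvd⟩ := WfDvdMonoid.exists_irreducible_factor hnu hne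
  haveI : Fact (Irreducible f) := ⟨hf⟩
  let E' : Type := AdjoinRoot f
  let s : E' := AdjoinRoot.root f
  have hpow : s ^ e₀ = algebraMap E E' τ := by
    obtain ⟨g, hg⟩ := hfdvd
    have h0 : Polynomial.aeval s (X ^ e₀ - C τ : E[X]) = 0 := by
      rw [hg, map_mul, AdjoinRoot.aeval_eq, AdjoinRoot.mk_self, zero_mul]
    rw [map_sub, map_pow, Polynomial.aeval_X, Polynomial.aeval_C] at h0
    exact sub_eq_zero.mp h0
  have hadj : IntermediateField.adjoin E {s} = ⊤ := by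
    rw [eq_top_iff]
    intro y _
    have h1 : y ∈ Algebra.adjoin E {s} := by
      rw [AdjoinRoot.adjoinRoot_eq_top]
      exact Algebra.mem_top
    exact IntermediateField.algebra_adjoin_le_adjoin E {s} h1
  have htower : Tower R t c e₀ s := ⟨hpow, hadj⟩
  obtain ⟨hs_tr, hfin', -, -⟩ := towerBasic R K E E' t ht hfin c e₀ he₀ hζ s htower
  have hunr' := H21T2.towerUnrGauss R K E E' ϖ hϖ t ht hfin c e₀ he₀ hζ s htower hunr
  have hsR : Transcendental R s := H21S18.transcendental_base (K := K) hs_tr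
  have h𝔪' := maxIdeal_isMaximal R ϖ hϖ s hsR
  have hϖ' := pi_mem_maxIdeal R ϖ s hsR
  have hs' := gen_mem_maxIdeal R ϖ s hsR
  obtain ⟨hG, hM⟩ := towerLift R K E E' ϖ hϖ t ht c e₀ he₀pos s htower
  have hx' := hG x hx
  have hxx' : IntModPi R ϖ s (algebraMap E E' x) := by
    obtain ⟨n, cc, hcc, hmod⟩ := hxx
    refine ⟨n, fun i => algebraMap E E' (cc i), fun i => htower.map_mem (hcc i), ?_⟩
    have := hM _ _ hmod
    simpa only [map_add, map_pow, map_sum, map_mul, map_zero] using this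
  have hin' := h18r2_localNormalUnr R K E' ϖ hϖ s hs_tr hfin' hunr' (maxIdeal R ϖ s hsR) h𝔪' hϖ'
    (fun V' hV' => H9T3.towerPlaces R K E E' ϖ hϖ t ht hfin 𝔪 h𝔪 hϖ𝔪 c hc e₀ he₀ hζ hpl1 hpl2 s
      htower (maxIdeal R ϖ s hsR) h𝔪' hϖ' hs' V' hV')
    (algebraMap E E' x) hx' hxx'
  exact towerDescent R K E E' ϖ hϖ t ht hfin 𝔪 h𝔪 hϖ𝔪 c hc e₀ he₀ hζ s htower
    (maxIdeal R ϖ s hsR) h𝔪' hϖ' hs' x hx hin'

end Tame

end H18R2
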