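/-
helper18 (architect of item 79 slice R2): INTERFACE, part B (Layer 2 = the modular situation).

`L = ℚ̄`, `A ⊆ ℚ̄` over `ℓ ∤ N`, `k = A / 𝔪`, `F = modularFunctionFieldBar N`,
`Fb = modularFunctionFieldFullC k N`, Gauss valuation ring `O = gvOF B` (helper28),
chart `t = j = RH24.Jbar N`.

* `ExStatement`        (R2-EX, abstract, Riemann-Roch on `Fb`): uniformizers on a fibre;
* `SettingJStatement`  (R2-FINa): `Setting` for the chart `j`;
* `UnifJGoodStatement` (R2-U123): `UnifAt (j, c)` for `ℓ ≥ 5` or `c ≠ 0`, and `UnifAt (j⁻¹, 0)`;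
* `UnifJZeroStatement` (R2-U4): `UnifAt (j, 0)` for `ℓ ∈ {2, 3}` (norm trick from level
                       `lcm(2,N)` resp. `lcm(3,N)`);
* `FinalStatement`     (R2-FINb): `HasReduction` ⇒ `ReductionInputsModL A N`;
* `r2_of_slices`       : all of these + `AbstractStatement` ⇒ `H8S37.R2Statement N`.
-/
import Mathlib
import Fermat.Agent.S37.R2Defs_helper18
import Fermat.Agent.S37.Defs
import Fermat.Agent.S24.Contract
import Fermat.Agent.S18.A0Export_helper28

set_option autoImplicit false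
set_option linter.unusedSectionVars false
set_option synthInstance.maxHeartbeats 400000

noncomputable section

open AlgebraicCurve IntermediateField ModularCurve H28GV

namespace H18R2

open H9S18 (ValAt IsDivOf)

/-- **R2-EX** (abstract; Riemann–Roch `RRD` on `Fb / k`): every place `Q` of the fibre of `tb`
over `c` has a uniformizer `g`, integral over `k[tb]`, which is a unit at the other places of
the fibre. -/
def ExStatement : Prop :=
  ∀ (k Fb : Type) [Field k] [Field Fb] [Algebra k Fb] [IsAlgClosed k]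
    (tb : Fb) (_ : Transcendental k tb) (_ : FiniteDimensional k⟮tb⟯ Fb)
    (_ : Algebra.IsSeparable k⟮tb⟯ Fb) (c : k) (Q : Place k Fb), ValAt Q tb c →
    ∃ g : Fb, IsIntegral (Algebra.adjoin k {tb}) g ∧ Q.ord g = 1 ∧
      ∀ Q' : Place k Fb, ValAt Q' tb c → Q' ≠ Q → Q'.ord g = 0

section GV

variable {L : Type} [Field L] [Algebra ℚ L] {A : ValuationSubring L} {k : Type} [Field k]
  {π : A →+* k} {N : ℕ} [NeZero N]

/-- The `PreDatum` of helper28's Gauss valuation. -/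
def gvPre (B : GVBasis A π N) (hπs : Function.Surjective π)
    (hπ0 : ∀ a : A, ¬ IsUnit a → π a = 0) :
    PreDatum L ↥(laurentBaseChange L (modularFunctionFieldFull N)) k
      ↥(modularFunctionFieldFullC k N) where
  A := A
  π := π
  O := gvOF B
  red := gvRedF B (gv_hpi_of_nonunit hπ0)
  π_surj := hπs
  π_nonunit := hπ0
  red_surj := gvRedF_surjective B (gv_hpi_of_nonunit hπ0) hπs
  red_nonunit := by
    intro y hy
    by_contra h
    exact hy (gvOF_isUnit_of_red B (gv_hpi_of_nonunit hπ0) y h)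
  const_mem := fun a ha => gvOF_const_mem B a ha
  red_const := fun a ha => gvRedF_const B (gv_hpi_of_nonunit hπ0) a ha
  unit_scale := fun f hf => gvOF_unit_scale B (gv_hpi_of_nonunit hπ0) f hf

end GV

/-- The `PreDatum` in the situation of R2. -/
def gvPreBar (N : ℕ) [NeZero N] (A : ValuationSubring (AlgebraicClosure ℚ))
    (B : GVBasis A (IsLocalRing.residue A) N) :
    PreDatum (AlgebraicClosure ℚ) ↥(modularFunctionFieldBar N) (IsLocalRing.ResidueField A)
      ↥(modularFunctionFieldFullC (IsLocalRing.ResidueField A) N) :=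
  gvPre B (gv_residue_surj A) (gv_residue_nonunit A)

/-- **R2-FINa**: the chart `j`. -/
def SettingJStatement : Prop :=
  ∀ (N : ℕ) [NeZero N] (ℓ : ℕ) [Fact ℓ.Prime] (_ : ¬ ℓ ∣ N)
    (A : ValuationSubring (AlgebraicClosure ℚ)) (_ : A.LiesOverPrime ℓ)
    (B : GVBasis A (IsLocalRing.residue A) N),
    Setting (gvPreBar N A B) (RH24.Jbar N)

/-- **R2-U123**: normality of the special fibre over the `j`-line, away from the residue disc
of `j = 0, 1728` when `ℓ ∈ {2, 3}`. -/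
def UnifJGoodStatement : Prop :=
  ∀ (N : ℕ) [NeZero N] (ℓ : ℕ) [Fact ℓ.Prime] (_ : ¬ ℓ ∣ N)
    (A : ValuationSubring (AlgebraicClosure ℚ)) (_ : A.LiesOverPrime ℓ)
    (B : GVBasis A (IsLocalRing.residue A) N),
    (∀ (ht : RH24.Jbar N ∈ (gvPreBar N A B).O) (c : IsLocalRing.ResidueField A),
      (5 ≤ ℓ ∨ c ≠ 0) → UnifAt (gvPreBar N A B) (RH24.Jbar N) ht c) ∧
    ∀ ht' : (RH24.Jbar N)⁻¹ ∈ (gvPreBar N A B).O,
      UnifAt (gvPreBar N A B) (RH24.Jbar N)⁻¹ ht' 0

/-- **R2-U4**: normality of the special fibre over `j = 0 = 1728` for `ℓ ∈ {2, 3}`. -/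
def UnifJZeroStatement : Prop :=
  ∀ (N : ℕ) [NeZero N] (ℓ : ℕ) [Fact ℓ.Prime] (_ : ¬ ℓ ∣ N) (_ : ℓ < 5)
    (A : ValuationSubring (AlgebraicClosure ℚ)) (_ : A.LiesOverPrime ℓ)
    (B : GVBasis A (IsLocalRing.residue A) N)
    (ht : RH24.Jbar N ∈ (gvPreBar N A B).O),
    UnifAt (gvPreBar N A B) (RH24.Jbar N) ht 0

/-- **R2-FINb**: translation to the prelude. -/
def FinalStatement : Prop :=
  ∀ (N : ℕ) [NeZero N] (ℓ : ℕ) [Fact ℓ.Prime] (_ : ¬ ℓ ∣ N)
    (A : ValuationSubring (AlgebraicClosure ℚ)) (_ : A.LiesOverPrime ℓ)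
    (B : GVBasis A (IsLocalRing.residue A) N),
    HasReduction (gvPreBar N A B) → ReductionInputsModL A N

/-- a chart is a unit of `O` -/
theorem Setting.inv_mem {K F k Fb : Type*} [Field K] [Field F] [Algebra K F] [Field k]
    [Field Fb] [Algebra k Fb] {R : PreDatum K F k Fb} {t : F} (S : Setting R t) :
    t⁻¹ ∈ R.O := by
  have h0 : R.red ⟨t, S.ht⟩ ≠ 0 := by
    intro h
    apply S.htk
    rw [h]
    exact isAlgebraic_zero
  have hu : IsUnit (⟨t, S.ht⟩ : R.O) := by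
    by_contra hn
    exact h0 (R.red_nonunit _ hn)
  obtain ⟨u, hu⟩ := hu
  have h1 : ((u⁻¹ : (R.O)ˣ) : R.O) * ⟨t, S.ht⟩ = 1 := by rw [← hu]; exact u.inv_mul
  have h2 : (((u⁻¹ : (R.O)ˣ) : R.O) : F) * t = 1 := by
    have := congrArg (fun z : R.O => (z : F)) h1
    simpa using this
  have h3 : t⁻¹ = (((u⁻¹ : (R.O)ˣ) : R.O) : F) := (eq_inv_of_mul_eq_one_left h2).symm
  rw [h3]
  exact ((u⁻¹ : (R.O)ˣ) : R.O).2

/-- **R2 from its slices.** -/
theorem r2_of_slices (hAbs : AbstractStatement) (hS : SettingJStatement)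
    (hU : UnifJGoodStatement) (hZ : UnifJZeroStatement) (hFin : FinalStatement)
    (N : ℕ) [NeZero N] : H8S37.R2Statement N := by
  intro ℓ hℓ hℓN A hA
  haveI : Fact ℓ.Prime := ⟨hℓ⟩
  obtain ⟨B⟩ := gv_basis_bar A ℓ hA N hℓN
  have S := hS N ℓ hℓN A hA B
  obtain ⟨hU1, hU2⟩ := hU N ℓ hℓN A hA B
  refine hFin N ℓ hℓN A hA B
    (hAbs _ _ _ _ (gvPreBar N A B) (RH24.Jbar N) S S.inv_mem (fun c => ?_) (hU2 _))
  by_cases h5 : 5 ≤ ℓ
  · exact hU1 S.ht c (Or.inl h5)
  · by_cases hc : c = 0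
    · rw [hc]
      exact hZ N ℓ hℓN (by omega) A hA B S.ht
    · exact hU1 S.ht c (Or.inr hc)

end H18R2

end
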