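/-
helper18: item 79 (S37), slice R2-U, abstract part: `UnifAt` from Riemann-Roch on `Fb`
(`ExStatement`) and the LOCAL LIFT property (`LocalLiftAt`), which is what local normality
(`H18R2.h18r2_localNormalUnr/Tame`) delivers.
-/
import Mathlib
import Fermat.Agent.S37.R2DefsB_helper18
import Fermat.Agent.S18.A1Basic

set_option autoImplicit false
set_option linter.unusedSectionVars false

noncomputable section

open AlgebraicCurve IntermediateField

namespace H18R2

open H9S18 (ValAt IsDivOf)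

section

variable {K F k Fb : Type*} [Field K] [Field F] [Algebra K F] [Field k] [Field Fb] [Algebra k Fb]
variable (R : PreDatum K F k Fb)

/-- LOCAL LIFT at `(t, c)`: an element of `O` whose reduction is integral over `k[red t]` is,
up to a factor which is a unit on the fibre over `c`, congruent to a function integral over
`A[t]`. -/
def LocalLiftAt (t : F) (ht : t ∈ R.O) (c : k) : Prop :=
  ∀ (x : F) (hx : x ∈ R.O), IsIntegral (Algebra.adjoin k {R.red ⟨t, ht⟩}) (R.red ⟨x, hx⟩) →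
    ∃ (a : F) (ha : a ∈ R.O) (sb : Fb), IntChart R t a ∧ R.red ⟨a, ha⟩ = sb * R.red ⟨x, hx⟩ ∧
      sb ≠ 0 ∧ ∀ Q : Place k Fb, ValAt Q (R.red ⟨t, ht⟩) c → Q.ord sb = 0

end

/-- **R2-U (abstract part)**: `UnifAt` from `ExStatement` and `LocalLiftAt`. -/
theorem unifAt_of_localLift (hEx : ExStatement)
    {K F k Fb : Type} [Field K] [Field F] [Algebra K F] [Field k] [Field Fb] [Algebra k Fb]
    (R : PreDatum K F k Fb) (t : F) (S : Setting R t) (c : k)
    (h : LocalLiftAt R t S.ht c) : UnifAt R t S.ht c := by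
  intro Q hQ
  haveI := S.algk
  obtain ⟨gb, hgi, hg1, hg0⟩ := hEx k Fb (R.red ⟨t, S.ht⟩) S.htk S.finb S.sepb c Q hQ
  have hgb0 : gb ≠ 0 := by
    rintro rfl
    rw [Place.ord_zero] at hg1
    exact zero_ne_one hg1
  obtain ⟨x, hx⟩ := R.red_surj gb
  obtain ⟨a, ha, sb, hai, hred, hsb0, hsb⟩ := h x.1 x.2 (by
    have : (⟨x.1, x.2⟩ : R.O) = x := rfl
    rw [this, hx]
    exact hgi)
  have hx' : R.red ⟨x.1, x.2⟩ = gb := hx
  rw [hx'] at hred
  refine ⟨a, ha, hai, ?_, fun Q' hQ' hne => ?_⟩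
  · rw [hred, Q.ord_mul hsb0 hgb0, hsb Q hQ, hg1, zero_add]
  · rw [hred, Q'.ord_mul hsb0 hgb0, hsb Q' hQ', hg0 Q' hQ' hne, zero_add]

end H18R2

end
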