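/-
helper18 (architect of item 79 slice R2): INTERFACE, part C = the stages of R2-U123
(`UnifJGoodStatement`).  ONE pipeline, split by stage:

* (B1) `AbsLocalUnrStatement`   : K₁-level local normality at a point `c₁` away from the branch set;
* (B3) `AbsLocalTameStatement`  : at a tame branch point `c₀ ∈ S`;
* (B2) `AbsLocalInftyStatement` : at `∞` (chart `t⁻¹`, point `0`);
       (all three: binder list of `H7S18.AbstractKummerStatement`; proof = the pattern of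
       `H19S18.h19_AK0` (`key` from `H1S18.placeDescent` with `E₁ = F₁`, `hUO'`, `hTA'`) followed by
       `H18R2.h18r2_localNormalUnr` / `h18r2_localNormalTame`);
* (A)  `LiftCoreStatement`      : transfer of `InChartAt` (over `K₁`) to the `LocalLiftAt`
       conclusion over `L`;
* (C)  `DescendStatement`       : finitely many elements of `gvOF` and constants of `A` are defined
       over a number field `K₁`, Gauss-integrally, and "reduction zero" descends to `ModPi · 0`.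
-/
import Mathlib
import Fermat.Agent.S37.R2LN_helper18
import Fermat.Agent.S37.R2UAbs_helper18
import Fermat.Agent.S18.DefsD

set_option autoImplicit false
set_option linter.unusedSectionVars false
set_option synthInstance.maxHeartbeats 400000

noncomputable section

open Polynomial IntermediateField AlgebraicCurve ModularCurve H28GV

namespace H18R2

open H9S18 (ValAt IsDivOf)
open H7S18

/-- **(B1)** local normality over `K₁` at a point `c₁` which is not congruent to a branch point: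
the branch data are given over `L` (`UnrOutside ℤ L S`). -/
def AbsLocalUnrStatement : Prop :=
  ∀ (R : Type) [CommRing R] [IsDomain R] [IsDiscreteValuationRing R]
    (K₁ : Type) [Field K₁] [CharZero K₁] [Algebra R K₁] [IsFractionRing R K₁]
    (L : Type) [Field L] [Algebra K₁ L] [IsAlgClosed L] [Algebra.IsAlgebraic K₁ L]
    (F₁ : Type) [Field F₁] [Algebra K₁ F₁] [Algebra R F₁] [IsScalarTower R K₁ F₁]
    (F' : Type) [Field F'] [Algebra L F'] [Algebra K₁ F'] [IsScalarTower K₁ L F']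
    [Algebra F₁ F'] [IsScalarTower K₁ F₁ F'] [Algebra.IsAlgebraic F₁ F']
    (ϖ : R) (_ : Irreducible ϖ) (t : F₁) (_ : Transcendental K₁ t)
    (_ : FiniteDimensional K₁⟮t⟯ F₁)
    (_ : FiniteDimensional L⟮algebraMap F₁ F' t⟯ F')
    (_ : UnrGauss R K₁ ϖ t)
    (S : Finset ℤ) (_ : UnrOutside ℤ L S (algebraMap F₁ F' t))
    (c₁ : R) (_ : ∀ c ∈ S, IsUnit (c₁ - ((c : ℤ) : R)))
    (𝔪 : Ideal (Algebra.adjoin R {t})) (_ : 𝔪.IsMaximal)
    (_ : algebraMap R (Algebra.adjoin R {t}) ϖ ∈ 𝔪)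
    (_ : ∀ s : Algebra.adjoin R {t}, (s : F₁) = t - algebraMap R F₁ c₁ → s ∈ 𝔪)
    (x : F₁) (_ : GInt R ϖ t x) (_ : IntModPi R ϖ t x),
    InChartAt R ϖ t 𝔪 x

/-- **(B3)** local normality over `K₁` at a tame branch point `c₀ ∈ S`. -/
def AbsLocalTameStatement : Prop :=
  ∀ (R : Type) [CommRing R] [IsDomain R] [IsDiscreteValuationRing R]
    (K₁ : Type) [Field K₁] [CharZero K₁] [Algebra R K₁] [IsFractionRing R K₁]
    (L : Type) [Field L] [Algebra K₁ L] [IsAlgClosed L] [Algebra.IsAlgebraic K₁ L]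
    (F₁ : Type) [Field F₁] [Algebra K₁ F₁] [Algebra R F₁] [IsScalarTower R K₁ F₁]
    (F' : Type) [Field F'] [Algebra L F'] [Algebra K₁ F'] [IsScalarTower K₁ L F']
    [Algebra F₁ F'] [IsScalarTower K₁ F₁ F'] [Algebra.IsAlgebraic F₁ F']
    (ϖ : R) (_ : Irreducible ϖ) (t : F₁) (_ : Transcendental K₁ t)
    (_ : FiniteDimensional K₁⟮t⟯ F₁)
    (_ : FiniteDimensional L⟮algebraMap F₁ F' t⟯ F')
    (_ : UnrGauss R K₁ ϖ t)
    (S : Finset ℤ) (_ : ∀ c ∈ S, ∀ c' ∈ S, c ≠ c' → IsUnit ((c - c' : ℤ) : R))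
    (e₀ : ℕ) (_ : IsUnit (e₀ : R)) (_ : ∃ ζ : R, IsPrimitiveRoot ζ e₀)
    (_ : UnrOutside ℤ L S (algebraMap F₁ F' t))
    (c₀ : ℤ) (_ : c₀ ∈ S)
    (_ : ∀ W : Place L F', 0 < W.ord (algebraMap F₁ F' t - algebraMap ℤ F' c₀) →
      W.ord (algebraMap F₁ F' t - algebraMap ℤ F' c₀) ∣ (e₀ : ℤ))
    (𝔪 : Ideal (Algebra.adjoin R {t})) (_ : 𝔪.IsMaximal)
    (_ : algebraMap R (Algebra.adjoin R {t}) ϖ ∈ 𝔪)
    (_ : ∀ s : Algebra.adjoin R {t}, (s : F₁) = t - algebraMap R F₁ ((c₀ : ℤ) : R) → s ∈ 𝔪)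
    (x : F₁) (_ : GInt R ϖ t x) (_ : IntModPi R ϖ t x),
    InChartAt R ϖ t 𝔪 x

/-- **(B2)** local normality over `K₁` at `∞`: chart `t⁻¹`, point `0`. -/
def AbsLocalInftyStatement : Prop :=
  ∀ (R : Type) [CommRing R] [IsDomain R] [IsDiscreteValuationRing R]
    (K₁ : Type) [Field K₁] [CharZero K₁] [Algebra R K₁] [IsFractionRing R K₁]
    (L : Type) [Field L] [Algebra K₁ L] [IsAlgClosed L] [Algebra.IsAlgebraic K₁ L]
    (F₁ : Type) [Field F₁] [Algebra K₁ F₁] [Algebra R F₁] [IsScalarTower R K₁ F₁]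
    (F' : Type) [Field F'] [Algebra L F'] [Algebra K₁ F'] [IsScalarTower K₁ L F']
    [Algebra F₁ F'] [IsScalarTower K₁ F₁ F'] [Algebra.IsAlgebraic F₁ F']
    (ϖ : R) (_ : Irreducible ϖ) (t : F₁) (_ : Transcendental K₁ t)
    (_ : FiniteDimensional K₁⟮t⟯ F₁)
    (_ : FiniteDimensional L⟮algebraMap F₁ F' t⟯ F')
    (_ : UnrGauss R K₁ ϖ t)
    (S : Finset ℤ)
    (e₀ : ℕ) (_ : IsUnit (e₀ : R)) (_ : ∃ ζ : R, IsPrimitiveRoot ζ e₀)
    (_ : UnrOutside ℤ L S (algebraMap F₁ F' t))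
    (_ : ∀ W : Place L F', W.ord (algebraMap F₁ F' t) < 0 →
      W.ord (algebraMap F₁ F' t) ∣ (e₀ : ℤ))
    (𝔪 : Ideal (Algebra.adjoin R {t⁻¹})) (_ : 𝔪.IsMaximal)
    (_ : algebraMap R (Algebra.adjoin R {t⁻¹}) ϖ ∈ 𝔪)
    (_ : ∀ s : Algebra.adjoin R {t⁻¹}, (s : F₁) = t⁻¹ → s ∈ 𝔪)
    (x : F₁) (_ : GInt R ϖ t⁻¹ x) (_ : IntModPi R ϖ t⁻¹ x),
    InChartAt R ϖ t⁻¹ 𝔪 x

/-- **(A)** transfer: `InChartAt` at `𝔪 ∋ ϖ, t₁ - c₁` over `K₁` gives the conclusion of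
`LocalLiftAt` over `L` at the point `c = π c₁`. -/
def LiftCoreStatement : Prop :=
  ∀ (R₁ : Type) [CommRing R₁] [IsDomain R₁] [IsDiscreteValuationRing R₁]
    (K₁ : Type) [Field K₁] [CharZero K₁] [Algebra R₁ K₁] [IsFractionRing R₁ K₁]
    (L : Type) [Field L] [Algebra K₁ L]
    (F₁ : Type) [Field F₁] [Algebra K₁ F₁] [Algebra R₁ F₁] [IsScalarTower R₁ K₁ F₁]
    (F : Type) [Field F] [Algebra L F] [Algebra K₁ F] [IsScalarTower K₁ L F]
    [Algebra F₁ F] [IsScalarTower K₁ F₁ F]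
    (k Fb : Type) [Field k] [Field Fb] [Algebra k Fb]
    (R : PreDatum L F k Fb)
    (ϖ : R₁) (_ : Irreducible ϖ) (t₁ : F₁) (_ : Transcendental K₁ t₁)
    (ht : algebraMap F₁ F t₁ ∈ R.O) (_ : Transcendental k (R.red ⟨algebraMap F₁ F t₁, ht⟩))
    (hR₁A : ∀ a : R₁, algebraMap K₁ L (algebraMap R₁ K₁ a) ∈ R.A)
    (_ : R.π ⟨algebraMap K₁ L (algebraMap R₁ K₁ ϖ), hR₁A ϖ⟩ = 0)
    (c₁ : R₁)
    (𝔪 : Ideal (Algebra.adjoin R₁ {t₁}))
    (_ : algebraMap R₁ (Algebra.adjoin R₁ {t₁}) ϖ ∈ 𝔪)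
    (_ : ∀ s : Algebra.adjoin R₁ {t₁}, (s : F₁) = t₁ - algebraMap R₁ F₁ c₁ → s ∈ 𝔪)
    (_ : 𝔪 ≠ ⊤)
    (x₁ : F₁) (_ : InChartAt R₁ ϖ t₁ 𝔪 x₁) (hx : algebraMap F₁ F x₁ ∈ R.O),
    ∃ (a : F) (ha : a ∈ R.O) (sb : Fb), IntChart R (algebraMap F₁ F t₁) a ∧
      R.red ⟨a, ha⟩ = sb * R.red ⟨algebraMap F₁ F x₁, hx⟩ ∧ sb ≠ 0 ∧
      ∀ Q : Place k Fb, ValAt Q (R.red ⟨algebraMap F₁ F t₁, ht⟩)
        (R.π ⟨algebraMap K₁ L (algebraMap R₁ K₁ c₁), hR₁A c₁⟩) → Q.ord sb = 0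

/-- **(C)** descent to a number field: finitely many elements `x i` of the Gauss valuation ring
`gvOF B` and finitely many constants `a j ∈ A` are defined over a number field `K₁ ∋ ζ_n`;
for every base function `t₁` for which quotients of `A₁`-integral series are Gauss-integral
(`hG`, = the second half of `H7S18.GaussStatement`), the descended elements are `GInt`, and
those with reduction `0` are `≡ 0 mod ϖ`. -/
def DescendStatement : Prop :=
  ∀ (N : ℕ) [NeZero N] (ℓ : ℕ) [Fact ℓ.Prime] (_ : ¬ ℓ ∣ N)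
    (A : ValuationSubring (AlgebraicClosure ℚ)) (_ : A.LiesOverPrime ℓ)
    (B : GVBasis A (IsLocalRing.residue A) N)
    (n : ℕ) (_ : 0 < n)
    (m : ℕ) (x : Fin m → ↥(modularFunctionFieldBar N)) (hx : ∀ i, x i ∈ (gvPreBar N A B).O)
    (m' : ℕ) (a : Fin m' → ↥A),
    ∃ (K₁ : IntermediateField ℚ (AlgebraicClosure ℚ)) (_ : FiniteDimensional ℚ K₁),
      (∃ ζ : K₁, IsPrimitiveRoot ζ n) ∧
      (∀ j, ((a j : ↥A) : AlgebraicClosure ℚ) ∈ K₁) ∧
      ∀ [Algebra ↥(descVal A K₁) (FK K₁ N)] [IsScalarTower ↥(descVal A K₁) K₁ (FK K₁ N)]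
        (ϖ : ↥(descVal A K₁)) (_ : Irreducible ϖ) (t₁ : FK K₁ N)
        (_ : ∀ (f g : LaurentSeries (descVal A K₁)) (y : FK K₁ N),
          coeffMap ((IsLocalRing.residue A).comp (descIncl A K₁)) g ≠ 0 →
          (y : LaurentSeries K₁) * coeffMap (descVal A K₁).subtype g =
            coeffMap (descVal A K₁).subtype f →
          GInt ↥(descVal A K₁) ϖ t₁ y),
        ∀ i, ∃ x₁ : FK K₁ N,
          ((x i : ↥(modularFunctionFieldBar N)) : LaurentSeries (AlgebraicClosure ℚ)) =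
            coeffMap (algebraMap K₁ (AlgebraicClosure ℚ)) (x₁ : LaurentSeries K₁) ∧
          GInt ↥(descVal A K₁) ϖ t₁ x₁ ∧
          ((gvPreBar N A B).red ⟨x i, hx i⟩ = 0 → ModPi ↥(descVal A K₁) ϖ t₁ x₁ 0)

end H18R2

end
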