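/-
S37 (item 79), slice R2-HGEN (helper29): the third part of `ReductionInputsAlong`:
principal divisors of `F = L(j(q^d) : d ∣ N)` are generated by the divisors of `A`-integral
`q`-series with nonzero reduction in `Fb` (`PrincipalGeneratedByIntegral A π N`).

From helper28's Gauss valuation (`H28GV.gv_frac`: every `x ∈ F^×` is `c · ε f / ε g`).
-/
import Mathlib
import Fermat.Agent.S18.A0_helper28

set_option autoImplicit false
set_option linter.unusedSectionVars false

open ModularCurve HahnSeries AlgebraicCurve

noncomputable section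

namespace H29R2

variable {L : Type} [Field L] [Algebra ℚ L] {A : ValuationSubring L} {k : Type} [Field k]
  {π : A →+* k} {N : ℕ} [NeZero N]

/-- a nonzero constant has order `0` at every place -/
theorem h29r2_ord_const {K F : Type*} [Field K] [Field F] [Algebra K F] (P : Place K F) (a : K)
    (ha : a ≠ 0) : P.ord (algebraMap K F a) = 0 := by
  have h1 : algebraMap K F a ∈ P.toValuationSubring := P.algebraMap_mem' a
  have h2 : algebraMap K F a⁻¹ ∈ P.toValuationSubring := P.algebraMap_mem' a⁻¹
  have hu : IsUnit (⟨algebraMap K F a, h1⟩ : P.toValuationSubring) := by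
    refine IsUnit.of_mul_eq_one (⟨algebraMap K F a⁻¹, h2⟩ : P.toValuationSubring) ?_
    apply Subtype.ext
    show algebraMap K F a * algebraMap K F a⁻¹ = 1
    rw [← map_mul, mul_inv_cancel₀ ha, map_one]
  have := P.ord_coe_unit hu.unit
  rwa [IsUnit.unit_spec] at this

/-- **R2-HGEN**: principal divisors are generated by integral ones. -/
theorem h29r2_hgen (B : H28GV.GVBasis A π N)
    [HasPrincipalDivisors L ↥(laurentBaseChange L (modularFunctionFieldFull N))] :
    PrincipalGeneratedByIntegral A π N := by
  classical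
  intro D hD
  obtain ⟨x, hx0, hDx⟩ := hD
  have hx0' : (x : LaurentSeries L) ≠ 0 := fun h => hx0 (Subtype.ext h)
  obtain ⟨a, f, g, ha, hf, hg, hfL, hgL, hfk, hgk, h⟩ :=
    H28GV.gv_frac B (x : LaurentSeries L) (H28GV.gv_coe_mem_full N x) hx0'
  have hfF : coeffMap A.subtype f ∈ laurentBaseChange L (modularFunctionFieldFull N) :=
    H28GV.gv_mem_base_of_full N hfL
  have hgF : coeffMap A.subtype g ∈ laurentBaseChange L (modularFunctionFieldFull N) :=
    H28GV.gv_mem_base_of_full N hgL
  set fF : ↥(laurentBaseChange L (modularFunctionFieldFull N)) := ⟨coeffMap A.subtype f, hfF⟩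
    with hfFdef
  set gF : ↥(laurentBaseChange L (modularFunctionFieldFull N)) := ⟨coeffMap A.subtype g, hgF⟩
    with hgFdef
  have hg0 : gF ≠ 0 := by
    intro h0
    have h1 : H28GV.gvEps A g = 0 := congrArg Subtype.val h0
    exact (H28GV.gvEps_ne_zero_of_rho A π g hg) h1
  have hf0 : fF ≠ 0 := by
    intro h0
    have h1 : H28GV.gvEps A f = 0 := congrArg Subtype.val h0
    exact (H28GV.gvEps_ne_zero_of_rho A π f hf) h1
  -- the relation in `F`
  have hrel : x * gF = algebraMap L _ a * fF := by
    apply Subtype.ext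
    show (x : LaurentSeries L) * H28GV.gvEps A g =
      ((algebraMap L ↥(laurentBaseChange L (modularFunctionFieldFull N)) a :
        ↥(laurentBaseChange L (modularFunctionFieldFull N))) : LaurentSeries L) * H28GV.gvEps A f
    rw [H28GV.gv_coe_algebraMap]
    exact h
  obtain ⟨Df, hDf, -⟩ := HasPrincipalDivisors.exists_divisor (K := L) fF hf0
  obtain ⟨Dg, hDg, -⟩ := HasPrincipalDivisors.exists_divisor (K := L) gF hg0
  have hDeq : D = Df - Dg := by
    ext P
    rw [Finsupp.sub_apply, hDx P, hDf P, hDg P]
    have h1 := congrArg P.ord hrel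
    rw [P.ord_mul hx0 hg0, P.ord_mul ((map_ne_zero _).mpr ha) hf0, h29r2_ord_const P a ha] at h1
    linarith
  rw [hDeq]
  refine AddSubgroup.sub_mem _ (AddSubgroup.subset_closure ?_) (AddSubgroup.subset_closure ?_)
  · exact ⟨f, hfF, hfk, hf, hDf⟩
  · exact ⟨g, hgF, hgk, hg, hDg⟩

end H29R2

end
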