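import Mathlib
import Fermat.Agent.S37.R2DefsB_helper18
import Fermat.Agent.S37.R2Hgen_helper29
import Fermat.Agent.S18.C10Red_helper27
import Fermat.Agent.S18.C7b_helper27
import Fermat.Agent.S18.GVBar_helper28
import Fermat.Agent.S24.BDegreeFinal
import Fermat.Agent.FF.PrincipalDivisors

/-!
# Item 79 (S37), slice R2-FIN (helper29)

* `H29R2F.h29r2f_final : H18R2.FinalStatement` (R2-FINb): a reduction map with net count for the
  Gauss valuation gives `ReductionInputsModL A N` (with `H29R2.h29r2_hgen`);
* `H29R2F.h29r2f_settingJ : H18R2.SettingJStatement` (R2-FINa): the chart `j`: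
  `j` transcendental on both sides, degrees `ψ(N)` on both sides (`H27C7b.h27c7b_deg`),
  separability of the special fibre over `k(j)` (`H27C10.h27c10_isSeparable`).
-/

set_option autoImplicit false
set_option linter.style.longLine false
set_option linter.unusedSectionVars false
set_option linter.unusedVariables false
set_option linter.style.haveILetI false
set_option synthInstance.maxHeartbeats 400000

noncomputable section

open AlgebraicCurve IntermediateField ModularCurve H28GV

namespace H29R2F

variable (N : ℕ) [NeZero N] (A : ValuationSubring (AlgebraicClosure ℚ))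
  (B : GVBasis A (IsLocalRing.residue A) N)

/-- integral `q`-series lie in the Gauss valuation ring -/
theorem h29r2f_mem (y : LaurentSeries A)
    (hy : coeffMap A.subtype y ∈ laurentBaseChange (AlgebraicClosure ℚ) (modularFunctionFieldFull N)) :
    (⟨coeffMap A.subtype y, hy⟩ : ↥(modularFunctionFieldBar N)) ∈ (H18R2.gvPreBar N A B).O :=
  gvEps_mem_gvO A (IsLocalRing.residue A) y

/-- the reduction of an integral `q`-series is its coefficientwise reduction -/
theorem h29r2f_red (y : LaurentSeries A)
    (hy : coeffMap A.subtype y ∈ laurentBaseChange (AlgebraicClosure ℚ) (modularFunctionFieldFull N))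
    (hyk : coeffMap (IsLocalRing.residue A) y ∈
      modularFunctionFieldFullC (IsLocalRing.ResidueField A) N) :
    (H18R2.gvPreBar N A B).red ⟨⟨coeffMap A.subtype y, hy⟩, h29r2f_mem N A B y hy⟩ =
      ⟨coeffMap (IsLocalRing.residue A) y, hyk⟩ := by
  apply Subtype.ext
  exact gvRed_eps' A (IsLocalRing.residue A) y _

/-- **R2-FINb** -/
theorem h29r2f_final : H18R2.FinalStatement := by
  intro N _ ℓ _ hℓN A hA B hred
  obtain ⟨r, hdeg, hnet⟩ := hred
  haveI hfd : FiniteDimensional RH24.Kbar⟮RH24.Jbar N⟯ (modularFunctionFieldBar N) :=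
    (RH24.B_degree N).1
  haveI hPD : HasPrincipalDivisors (AlgebraicClosure ℚ) ↥(modularFunctionFieldBar N) :=
    H27FF.h27ff_hasPrincipalDivisors (RH24.Jbar N) (RH24.B_transcendental N)
  refine ⟨r, ⟨hdeg, ?_⟩, H29R2.h29r2_hgen B⟩
  intro y hy hyk hne D hD Q
  have h1 := hnet _ (h29r2f_mem N A B y hy)
    (by
      rw [h29r2f_red N A B y hy hyk]
      intro h0
      exact hne (congrArg Subtype.val h0))
    D hD Q
  rw [h29r2f_red N A B y hy hyk] at h1
  exact h1

/-- `j` lies in the Gauss valuation ring -/
theorem h29r2f_j_mem : RH24.Jbar N ∈ (H18R2.gvPreBar N A B).O := by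
  show ((RH24.Jbar N : ↥(modularFunctionFieldBar N)) : LaurentSeries (AlgebraicClosure ℚ)) ∈
    gvO A (IsLocalRing.residue A)
  rw [RH24.h8b_coe_Jbar, ← gvEps_jq A]
  exact gvEps_mem_gvO A (IsLocalRing.residue A) _

/-- the reduction of `j` is `j` -/
theorem h29r2f_red_j (ht : RH24.Jbar N ∈ (H18R2.gvPreBar N A B).O) :
    (H18R2.gvPreBar N A B).red ⟨RH24.Jbar N, ht⟩ =
      H27C10.h27c10_jC (IsLocalRing.ResidueField A) N := by
  apply Subtype.ext
  rw [H27C10.h27c10_coe_jC]
  have h1 : (⟨((RH24.Jbar N : ↥(modularFunctionFieldBar N)) :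
      LaurentSeries (AlgebraicClosure ℚ)), ht⟩ : gvO A (IsLocalRing.residue A)) =
      ⟨gvEps A (jqModC A), gvEps_mem_gvO A (IsLocalRing.residue A) _⟩ := by
    apply Subtype.ext
    show ((RH24.Jbar N : ↥(modularFunctionFieldBar N)) : LaurentSeries (AlgebraicClosure ℚ)) =
      gvEps A (jqModC A)
    rw [RH24.h8b_coe_Jbar, gvEps_jq A]
  show gvRed A (IsLocalRing.residue A) ⟨((RH24.Jbar N : ↥(modularFunctionFieldBar N)) :
      LaurentSeries (AlgebraicClosure ℚ)), ht⟩ = _
  rw [h1, gvRed_eps, gvRho_jq]

/-- **R2-FINa** -/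
theorem h29r2f_settingJ : H18R2.SettingJStatement := by
  intro N _ ℓ _ hℓN A hA B
  haveI hkac : IsAlgClosed (IsLocalRing.ResidueField A) := gv_residue_isAlgClosed A
  haveI hchar : CharP (IsLocalRing.ResidueField A) ℓ :=
    (CharP.charP_iff_prime_eq_zero (Fact.out : ℓ.Prime)).mpr (gv_residue_natCast_eq_zero A ℓ hA)
  have ht := h29r2f_j_mem N A B
  have hredj := h29r2f_red_j N A B ht
  have hdegK : Module.finrank (AlgebraicClosure ℚ)⟮RH24.Jbar N⟯ ↥(modularFunctionFieldBar N) =
      dedekindPsi N :=
    H27C7b.h27c7b_deg (AlgebraicClosure ℚ) N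
      (fun r hr _ => Nat.cast_ne_zero.mpr hr.ne_zero)
      (modularFunctionFieldBar N) (gv_bar_eq (L := AlgebraicClosure ℚ) N) (RH24.Jbar N)
      (RH24.h8b_coe_Jbar N)
  have hdegk : Module.finrank
      (IsLocalRing.ResidueField A)⟮H27C10.h27c10_jC (IsLocalRing.ResidueField A) N⟯
      ↥(modularFunctionFieldFullC (IsLocalRing.ResidueField A) N) = dedekindPsi N :=
    H27C7b.h27c7b_deg (IsLocalRing.ResidueField A) N (gv_residue_char A ℓ hA N hℓN)
      (modularFunctionFieldFullC (IsLocalRing.ResidueField A) N) rfl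
      (H27C10.h27c10_jC (IsLocalRing.ResidueField A) N) rfl
  exact
    { algK := inferInstance
      char0 := inferInstance
      algk := hkac
      ht := ht
      htK := RH24.B_transcendental N
      htk := by
        rw [hredj]
        exact H27C10.h27c10_jC_transcendental (IsLocalRing.ResidueField A) N
      fin := (RH24.B_degree N).1
      finb := by
        rw [hredj]
        exact H27C10.h27c10_finiteDimensional (IsLocalRing.ResidueField A) N
      sepb := by
        rw [hredj]
        exact H27C10.h27c10_isSeparable (IsLocalRing.ResidueField A) N ℓ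
      deg := by
        rw [hredj, hdegK, hdegk] }

end H29R2F
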