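/-
Item 79 (S37), slice R2-INV (lead): the chart `t⁻¹`.
`LeadR2.inv_statement : H18R2.InvStatement`.
-/
import Fermat.Agent.S37.R2Defs_helper18

set_option autoImplicit false

open IntermediateField

namespace LeadR2

open H18R2

theorem lead_adjoin_inv {K F : Type*} [Field K] [Field F] [Algebra K F] (f : F) :
    K⟮f⁻¹⟯ = K⟮f⟯ := by
  apply le_antisymm
  · rw [adjoin_simple_le_iff]
    exact inv_mem (mem_adjoin_simple_self K f)
  · rw [adjoin_simple_le_iff]
    have h : f⁻¹⁻¹ ∈ K⟮f⁻¹⟯ := inv_mem (mem_adjoin_simple_self K f⁻¹)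
    rwa [inv_inv] at h

theorem transcendental_inv {K F : Type*} [Field K] [Field F] [Algebra K F] {f : F}
    (hf : Transcendental K f) : Transcendental K f⁻¹ := by
  intro h
  apply hf
  have h2 : IsAlgebraic K f⁻¹⁻¹ := h.inv
  rwa [inv_inv] at h2

theorem finiteDimensional_of_eq {K F : Type*} [Field K] [Field F] [Algebra K F]
    {L L' : IntermediateField K F} (h : L = L') (hfd : FiniteDimensional L F) :
    FiniteDimensional L' F := by
  subst h; exact hfd

theorem isSeparable_of_eq {K F : Type*} [Field K] [Field F] [Algebra K F]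
    {L L' : IntermediateField K F} (h : L = L') (hs : Algebra.IsSeparable L F) :
    Algebra.IsSeparable L' F := by
  subst h; exact hs

theorem finrank_of_eq {K F : Type*} [Field K] [Field F] [Algebra K F]
    {L L' : IntermediateField K F} (h : L = L') :
    Module.finrank L F = Module.finrank L' F := by
  subst h; rfl

/-- **R2-INV**. -/
theorem inv_statement : InvStatement := by
  intro K F k Fb _ _ _ _ _ _ R t S
  have hred0 : R.red ⟨t, S.ht⟩ ≠ 0 := fun h => S.htk (h ▸ isAlgebraic_zero)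
  have hunit : IsUnit (⟨t, S.ht⟩ : R.O) := by
    by_contra hnu
    exact hred0 (R.red_nonunit _ hnu)
  have ht0 : t ≠ 0 := by
    rintro rfl
    apply hred0
    have : (⟨0, S.ht⟩ : R.O) = 0 := rfl
    rw [this, map_zero]
  have htinv : t⁻¹ ∈ R.O := by
    obtain ⟨u, hu⟩ := hunit
    have h1 : ((u⁻¹ : (R.O)ˣ) : R.O) * ⟨t, S.ht⟩ = 1 := by
      rw [← hu]; exact u.inv_mul
    have h2 : (((u⁻¹ : (R.O)ˣ) : R.O) : F) * t = 1 := congrArg Subtype.val h1
    have h3 : t⁻¹ = (((u⁻¹ : (R.O)ˣ) : R.O) : F) := by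
      rw [eq_comm, ← mul_eq_one_iff_eq_inv₀ ht0]
      exact h2
    rw [h3]
    exact Subtype.mem _
  have hredinv : R.red ⟨t⁻¹, htinv⟩ = (R.red ⟨t, S.ht⟩)⁻¹ := by
    have h1 : (⟨t⁻¹, htinv⟩ : R.O) * ⟨t, S.ht⟩ = 1 := by
      apply Subtype.ext
      show t⁻¹ * t = 1
      exact inv_mul_cancel₀ ht0
    have h2 : R.red ⟨t⁻¹, htinv⟩ * R.red ⟨t, S.ht⟩ = 1 := by
      rw [← map_mul, h1, map_one]
    exact (mul_eq_one_iff_eq_inv₀ hred0).mp h2
  have hK : K⟮t⁻¹⟯ = K⟮t⟯ := lead_adjoin_inv t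
  have hk : k⟮R.red ⟨t⁻¹, htinv⟩⟯ = k⟮R.red ⟨t, S.ht⟩⟯ := by
    rw [hredinv]; exact lead_adjoin_inv _
  exact
    { algK := S.algK
      char0 := S.char0
      algk := S.algk
      ht := htinv
      htK := transcendental_inv S.htK
      htk := by rw [hredinv]; exact transcendental_inv S.htk
      fin := finiteDimensional_of_eq hK.symm S.fin
      finb := finiteDimensional_of_eq hk.symm S.finb
      sepb := isSeparable_of_eq hk.symm S.sepb
      deg := by
        rw [finrank_of_eq hK, finrank_of_eq hk]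
        exact S.deg }

end LeadR2
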