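/-
helper18: item 79 (S37), slice R2-U: the maximal ideal `𝔪 = (ϖ, t - c)` of `R[t]`
(generalization of `H12C3.maxIdeal`, which is the case `c = 0`).
-/
import Mathlib

set_option autoImplicit false
set_option linter.style.haveILetI false
set_option linter.unusedSectionVars false

open Polynomial

noncomputable section

namespace H18R2

section maxideal

variable (R : Type) [CommRing R] [IsDomain R] [IsDiscreteValuationRing R]
  {E : Type} [Field E] [Algebra R E]

/-- evaluation at `t = c` followed by reduction mod `ϖ` -/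
def evAt (ϖ : R) (t : E) (ht : Transcendental R t) (c : R) :
    Algebra.adjoin R {t} →+* R ⧸ Ideal.span {ϖ} :=
  (Ideal.Quotient.mk (Ideal.span {ϖ})).comp
    ((Polynomial.evalRingHom c).comp
      ((Polynomial.algEquivOfTranscendental R t ht).symm : Algebra.adjoin R {t} →+* R[X]))

theorem evAt_algebraMap (ϖ : R) (t : E) (ht : Transcendental R t) (c : R) (r : R) :
    evAt R ϖ t ht c (algebraMap R _ r) = Ideal.Quotient.mk _ r := by
  simp [evAt]

theorem evAt_surjective (ϖ : R) (t : E) (ht : Transcendental R t) (c : R) :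
    Function.Surjective (evAt R ϖ t ht c) := by
  intro y
  obtain ⟨r, rfl⟩ := Ideal.Quotient.mk_surjective y
  exact ⟨algebraMap R _ r, evAt_algebraMap R ϖ t ht c r⟩

theorem evAt_aeval (ϖ : R) (t : E) (ht : Transcendental R t) (c : R) (p : R[X])
    (h : aeval t p ∈ Algebra.adjoin R {t}) :
    evAt R ϖ t ht c ⟨aeval t p, h⟩ = Ideal.Quotient.mk _ (p.eval c) := by
  have h1 : (⟨aeval t p, h⟩ : Algebra.adjoin R {t}) =
      Polynomial.algEquivOfTranscendental R t ht p := by
    apply Subtype.ext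
    simp
  rw [h1]
  simp [evAt]

/-- the maximal ideal `(ϖ, t - c)` of `R[t]` -/
def maxIdealAt (ϖ : R) (t : E) (ht : Transcendental R t) (c : R) : Ideal (Algebra.adjoin R {t}) :=
  RingHom.ker (evAt R ϖ t ht c)

theorem maxIdealAt_isMaximal (ϖ : R) (hϖ : Irreducible ϖ) (t : E) (ht : Transcendental R t)
    (c : R) : (maxIdealAt R ϖ t ht c).IsMaximal := by
  haveI : (Ideal.span {ϖ}).IsMaximal := by
    rw [← hϖ.maximalIdeal_eq]
    exact IsLocalRing.maximalIdeal.isMaximal R
  letI := Ideal.Quotient.field (Ideal.span {ϖ})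
  exact RingHom.ker_isMaximal_of_surjective _ (evAt_surjective R ϖ t ht c)

theorem pi_mem_maxIdealAt (ϖ : R) (t : E) (ht : Transcendental R t) (c : R) :
    algebraMap R (Algebra.adjoin R {t}) ϖ ∈ maxIdealAt R ϖ t ht c := by
  rw [maxIdealAt, RingHom.mem_ker, evAt_algebraMap, Ideal.Quotient.eq_zero_iff_mem]
  exact Ideal.mem_span_singleton_self ϖ

theorem gen_mem_maxIdealAt (ϖ : R) (t : E) (ht : Transcendental R t) (c : R)
    (s : Algebra.adjoin R {t}) (hs : (s : E) = t - algebraMap R E c) :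
    s ∈ maxIdealAt R ϖ t ht c := by
  have h0 : aeval t (X - C c : R[X]) ∈ Algebra.adjoin R {t} := by
    rw [Algebra.adjoin_singleton_eq_range_aeval]
    exact ⟨_, rfl⟩
  have h1 : s = ⟨aeval t (X - C c : R[X]), h0⟩ := by
    apply Subtype.ext
    rw [hs]
    simp
  rw [maxIdealAt, RingHom.mem_ker, h1, evAt_aeval]
  simp

/-- membership in `(ϖ, t - c)` -/
theorem aeval_mem_maxIdealAt_iff (ϖ : R) (t : E) (ht : Transcendental R t) (c : R) (p : R[X])
    (h : aeval t p ∈ Algebra.adjoin R {t}) :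
    (⟨aeval t p, h⟩ : Algebra.adjoin R {t}) ∈ maxIdealAt R ϖ t ht c ↔ ϖ ∣ p.eval c := by
  rw [maxIdealAt, RingHom.mem_ker, evAt_aeval, Ideal.Quotient.eq_zero_iff_mem,
    Ideal.mem_span_singleton]

/-- **the maximal ideal `(ϖ, t - c)`**, in the form used by the `AbsLocal*` statements and by
`LiftCoreStatement`. -/
theorem h18r2_exists_maxIdeal (ϖ : R) (hϖ : Irreducible ϖ) (t : E) (ht : Transcendental R t)
    (c : R) :
    ∃ 𝔪 : Ideal (Algebra.adjoin R {t}), 𝔪.IsMaximal ∧
      algebraMap R (Algebra.adjoin R {t}) ϖ ∈ 𝔪 ∧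
      (∀ s : Algebra.adjoin R {t}, (s : E) = t - algebraMap R E c → s ∈ 𝔪) ∧ 𝔪 ≠ ⊤ :=
  ⟨maxIdealAt R ϖ t ht c, maxIdealAt_isMaximal R ϖ hϖ t ht c, pi_mem_maxIdealAt R ϖ t ht c,
    gen_mem_maxIdealAt R ϖ t ht c, (maxIdealAt_isMaximal R ϖ hϖ t ht c).ne_top⟩

end maxideal

end H18R2

end
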