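/-
helper29: item 79 (S37), slice R2-U: the MASTER assembly
`Ex + LiftCore + Descend + AbsLocalUnr/Tame/Infty ⟹ H18R2.UnifJGoodStatement`
(pattern: `H7S18.h7_kummerOne`).
-/
import Mathlib
import Fermat.Agent.S37.R2DefsC_helper18
import Fermat.Agent.S37.R2Basic_helper18
import Fermat.Agent.S37.R2MaxIdeal_helper18
import Fermat.Agent.S37.R2Fin_helper29
import Fermat.Agent.S37.R2Inv_lead
import Fermat.Agent.S18.C12bMain_helper7
import Fermat.Agent.S18.C6b_helper4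
import Fermat.Agent.S18.C6e_helper9
import Fermat.Agent.S18.C6f_helper1
import Fermat.Agent.S18.C7Asm_helper28
import Fermat.Agent.S18.C7a_helper1
import Fermat.Agent.S18.C7b_helper27
import Fermat.Agent.S18.C7c_helper16
import Fermat.Agent.S18.C7d_helper4
import Fermat.Agent.S18.C8Branch_helper4
import Fermat.Agent.S18.ChartChange_helper21

set_option autoImplicit false
set_option synthInstance.maxHeartbeats 400000
set_option maxHeartbeats 1000000
set_option linter.style.haveILetI false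
set_option linter.unusedSectionVars false
set_option linter.unusedVariables false

noncomputable section

open Polynomial IntermediateField AlgebraicCurve ModularCurve H28GV

namespace H29R2M

open H9S18 (ValAt IsDivOf)
open H7S18 H18R2

/-- **M1**: an element of `O` whose reduction is integral over `k[red T]` satisfies, modulo the
kernel of `red`, a monic equation over `A[T]`. -/
def M1Statement : Prop :=
  ∀ (K F k Fb : Type) [Field K] [Field F] [Algebra K F] [Field k] [Field Fb] [Algebra k Fb]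
    (R : PreDatum K F k Fb) (T X : R.O),
    IsIntegral (Algebra.adjoin k {R.red T}) (R.red X) →
    ∃ (n : ℕ) (Q : ℕ → (R.A)[X]),
      R.red (X ^ n + ∑ i ∈ Finset.range n, (Q i).eval₂ R.constHom T * X ^ i) = 0

section Plumbing

variable (N : ℕ) [NeZero N] (A : ValuationSubring (AlgebraicClosure ℚ))
  (K₁ : IntermediateField ℚ (AlgebraicClosure ℚ))

/-- the structure map `A₁ → F₁` -/
abbrev algRF : Algebra ↥(descVal A K₁) (FK K₁ N) :=
  ((algebraMap K₁ (FK K₁ N)).comp (algebraMap ↥(descVal A K₁) K₁)).toAlgebra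

/-- the base change map `F₁ → F_L` -/
def phi : FK K₁ N →+* FK (AlgebraicClosure ℚ) N := (H1S18.baseChange N K₁).choose

theorem phi_coe (x : FK K₁ N) :
    ((phi N K₁ x : FK (AlgebraicClosure ℚ) N) : LaurentSeries (AlgebraicClosure ℚ)) =
      coeffMap (algebraMap K₁ (AlgebraicClosure ℚ)) (x : LaurentSeries K₁) :=
  (H1S18.baseChange N K₁).choose_spec.1 x

theorem phi_int (y : FK (AlgebraicClosure ℚ) N) : (phi N K₁).IsIntegralElem y :=
  (H1S18.baseChange N K₁).choose_spec.2 y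

/-- the algebra structure `F₁ → F_L` -/
abbrev algFF : Algebra (FK K₁ N) (FK (AlgebraicClosure ℚ) N) := (phi N K₁).toAlgebra

attribute [local instance] algRF algFF

theorem towRF : IsScalarTower ↥(descVal A K₁) K₁ (FK K₁ N) :=
  IsScalarTower.of_algebraMap_eq (fun _ => rfl)

theorem towKF : IsScalarTower K₁ (FK K₁ N) (FK (AlgebraicClosure ℚ) N) := by
  refine IsScalarTower.of_algebraMap_eq (fun a => ?_)
  apply Subtype.ext
  show ((algebraMap (AlgebraicClosure ℚ) (FK (AlgebraicClosure ℚ) N)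
      (algebraMap K₁ (AlgebraicClosure ℚ) a) : FK (AlgebraicClosure ℚ) N) :
        LaurentSeries (AlgebraicClosure ℚ)) = ((phi N K₁ (algebraMap K₁ (FK K₁ N) a) :
          FK (AlgebraicClosure ℚ) N) : LaurentSeries (AlgebraicClosure ℚ))
  rw [phi_coe]
  show algebraMap (AlgebraicClosure ℚ) (LaurentSeries (AlgebraicClosure ℚ))
      (algebraMap K₁ (AlgebraicClosure ℚ) a) =
    coeffMap (algebraMap K₁ (AlgebraicClosure ℚ)) (algebraMap K₁ (LaurentSeries K₁) a)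
  rw [algebraMap_laurentSeries_eq_single, algebraMap_laurentSeries_eq_single, coeffMap_single]

theorem algFFalg : Algebra.IsAlgebraic (FK K₁ N) (FK (AlgebraicClosure ℚ) N) :=
  ⟨fun y => (show IsIntegral (FK K₁ N) y from phi_int N K₁ y).isAlgebraic⟩

theorem algKL : Algebra.IsAlgebraic K₁ (AlgebraicClosure ℚ) := by
  haveI : Algebra.IsAlgebraic ℚ (AlgebraicClosure ℚ) := AlgebraicClosure.isAlgebraic ℚ
  exact Algebra.IsAlgebraic.tower_top (K := ℚ) K₁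

attribute [local instance] towRF towKF algFFalg algKL

theorem algebraMap_FF (x : FK K₁ N) :
    algebraMap (FK K₁ N) (FK (AlgebraicClosure ℚ) N) x = phi N K₁ x := rfl

/-- the two maps `A₁ → F_L` agree -/
theorem phi_const (B : GVBasis A (IsLocalRing.residue A) N) (a : ↥(descVal A K₁)) :
    phi N K₁ (algebraMap ↥(descVal A K₁) (FK K₁ N) a) =
      (((gvPreBar N A B).constHom (descIncl A K₁ a) : (gvPreBar N A B).O) :
        ↥(modularFunctionFieldBar N)) := by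
  have h1 : algebraMap ↥(descVal A K₁) (FK K₁ N) a = algebraMap K₁ (FK K₁ N) (a : K₁) := rfl
  rw [h1, ← algebraMap_FF, ← IsScalarTower.algebraMap_apply K₁ (FK K₁ N)
    (FK (AlgebraicClosure ℚ) N),
    IsScalarTower.algebraMap_apply K₁ (AlgebraicClosure ℚ) (FK (AlgebraicClosure ℚ) N)]
  rfl


/-- an element of `A` which lies in `K₁` comes from `A₁` -/
theorem exists_descIncl (a : ↥A) (ha : ((a : ↥A) : AlgebraicClosure ℚ) ∈ K₁) :
    ∃ a₁ : ↥(descVal A K₁), descIncl A K₁ a₁ = a ∧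
      algebraMap K₁ (AlgebraicClosure ℚ) (a₁ : K₁) = (a : AlgebraicClosure ℚ) :=
  ⟨⟨⟨(a : AlgebraicClosure ℚ), ha⟩, a.2⟩, Subtype.ext rfl, rfl⟩

/-- **the number field package**: `K₁`, the descended element `x₁` and its integrality relation
modulo `ϖ`. -/
theorem setup (hM1 : M1Statement) (hC : DescendStatement)
    (ℓ : ℕ) [Fact ℓ.Prime] (hℓN : ¬ ℓ ∣ N) (hA : A.LiesOverPrime ℓ)
    (B : GVBasis A (IsLocalRing.residue A) N)
    (T X : (gvPreBar N A B).O)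
    (hint : IsIntegral (Algebra.adjoin (IsLocalRing.ResidueField A) {(gvPreBar N A B).red T})
      ((gvPreBar N A B).red X)) (a₀ : ↥A) :
    ∃ (K₁ : IntermediateField ℚ (AlgebraicClosure ℚ)) (_ : FiniteDimensional ℚ K₁),
      (∃ ζ : K₁, IsPrimitiveRoot ζ (6 * N)) ∧ ((a₀ : ↥A) : AlgebraicClosure ℚ) ∈ K₁ ∧
      ∀ (ϖ : ↥(descVal A K₁)) (_ : Irreducible ϖ) (t₁ : FK K₁ N)
        (_ : phi N K₁ t₁ = (T : ↥(modularFunctionFieldBar N)))
        (_ : ∀ (f g : LaurentSeries (descVal A K₁)) (y : FK K₁ N),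
          coeffMap ((IsLocalRing.residue A).comp (descIncl A K₁)) g ≠ 0 →
          (y : LaurentSeries K₁) * coeffMap (descVal A K₁).subtype g =
            coeffMap (descVal A K₁).subtype f →
          GInt ↥(descVal A K₁) ϖ t₁ y),
        ∃ x₁ : FK K₁ N, phi N K₁ x₁ = (X : ↥(modularFunctionFieldBar N)) ∧
          GInt ↥(descVal A K₁) ϖ t₁ x₁ ∧ IntModPi ↥(descVal A K₁) ϖ t₁ x₁ := by
  classical
  obtain ⟨cA, hcA⟩ : ∃ cA : ↥A →+* ↥(gvPreBar N A B).O, cA = (gvPreBar N A B).constHom :=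
    ⟨(gvPreBar N A B).constHom, rfl⟩
  obtain ⟨n, Q, hz⟩ : ∃ (n : ℕ) (Q : ℕ → (↥A)[X]), (gvPreBar N A B).red
      (X ^ n + ∑ i ∈ Finset.range n, (Q i).eval₂ cA T * X ^ i) = 0 := by
    rw [hcA]
    exact hM1 _ _ _ _ (gvPreBar N A B) T X hint
  set Z : (gvPreBar N A B).O :=
    X ^ n + ∑ i ∈ Finset.range n, (Q i).eval₂ cA T * X ^ i with hZ
  -- the constants
  set s : Finset ↥A := insert a₀ ((Finset.range n).biUnion (fun i => (Q i).coeffs)) with hs
  obtain ⟨K₁, hK₁fin, hζ, hamem, hdesc⟩ := hC N ℓ hℓN A hA B (6 * N)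
    (Nat.mul_pos (by norm_num) (Nat.pos_of_ne_zero (NeZero.ne N))) 2
    ![(X : ↥(modularFunctionFieldBar N)), (Z : ↥(modularFunctionFieldBar N))]
    (by
      intro i
      fin_cases i
      · exact X.2
      · exact Z.2)
    s.card (fun j => ((s.equivFin.symm j : s) : ↥A))
  have hsmem : ∀ b ∈ s, ((b : ↥A) : AlgebraicClosure ℚ) ∈ K₁ := by
    intro b hb
    have := hamem (s.equivFin ⟨b, hb⟩)
    simpa using this
  refine ⟨K₁, hK₁fin, hζ, hsmem a₀ (Finset.mem_insert_self _ _), ?_⟩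
  intro ϖ hϖ t₁ ht₁ hG
  obtain ⟨x₁, hx₁coe, hx₁G, -⟩ := hdesc ϖ hϖ t₁ hG 0
  obtain ⟨z₁, hz₁coe, -, hz₁mod⟩ := hdesc ϖ hϖ t₁ hG 1
  have hφx : phi N K₁ x₁ = (X : ↥(modularFunctionFieldBar N)) :=
    Subtype.ext (by rw [phi_coe]; exact hx₁coe.symm)
  have hφz : phi N K₁ z₁ = (Z : ↥(modularFunctionFieldBar N)) :=
    Subtype.ext (by rw [phi_coe]; exact hz₁coe.symm)
  have hzmod : ModPi ↥(descVal A K₁) ϖ t₁ z₁ 0 := hz₁mod hz
  refine ⟨x₁, hφx, hx₁G, ?_⟩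
  -- the descended polynomials
  have hQ : ∀ i, i < n → ∃ Q₁ : (↥(descVal A K₁))[X], Q₁.map (descIncl A K₁) = Q i := by
    intro i hi
    refine (Polynomial.mem_lifts (f := descIncl A K₁) (Q i)).mp ?_
    rw [Polynomial.lifts_iff_coeff_lifts]
    intro m
    by_cases h0 : (Q i).coeff m = 0
    · rw [h0]
      exact ⟨0, map_zero _⟩
    · have hmem : (Q i).coeff m ∈ s := by
        rw [hs]
        refine Finset.mem_insert_of_mem (Finset.mem_biUnion.mpr ⟨i, Finset.mem_range.mpr hi, ?_⟩)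
        exact Polynomial.coeff_mem_coeffs h0
      obtain ⟨a₁, ha₁, -⟩ := exists_descIncl A K₁ _ (hsmem _ hmem)
      exact ⟨a₁, ha₁⟩
  choose! Q₁ hQ₁ using hQ
  refine ⟨n, fun i => aeval t₁ (Q₁ i), fun i => ?_, ?_⟩
  · rw [Algebra.adjoin_singleton_eq_range_aeval]
    exact ⟨Q₁ i, rfl⟩
  · have hcomp : (phi N K₁).comp (algebraMap ↥(descVal A K₁) (FK K₁ N)) =
        (((gvPreBar N A B).O.subtype.comp cA).comp (descIncl A K₁)) := by
      rw [hcA]
      exact RingHom.ext fun a => phi_const N A K₁ B a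
    have hterm : ∀ i, i < n → phi N K₁ (aeval t₁ (Q₁ i)) =
        (gvPreBar N A B).O.subtype ((Q i).eval₂ cA T) := by
      intro i hi
      rw [aeval_def, Polynomial.hom_eval₂, Polynomial.hom_eval₂, ← hQ₁ i hi,
        Polynomial.eval₂_map, hcomp, ht₁]
      rfl
    have hz₁ : x₁ ^ n + ∑ i ∈ Finset.range n, aeval t₁ (Q₁ i) * x₁ ^ i = z₁ := by
      apply (phi N K₁).injective
      rw [hφz]
      show _ = (gvPreBar N A B).O.subtype Z
      rw [hZ, map_add, map_add, map_pow, map_pow, map_sum, map_sum, hφx]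
      congr 1
      refine Finset.sum_congr rfl (fun i hi => ?_)
      rw [map_mul, map_mul, map_pow, map_pow, hφx, hterm i (Finset.mem_range.mp hi)]
      rfl
    rw [hz₁]
    exact hzmod


/-- **the Gauss data** for the base function of any kind, at every `ℓ ∤ N`
(`H28UG.gaussStatement_of_slices` without the tameness of the level). -/
theorem gauss_gen (ℓ : ℕ) [Fact ℓ.Prime] (hℓN : ¬ ℓ ∣ N) (hA : A.LiesOverPrime ℓ)
    (ϖ : ↥(descVal A K₁)) (hϖ : Irreducible ϖ)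
    (i : ℕ) (t₀ : LaurentSeries ℚ) (ht₀ : IsBase i t₀)
    (t : FK K₁ N) (ht : (t : LaurentSeries K₁) = coeffEmb K₁ t₀) :
    UnrGauss ↥(descVal A K₁) K₁ ϖ t ∧
      ∀ (f g : LaurentSeries (descVal A K₁)) (x : FK K₁ N),
        coeffMap ((IsLocalRing.residue A).comp (descIncl A K₁)) g ≠ 0 →
        (x : LaurentSeries K₁) * coeffMap (descVal A K₁).subtype g =
          coeffMap (descVal A K₁).subtype f →
        GInt ↥(descVal A K₁) ϖ t x := by
  obtain ⟨hperf, hcharp⟩ := H1S18.c7Perfect ℓ A hA K₁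
  obtain ⟨hc1, ⟨T, hT⟩, hj⟩ := H4C7d.c7BaseStatement i t₀ ht₀
  haveI := hperf
  haveI := hcharp
  have hT1 : T.coeff (-1) = 1 := by
    have h1 : (coeffMap (Int.castRingHom ℚ) T).coeff (-1) = 1 := by rw [hT]; exact hc1
    rw [coeffMap_coeff] at h1
    have h2 : ((T.coeff (-1) : ℤ) : ℚ) = ((1 : ℤ) : ℚ) := by
      rw [Int.cast_one]
      exact h1
    exact Int.cast_injective h2
  have hmain := H28UG.gauss_inst (descVal A K₁) N H27C7b.h27c7b_deg H16C7c.h16_c7Sep ℓ hℓN ϖ hϖ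
    T hT1 (by rw [hT]; exact hj) t (by rw [hT]; exact ht)
  exact ⟨hmain.1, fun f g x hg hx =>
    hmain.2 x ⟨f, g, H28UG.rho_ne_zero_of_desc A K₁ g hg, hx⟩⟩

theorem exists_mul_branchIndex (i : ℕ) : ∃ d : ℕ, 6 * N = d * branchIndex i N := by
  unfold branchIndex
  split_ifs
  · exact ⟨1, by ring⟩
  · exact ⟨3, by ring⟩
  · exact ⟨2, by ring⟩

/-- a primitive root of unity of order `e ∣ n` in `A₁`, from a primitive `n`-th root in `K₁` -/
theorem exists_primitiveRoot_desc {n : ℕ} (hn : 0 < n) (ζ : K₁) (hζ : IsPrimitiveRoot ζ n)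
    (d e : ℕ) (hde : n = d * e) :
    ∃ ζ' : ↥(descVal A K₁), IsPrimitiveRoot ζ' e := by
  have he : 0 < e := by
    rcases Nat.eq_zero_or_pos e with h | h
    · rw [h, mul_zero] at hde
      omega
    · exact h
  have hζ' : IsPrimitiveRoot (ζ ^ d) e := hζ.pow hn hde
  have hmem : ζ ^ d ∈ descVal A K₁ := h7_mem_of_pow_eq_one _ _ _ he hζ'.pow_eq_one
  refine ⟨⟨ζ ^ d, hmem⟩, ?_⟩
  exact IsPrimitiveRoot.of_map_of_injective (f := (descVal A K₁).subtype)
    (by exact hζ') Subtype.val_injective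

/-- `ϖ` reduces to `0` -/
theorem residue_descIncl_irreducible (ϖ : ↥(descVal A K₁)) (hϖ : Irreducible ϖ) :
    IsLocalRing.residue A (descIncl A K₁ ϖ) = 0 := by
  by_contra h
  exact hϖ.not_isUnit (H28UG.descIncl_isUnit A K₁ ϖ
    ((IsLocalRing.residue_ne_zero_iff_isUnit _).mp h))

/-- **LocalLift, finite chart**: for the base function `h` of kind `i` (any `ℓ ∤ N`), at a point
`c` which is not a branch point modulo `ℓ`, or at a tame branch point. -/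
theorem localLift_fin (hM1 : M1Statement) (hLC : LiftCoreStatement) (hC : DescendStatement)
    (hB1 : AbsLocalUnrStatement) (hB3 : AbsLocalTameStatement)
    (ℓ : ℕ) [Fact ℓ.Prime] (hℓN : ¬ ℓ ∣ N) (hA : A.LiesOverPrime ℓ)
    (B : GVBasis A (IsLocalRing.residue A) N)
    (i : ℕ) (hi : i = 1 ∨ (i = 2 ∧ 2 ∣ N) ∨ (i = 3 ∧ 3 ∣ N))
    (t₀ : LaurentSeries ℚ) (ht₀ : IsBase i t₀)
    (h : ↥(modularFunctionFieldBar N))
    (hcoe : (h : LaurentSeries (AlgebraicClosure ℚ)) = coeffEmb (AlgebraicClosure ℚ) t₀)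
    (hh : h ∈ (gvPreBar N A B).O)
    (htk : Transcendental (IsLocalRing.ResidueField A) ((gvPreBar N A B).red ⟨h, hh⟩))
    (c : IsLocalRing.ResidueField A)
    (hc : (∀ c' ∈ branchSet i, c ≠ ((c' : ℤ) : IsLocalRing.ResidueField A)) ∨
      (∃ c₀ ∈ branchSet i, c = ((c₀ : ℤ) : IsLocalRing.ResidueField A) ∧
        ¬ ℓ ∣ branchIndex i N ∧
        ∀ (R₁ : Type) [CommRing R₁], (∀ n : ℕ, ¬ ℓ ∣ n → 0 < n → IsUnit ((n : ℕ) : R₁)) →
          ∀ c ∈ branchSet i, ∀ c' ∈ branchSet i, c ≠ c' → IsUnit (((c - c' : ℤ) : ℤ) : R₁))) :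
    LocalLiftAt (gvPreBar N A B) h hh c := by
  classical
  have hℓ : ℓ.Prime := Fact.out
  have hN0 : 0 < N := Nat.pos_of_ne_zero (NeZero.ne N)
  intro x hx hint
  obtain ⟨a₀, ha₀⟩ := gv_residue_surj A c
  obtain ⟨K₁, hK₁fin, ⟨ζ, hζ⟩, ha₀K, hsetup⟩ :=
    setup N A hM1 hC ℓ hℓN hA B ⟨h, hh⟩ ⟨x, hx⟩ hint a₀
  obtain ⟨hdvr, -, hunit⟩ := H4DVR.dvrStatement ℓ A hA K₁ hK₁fin
  haveI := hdvr
  obtain ⟨ϖ, hϖ⟩ := IsDiscreteValuationRing.exists_irreducible ↥(descVal A K₁)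
  obtain ⟨t₁, ht₁coe, ht₁tr, ht₁fin, -⟩ := H9C6e.fieldBasics N i hi t₀ ht₀ K₁
  obtain ⟨tL, htLcoe, -, htLfin, -⟩ := H9C6e.fieldBasics N i hi t₀ ht₀ (AlgebraicClosure ℚ)
  have htLh : tL = h := Subtype.ext (htLcoe.trans hcoe.symm)
  have hφt : phi N K₁ t₁ = h := by
    apply Subtype.ext
    rw [phi_coe, ht₁coe, hcoe]
    show coeffMap (algebraMap K₁ (AlgebraicClosure ℚ)) (coeffMap (algebraMap ℚ K₁) t₀) =
      coeffMap (algebraMap ℚ (AlgebraicClosure ℚ)) t₀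
    rw [coeffMap_coeffMap]
    exact coeffMap_congr (Subsingleton.elim _ _) t₀
  obtain ⟨hunr, hG⟩ := gauss_gen N A K₁ ℓ hℓN hA ϖ hϖ i t₀ ht₀ t₁ ht₁coe
  obtain ⟨x₁, hφx, hx₁G, hx₁I⟩ := hsetup ϖ hϖ t₁ hφt hG
  obtain ⟨hUO, hTA⟩ := H4BR.branchStatement N i hi t₀ ht₀ tL htLcoe
  have htL : algebraMap (FK K₁ N) (FK (AlgebraicClosure ℚ) N) t₁ = tL := by
    rw [htLh]
    exact hφt
  rw [← htL] at hUO hTA htLfin
  have htR : Transcendental ↥(descVal A K₁) t₁ := H19S18.h19_transc ↥(descVal A K₁) K₁ ht₁tr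
  -- the point `c₁` and local normality
  have key : ∃ (c₁ : ↥(descVal A K₁)) (𝔪 : Ideal (Algebra.adjoin ↥(descVal A K₁) {t₁})),
      IsLocalRing.residue A (descIncl A K₁ c₁) = c ∧
      algebraMap ↥(descVal A K₁) (Algebra.adjoin ↥(descVal A K₁) {t₁}) ϖ ∈ 𝔪 ∧
      (∀ s : Algebra.adjoin ↥(descVal A K₁) {t₁},
        (s : FK K₁ N) = t₁ - algebraMap ↥(descVal A K₁) (FK K₁ N) c₁ → s ∈ 𝔪) ∧ 𝔪 ≠ ⊤ ∧
      InChartAt ↥(descVal A K₁) ϖ t₁ 𝔪 x₁ := by
    rcases hc with hc | ⟨c₀, hc₀, hcc, hidx, hunits⟩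
    · -- a point away from the branch set
      obtain ⟨c₁, hc₁, -⟩ := exists_descIncl A K₁ a₀ ha₀K
      obtain ⟨𝔪, h𝔪max, hϖ𝔪, hs𝔪, h𝔪top⟩ :=
        h18r2_exists_maxIdeal ↥(descVal A K₁) ϖ hϖ t₁ htR c₁
      have hu : ∀ c' ∈ branchSet i, IsUnit (c₁ - ((c' : ℤ) : ↥(descVal A K₁))) := by
        intro c' hc'
        apply H28UG.descIncl_isUnit A K₁
        rw [← IsLocalRing.residue_ne_zero_iff_isUnit, map_sub, map_sub, hc₁, ha₀, map_intCast,
          map_intCast]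
        exact sub_ne_zero.mpr (hc c' hc')
      refine ⟨c₁, 𝔪, by rw [hc₁]; exact ha₀, hϖ𝔪, hs𝔪, h𝔪top, ?_⟩
      exact hB1 ↥(descVal A K₁) K₁ (AlgebraicClosure ℚ) (FK K₁ N) (FK (AlgebraicClosure ℚ) N)
        ϖ hϖ t₁ ht₁tr ht₁fin htLfin hunr (branchSet i) hUO c₁ hu 𝔪 h𝔪max hϖ𝔪 hs𝔪 x₁ hx₁G hx₁I
    · -- a tame branch point
      obtain ⟨𝔪, h𝔪max, hϖ𝔪, hs𝔪, h𝔪top⟩ :=
        h18r2_exists_maxIdeal ↥(descVal A K₁) ϖ hϖ t₁ htR ((c₀ : ℤ) : ↥(descVal A K₁))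
      obtain ⟨d, hd⟩ := exists_mul_branchIndex N i
      have h6N : 0 < 6 * N := Nat.mul_pos (by norm_num) hN0
      have he₀pos : 0 < branchIndex i N := by
        rcases Nat.eq_zero_or_pos (branchIndex i N) with h0 | h0
        · rw [h0, mul_zero] at hd
          omega
        · exact h0
      refine ⟨((c₀ : ℤ) : ↥(descVal A K₁)), 𝔪, by rw [map_intCast, map_intCast, hcc], hϖ𝔪, hs𝔪,
        h𝔪top, ?_⟩
      exact hB3 ↥(descVal A K₁) K₁ (AlgebraicClosure ℚ) (FK K₁ N) (FK (AlgebraicClosure ℚ) N)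
        ϖ hϖ t₁ ht₁tr ht₁fin htLfin hunr (branchSet i) (hunits ↥(descVal A K₁) hunit)
        (branchIndex i N) (hunit _ hidx he₀pos)
        (exists_primitiveRoot_desc A K₁ h6N ζ hζ d (branchIndex i N) hd) hUO c₀ hc₀
        (hTA.1 c₀ hc₀) 𝔪 h𝔪max hϖ𝔪 hs𝔪 x₁ hx₁G hx₁I
  obtain ⟨c₁, 𝔪, hc₁, hϖ𝔪, hs𝔪, h𝔪top, hin⟩ := key
  -- transfer to `L`
  have hR₁A : ∀ a : ↥(descVal A K₁),
      algebraMap K₁ (AlgebraicClosure ℚ) (algebraMap ↥(descVal A K₁) K₁ a) ∈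
        (gvPreBar N A B).A := fun a => a.2
  have hAt : algebraMap (FK K₁ N) (FK (AlgebraicClosure ℚ) N) t₁ = h := hφt
  have hAx : algebraMap (FK K₁ N) (FK (AlgebraicClosure ℚ) N) x₁ = x := hφx
  have ht' : algebraMap (FK K₁ N) (FK (AlgebraicClosure ℚ) N) t₁ ∈ (gvPreBar N A B).O := by
    rw [hAt]; exact hh
  have hx' : algebraMap (FK K₁ N) (FK (AlgebraicClosure ℚ) N) x₁ ∈ (gvPreBar N A B).O := by
    rw [hAx]; exact hx
  have hTeq : (⟨algebraMap (FK K₁ N) (FK (AlgebraicClosure ℚ) N) t₁, ht'⟩ : (gvPreBar N A B).O) =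
      ⟨h, hh⟩ := Subtype.ext hAt
  have hXeq : (⟨algebraMap (FK K₁ N) (FK (AlgebraicClosure ℚ) N) x₁, hx'⟩ : (gvPreBar N A B).O) =
      ⟨x, hx⟩ := Subtype.ext hAx
  obtain ⟨a, ha, sb, hai, hred, hsb0, hsb⟩ := hLC ↥(descVal A K₁) K₁ (AlgebraicClosure ℚ)
    (FK K₁ N) (FK (AlgebraicClosure ℚ) N) (IsLocalRing.ResidueField A)
    ↥(modularFunctionFieldFullC (IsLocalRing.ResidueField A) N) (gvPreBar N A B) ϖ hϖ t₁ ht₁tr
    ht' (by rw [hTeq]; exact htk) hR₁A (residue_descIncl_irreducible A K₁ ϖ hϖ) c₁ 𝔪 hϖ𝔪 hs𝔪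
    h𝔪top x₁ hin hx'
  rw [hAt] at hai
  rw [hXeq] at hred
  refine ⟨a, ha, sb, hai, hred, hsb0, fun Q hQ => hsb Q ?_⟩
  rw [hTeq]
  have hπ : (gvPreBar N A B).π ⟨algebraMap K₁ (AlgebraicClosure ℚ)
      (algebraMap ↥(descVal A K₁) K₁ c₁), hR₁A c₁⟩ = c := hc₁
  rw [hπ]
  exact hQ


/-- **LocalLift, chart at `∞`**: for the base function `h` of kind `i` (any `ℓ ∤ N`), chart
`h⁻¹` at the point `0`, when the ramification indices at `∞` divide `e₀` prime to `ℓ`. -/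
theorem localLift_inf (hM1 : M1Statement) (hLC : LiftCoreStatement) (hC : DescendStatement)
    (hB2 : AbsLocalInftyStatement)
    (ℓ : ℕ) [Fact ℓ.Prime] (hℓN : ¬ ℓ ∣ N) (hA : A.LiesOverPrime ℓ)
    (B : GVBasis A (IsLocalRing.residue A) N)
    (i : ℕ) (hi : i = 1 ∨ (i = 2 ∧ 2 ∣ N) ∨ (i = 3 ∧ 3 ∣ N))
    (t₀ : LaurentSeries ℚ) (ht₀ : IsBase i t₀)
    (h : ↥(modularFunctionFieldBar N))
    (hcoe : (h : LaurentSeries (AlgebraicClosure ℚ)) = coeffEmb (AlgebraicClosure ℚ) t₀)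
    (hh' : h⁻¹ ∈ (gvPreBar N A B).O)
    (htk : Transcendental (IsLocalRing.ResidueField A) ((gvPreBar N A B).red ⟨h⁻¹, hh'⟩))
    (e₀ : ℕ) (he₀ : ¬ ℓ ∣ e₀) (d : ℕ) (hde : 6 * N = d * e₀)
    (hinf : ∀ W : Place (AlgebraicClosure ℚ) (FK (AlgebraicClosure ℚ) N),
      W.ord h < 0 → W.ord h ∣ (e₀ : ℤ)) :
    LocalLiftAt (gvPreBar N A B) h⁻¹ hh' 0 := by
  classical
  have hℓ : ℓ.Prime := Fact.out
  have hN0 : 0 < N := Nat.pos_of_ne_zero (NeZero.ne N)
  have h6N : 0 < 6 * N := Nat.mul_pos (by norm_num) hN0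
  have he₀pos : 0 < e₀ := by
    rcases Nat.eq_zero_or_pos e₀ with h0 | h0
    · rw [h0, mul_zero] at hde
      omega
    · exact h0
  intro x hx hint
  obtain ⟨K₁, hK₁fin, ⟨ζ, hζ⟩, -, hsetup⟩ :=
    setup N A hM1 hC ℓ hℓN hA B ⟨h⁻¹, hh'⟩ ⟨x, hx⟩ hint 0
  obtain ⟨hdvr, -, hunit⟩ := H4DVR.dvrStatement ℓ A hA K₁ hK₁fin
  haveI := hdvr
  obtain ⟨ϖ, hϖ⟩ := IsDiscreteValuationRing.exists_irreducible ↥(descVal A K₁)
  obtain ⟨t₁, ht₁coe, ht₁tr, ht₁fin, -⟩ := H9C6e.fieldBasics N i hi t₀ ht₀ K₁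
  obtain ⟨tL, htLcoe, -, htLfin, -⟩ := H9C6e.fieldBasics N i hi t₀ ht₀ (AlgebraicClosure ℚ)
  have htLh : tL = h := Subtype.ext (htLcoe.trans hcoe.symm)
  have hφt : phi N K₁ t₁ = h := by
    apply Subtype.ext
    rw [phi_coe, ht₁coe, hcoe]
    show coeffMap (algebraMap K₁ (AlgebraicClosure ℚ)) (coeffMap (algebraMap ℚ K₁) t₀) =
      coeffMap (algebraMap ℚ (AlgebraicClosure ℚ)) t₀
    rw [coeffMap_coeffMap]
    exact coeffMap_congr (Subsingleton.elim _ _) t₀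
  have hφt' : phi N K₁ t₁⁻¹ = h⁻¹ := by rw [map_inv₀, hφt]
  have htR : Transcendental ↥(descVal A K₁) t₁ := H19S18.h19_transc ↥(descVal A K₁) K₁ ht₁tr
  have htR' : Transcendental ↥(descVal A K₁) t₁⁻¹ := H21S18.transcendental_inv htR
  have ht₁tr' : Transcendental K₁ t₁⁻¹ := H21S18.transcendental_inv ht₁tr
  obtain ⟨hunr, hG⟩ := gauss_gen N A K₁ ℓ hℓN hA ϖ hϖ i t₀ ht₀ t₁ ht₁coe
  obtain ⟨x₁, hφx, hx₁G, hx₁I⟩ := hsetup ϖ hϖ t₁⁻¹ hφt'
    (fun f g y hg hy => (H21S18.gInt_inv_iff hϖ.prime htR).mpr (hG f g y hg hy))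
  obtain ⟨hUO, -⟩ := H4BR.branchStatement N i hi t₀ ht₀ tL htLcoe
  have htL : algebraMap (FK K₁ N) (FK (AlgebraicClosure ℚ) N) t₁ = tL := by
    rw [htLh]
    exact hφt
  rw [← htL] at hUO htLfin
  have hinf' : ∀ W : Place (AlgebraicClosure ℚ) (FK (AlgebraicClosure ℚ) N),
      W.ord (algebraMap (FK K₁ N) (FK (AlgebraicClosure ℚ) N) t₁) < 0 →
        W.ord (algebraMap (FK K₁ N) (FK (AlgebraicClosure ℚ) N) t₁) ∣ (e₀ : ℤ) := by
    rw [htL, htLh]
    exact hinf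
  obtain ⟨𝔪, h𝔪max, hϖ𝔪, hs𝔪, h𝔪top⟩ :=
    h18r2_exists_maxIdeal ↥(descVal A K₁) ϖ hϖ t₁⁻¹ htR' 0
  have hin : InChartAt ↥(descVal A K₁) ϖ t₁⁻¹ 𝔪 x₁ :=
    hB2 ↥(descVal A K₁) K₁ (AlgebraicClosure ℚ) (FK K₁ N) (FK (AlgebraicClosure ℚ) N)
      ϖ hϖ t₁ ht₁tr ht₁fin htLfin hunr (branchSet i) e₀ (hunit _ he₀ he₀pos)
      (exists_primitiveRoot_desc A K₁ h6N ζ hζ d e₀ hde) hUO hinf' 𝔪 h𝔪max hϖ𝔪
      (fun s hs => hs𝔪 s (by rw [hs, map_zero, sub_zero])) x₁ hx₁G hx₁I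
  -- transfer to `L`
  have hR₁A : ∀ a : ↥(descVal A K₁),
      algebraMap K₁ (AlgebraicClosure ℚ) (algebraMap ↥(descVal A K₁) K₁ a) ∈
        (gvPreBar N A B).A := fun a => a.2
  have hAt : algebraMap (FK K₁ N) (FK (AlgebraicClosure ℚ) N) t₁⁻¹ = h⁻¹ := hφt'
  have hAx : algebraMap (FK K₁ N) (FK (AlgebraicClosure ℚ) N) x₁ = x := hφx
  have ht' : algebraMap (FK K₁ N) (FK (AlgebraicClosure ℚ) N) t₁⁻¹ ∈ (gvPreBar N A B).O := by
    rw [hAt]; exact hh'
  have hx' : algebraMap (FK K₁ N) (FK (AlgebraicClosure ℚ) N) x₁ ∈ (gvPreBar N A B).O := by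
    rw [hAx]; exact hx
  have hTeq : (⟨algebraMap (FK K₁ N) (FK (AlgebraicClosure ℚ) N) t₁⁻¹, ht'⟩ :
      (gvPreBar N A B).O) = ⟨h⁻¹, hh'⟩ := Subtype.ext hAt
  have hXeq : (⟨algebraMap (FK K₁ N) (FK (AlgebraicClosure ℚ) N) x₁, hx'⟩ : (gvPreBar N A B).O) =
      ⟨x, hx⟩ := Subtype.ext hAx
  obtain ⟨a, ha, sb, hai, hred, hsb0, hsb⟩ := hLC ↥(descVal A K₁) K₁ (AlgebraicClosure ℚ)
    (FK K₁ N) (FK (AlgebraicClosure ℚ) N) (IsLocalRing.ResidueField A)
    ↥(modularFunctionFieldFullC (IsLocalRing.ResidueField A) N) (gvPreBar N A B) ϖ hϖ t₁⁻¹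
    ht₁tr' ht' (by rw [hTeq]; exact htk) hR₁A (residue_descIncl_irreducible A K₁ ϖ hϖ) 0 𝔪
    hϖ𝔪 hs𝔪 h𝔪top x₁ hin hx'
  rw [hAt] at hai
  rw [hXeq] at hred
  refine ⟨a, ha, sb, hai, hred, hsb0, fun Q hQ => hsb Q ?_⟩
  rw [hTeq]
  have hπ : (gvPreBar N A B).π ⟨algebraMap K₁ (AlgebraicClosure ℚ)
      (algebraMap ↥(descVal A K₁) K₁ 0), hR₁A 0⟩ = 0 := by
    show IsLocalRing.residue A (descIncl A K₁ 0) = 0
    rw [map_zero, map_zero]
  rw [hπ]
  exact hQ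

/-- the reduction of a base function is transcendental (it has a simple pole at `q = 0`) -/
theorem red_transcendental (B : GVBasis A (IsLocalRing.residue A) N)
    (i : ℕ) (t₀ : LaurentSeries ℚ) (ht₀ : IsBase i t₀)
    (h : ↥(modularFunctionFieldBar N))
    (hcoe : (h : LaurentSeries (AlgebraicClosure ℚ)) = coeffEmb (AlgebraicClosure ℚ) t₀)
    (hh : h ∈ (gvPreBar N A B).O) :
    Transcendental (IsLocalRing.ResidueField A) ((gvPreBar N A B).red ⟨h, hh⟩) := by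
  obtain ⟨hc1, ⟨T, hT⟩, -⟩ := H4C7d.c7BaseStatement i t₀ ht₀
  have hT1 : T.coeff (-1) = 1 := by
    have h1 : (coeffMap (Int.castRingHom ℚ) T).coeff (-1) = 1 := by rw [hT]; exact hc1
    rw [coeffMap_coeff] at h1
    have h2 : ((T.coeff (-1) : ℤ) : ℚ) = ((1 : ℤ) : ℚ) := by
      rw [Int.cast_one]
      exact h1
    exact Int.cast_injective h2
  have htA : (h : LaurentSeries (AlgebraicClosure ℚ)) =
      gvEps A (coeffMap (Int.castRingHom A) T) := by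
    rw [hcoe, ← hT, coeffEmb, coeffMap_coeffMap, gvEps_def, coeffMap_coeffMap]
    exact coeffMap_congr (RingHom.ext_int _ _) T
  have htred : (((gvPreBar N A B).red ⟨h, hh⟩ :
      ↥(modularFunctionFieldFullC (IsLocalRing.ResidueField A) N)) :
        LaurentSeries (IsLocalRing.ResidueField A)) =
      coeffMap (Int.castRingHom (IsLocalRing.ResidueField A)) T := by
    show ((gvRedF B (gv_hpi_of_nonunit (gv_residue_nonunit A)) ⟨h, hh⟩ :
      ↥(modularFunctionFieldFullC (IsLocalRing.ResidueField A) N)) :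
        LaurentSeries (IsLocalRing.ResidueField A)) = _
    rw [coe_gvRedF]
    have h1 : gvOFincl B ⟨h, hh⟩ = ⟨gvEps A (coeffMap (Int.castRingHom A) T),
        gvEps_mem_gvO A (IsLocalRing.residue A) _⟩ := Subtype.ext htA
    rw [h1, gvRed_eps, gvRho_def, coeffMap_coeffMap]
    exact coeffMap_congr (RingHom.ext_int _ _) T
  have htcoeff : (((gvPreBar N A B).red ⟨h, hh⟩ :
      ↥(modularFunctionFieldFullC (IsLocalRing.ResidueField A) N)) :
        LaurentSeries (IsLocalRing.ResidueField A)).coeff (-1) = 1 := by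
    rw [htred, coeffMap_coeff, hT1]
    simp
  have hinj : Function.Injective
      (algebraMap ↥(modularFunctionFieldFullC (IsLocalRing.ResidueField A) N)
        (LaurentSeries (IsLocalRing.ResidueField A))) := Subtype.val_injective
  have htL : Transcendental (IsLocalRing.ResidueField A)
      (((gvPreBar N A B).red ⟨h, hh⟩ :
        ↥(modularFunctionFieldFullC (IsLocalRing.ResidueField A) N)) :
          LaurentSeries (IsLocalRing.ResidueField A)) :=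
    H28UG.transcendental_of_pole _ (by rw [htcoeff]; exact one_ne_zero)
  exact (transcendental_algebraMap_iff hinj).mp htL


end Plumbing

section Master

theorem branchSet_one : branchSet 1 = {0, 1728} := by
  unfold branchSet
  rw [if_pos rfl]

theorem branchIndex_one (N : ℕ) : branchIndex 1 N = 6 * N := by
  unfold branchIndex
  rw [if_pos rfl]

theorem baseKind_of_five_le {ℓ : ℕ} (h5 : 5 ≤ ℓ) : baseKind ℓ = 1 := by
  unfold baseKind
  rw [if_neg (by omega), if_neg (by omega)]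

/-- `1728 = 0` in characteristic `2` and `3` -/
theorem natCast_1728_eq_zero (A : ValuationSubring (AlgebraicClosure ℚ)) (ℓ : ℕ)
    (hℓ : ℓ.Prime) (h5 : ¬ 5 ≤ ℓ) (hA : A.LiesOverPrime ℓ) :
    ((1728 : ℤ) : IsLocalRing.ResidueField A) = 0 := by
  have hℓ0 := gv_residue_natCast_eq_zero A ℓ hA
  have h23 : ℓ = 2 ∨ ℓ = 3 := by
    have h2 := hℓ.two_le
    have h4 : ℓ ≠ 4 := by
      rintro rfl
      exact absurd hℓ (by norm_num)
    omega
  rcases h23 with rfl | rfl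
  · have : ((1728 : ℤ) : IsLocalRing.ResidueField A) =
        ((2 : ℕ) : IsLocalRing.ResidueField A) * 864 := by
      push_cast
      norm_num
    rw [this, hℓ0, zero_mul]
  · have : ((1728 : ℤ) : IsLocalRing.ResidueField A) =
        ((3 : ℕ) : IsLocalRing.ResidueField A) * 576 := by
      push_cast
      norm_num
    rw [this, hℓ0, zero_mul]

/-- **R2-U MASTER**: `UnifJGoodStatement` from the stages. -/
theorem master (hM1 : M1Statement) (hEx : ExStatement) (hLC : LiftCoreStatement)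
    (hC : DescendStatement) (hB1 : AbsLocalUnrStatement) (hB3 : AbsLocalTameStatement)
    (hB2 : AbsLocalInftyStatement) : UnifJGoodStatement := by
  intro N _ ℓ _ hℓN A hA B
  have hℓ : ℓ.Prime := Fact.out
  have S : Setting (gvPreBar N A B) (RH24.Jbar N) := H29R2F.h29r2f_settingJ N ℓ hℓN A hA B
  have S' : Setting (gvPreBar N A B) (RH24.Jbar N)⁻¹ :=
    LeadR2.inv_statement _ _ _ _ (gvPreBar N A B) (RH24.Jbar N) S
  refine ⟨fun ht c hc => unifAt_of_localLift hEx (gvPreBar N A B) (RH24.Jbar N) S c ?_,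
    fun ht' => unifAt_of_localLift hEx (gvPreBar N A B) (RH24.Jbar N)⁻¹ S' 0 ?_⟩
  · refine localLift_fin N A hM1 hLC hC hB1 hB3 ℓ hℓN hA B 1 (Or.inl rfl) jq (Or.inl ⟨rfl, rfl⟩)
      (RH24.Jbar N) (RH24.coe_Jbar N) S.ht S.htk c ?_
    by_cases h5 : 5 ≤ ℓ
    · by_cases hc0 : ∃ c₀ ∈ branchSet 1, c = ((c₀ : ℤ) : IsLocalRing.ResidueField A)
      · obtain ⟨c₀, hc₀, hcc⟩ := hc0
        refine Or.inr ⟨c₀, hc₀, hcc, ?_, ?_⟩
        · have h1 := h7_branchIndex_coprime hℓ (N := N) ⟨hℓN, fun h => by omega, fun h => by omega⟩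
          rwa [baseKind_of_five_le h5] at h1
        · intro R₁ _ hunit
          have h1 := (h7_branch_units hℓ R₁ hunit).1
          rwa [baseKind_of_five_le h5] at h1
      · left
        intro c' hc' hcc
        exact hc0 ⟨c', hc', hcc⟩
    · left
      have hc' : c ≠ 0 := hc.resolve_left h5
      intro c' hc'' hcc
      rw [branchSet_one] at hc''
      simp only [Finset.mem_insert, Finset.mem_singleton] at hc''
      rcases hc'' with rfl | rfl
      · apply hc'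
        rw [hcc]
        simp
      · apply hc'
        rw [hcc]
        exact natCast_1728_eq_zero A ℓ hℓ h5 hA
  · refine localLift_inf N A hM1 hLC hC hB2 ℓ hℓN hA B 1 (Or.inl rfl) jq (Or.inl ⟨rfl, rfl⟩)
      (RH24.Jbar N) (RH24.coe_Jbar N) S'.ht S'.htk N hℓN 6 rfl ?_
    exact (H4BR.jBranch N).infty

end Master


end H29R2M

end
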