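import Fermat.Prelude.Def_AlgebraicCurve_DivisorClassGroup

/-!
# S37: the "bounded homomorphism" lemma (helper8)

An additive map `φ : Div(F) → ℤ` that kills principal divisors and is bounded on places vanishes
on divisors of degree `0`, as soon as `F` satisfies Riemann's theorem in the weak form
`RiemannWeak`: every divisor of degree `≥ g` is linearly equivalent to an effective one.

This replaces the divisibility of `Pic0` in the prelude's uniqueness lemma
`IsPlaceReductionAlong.eq_of_agree`, and gives both the Galois equivariance of the reduction map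
(R1) and the Eichler–Shimura congruence (R3) from their versions on principal divisors.
-/

set_option autoImplicit false

noncomputable section

namespace H8S37

open AlgebraicCurve

variable (K F : Type*) [Field K] [Field F] [Algebra K F]

/-- Riemann's theorem, weak form: every divisor of degree `≥ g` is linearly equivalent to an
effective divisor (of the same degree). -/
def RiemannWeak : Prop :=
  ∃ g : ℕ, ∀ D : Divisor K F, (g : ℤ) ≤ Divisor.degree D →
    ∃ D' : Divisor K F, (∀ P, 0 ≤ D' P) ∧ Divisor.degree D' = Divisor.degree D ∧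
      D' - D ∈ Divisor.principal (K := K) (F := F)

variable {K F}

/-- Riemann's theorem in the usual form (`L(D) ≠ 0` for `deg D ≥ g`) gives `RiemannWeak`. -/
theorem h8b_riemannWeak_of_exists [HasPrincipalDivisors K F] (g : ℕ)
    (h : ∀ D : Divisor K F, (g : ℤ) ≤ Divisor.degree D →
      ∃ f : F, f ≠ 0 ∧ ∀ P : Place K F, -D P ≤ P.ord f) : RiemannWeak K F := by
  refine ⟨g, fun D hD => ?_⟩
  obtain ⟨f, hf, hfD⟩ := h D hD
  obtain ⟨Df, hDf, hDf0⟩ := HasPrincipalDivisors.exists_divisor (K := K) f hf
  refine ⟨Df + D, fun P => ?_, ?_, ?_⟩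
  · rw [Finsupp.add_apply, hDf P]
    have := hfD P
    omega
  · rw [map_add, hDf0, zero_add]
  · rw [add_sub_cancel_right]
    exact ⟨f, hf, hDf⟩

/-- On an effective divisor a bounded additive function is bounded by `C * degree`. -/
theorem h8b_abs_le_of_effective (hdeg : ∀ P : Place K F, P.deg = 1)
    (φ : Divisor K F →+ ℤ) (C : ℤ) (hC : ∀ P : Place K F, |φ (Finsupp.single P 1)| ≤ C)
    (D : Divisor K F) (hD : ∀ P, 0 ≤ D P) : |φ D| ≤ C * Divisor.degree D := by
  classical
  induction D using Finsupp.induction with
  | zero => simp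
  | single_add P n D hP hn ih =>
    have hn0 : 0 ≤ n := by
      have := hD P
      rw [Finsupp.add_apply, Finsupp.single_eq_same, Finsupp.notMem_support_iff.mp hP,
        add_zero] at this
      exact this
    have hD' : ∀ Q, 0 ≤ D Q := by
      intro Q
      by_cases hQ : Q = P
      · rw [hQ, Finsupp.notMem_support_iff.mp hP]
      · have := hD Q
        rwa [Finsupp.add_apply, Finsupp.single_eq_of_ne hQ, zero_add] at this
    have h1 : φ (Finsupp.single P n) = n * φ (Finsupp.single P 1) := by
      have : (Finsupp.single P n : Divisor K F) = n • Finsupp.single P 1 := by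
        rw [Finsupp.smul_single, smul_eq_mul, mul_one]
      rw [this, map_zsmul, smul_eq_mul]
    have h2 : |φ (Finsupp.single P n)| ≤ C * n := by
      rw [h1, abs_mul, abs_of_nonneg hn0, mul_comm]
      exact mul_le_mul_of_nonneg_right (hC P) hn0
    rw [map_add, map_add, Divisor.degree_single, hdeg, Nat.cast_one, mul_one, mul_add]
    exact (abs_add_le _ _).trans (add_le_add h2 (ih hD'))

/-- **The bounded homomorphism lemma.** -/
theorem h8b_eq_zero_of_bounded (hRW : RiemannWeak K F) (hdeg : ∀ P : Place K F, P.deg = 1)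
    (φ : Divisor K F →+ ℤ) (hprin : ∀ D ∈ Divisor.principal (K := K) (F := F), φ D = 0)
    (C : ℤ) (hC : ∀ P : Place K F, |φ (Finsupp.single P 1)| ≤ C)
    (E : Divisor K F) (hE : Divisor.degree E = 0) : φ E = 0 := by
  classical
  obtain ⟨g, hg⟩ := hRW
  by_cases hne : Nonempty (Place K F)
  swap
  · rw [not_nonempty_iff] at hne
    rw [Subsingleton.elim E 0, map_zero]
  obtain ⟨P₀⟩ := hne
  have hC0 : 0 ≤ C := (abs_nonneg _).trans (hC P₀)
  -- the key estimate
  have key : ∀ n : ℕ, (n : ℤ) * |φ E| ≤ 2 * C * g := by
    intro n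
    have hdegn : Divisor.degree ((n : ℤ) • E + Finsupp.single P₀ (g : ℤ)) = g := by
      rw [map_add, map_zsmul, hE, smul_zero, zero_add, Divisor.degree_single, hdeg, Nat.cast_one,
        mul_one]
    obtain ⟨D', hD'eff, hD'deg, hD'prin⟩ := hg _ (le_of_eq hdegn.symm)
    have h0 := hprin _ hD'prin
    rw [map_sub, map_add, map_zsmul, sub_eq_zero, smul_eq_mul] at h0
    have hb1 : |φ D'| ≤ C * g := by
      have := h8b_abs_le_of_effective hdeg φ C hC D' hD'eff
      rwa [hD'deg, hdegn] at this
    have hb2 : |φ (Finsupp.single P₀ (g : ℤ))| ≤ C * g := by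
      have := h8b_abs_le_of_effective hdeg φ C hC (Finsupp.single P₀ (g : ℤ)) (fun P => by
        classical
        rw [Finsupp.single_apply]
        split_ifs
        · exact Int.natCast_nonneg g
        · exact le_rfl)
      rwa [Divisor.degree_single, hdeg, Nat.cast_one, mul_one] at this
    have h3 : (n : ℤ) * φ E = φ D' - φ (Finsupp.single P₀ (g : ℤ)) := by
      rw [h0]; ring
    calc (n : ℤ) * |φ E| = |(n : ℤ) * φ E| := by
          rw [abs_mul, abs_of_nonneg (Int.natCast_nonneg n)]
      _ = |φ D' - φ (Finsupp.single P₀ (g : ℤ))| := by rw [h3]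
      _ ≤ |φ D'| + |φ (Finsupp.single P₀ (g : ℤ))| := abs_sub _ _
      _ ≤ C * g + C * g := add_le_add hb1 hb2
      _ = 2 * C * g := by ring
  by_contra hne0
  have hpos : 1 ≤ |φ E| := Int.one_le_abs hne0
  have hCg : 0 ≤ 2 * C * g := by positivity
  have := key (2 * C * g + 1).toNat
  rw [Int.toNat_of_nonneg (by omega)] at this
  nlinarith

end H8S37

end
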