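import Mathlib
import Fermat.Agent.RRD.Riemann
import Fermat.Agent.FF.PrincipalDivisors
import Fermat.Agent.S37.Bounded_helper8
import Fermat.Agent.S24.BDegreeFinal

/-!
# S37 slice RW (helper1): Riemann's theorem (weak form) for the function field of `X₀(N)`

* `H1RW.riemannWeak_of` : `H8S37.RiemannWeak K F` for any function field `F / K` in one variable,
  `K` algebraically closed of characteristic `0`;
* `H1RW.riemannWeak_modular N` : `H8S37.RiemannWeak ℚ̄ (modularFunctionFieldBar N)`;
* `H1RW.deg_eq_one_modular`.
-/

set_option autoImplicit false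
set_option linter.style.longLine false
set_option linter.unusedSectionVars false
set_option linter.style.haveILetI false

noncomputable section

namespace H1RW

open AlgebraicCurve IntermediateField

/-- Riemann's theorem (weak form) in characteristic `0`. -/
theorem riemannWeak_of {K F : Type*} [Field K] [IsAlgClosed K] [CharZero K] [Field F]
    [Algebra K F] (y : F) (hy : Transcendental K y) [FiniteDimensional K⟮y⟯ F] :
    H8S37.RiemannWeak K F := by
  haveI := H27FF.h27ff_hasPrincipalDivisors y hy
  obtain ⟨g, hg⟩ := RRD.riemann_exists y hy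
  exact H8S37.h8b_riemannWeak_of_exists g hg

/-- **RW** for the function field of `X₀(N)` over `ℚ̄`. -/
theorem riemannWeak_modular (N : ℕ) [NeZero N] :
    H8S37.RiemannWeak RH24.Kbar (ModularCurve.modularFunctionFieldBar N) := by
  obtain ⟨hfd, -⟩ := RH24.B_degree N
  haveI := hfd
  exact riemannWeak_of (RH24.Jbar N) (RH24.B_transcendental N)

/-- Every place of the function field of `X₀(N)` over `ℚ̄` has degree one. -/
theorem deg_eq_one_modular (N : ℕ) [NeZero N]
    (v : Place RH24.Kbar (ModularCurve.modularFunctionFieldBar N)) : v.deg = 1 := by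
  obtain ⟨hfd, -⟩ := RH24.B_degree N
  haveI := hfd
  exact RRD.deg_eq_one (RH24.Jbar N) (RH24.B_transcendental N) v

end H1RW
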