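/-
Item 79 (S37), slice R2-U4, helper lemmas for U4-PAIR (helper2), INSTANCE-INDEPENDENT:
for levels `N ∣ N'` and ANY `Algebra ↥(F_k(N)) ↥(F_k(N'))` whose structure map is the inclusion
(`hc : ∀ x, (algebraMap _ _ x : k((q))) = x`):

* `H2PD.full_mono`              `F_k(N) ≤ F_k(N')`;
* `H2PD.finrank_mul_psi`        `[F_k(N') : F_k(N)] * ψ(N) = ψ(N')`   (primes of `N'` invertible in `k`);
* `H2PD.finiteDimensional_pair` `F_k(N') / F_k(N)` is finite;
* `H2PD.isSeparable_pair`       `F_k(N') / F_k(N)` is separable (`k` perfect of characteristic `p`);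
* `H2PD.finrank_pair_eq`        `[F_K(N') : F_K(N)] = [F_k(N') : F_k(N)]` for two fields `K`, `k`.
-/
import Mathlib
import Fermat.Agent.S18.C7b_helper27
import Fermat.Agent.S18.C10Red_helper27
import Fermat.Agent.S18.C7Inst_helper28

set_option autoImplicit false
set_option linter.style.longLine false
set_option linter.unusedSectionVars false
set_option linter.unusedVariables false
set_option linter.style.haveILetI false
set_option synthInstance.maxHeartbeats 400000

noncomputable section

open IntermediateField ModularCurve Module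

namespace H2PD

section Abs

variable {k E : Type*} [Field k] [Field E] [Algebra k E]

/-- the degree of `M' / M` as a `finrank` of subtypes (for any algebra structure given by the
inclusion) is the `relfinrank` inside the ambient field -/
theorem finrank_eq_relfinrank_of_compat (M M' : IntermediateField k E) (hle : M ≤ M')
    [Algebra ↥M ↥M']
    (hc : ∀ x : ↥M, ((algebraMap ↥M ↥M' x : ↥M') : E) = (x : E)) :
    Module.finrank ↥M ↥M' = relfinrank M M' := by
  rw [relfinrank_eq_finrank_of_le hle]
  let j : ↥M' ≃+* ↥(extendScalars hle) :=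
    { toFun := fun x => ⟨(x : E), x.2⟩
      invFun := fun x => ⟨(x : E), x.2⟩
      left_inv := fun _ => rfl
      right_inv := fun _ => rfl
      map_mul' := fun _ _ => rfl
      map_add' := fun _ _ => rfl }
  refine Algebra.finrank_eq_of_equiv_equiv (RingEquiv.refl ↥M) j ?_
  ext x
  exact (hc x).symm

end Abs

section Levels

variable (k : Type) [Field k] (N N' : ℕ) [NeZero N] [NeZero N']

/-- monotonicity of the function fields in the level -/
theorem full_mono (hNN' : N ∣ N') :
    modularFunctionFieldFullC k N ≤ modularFunctionFieldFullC k N' := by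
  unfold modularFunctionFieldFullC
  apply IntermediateField.adjoin.mono
  rintro x ⟨d, hd, hdN, rfl⟩
  exact ⟨d, hd, hdN.trans hNN', rfl⟩

/-- `[F_k(N) : k(j)] = ψ(N)` as a `relfinrank` -/
theorem relfinrank_full (hchar : ∀ r : ℕ, r.Prime → r ∣ N → (r : k) ≠ 0) :
    relfinrank (adjoin k {jqModC k}) (modularFunctionFieldFullC k N) = dedekindPsi N := by
  have h := H27C7b.h27c7b_deg k N hchar (modularFunctionFieldFullC k N) rfl
    (H27C10.h27c10_jC k N) rfl
  rw [H27C7b.h27c7b_finrank_eq_relfinrank] at h
  exact h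

variable {k N N'}

/-- **degree of the pair of levels** -/
theorem finrank_mul_psi (hNN' : N ∣ N')
    (hchar : ∀ r : ℕ, r.Prime → r ∣ N' → (r : k) ≠ 0)
    (M M' : IntermediateField k (LaurentSeries k))
    (hM : M = modularFunctionFieldFullC k N) (hM' : M' = modularFunctionFieldFullC k N')
    [Algebra ↥M ↥M']
    (hc : ∀ x : ↥M, ((algebraMap ↥M ↥M' x : ↥M') : LaurentSeries k) = (x : LaurentSeries k)) :
    Module.finrank ↥M ↥M' * dedekindPsi N = dedekindPsi N' := by
  subst hM hM'
  have hle := full_mono k N N' hNN'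
  rw [finrank_eq_relfinrank_of_compat _ _ hle hc,
    ← relfinrank_full k N (fun r hr hrN => hchar r hr (hrN.trans hNN')),
    ← relfinrank_full k N' hchar, mul_comm]
  exact relfinrank_mul_relfinrank (H27C7b.h27c7b_adjoin_le k N) hle

/-- the extension of levels is finite -/
theorem finiteDimensional_pair (hNN' : N ∣ N')
    (hchar : ∀ r : ℕ, r.Prime → r ∣ N' → (r : k) ≠ 0)
    (M M' : IntermediateField k (LaurentSeries k))
    (hM : M = modularFunctionFieldFullC k N) (hM' : M' = modularFunctionFieldFullC k N')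
    [Algebra ↥M ↥M']
    (hc : ∀ x : ↥M, ((algebraMap ↥M ↥M' x : ↥M') : LaurentSeries k) = (x : LaurentSeries k)) :
    FiniteDimensional ↥M ↥M' := by
  have h := finrank_mul_psi hNN' hchar M M' hM hM' hc
  have hpos : 0 < dedekindPsi N' := H28UG.c7_dedekindPsi_pos N'
  refine Module.finite_of_finrank_pos ?_
  rcases Nat.eq_zero_or_pos (Module.finrank ↥M ↥M') with h0 | h0
  · rw [h0, zero_mul] at h
    omega
  · exact h0

/-- the extension of levels is separable -/
theorem isSeparable_pair (p : ℕ) [Fact p.Prime] [CharP k p] [PerfectField k] (hNN' : N ∣ N')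
    (M M' : IntermediateField k (LaurentSeries k))
    (hM : M = modularFunctionFieldFullC k N) (hM' : M' = modularFunctionFieldFullC k N')
    [Algebra ↥M ↥M']
    (hc : ∀ x : ↥M, ((algebraMap ↥M ↥M' x : ↥M') : LaurentSeries k) = (x : LaurentSeries k)) :
    Algebra.IsSeparable ↥M ↥M' := by
  subst hM hM'
  haveI hsep := H27C10.h27c10_isSeparable k N' p
  -- the inclusion `k(j) → F_k(N)`
  let φ : ↥k⟮H27C10.h27c10_jC k N'⟯ →+* ↥(modularFunctionFieldFullC k N) :=
    { toFun := fun y => ⟨((y : ↥(modularFunctionFieldFullC k N')) : LaurentSeries k),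
        H27C7b.h27c7b_adjoin_le k N (H27C10.h27c10_coe_mem k N' y)⟩
      map_one' := rfl
      map_mul' := fun _ _ => rfl
      map_zero' := rfl
      map_add' := fun _ _ => rfl }
  have hφ : (algebraMap ↥(modularFunctionFieldFullC k N) ↥(modularFunctionFieldFullC k N')).comp φ
      = algebraMap ↥k⟮H27C10.h27c10_jC k N'⟯ ↥(modularFunctionFieldFullC k N') := by
    refine RingHom.ext (fun y => Subtype.ext ?_)
    exact hc (φ y)
  refine ⟨fun x => ?_⟩
  have hx : IsSeparable ↥k⟮H27C10.h27c10_jC k N'⟯ x := Algebra.IsSeparable.isSeparable _ x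
  have hint : IsIntegral ↥k⟮H27C10.h27c10_jC k N'⟯ x := hx.isIntegral
  have h0 : Polynomial.aeval x ((minpoly ↥k⟮H27C10.h27c10_jC k N'⟯ x).map φ) = 0 := by
    rw [Polynomial.aeval_def, Polynomial.eval₂_map, hφ, ← Polynomial.aeval_def, minpoly.aeval]
  exact Polynomial.Separable.of_dvd (Polynomial.Separable.map hx) (minpoly.dvd _ x h0)

end Levels

/-- **the degrees over `K` and over `k` agree** -/
theorem finrank_pair_eq {K k : Type} [Field K] [Field k] {N N' : ℕ} [NeZero N] [NeZero N']
    (hNN' : N ∣ N')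
    (hcharK : ∀ r : ℕ, r.Prime → r ∣ N' → (r : K) ≠ 0)
    (hchark : ∀ r : ℕ, r.Prime → r ∣ N' → (r : k) ≠ 0)
    (F F' : IntermediateField K (LaurentSeries K))
    (hF : F = modularFunctionFieldFullC K N) (hF' : F' = modularFunctionFieldFullC K N')
    [Algebra ↥F ↥F']
    (hcK : ∀ x : ↥F, ((algebraMap ↥F ↥F' x : ↥F') : LaurentSeries K) = (x : LaurentSeries K))
    (M M' : IntermediateField k (LaurentSeries k))
    (hM : M = modularFunctionFieldFullC k N) (hM' : M' = modularFunctionFieldFullC k N')
    [Algebra ↥M ↥M']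
    (hck : ∀ x : ↥M, ((algebraMap ↥M ↥M' x : ↥M') : LaurentSeries k) = (x : LaurentSeries k)) :
    Module.finrank ↥F ↥F' = Module.finrank ↥M ↥M' := by
  have h1 := finrank_mul_psi hNN' hcharK F F' hF hF' hcK
  have h2 := finrank_mul_psi hNN' hchark M M' hM hM' hck
  have hpos : 0 < dedekindPsi N := H28UG.c7_dedekindPsi_pos N
  exact Nat.eq_of_mul_eq_mul_right hpos (h1.trans h2.symm)

end H2PD

end
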