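/-
Item 79 (S37), slice R2-ASM (lead): the charts `(t, c)`, `c ∈ k`, and `(t⁻¹, 0)` glue to a
reduction map with net count.  `LeadR2.asm_statement : H18R2.AsmStatement`.
-/
import Fermat.Agent.S37.R2Defs_helper18
import Fermat.Agent.S18.A1Basic
import Fermat.Agent.RRD.Riemann

set_option autoImplicit false
set_option linter.style.haveILetI false

noncomputable section

open AlgebraicCurve IntermediateField

namespace LeadR2

open H18R2
open H9S18 (ValAt IsDivOf)

section value

variable {K F : Type*} [Field K] [Field F] [Algebra K F]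

/-- at a place of degree one every regular function has a value in `K` -/
theorem exists_valAt_of_deg (P : Place K F) (hP : P.deg = 1) (y : F)
    (hy : y ∈ P.toValuationSubring) : ∃ a : K, ValAt P y a := by
  have h1 : Module.finrank K P.ResidueField = 1 := hP
  obtain ⟨a, ha⟩ := (finrank_eq_one_iff_of_nonzero' (1 : P.ResidueField) one_ne_zero).mp h1
    (IsLocalRing.residue _ ⟨y, hy⟩)
  refine ⟨a, ?_⟩
  have hmem : (⟨y, hy⟩ - algebraMap K P.toValuationSubring a : P.toValuationSubring) ∈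
      IsLocalRing.maximalIdeal P.toValuationSubring := by
    rw [← IsLocalRing.residue_eq_zero_iff, map_sub, ← ha, sub_eq_zero, Algebra.smul_def, mul_one]
    rfl
  have h2 : P.adicValuation ((⟨y, hy⟩ - algebraMap K P.toValuationSubring a :
      P.toValuationSubring) : F) < 1 := by
    rw [P.adicValuation_coe]
    exact (IsDedekindDomain.HeightOneSpectrum.intValuation_lt_one_iff_mem _ _).mpr hmem
  exact h2

/-- at a place of degree one a function has a value, or its inverse has the value `0` -/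
theorem valAt_or_inv (P : Place K F) (hP : P.deg = 1) (y : F) :
    (∃ a : K, ValAt P y a) ∨ ValAt P y⁻¹ 0 := by
  by_cases hy : y ∈ P.toValuationSubring
  · exact Or.inl (exists_valAt_of_deg P hP y hy)
  · right
    rw [H9S18.valAt_zero_iff]
    have h1 : ¬ P.adicValuation y ≤ 1 := fun h => hy ((H9S18.h9a_mem_iff P y).mpr h)
    have h2 : 1 < P.adicValuation y := not_le.mp h1
    rw [map_inv₀]
    exact inv_lt_one_of_one_lt₀ h2

theorem not_valAt_and_inv (P : Place K F) {y : F} (hy : y ≠ 0) {a : K} (h : ValAt P y a)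
    (h' : ValAt P y⁻¹ 0) : False := by
  have h1 := h.mul P h'
  rw [mul_inv_cancel₀ hy, mul_zero] at h1
  have h2 : ValAt P (1 : F) 1 := by
    have := H9S18.valAt_const P (1 : K) (F := F)
    rwa [map_one] at this
  exact one_ne_zero (h2.unique P h1)

end value

/-- **R2-ASM**. -/
theorem asm_statement : AsmStatement := by
  intro K F k Fb _ _ _ _ _ _ R t S ht' hsheet hsheet'
  classical
  haveI := S.algK
  haveI := S.algk
  haveI := S.char0
  haveI := S.fin
  haveI := S.finb
  haveI := S.sepb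
  haveI : CharZero K⟮t⟯ := charZero_of_injective_algebraMap (algebraMap K K⟮t⟯).injective
  haveI : Algebra.IsSeparable K⟮t⟯ F := Algebra.IsAlgebraic.isSeparable_of_perfectField
  have hdegF : ∀ P : Place K F, P.deg = 1 := RRD.deg_eq_one t S.htK
  have hdegFb : ∀ Q : Place k Fb, Q.deg = 1 := RRD.deg_eq_one _ S.htk
  have hred0 : R.red ⟨t, S.ht⟩ ≠ 0 := fun h => S.htk (h ▸ isAlgebraic_zero)
  have ht0 : t ≠ 0 := by
    rintro rfl
    apply hred0
    have : (⟨0, S.ht⟩ : R.O) = 0 := rfl
    rw [this, map_zero]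
  have hredinv : R.red ⟨t⁻¹, ht'⟩ = (R.red ⟨t, S.ht⟩)⁻¹ := by
    have h1 : (⟨t⁻¹, ht'⟩ : R.O) * ⟨t, S.ht⟩ = 1 := by
      apply Subtype.ext
      show t⁻¹ * t = 1
      exact inv_mul_cancel₀ ht0
    have h2 : R.red ⟨t⁻¹, ht'⟩ * R.red ⟨t, S.ht⟩ = 1 := by
      rw [← map_mul, h1, map_one]
    exact (mul_eq_one_iff_eq_inv₀ hred0).mp h2
  choose rc hrc1 hrc2 using hsheet
  obtain ⟨r', hr'1, hr'2⟩ := hsheet'
  have hdisc_unique : ∀ (P : Place K F) (c c' : k), InDisc R t c P → InDisc R t c' P →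
      c = c' := by
    rintro P c c' ⟨a, ha, hv, rfl⟩ ⟨a', ha', hv', rfl⟩
    have := hv.unique P hv'
    subst this
    rfl
  have hdisc_excl : ∀ (P : Place K F) (c : k), InDisc R t c P → InDisc R t⁻¹ 0 P → False := by
    rintro P c ⟨a, ha, hv, -⟩ ⟨b, hb, hv', hb0⟩
    have h1 := hv.mul P hv'
    rw [mul_inv_cancel₀ ht0] at h1
    have h2 : ValAt P (1 : F) 1 := by
      have := H9S18.valAt_const P (1 : K) (F := F)
      rwa [map_one] at this
    have hab : (1 : K) = a * b := h2.unique P h1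
    have h3 : R.π (⟨a, ha⟩ * ⟨b, hb⟩) = 1 := by
      have : (⟨a, ha⟩ * ⟨b, hb⟩ : R.A) = 1 := Subtype.ext hab.symm
      rw [this, map_one]
    rw [map_mul, hb0, mul_zero] at h3
    exact zero_ne_one h3
  have hdisc_or : ∀ P : Place K F, (∃ c : k, InDisc R t c P) ∨ InDisc R t⁻¹ 0 P := by
    intro P
    rcases valAt_or_inv P (hdegF P) t with ⟨a, hv⟩ | hv
    · by_cases ha : a ∈ R.A
      · exact Or.inl ⟨R.π ⟨a, ha⟩, a, ha, hv, rfl⟩
      · right
        have ha0 : a ≠ 0 := fun h => ha (h ▸ R.A.zero_mem)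
        have hai : a⁻¹ ∈ R.A := (R.A.mem_or_inv_mem a).resolve_left ha
        refine ⟨a⁻¹, hai, hv.inv P ha0, ?_⟩
        apply R.π_nonunit
        intro hu
        apply ha
        obtain ⟨u, hu⟩ := hu
        have h1 : ((u⁻¹ : (R.A)ˣ) : R.A) * ⟨a⁻¹, hai⟩ = 1 := by
          rw [← hu]; exact u.inv_mul
        have h2 : (((u⁻¹ : (R.A)ˣ) : R.A) : K) * a⁻¹ = 1 := congrArg Subtype.val h1
        have h3 : a = (((u⁻¹ : (R.A)ˣ) : R.A) : K) := by
          have h4 := (mul_eq_one_iff_eq_inv₀ (inv_ne_zero ha0)).mp h2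
          rw [inv_inv] at h4
          exact h4.symm
        rw [h3]
        exact Subtype.mem _
    · right
      refine ⟨0, R.A.zero_mem, hv, ?_⟩
      have : (⟨0, R.A.zero_mem⟩ : R.A) = 0 := rfl
      rw [this, map_zero]
  have hfib_excl : ∀ (Q : Place k Fb) (c : k), ValAt Q (R.red ⟨t, S.ht⟩) c →
      ValAt Q (R.red ⟨t⁻¹, ht'⟩) 0 → False := by
    intro Q c h h'
    rw [hredinv] at h'
    exact not_valAt_and_inv Q hred0 h h'
  have hfib_or : ∀ Q : Place k Fb, (∃ c : k, ValAt Q (R.red ⟨t, S.ht⟩) c) ∨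
      ValAt Q (R.red ⟨t⁻¹, ht'⟩) 0 := by
    intro Q
    rw [hredinv]
    exact valAt_or_inv Q (hdegFb Q) _
  let r : Place K F → Place k Fb := fun P =>
    if h : ∃ c, InDisc R t c P then rc h.choose P else r' P
  have hr_in : ∀ P c, InDisc R t c P → r P = rc c P := by
    intro P c hc
    have h : ∃ c, InDisc R t c P := ⟨c, hc⟩
    have hch : h.choose = c := hdisc_unique P _ _ h.choose_spec hc
    show (if h : ∃ c, InDisc R t c P then rc h.choose P else r' P) = rc c P
    rw [dif_pos h, hch]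
  have hr_out : ∀ P, InDisc R t⁻¹ 0 P → r P = r' P := by
    intro P hP
    have h : ¬ ∃ c, InDisc R t c P := fun ⟨c, hc⟩ => hdisc_excl P c hc hP
    show (if h : ∃ c, InDisc R t c P then rc h.choose P else r' P) = r' P
    rw [dif_neg h]
  refine ⟨r, fun P => by rw [hdegF, hdegFb], ?_⟩
  intro y hy hy0 D hD Q
  have hmap : Finsupp.mapDomain r D Q = ∑ P ∈ D.support with r P = Q, D P := by
    rw [Finsupp.mapDomain, Finsupp.sum, Finsupp.finsetSum_apply, Finset.sum_filter]
    refine Finset.sum_congr rfl fun P _ => ?_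
    rw [Finsupp.single_apply]
  rw [hmap]
  rcases hfib_or Q with ⟨c, hQ⟩ | hQ
  · rw [← hrc2 c y hy hy0 D hD Q hQ]
    refine Finset.sum_congr (Finset.filter_congr fun P _ => ?_) fun _ _ => rfl
    constructor
    · intro hrP
      rcases hdisc_or P with ⟨c', hc'⟩ | hP'
      · have h1 := hrc1 c' P hc'
        rw [← hr_in P c' hc', hrP] at h1
        have hcc : c = c' := hQ.unique Q h1
        subst hcc
        exact ⟨hc', by rw [← hr_in P c hc', hrP]⟩
      · exfalso
        have h1 := hr'1 P hP'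
        rw [← hr_out P hP', hrP] at h1
        exact hfib_excl Q c hQ h1
    · rintro ⟨hc, hrcP⟩
      rw [hr_in P c hc, hrcP]
  · rw [← hr'2 y hy hy0 D hD Q hQ]
    refine Finset.sum_congr (Finset.filter_congr fun P _ => ?_) fun _ _ => rfl
    constructor
    · intro hrP
      rcases hdisc_or P with ⟨c', hc'⟩ | hP'
      · exfalso
        have h1 := hrc1 c' P hc'
        rw [← hr_in P c' hc', hrP] at h1
        exact hfib_excl Q c' h1 hQ
      · exact ⟨hP', by rw [← hr_out P hP', hrP]⟩
    · rintro ⟨hP', hrP⟩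
      rw [hr_out P hP', hrP]

end LeadR2

end
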