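/-
helper19, item 79 (S37) slice R2-FNC, part 2: the GAUSS LEMMA for polynomials over a valuation
ring `A` of an algebraically closed field `K` with residue map `π : A → k`:

  for `p ∈ A[X]` with `π p ≠ 0` and `c ∈ k`:
  `mult_c (π p) = #{roots a of p (with multiplicity) | a ∈ A, π a = c}`.

Proof: `p = u ∏ (X - a_i)`; for `a_i ∉ A` write `X - a_i = -a_i (1 - a_i⁻¹ X)`, `a_i⁻¹ ∈ m_A`;
then `p = u' q`, `q ∈ A[X]` with `π q = ∏_{a_i ∈ A} (X - π a_i)`, and `u' ∈ Aˣ`.
-/
import Mathlib

set_option autoImplicit false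
set_option linter.unusedSectionVars false
set_option linter.style.haveILetI false

noncomputable section

namespace H19R2

open Polynomial

section gauss

open Classical

variable {K k : Type*} [Field K] [Field k] (A : ValuationSubring K) (π : A →+* k)

/-- the residue map extended by zero -/
def h19r2_rho (a : K) : k := by
  classical
  exact if h : a ∈ A then π ⟨a, h⟩ else 0

theorem h19r2_rho_mem {a : K} (h : a ∈ A) : h19r2_rho A π a = π ⟨a, h⟩ := by
  classical
  unfold h19r2_rho
  rw [dif_pos h]

/-- `a ∈ A` and `π a = c` -/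
def h19r2_InRes (c : k) (a : K) : Prop := ∃ ha : a ∈ A, π ⟨a, ha⟩ = c

/-- the integral factor of `X - a` -/
def h19r2_gfac (a : K) : Polynomial A := by
  classical
  exact if h : a ∈ A then X - C ⟨a, h⟩
    else if h' : a⁻¹ ∈ A then 1 - C ⟨a⁻¹, h'⟩ * X else 0

/-- the scalar factor of `X - a` -/
def h19r2_sfac (a : K) : K := by
  classical
  exact if a ∈ A then 1 else -a

theorem h19r2_fac (a : K) :
    (X - C a : K[X]) = C (h19r2_sfac A a) * (h19r2_gfac A a).map A.subtype := by
  classical
  unfold h19r2_sfac h19r2_gfac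
  by_cases h : a ∈ A
  · rw [if_pos h, dif_pos h, map_one, one_mul, Polynomial.map_sub, Polynomial.map_X,
      Polynomial.map_C]
    rfl
  · have h' : a⁻¹ ∈ A := (A.mem_or_inv_mem a).resolve_left h
    have ha0 : a ≠ 0 := fun h0 => h (h0 ▸ A.zero_mem)
    rw [if_neg h, dif_neg h, dif_pos h', Polynomial.map_sub, Polynomial.map_mul,
      Polynomial.map_one, Polynomial.map_X, Polynomial.map_C]
    show _ = C (-a) * (1 - C a⁻¹ * X)
    rw [mul_sub, mul_one, ← mul_assoc, ← C_mul, neg_mul, mul_inv_cancel₀ ha0, map_neg, map_neg,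
      map_one, neg_mul, one_mul]
    ring

variable (hπ : ∀ a : A, ¬ IsUnit a → π a = 0)
include hπ

theorem h19r2_gfac_map (a : K) :
    (h19r2_gfac A a).map π = if a ∈ A then X - C (h19r2_rho A π a) else 1 := by
  classical
  unfold h19r2_gfac
  by_cases h : a ∈ A
  · rw [dif_pos h, if_pos h, Polynomial.map_sub, Polynomial.map_X, Polynomial.map_C,
      h19r2_rho_mem A π h]
  · have h' : a⁻¹ ∈ A := (A.mem_or_inv_mem a).resolve_left h
    have ha0 : a ≠ 0 := fun h0 => h (h0 ▸ A.zero_mem)
    have hnu : ¬ IsUnit (⟨a⁻¹, h'⟩ : A) := by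
      intro hu
      obtain ⟨u, hu⟩ := hu
      apply h
      have h1 : ((u⁻¹ : Aˣ) : A) * ⟨a⁻¹, h'⟩ = 1 := by rw [← hu]; exact u.inv_mul
      have h2 : (((u⁻¹ : Aˣ) : A) : K) * a⁻¹ = 1 := by
        have := congrArg (fun z : A => (z : K)) h1
        simpa using this
      have h3 : (((u⁻¹ : Aˣ) : A) : K) = a := by
        field_simp at h2
        exact h2
      exact h3 ▸ ((u⁻¹ : Aˣ) : A).2
    rw [dif_neg h, dif_pos h', if_neg h, Polynomial.map_sub, Polynomial.map_mul,
      Polynomial.map_one, Polynomial.map_X, Polynomial.map_C, hπ _ hnu, map_zero, zero_mul,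
      sub_zero]

/-- the product of the integral factors reduces to the product over the roots in `A` -/
theorem h19r2_prod_gfac_map (M : Multiset K) :
    ((M.map (h19r2_gfac A)).prod).map π =
      ((M.filter (· ∈ A)).map (fun a => X - C (h19r2_rho A π a))).prod := by
  classical
  induction M using Multiset.induction_on with
  | empty => simp
  | cons a M ih =>
    rw [Multiset.map_cons, Multiset.prod_cons, Polynomial.map_mul, ih, h19r2_gfac_map A π hπ]
    by_cases h : a ∈ A
    · rw [if_pos h, Multiset.filter_cons_of_pos _ h, Multiset.map_cons, Multiset.prod_cons]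
    · rw [if_neg h, Multiset.filter_cons_of_neg _ h, one_mul]

omit hπ in
theorem h19r2_prod_fac (M : Multiset K) :
    (M.map (fun a => (X - C a : K[X]))).prod =
      C ((M.map (h19r2_sfac A)).prod) * ((M.map (h19r2_gfac A)).prod).map A.subtype := by
  classical
  induction M using Multiset.induction_on with
  | empty => simp
  | cons a M ih =>
    rw [Multiset.map_cons, Multiset.prod_cons, ih, Multiset.map_cons, Multiset.prod_cons,
      Multiset.map_cons, Multiset.prod_cons, Polynomial.map_mul, h19r2_fac A a, C_mul]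
    ring

omit hπ in
theorem h19r2_map_subtype_injective :
    Function.Injective (Polynomial.map (A.subtype : A →+* K)) :=
  Polynomial.map_injective _ Subtype.val_injective

/-- **Gauss lemma**, factorised form. -/
theorem h19r2_gauss_factor [IsAlgClosed K] (p : Polynomial A) (hp : p.map π ≠ 0) :
    ∃ u : A, π u ≠ 0 ∧
      p.map π = C (π u) *
        ((((p.map A.subtype).roots).filter (· ∈ A)).map
          (fun a => X - C (h19r2_rho A π a))).prod := by
  classical
  set P : K[X] := p.map A.subtype with hP
  have hp0 : p ≠ 0 := fun h => hp (by rw [h, Polynomial.map_zero])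
  have hP0 : P ≠ 0 := fun h => hp0 (h19r2_map_subtype_injective A (by rw [← hP, h, Polynomial.map_zero]))
  have hsplit : P.Splits := IsAlgClosed.splits P
  have hfac : P = C P.leadingCoeff * (P.roots.map (fun a => (X - C a : K[X]))).prod :=
    hsplit.eq_prod_roots
  set q : Polynomial A := (P.roots.map (h19r2_gfac A)).prod with hq
  set u : K := P.leadingCoeff * (P.roots.map (h19r2_sfac A)).prod with hu
  have hPq : P = C u * q.map A.subtype := by
    rw [hu, C_mul, mul_assoc, ← h19r2_prod_fac A P.roots]
    exact hfac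
  have hqmap : q.map π = ((P.roots.filter (· ∈ A)).map
      (fun a => X - C (h19r2_rho A π a))).prod := h19r2_prod_gfac_map A π hπ P.roots
  have hqmonic : (q.map π).Monic := by
    rw [hqmap]
    exact Polynomial.monic_multiset_prod_of_monic _ _ (fun a _ => Polynomial.monic_X_sub_C _)
  have hq0 : q.map π ≠ 0 := hqmonic.ne_zero
  have hu0 : u ≠ 0 := by
    intro h0
    rw [h0, map_zero, zero_mul] at hPq
    exact hP0 hPq
  -- `u ∈ A`
  have huA : u ∈ A := by
    by_contra hnot
    have h' : u⁻¹ ∈ A := (A.mem_or_inv_mem u).resolve_left hnot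
    have hnu : ¬ IsUnit (⟨u⁻¹, h'⟩ : A) := by
      intro hunit
      obtain ⟨w, hw⟩ := hunit
      apply hnot
      have h1 : ((w⁻¹ : Aˣ) : A) * ⟨u⁻¹, h'⟩ = 1 := by rw [← hw]; exact w.inv_mul
      have h2 : (((w⁻¹ : Aˣ) : A) : K) * u⁻¹ = 1 := by
        have := congrArg (fun z : A => (z : K)) h1
        simpa using this
      have h3 : (((w⁻¹ : Aˣ) : A) : K) = u := by
        field_simp at h2
        exact h2
      exact h3 ▸ ((w⁻¹ : Aˣ) : A).2
    have h4 : q = C (⟨u⁻¹, h'⟩ : A) * p := by
      apply h19r2_map_subtype_injective A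
      rw [Polynomial.map_mul, Polynomial.map_C, ← hP, hPq, ← mul_assoc, ← C_mul]
      show _ = C (u⁻¹ * u) * _
      rw [inv_mul_cancel₀ hu0, map_one, one_mul]
    apply hq0
    rw [h4, Polynomial.map_mul, Polynomial.map_C, hπ _ hnu, map_zero, zero_mul]
  have h5 : p = C (⟨u, huA⟩ : A) * q := by
    apply h19r2_map_subtype_injective A
    rw [Polynomial.map_mul, Polynomial.map_C, ← hP, hPq]
    rfl
  refine ⟨⟨u, huA⟩, ?_, ?_⟩
  · intro h0
    apply hp
    rw [h5, Polynomial.map_mul, Polynomial.map_C, h0, map_zero, zero_mul]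
  · rw [← hqmap, ← Polynomial.map_C, ← Polynomial.map_mul, ← h5]

/-- **Gauss lemma**: the multiplicity of `c` as a root of the reduction is the number of roots
of `p` in the residue disc of `c`. -/
theorem h19r2_gauss [IsAlgClosed K] (p : Polynomial A) (hp : p.map π ≠ 0) (c : k) :
    (p.map π).rootMultiplicity c =
      (((p.map A.subtype).roots).filter (h19r2_InRes A π c)).card := by
  classical
  obtain ⟨u, hu, hfac⟩ := h19r2_gauss_factor A π hπ p hp
  have hmm : ∀ M : Multiset K, (M.map (fun a => (X - C (h19r2_rho A π a) : k[X]))) =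
      ((M.map (h19r2_rho A π)).map (fun b => (X - C b : k[X]))) := by
    intro M
    rw [Multiset.map_map]
    rfl
  rw [← Polynomial.count_roots, hfac, Polynomial.roots_C_mul _ hu, hmm,
    Polynomial.roots_multiset_prod_X_sub_C, Multiset.count_eq_card_filter_eq,
    Multiset.filter_map, Multiset.card_map, Multiset.filter_filter]
  congr 1
  apply Multiset.filter_congr
  intro a _
  constructor
  · rintro ⟨h1, h2⟩
    refine ⟨h2, ?_⟩
    rw [← h19r2_rho_mem A π h2]
    exact h1.symm
  · rintro ⟨h2, h1⟩
    refine ⟨?_, h2⟩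
    show c = h19r2_rho A π a
    rw [h19r2_rho_mem A π h2]
    exact h1.symm

end gauss

section count

/-- summing the multiplicities over a finite set containing the relevant roots -/
theorem h19r2_sum_count {α : Type*} [DecidableEq α] (M : Multiset α) (pred : α → Prop)
    [DecidablePred pred] (T : Finset α) (hT : ∀ a ∈ T, pred a)
    (hM : ∀ a ∈ M, pred a → a ∈ T) :
    ∑ a ∈ T, M.count a = (M.filter pred).card := by
  rw [← Multiset.toFinset_sum_count_eq (M.filter pred)]
  symm
  apply Finset.sum_subset_zero_on_sdiff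
  · intro a ha
    rw [Multiset.mem_toFinset, Multiset.mem_filter] at ha
    exact hM a ha.1 ha.2
  · intro a ha
    rw [Finset.mem_sdiff, Multiset.mem_toFinset, Multiset.mem_filter] at ha
    have h1 : a ∉ M := fun h => ha.2 ⟨h, hT a ha.1⟩
    exact Multiset.count_eq_zero_of_notMem h1
  · intro a ha
    rw [Multiset.mem_toFinset, Multiset.mem_filter] at ha
    exact Multiset.count_filter_of_pos ha.2

end count

end H19R2

end
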