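/-
helper19, item 79 (S37) slice R2-FNC, part 1: the norm formula for adic valuations in an AKLB
setting with a SEPARABLE (not necessarily perfect) base:

  `p.valuation K (N_{L/K} x) = ∏_{P | p} (P.valuation L x) ^ f(P|p)`.

* `H19R2.h19r2_relNorm_eq_pow_of_isMaximal` : `Ideal.relNorm_eq_pow_of_isMaximal` with
  `Algebra.IsSeparable (FractionRing R) (FractionRing S)` instead of `PerfectField`
  (Mathlib's proof through the normal closure `Ring.NormalClosure R S`, which is Galois over `R`
  as soon as the extension is separable);
* `H19R2.h19r2s_valuation_norm` : helper2's `H2NV.valuation_norm` (FF/NormVal_helper2.lean) in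
  that generality (same proof).
-/
import Mathlib

open Module Ideal

set_option linter.unusedSectionVars false
set_option linter.style.haveILetI false
set_option linter.overlappingInstances false

noncomputable section

namespace H19R2

section sep

variable (R S : Type*) [CommRing R] [CommRing S] [IsDomain R] [IsDomain S]
  [Algebra R S] [Module.IsTorsionFree R S]

local instance : Algebra (FractionRing R) (FractionRing S) := FractionRing.liftAlgebra _ _

local notation3 "K" => FractionRing R
local notation3 "L" => FractionRing S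
local notation3 "E" => IntermediateField.normalClosure (FractionRing R) (FractionRing S)
    (AlgebraicClosure (FractionRing S))

local instance : Algebra S E := ((algebraMap L E).comp (algebraMap S L)).toAlgebra

local instance : IsScalarTower S L E := IsScalarTower.of_algebraMap_eq' rfl

local notation3 "T" => Ring.NormalClosure R S

local instance : Algebra T E := inferInstanceAs (Algebra (integralClosure S E) E)

local instance : IsScalarTower S T E :=
  inferInstanceAs (IsScalarTower S (integralClosure S E) E)

local instance : IsIntegralClosure T S E := integralClosure.isIntegralClosure S E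

local instance : IsScalarTower R L E := IsScalarTower.to₁₃₄ R K L E

local instance : IsScalarTower R S E := IsScalarTower.to₁₂₄ R S L E

local instance : IsScalarTower R T E := IsScalarTower.to₁₃₄ R S T E

local instance : FaithfulSMul S E := (faithfulSMul_iff_algebraMap_injective S E).mpr <|
      (FaithfulSMul.algebraMap_injective L E).comp (FaithfulSMul.algebraMap_injective S L)

variable [Module.Finite R S]

local instance : FiniteDimensional L E := Module.Finite.right K L E

local instance : IsFractionRing T E :=
  integralClosure.isFractionRing_of_finite_extension L E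

variable [Algebra.IsSeparable (FractionRing R) (FractionRing S)]

theorem h19r2_sepKE : Algebra.IsSeparable K E := by
  unfold IntermediateField.normalClosure
  haveI : ∀ f : L →ₐ[K] AlgebraicClosure L, Algebra.IsSeparable K f.fieldRange := by
    intro f
    refine ⟨?_⟩
    rintro ⟨x, y, rfl⟩
    have h1 : IsSeparable K (f y) :=
      (isSeparable_map_iff f f.injective).mpr (Algebra.IsSeparable.isSeparable K y)
    exact (isSeparable_map_iff f.fieldRange.val Subtype.val_injective).mp h1
  exact IntermediateField.isSeparable_iSup K _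

theorem h19r2_normKE : Normal K E := inferInstance

theorem h19r2_galKE : IsGalois K E :=
  haveI := h19r2_sepKE R S
  haveI := h19r2_normKE R S
  ⟨⟩

local instance h19r2_sepLE : Algebra.IsSeparable L E :=
  haveI := h19r2_sepKE R S
  Algebra.isSeparable_tower_top_of_isSeparable K L E

theorem h19r2_isGalois_normalClosure : IsGalois K (FractionRing T) := by
  haveI := h19r2_galKE R S
  refine IsGalois.of_equiv_equiv (F := K) («E» := E)
    (f := (FractionRing.algEquiv R K).symm.toRingEquiv)
    (g := (FractionRing.algEquiv T E).symm.toRingEquiv) ?_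
  ext
  simpa using! IsFractionRing.algEquiv_commutes (FractionRing.algEquiv R K).symm
    (FractionRing.algEquiv T E).symm _

variable [IsDedekindDomain S]

theorem h19r2_finite_ST : Module.Finite S T :=
  IsIntegralClosure.finite S L E T

theorem h19r2_finite_RT : Module.Finite R T :=
  haveI := h19r2_finite_ST R S
  Module.Finite.trans S T

theorem h19r2_isDedekindDomain_T : IsDedekindDomain T :=
  integralClosure.isDedekindDomain S L E

end sep

section relNorm

variable {R S : Type*} [CommRing R] [IsDomain R] [CommRing S] [IsDomain S]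
variable [IsIntegrallyClosed R] [IsIntegrallyClosed S] [Algebra R S] [Module.Finite R S]
variable [IsTorsionFree R S] [IsDedekindDomain R] [IsDedekindDomain S]

attribute [local instance] FractionRing.liftAlgebra

/-- `Ideal.relNorm_eq_pow_of_isMaximal` for a separable (instead of perfect) extension. -/
theorem h19r2_relNorm_eq_pow_of_isMaximal
    [Algebra.IsSeparable (FractionRing R) (FractionRing S)]
    (P : Ideal S) (p : Ideal R) [hPp : P.LiesOver p] [P.IsMaximal] [p.IsMaximal] :
    relNorm R P = p ^ P.inertiaDeg R := by
  let T := Ring.NormalClosure R S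
  haveI : IsGalois (FractionRing R) (FractionRing T) := h19r2_isGalois_normalClosure R S
  haveI : Module.Finite S T := h19r2_finite_ST R S
  haveI : Module.Finite R T := h19r2_finite_RT R S
  haveI : IsDedekindDomain T := h19r2_isDedekindDomain_T R S
  obtain ⟨Q, hQ₁, hQ₂⟩ : ∃ Q : Ideal T, Q.IsMaximal ∧ Q.LiesOver P :=
    exists_maximal_ideal_liesOver_of_isIntegral P
  have : Q.LiesOver p := LiesOver.trans Q P p
  have h := relNorm_eq_pow_of_isPrime_isGalois Q p
  have : IsGalois (FractionRing S) (FractionRing T) :=
    IsGalois.tower_top_of_isGalois (FractionRing R) (FractionRing S) (FractionRing T)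
  rwa [← relNorm_relNorm R S, relNorm_eq_pow_of_isPrime_isGalois Q P, map_pow,
    inertiaDeg_tower (R := R) P Q, pow_mul, pow_left_inj (inertiaDeg_pos Q S).ne'] at h

end relNorm


open IsDedekindDomain HeightOneSpectrum


section ideal

attribute [local instance] FractionRing.liftAlgebra

variable {A B : Type*} [CommRing A] [IsDedekindDomain A] [CommRing B] [IsDedekindDomain B]
  [Algebra A B] [Module.Finite A B] [Module.IsTorsionFree A B]
  [Algebra.IsSeparable (FractionRing A) (FractionRing B)]

omit [Algebra A B] [Module.Finite A B] [Module.IsTorsionFree A B] [Algebra.IsSeparable (FractionRing A) (FractionRing B)]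
  [IsDedekindDomain A] [CommRing A] in
/-- multiplicity of a prime `P` in a different prime `Q` -/
theorem h19r2s_multiplicity_prime_ne (P : HeightOneSpectrum B) (Q : Ideal B) (hQ : Prime Q)
    (h : P.asIdeal ≠ Q) : multiplicity P.asIdeal Q = 0 := by
  rw [multiplicity_eq_zero]
  intro hdvd
  apply h
  have hQ0 : Q ≠ ⊥ := hQ.ne_zero
  have hQp : Q.IsPrime := (Ideal.prime_iff_isPrime hQ0).1 hQ
  have hQm : Q.IsMaximal := hQp.isMaximal hQ0
  have hle : Q ≤ P.asIdeal := Ideal.dvd_iff_le.1 hdvd
  exact (hQm.eq_of_le P.isPrime.ne_top hle).symm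

/-- multiplicity of `p` in the relative norm of a prime `Q` over `p` -/
theorem h19r2s_multiplicity_relNorm_prime (p : HeightOneSpectrum A) (Q : Ideal B) (hQ : Prime Q)
    (h : Q.LiesOver p.asIdeal) :
    multiplicity p.asIdeal (relNorm A Q) = Q.inertiaDeg A := by
  have hQ0 : Q ≠ ⊥ := hQ.ne_zero
  have hQp : Q.IsPrime := (Ideal.prime_iff_isPrime hQ0).1 hQ
  haveI hQm : Q.IsMaximal := hQp.isMaximal hQ0
  haveI : (Q.under A).IsMaximal := Ideal.IsMaximal.under A Q
  haveI : Q.LiesOver (Q.under A) := Ideal.over_under Q
  have hrel : relNorm A Q = (Q.under A) ^ Q.inertiaDeg A :=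
    h19r2_relNorm_eq_pow_of_isMaximal Q (Q.under A)
  rw [hrel]
  have hp : p.asIdeal = Q.under A := (Ideal.liesOver_iff Q p.asIdeal).1 h
  rw [← hp]
  exact multiplicity_pow_self_of_prime p.prime _

/-- multiplicity of `p` in the relative norm of a prime `Q` not over `p` -/
theorem h19r2s_multiplicity_relNorm_prime_not (p : HeightOneSpectrum A) (Q : Ideal B) (hQ : Prime Q)
    (h : ¬ Q.LiesOver p.asIdeal) :
    multiplicity p.asIdeal (relNorm A Q) = 0 := by
  have hQ0 : Q ≠ ⊥ := hQ.ne_zero
  have hQp : Q.IsPrime := (Ideal.prime_iff_isPrime hQ0).1 hQ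
  haveI hQm : Q.IsMaximal := hQp.isMaximal hQ0
  haveI : (Q.under A).IsMaximal := Ideal.IsMaximal.under A Q
  haveI : Q.LiesOver (Q.under A) := Ideal.over_under Q
  have hrel : relNorm A Q = (Q.under A) ^ Q.inertiaDeg A :=
    h19r2_relNorm_eq_pow_of_isMaximal Q (Q.under A)
  rw [hrel, multiplicity_eq_zero]
  intro hdvd
  apply h
  have h1 : p.asIdeal ∣ Q.under A := p.prime.dvd_of_dvd_pow hdvd
  have hle : Q.under A ≤ p.asIdeal := Ideal.dvd_iff_le.1 h1
  have heq : Q.under A = p.asIdeal :=
    (Ideal.IsMaximal.under A Q).eq_of_le p.isPrime.ne_top hle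
  exact (Ideal.liesOver_iff Q p.asIdeal).2 heq.symm

/-- **the multiplicity of `p` in a relative norm** -/
theorem h19r2s_multiplicity_relNorm (p : HeightOneSpectrum A) (T : Finset (HeightOneSpectrum B))
    (hT : ∀ P : HeightOneSpectrum B, P ∈ T ↔ P.asIdeal.LiesOver p.asIdeal)
    (I : Ideal B) (hI : I ≠ ⊥) :
    multiplicity p.asIdeal (relNorm A I) =
      ∑ P ∈ T, P.asIdeal.inertiaDeg A * multiplicity P.asIdeal I := by
  classical
  induction I using UniqueFactorizationMonoid.induction_on_prime with
  | h₁ => exact absurd rfl hI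
  | h₂ x hx =>
    have hx' : x = ⊤ := Ideal.isUnit_iff.1 hx
    subst hx'
    rw [Ideal.relNorm_top]
    have h1 : multiplicity p.asIdeal (⊤ : Ideal A) = 0 := by
      rw [multiplicity_eq_zero, Ideal.dvd_iff_le, top_le_iff]
      exact p.isPrime.ne_top
    rw [h1]
    symm
    apply Finset.sum_eq_zero
    intro P _
    have h2 : multiplicity P.asIdeal (⊤ : Ideal B) = 0 := by
      rw [multiplicity_eq_zero, Ideal.dvd_iff_le, top_le_iff]
      exact P.isPrime.ne_top
    rw [h2, mul_zero]
  | h₃ J Q hJ hQ ih =>
    have ih' := ih hJ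
    have hQ0 : Q ≠ ⊥ := hQ.ne_zero
    have hQp : Q.IsPrime := (Ideal.prime_iff_isPrime hQ0).1 hQ
    have hrel0 : relNorm A (Q * J) ≠ ⊥ := by
      rw [Ne, Ideal.relNorm_eq_bot_iff]
      exact hI
    rw [map_mul, multiplicity_mul p.prime
      (FiniteMultiplicity.of_prime_left p.prime (by rwa [map_mul] at hrel0)), ih']
    have hsum : ∀ P ∈ T, P.asIdeal.inertiaDeg A * multiplicity P.asIdeal (Q * J) =
        (if P.asIdeal = Q then Q.inertiaDeg A else 0) +
          P.asIdeal.inertiaDeg A * multiplicity P.asIdeal J := by
      intro P _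
      rw [multiplicity_mul P.prime (FiniteMultiplicity.of_prime_left P.prime hI), mul_add]
      congr 1
      split_ifs with h
      · rw [h, multiplicity_self, mul_one]
      · rw [h19r2s_multiplicity_prime_ne P Q hQ h, mul_zero]
    rw [Finset.sum_congr rfl hsum, Finset.sum_add_distrib]
    congr 1
    -- the indicator sum
    by_cases hlies : Q.LiesOver p.asIdeal
    · rw [h19r2s_multiplicity_relNorm_prime p Q hQ hlies]
      let Q' : HeightOneSpectrum B := ⟨Q, hQp, hQ0⟩
      have hQ'T : Q' ∈ T := (hT Q').2 hlies
      rw [Finset.sum_eq_single_of_mem Q' hQ'T]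
      · rw [if_pos rfl]
      · intro P _ hP
        rw [if_neg]
        intro h
        exact hP (HeightOneSpectrum.ext h)
    · rw [h19r2s_multiplicity_relNorm_prime_not p Q hQ hlies]
      symm
      apply Finset.sum_eq_zero
      intro P hP
      rw [if_neg]
      intro h
      apply hlies
      rw [← h]
      exact (hT P).1 hP

end ideal

section element

attribute [local instance] FractionRing.liftAlgebra

variable {A K L B : Type*} [CommRing A] [IsDedekindDomain A] [CommRing B] [IsDedekindDomain B]
  [Algebra A B] [Module.Finite A B] [Module.IsTorsionFree A B]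
  [Algebra.IsSeparable (FractionRing A) (FractionRing B)]
  [Field K] [Field L] [Algebra K L] [Algebra A K] [IsFractionRing A K] [Algebra A L]
  [IsScalarTower A K L] [Algebra B L] [IsFractionRing B L] [IsScalarTower A B L]
  [FiniteDimensional K L]

omit [Algebra.IsSeparable (FractionRing A) (FractionRing B)] [Module.IsTorsionFree A B] [IsDedekindDomain A]
  [FiniteDimensional K L] [IsFractionRing A K] [IsScalarTower A K L] [Algebra K L] [Algebra A K] in
theorem h19r2s_isIntegralClosure : IsIntegralClosure B A L :=
  haveI : Algebra.IsIntegral A B := Algebra.IsIntegral.of_finite A B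
  IsIntegralClosure.of_isIntegrallyClosed B A L

omit [Algebra.IsSeparable (FractionRing A) (FractionRing B)] in
theorem h19r2s_algebraMap_intNorm (b : B) :
    algebraMap A K (Algebra.intNorm A B b) = Algebra.norm K (algebraMap B L b) := by
  haveI : Algebra.IsIntegral A B := Algebra.IsIntegral.of_finite A B
  haveI := h19r2s_isIntegralClosure (A := A) (L := L) (B := B)
  exact Algebra.algebraMap_intNorm (A := A) (K := K) (L := L) (B := B) b

omit [Algebra.IsSeparable (FractionRing A) (FractionRing B)] [Field K] [Field L] [Algebra K L] [Algebra A K]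
  [IsFractionRing A K] [Algebra A L] [IsScalarTower A K L] [Algebra B L] [IsFractionRing B L]
  [IsScalarTower A B L] [FiniteDimensional K L] in
theorem h19r2s_intNorm_ne_zero (b : B) (hb : b ≠ 0) : Algebra.intNorm A B b ≠ 0 := by
  intro h0
  have hspan : Ideal.span {b} ≠ (⊥ : Ideal B) := by
    rwa [Ne, Ideal.span_singleton_eq_bot]
  apply hspan
  rw [← Ideal.relNorm_eq_bot_iff (R := A), Ideal.relNorm_singleton, h0]
  simp

omit [Field K] [Field L] [Algebra K L] [Algebra A K]
  [IsFractionRing A K] [Algebra A L] [IsScalarTower A K L] [Algebra B L] [IsFractionRing B L]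
  [IsScalarTower A B L] [FiniteDimensional K L] in
/-- the norm formula on integral elements -/
theorem h19r2s_intValuation_intNorm (p : HeightOneSpectrum A) (T : Finset (HeightOneSpectrum B))
    (hT : ∀ P : HeightOneSpectrum B, P ∈ T ↔ P.asIdeal.LiesOver p.asIdeal)
    (b : B) (hb : b ≠ 0) :
    p.intValuation (Algebra.intNorm A B b) =
      ∏ P ∈ T, P.intValuation b ^ P.asIdeal.inertiaDeg A := by
  classical
  have hN : Algebra.intNorm A B b ≠ 0 := h19r2s_intNorm_ne_zero b hb
  have hspan : Ideal.span {b} ≠ (⊥ : Ideal B) := by
    rwa [Ne, Ideal.span_singleton_eq_bot]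
  rw [intValuation_eq_exp_neg_multiplicity p hN, ← Ideal.relNorm_singleton,
    h19r2s_multiplicity_relNorm p T hT _ hspan]
  have h3 : ∀ P ∈ T, P.intValuation b ^ P.asIdeal.inertiaDeg A =
      WithZero.exp (-((P.asIdeal.inertiaDeg A * multiplicity P.asIdeal (Ideal.span {b}) : ℕ) : ℤ)) := by
    intro P _
    rw [intValuation_eq_exp_neg_multiplicity P hb, ← WithZero.exp_nsmul]
    congr 1
    push_cast
    simp only [nsmul_eq_mul]
    ring
  rw [Finset.prod_congr rfl h3]
  clear h3 hT
  induction T using Finset.induction_on with
  | empty => simp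
  | insert P T' hP ih =>
    rw [Finset.sum_insert hP, Finset.prod_insert hP, ← ih, ← WithZero.exp_add]
    congr 1
    push_cast
    ring

/-- the norm formula on the image of `B` -/
theorem h19r2s_valuation_norm_algebraMap (p : HeightOneSpectrum A) (T : Finset (HeightOneSpectrum B))
    (hT : ∀ P : HeightOneSpectrum B, P ∈ T ↔ P.asIdeal.LiesOver p.asIdeal)
    (b : B) (hb : b ≠ 0) :
    p.valuation K (Algebra.norm K (algebraMap B L b)) =
      ∏ P ∈ T, P.valuation L (algebraMap B L b) ^ P.asIdeal.inertiaDeg A := by
  rw [← h19r2s_algebraMap_intNorm (A := A) (K := K) (L := L) (B := B) b,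
    valuation_of_algebraMap, h19r2s_intValuation_intNorm p T hT b hb]
  refine Finset.prod_congr rfl fun P _ => ?_
  rw [valuation_of_algebraMap]

/-- **the norm formula for adic valuations** -/
theorem h19r2s_valuation_norm (p : HeightOneSpectrum A) (T : Finset (HeightOneSpectrum B))
    (hT : ∀ P : HeightOneSpectrum B, P ∈ T ↔ P.asIdeal.LiesOver p.asIdeal)
    (x : L) (hx : x ≠ 0) :
    p.valuation K (Algebra.norm K x) =
      ∏ P ∈ T, P.valuation L x ^ P.asIdeal.inertiaDeg A := by
  obtain ⟨a, c, hc, rfl⟩ := IsFractionRing.div_surjective (A := B) x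
  have hc0 : c ≠ 0 := nonZeroDivisors.ne_zero hc
  have hc0' : algebraMap B L c ≠ 0 := by
    intro h
    exact hc0 ((IsFractionRing.injective B L) (by rw [h, map_zero]))
  have ha0 : a ≠ 0 := by
    rintro rfl
    simp at hx
  have hmul : algebraMap B L a / algebraMap B L c * algebraMap B L c = algebraMap B L a :=
    div_mul_cancel₀ _ hc0'
  have hL := h19r2s_valuation_norm_algebraMap (K := K) (L := L) p T hT a ha0
  have hR := h19r2s_valuation_norm_algebraMap (K := K) (L := L) p T hT c hc0
  have hNc : p.valuation K (Algebra.norm K (algebraMap B L c)) ≠ 0 := by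
    rw [Valuation.ne_zero_iff, Ne, Algebra.norm_eq_zero_iff]
    exact hc0'
  have h1 : p.valuation K (Algebra.norm K (algebraMap B L a / algebraMap B L c)) *
      p.valuation K (Algebra.norm K (algebraMap B L c)) =
      p.valuation K (Algebra.norm K (algebraMap B L a)) := by
    rw [← map_mul, ← map_mul, hmul]
  have h2 : (∏ P ∈ T, P.valuation L (algebraMap B L a / algebraMap B L c) ^ P.asIdeal.inertiaDeg A) *
      (∏ P ∈ T, P.valuation L (algebraMap B L c) ^ P.asIdeal.inertiaDeg A) =
      ∏ P ∈ T, P.valuation L (algebraMap B L a) ^ P.asIdeal.inertiaDeg A := by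
    rw [← Finset.prod_mul_distrib]
    refine Finset.prod_congr rfl fun P _ => ?_
    rw [← mul_pow, ← map_mul, hmul]
  rw [← hL, ← hR] at h2
  exact mul_right_cancel₀ hNc (h1.trans h2.symm)

end element


section element2

attribute [local instance] FractionRing.liftAlgebra

variable {A K L B : Type*} [CommRing A] [IsDedekindDomain A] [CommRing B] [IsDedekindDomain B]
  [Algebra A B] [Module.Finite A B] [Module.IsTorsionFree A B]
  [Field K] [Field L] [Algebra K L] [Algebra A K] [IsFractionRing A K] [Algebra A L]
  [IsScalarTower A K L] [Algebra B L] [IsFractionRing B L] [IsScalarTower A B L]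
  [FiniteDimensional K L]

theorem h19r2_isSeparable_fractionRing [Algebra.IsSeparable K L] :
    Algebra.IsSeparable (FractionRing A) (FractionRing B) := by
  refine Algebra.IsSeparable.of_equiv_equiv (A₁ := K) (B₁ := L)
    (e₁ := (FractionRing.algEquiv A K).symm.toRingEquiv)
    (e₂ := (FractionRing.algEquiv B L).symm.toRingEquiv) ?_
  ext
  simpa using! IsFractionRing.algEquiv_commutes (FractionRing.algEquiv A K).symm
    (FractionRing.algEquiv B L).symm _

/-- **the norm formula for adic valuations**, separable case. -/
theorem h19r2_valuation_norm [Algebra.IsSeparable K L] (p : HeightOneSpectrum A)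
    (T : Finset (HeightOneSpectrum B))
    (hT : ∀ P : HeightOneSpectrum B, P ∈ T ↔ P.asIdeal.LiesOver p.asIdeal)
    (x : L) (hx : x ≠ 0) :
    p.valuation K (Algebra.norm K x) =
      ∏ P ∈ T, P.valuation L x ^ P.asIdeal.inertiaDeg A := by
  haveI : Algebra.IsSeparable (FractionRing A) (FractionRing B) :=
    h19r2_isSeparable_fractionRing (A := A) (K := K) (L := L) (B := B)
  exact h19r2s_valuation_norm (K := K) (L := L) p T hT x hx

end element2


end H19R2

end
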