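/-
helper19, item 79 (S37) slice R2-FNC, part 3: the LOCAL COUNT over a point `a` of the `y`-line.

Setting of `RR/Field.lean` (helper1's `RRD`): `k` algebraically closed (any characteristic),
`F / k(X)` finite separable, `y = yGen k F` the image of `X`.  For `x ∈ F^×` with divisor `D`
and `a ∈ k`:

  `∑_{P ∈ supp D, y(P) = a} D P = ord_{X = a} (N_{F / k(X)} x)`,

where `ord_{X = a}` is the `(X - a)`-adic valuation of `k(X)` (`h19r2_ordAt`), and
`ord_{X = a} (p / q) = mult_a p - mult_a q`.
-/
import Mathlib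
import Fermat.Agent.RRD.Principal
import Fermat.Agent.FF.Fiber
import Fermat.Agent.FF.NormFormula
import Fermat.Agent.S18.A1Basic
import Fermat.Agent.S37.R2FNCRelNorm_helper19

set_option autoImplicit false
set_option linter.style.longLine false
set_option linter.unusedSectionVars false
set_option linter.style.haveILetI false
set_option linter.unusedVariables false
set_option linter.deprecated false

noncomputable section

namespace H19R2

open Module Polynomial IsDedekindDomain AlgebraicCurve RRalg RRD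
open scoped WithZero
open H9S18 (ValAt IsDivOf)

section poly

variable (k : Type*) [Field k]

/-- the prime `(X - a)` of `k[X]` -/
def h19r2_primeAt (a : k) : HeightOneSpectrum k[X] :=
  ⟨Ideal.span {X - C a},
    (PrincipalIdealRing.isMaximal_of_irreducible (irreducible_X_sub_C a)).isPrime, by
      rw [Ne, Ideal.span_singleton_eq_bot]
      exact X_sub_C_ne_zero a⟩

theorem h19r2_primeAt_asIdeal (a : k) :
    (h19r2_primeAt k a).asIdeal = Ideal.span {X - C a} := rfl

/-- `ord_{X = a}` on `k(X)` -/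
def h19r2_ordAt (a : k) (r : RatFunc k) : ℤ :=
  -(WithZero.log ((h19r2_primeAt k a).valuation (RatFunc k) r))

theorem h19r2_intValuation_le_iff (a : k) (p : k[X]) (n : ℕ) :
    (h19r2_primeAt k a).intValuation p ≤ WithZero.exp (-(n : ℤ)) ↔ (X - C a) ^ n ∣ p := by
  rw [HeightOneSpectrum.intValuation_le_pow_iff_mem, h19r2_primeAt_asIdeal, Ideal.span_singleton_pow,
    Ideal.mem_span_singleton]

theorem h19r2_intValuation_eq (a : k) (p : k[X]) (hp : p ≠ 0) :
    (h19r2_primeAt k a).intValuation p = WithZero.exp (-(p.rootMultiplicity a : ℤ)) := by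
  have h0 : (h19r2_primeAt k a).intValuation p ≠ 0 :=
    (h19r2_primeAt k a).intValuation_ne_zero p hp
  obtain ⟨j, hj⟩ : ∃ j : ℤ, (h19r2_primeAt k a).intValuation p = WithZero.exp j :=
    ⟨WithZero.log _, (WithZero.exp_log h0).symm⟩
  have hle1 : (h19r2_primeAt k a).intValuation p ≤ 1 := (h19r2_primeAt k a).intValuation_le_one p
  have hj0 : j ≤ 0 := by
    rw [hj, ← WithZero.exp_zero, WithZero.exp_le_exp] at hle1
    exact hle1
  obtain ⟨m, hm⟩ : ∃ m : ℕ, j = -(m : ℤ) := ⟨(-j).toNat, by omega⟩
  subst hm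
  have key : ∀ n : ℕ, n ≤ m ↔ n ≤ p.rootMultiplicity a := by
    intro n
    rw [Polynomial.le_rootMultiplicity_iff hp, ← h19r2_intValuation_le_iff, hj,
      WithZero.exp_le_exp]
    omega
  have h1 : m = p.rootMultiplicity a :=
    le_antisymm ((key m).mp le_rfl) ((key _).mpr le_rfl)
  rw [hj, h1]

theorem h19r2_ordAt_algebraMap (a : k) (p : k[X]) (hp : p ≠ 0) :
    h19r2_ordAt k a (algebraMap k[X] (RatFunc k) p) = p.rootMultiplicity a := by
  unfold h19r2_ordAt
  rw [HeightOneSpectrum.valuation_of_algebraMap, h19r2_intValuation_eq k a p hp, WithZero.log_exp,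
    neg_neg]

/-- `ord_{X = a} (p / q) = mult_a p - mult_a q` -/
theorem h19r2_ordAt_of_mul_eq (a : k) (r : RatFunc k) (p q : k[X]) (hp : p ≠ 0) (hq : q ≠ 0)
    (h : r * algebraMap k[X] (RatFunc k) q = algebraMap k[X] (RatFunc k) p) :
    h19r2_ordAt k a r = (p.rootMultiplicity a : ℤ) - q.rootMultiplicity a := by
  have hq' : algebraMap k[X] (RatFunc k) q ≠ 0 := by
    rw [Ne, map_eq_zero_iff _ (IsFractionRing.injective k[X] (RatFunc k))]
    exact hq
  have hp' : algebraMap k[X] (RatFunc k) p ≠ 0 := by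
    rw [Ne, map_eq_zero_iff _ (IsFractionRing.injective k[X] (RatFunc k))]
    exact hp
  have hr : r ≠ 0 := by
    rintro rfl
    rw [zero_mul] at h
    exact hp' h.symm
  have h1 := h19r2_ordAt_algebraMap k a p hp
  have h2 := h19r2_ordAt_algebraMap k a q hq
  rw [← h] at h1
  unfold h19r2_ordAt at h1 h2 ⊢
  rw [map_mul, WithZero.log_mul ((Valuation.ne_zero_iff _).mpr hr)
    ((Valuation.ne_zero_iff _).mpr hq')] at h1
  omega

end poly

section Main

variable (k : Type*) [Field k] [IsAlgClosed k] (F : Type*) [Field F]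
  [Algebra (RatFunc k) F] [Algebra k F] [IsScalarTower k (RatFunc k) F] [Algebra k[X] F]
  [IsScalarTower k[X] (RatFunc k) F] [IsScalarTower k k[X] F]
  [FiniteDimensional (RatFunc k) F] [Algebra.IsSeparable (RatFunc k) F]

attribute [local instance] H27L6.h27f_isTorsionFree_B H27L6.h27f_isDedekindDomain_B
  H27L6.h27f_isFractionRing_B

theorem h19r2_finite_B : Module.Finite k[X] ↥(integralClosure k[X] F) :=
  H27L6.h27_finite_AB k[X] (RatFunc k) F ↥(integralClosure k[X] F)

attribute [local instance] h19r2_finite_B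

/-- dictionary: `y(P) = a` iff the prime of `P` lies over `(X - a)` -/
theorem h19r2_valAt_placeFin_iff (a : k) (P : HeightOneSpectrum ↥(integralClosure k[X] F)) :
    ValAt (placeFin k F P) (yGen k F) a ↔ P.asIdeal.LiesOver (h19r2_primeAt k a).asIdeal := by
  unfold ValAt
  rw [← H27L6.h27f_algebraMap_X_sub_C k F a]
  have h1 : (placeFin k F P).adicValuation
      (algebraMap ↥(integralClosure k[X] F) F (algebraMap k[X] ↥(integralClosure k[X] F) (X - C a))) < 1 ↔
      algebraMap k[X] ↥(integralClosure k[X] F) (X - C a) ∈ P.asIdeal :=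
    H27L6.h27_placeOf_adicValuation_lt_one_iff (F := F) k ↥(integralClosure k[X] F) P _
  rw [h1]
  constructor
  · intro h
    refine ⟨?_⟩
    rw [h19r2_primeAt_asIdeal]
    exact (H27L6.h27f_under_eq k F a P.asIdeal P.isPrime h).symm
  · intro h
    have h2 : (X - C a : k[X]) ∈ (h19r2_primeAt k a).asIdeal :=
      Ideal.mem_span_singleton_self _
    rw [h.over] at h2
    exact h2

/-- the primes over `(X - a)` form a finite set -/
theorem h19r2_finite_over (a : k) :
    {P : HeightOneSpectrum ↥(integralClosure k[X] F) | P.asIdeal.LiesOver (h19r2_primeAt k a).asIdeal}.Finite := by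
  have hfin := Ideal.finite_factors (H27L6.h27f_fib_ne_bot k F a)
  refine hfin.subset ?_
  intro P hP
  rw [Set.mem_setOf_eq] at hP ⊢
  rw [Ideal.dvd_iff_le, Ideal.map_le_iff_le_comap]
  have := hP.over
  rw [h19r2_primeAt_asIdeal] at this
  rw [this]

/-- the finite set of the primes over `(X - a)` -/
def h19r2_over (a : k) : Finset (HeightOneSpectrum ↥(integralClosure k[X] F)) := (h19r2_finite_over k F a).toFinset

theorem h19r2_mem_over (a : k) (P : HeightOneSpectrum ↥(integralClosure k[X] F)) :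
    P ∈ h19r2_over k F a ↔ P.asIdeal.LiesOver (h19r2_primeAt k a).asIdeal := by
  unfold h19r2_over
  rw [Set.Finite.mem_toFinset]
  rfl

attribute [local instance] Ideal.Quotient.field

/-- all inertia degrees are one -/
theorem h19r2_inertiaDeg (a : k) (P : HeightOneSpectrum ↥(integralClosure k[X] F))
    (hP : P.asIdeal.LiesOver (h19r2_primeAt k a).asIdeal) :
    P.asIdeal.inertiaDeg k[X] = 1 := by
  haveI := hP
  haveI : P.asIdeal.IsMaximal := P.isMaximal
  haveI : (h19r2_primeAt k a).asIdeal.IsMaximal := H27L6.h27_span_X_sub_C_isMaximal k a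
  rw [← Ideal.inertiaDeg'_eq_inertiaDeg (h19r2_primeAt k a).asIdeal P.asIdeal,
    Ideal.inertiaDeg'_algebraMap]
  haveI : Nontrivial (↥(integralClosure k[X] F) ⧸ P.asIdeal) := Ideal.Quotient.nontrivial_iff.mpr P.isPrime.ne_top
  refine finrank_eq_one (1 : ↥(integralClosure k[X] F) ⧸ P.asIdeal) one_ne_zero (fun x => ?_)
  obtain ⟨b, rfl⟩ := Ideal.Quotient.mk_surjective x
  obtain ⟨c, hc⟩ := H27FF.h27ff_exists_const (placeFin k F P) (placeFin_deg k F P)
    ⟨algebraMap ↥(integralClosure k[X] F) F b, H27L6.h27_mem_placeOf (F := F) k ↥(integralClosure k[X] F) P b⟩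
  refine ⟨Ideal.Quotient.mk _ (C c), ?_⟩
  rw [Algebra.smul_def, mul_one, Ideal.Quotient.algebraMap_mk_of_liesOver]
  symm
  rw [← sub_eq_zero, ← RingHom.map_sub, Ideal.Quotient.eq_zero_iff_mem,
    ← H27L6.h27_placeOf_adicValuation_lt_one_iff (F := F) k]
  rw [map_sub]
  have h4 : algebraMap ↥(integralClosure k[X] F) F (algebraMap k[X] ↥(integralClosure k[X] F) (C c)) = algebraMap k F c := by
    rw [← IsScalarTower.algebraMap_apply k[X] ↥(integralClosure k[X] F) F, H27L6.h27f_algebraMap_poly_eq, aeval_C]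
  rw [h4]
  exact hc

/-- **the local norm formula** over the point `a` -/
theorem h19r2_ordAt_norm (a : k) (x : F) (hx : x ≠ 0) :
    h19r2_ordAt k a (Algebra.norm (RatFunc k) x) =
      ∑ P ∈ h19r2_over k F a, (placeFin k F P).ord x := by
  have hnorm := h19r2_valuation_norm (A := k[X]) (K := RatFunc k) (L := F) (B := ↥(integralClosure k[X] F))
    (h19r2_primeAt k a) (h19r2_over k F a) (fun P => h19r2_mem_over k F a P) x hx
  unfold h19r2_ordAt
  rw [hnorm, H27FF.h27ff_log_prod, ← Finset.sum_neg_distrib]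
  · refine Finset.sum_congr rfl fun P hP => ?_
    rw [h19r2_inertiaDeg k F a P ((h19r2_mem_over k F a P).mp hP), pow_one]
    exact (H27L6.h27_placeOf_ord (F := F) k ↥(integralClosure k[X] F) P x).symm
  · intro P _
    exact pow_ne_zero _ ((Valuation.ne_zero_iff _).mpr hx)

open Classical in
/-- **the local count** over the point `a` -/
theorem h19r2_local_count (a : k) (x : F) (hx : x ≠ 0) (D : Divisor k F) (hD : IsDivOf x D) :
    (∑ P ∈ D.support with ValAt P (yGen k F) a, D P) =
      h19r2_ordAt k a (Algebra.norm (RatFunc k) x) := by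
  rw [h19r2_ordAt_norm k F a x hx]
  have hinj : Set.InjOn (placeFin k F) (h19r2_over k F a : Set (HeightOneSpectrum ↥(integralClosure k[X] F))) :=
    fun _ _ _ _ h => placeFin_injective k F h
  rw [← Finset.sum_image (f := fun P : Place k F => P.ord x) hinj]
  apply Finset.sum_subset_zero_on_sdiff
  · intro P hP
    rw [Finset.mem_filter] at hP
    obtain ⟨hPs, hPv⟩ := hP
    obtain ⟨Q, rfl⟩ := exists_placeFin k F P (H9S18.ValAt.mem P hPv)
    rw [Finset.mem_image]
    exact ⟨Q, (h19r2_mem_over k F a Q).mpr ((h19r2_valAt_placeFin_iff k F a Q).mp hPv), rfl⟩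
  · intro P hP
    rw [Finset.mem_sdiff, Finset.mem_image, Finset.mem_filter] at hP
    obtain ⟨⟨Q, hQ, rfl⟩, hnot⟩ := hP
    have hv : ValAt (placeFin k F Q) (yGen k F) a :=
      (h19r2_valAt_placeFin_iff k F a Q).mpr ((h19r2_mem_over k F a Q).mp hQ)
    by_contra hne
    apply hnot
    refine ⟨?_, hv⟩
    rw [Finsupp.mem_support_iff, hD]
    exact hne
  · intro P _
    exact hD P

end Main

end H19R2

end
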