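/-
helper19, item 79 (S37) slice R2-FNC, part 4: the GAUSS VALUATION on `K(X)` and the norm.

Setting: `F / K(X)`, `Fb / k(X)` (as in `RR/Field.lean`), `R : H18R2.PreDatum K F k Fb` with
`y = yGen K F ∈ O` and `red y = yGen k Fb`.  Then
* `O ∩ K(X)` is the Gauss valuation ring: every `x ∈ K(X)` with `x ∈ O`, `red x ≠ 0` is `p / q`
  with `p, q ∈ A[X]` of nonzero reduction, and `red x = (π p) / (π q)` (`h19r2_gauss_frac`);
* `red` restricts to `red₀ : O ∩ K(X) → k(X)` and `(O ∩ K(X), O, red₀, red)` is a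
  `H18S18.RedPair` (`h19r2_redPair`);
* hence (helper18's `h18_norm_red`) the norm commutes with the reduction (`h19r2_norm_frac`).
-/
import Mathlib
import Fermat.Agent.RR.Bridge
import Fermat.Agent.S18.H18NormRed
import Fermat.Agent.S37.R2Defs_helper18

set_option autoImplicit false
set_option linter.style.longLine false
set_option linter.unusedSectionVars false
set_option linter.style.haveILetI false
set_option linter.unusedVariables false

noncomputable section

namespace H19R2

open Module Polynomial RRalg H18R2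

section normalize

variable {K k : Type*} [Field K] [Field k] (A : ValuationSubring K) (π : A →+* k)

/-- normalisation: a nonzero polynomial is a constant times an integral polynomial with nonzero
reduction -/
theorem h19r2_normalize (P : K[X]) (hP : P ≠ 0) :
    ∃ (c : K) (p : Polynomial A), c ≠ 0 ∧ P = C c * p.map A.subtype ∧ p.map π ≠ 0 := by
  classical
  have hne : P.support.Nonempty := Polynomial.support_nonempty.mpr hP
  haveI : Nonempty P.support := hne.to_subtype
  obtain ⟨i₀, hi₀⟩ := H18S18.h18_exists_max (O := A) (fun i : P.support => P.coeff i)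
  set c := P.coeff i₀ with hc
  have hc0 : c ≠ 0 := Polynomial.mem_support_iff.mp i₀.2
  have hcoef : ∀ n, (C c⁻¹ * P).coeff n ∈ A := by
    intro n
    rw [Polynomial.coeff_C_mul]
    by_cases hn : n ∈ P.support
    · obtain ⟨d, hd⟩ := hi₀ ⟨n, hn⟩
      have h1 : P.coeff n = (d : K) * c := hd
      rw [h1, mul_comm, mul_assoc, mul_inv_cancel₀ hc0, mul_one]
      exact d.2
    · rw [Polynomial.notMem_support_iff.mp hn, mul_zero]
      exact A.zero_mem
  have hsub : (↑(C c⁻¹ * P).coeffs : Set K) ⊆ A.toSubring := by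
    intro x hx
    obtain ⟨n, -, rfl⟩ := Polynomial.mem_coeffs_iff.mp hx
    exact hcoef n
  refine ⟨c, (C c⁻¹ * P).toSubring A.toSubring hsub, hc0, ?_, ?_⟩
  · have h1 : ((C c⁻¹ * P).toSubring A.toSubring hsub).map A.subtype = C c⁻¹ * P :=
      Polynomial.map_toSubring _ _ _
    rw [h1, ← mul_assoc, ← C_mul, mul_inv_cancel₀ hc0, C_1, one_mul]
  · intro h0
    have h1 := congrArg (fun q => q.coeff i₀) h0
    simp only [Polynomial.coeff_map, Polynomial.coeff_zero] at h1
    have h2 : ((C c⁻¹ * P).toSubring A.toSubring hsub).coeff i₀ = 1 := by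
      apply Subtype.ext
      rw [Polynomial.coeff_toSubring, coeff_C_mul, ← hc, inv_mul_cancel₀ hc0]
      rfl
    rw [h2, map_one] at h1
    exact one_ne_zero h1

end normalize

section pre

variable {K F k Fb : Type*} [Field K] [Field F] [Algebra K F] [Field k] [Field Fb] [Algebra k Fb]
variable (R : PreDatum K F k Fb)

/-- `A → O` -/
def h19r2_incA : R.A →+* R.O where
  toFun a := ⟨algebraMap K F a, R.const_mem a a.2⟩
  map_one' := Subtype.ext (map_one _)
  map_mul' a b := Subtype.ext (map_mul _ _ _)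
  map_zero' := Subtype.ext (map_zero _)
  map_add' a b := Subtype.ext (map_add _ _ _)

theorem h19r2_incA_coe (a : R.A) : ((h19r2_incA R a : R.O) : F) = algebraMap K F a := rfl

theorem h19r2_red_incA (a : R.A) : R.red (h19r2_incA R a) = algebraMap k Fb (R.π a) :=
  R.red_const a a.2

/-- units of `O` are the elements with nonzero reduction -/
theorem h19r2_red_ne_zero_iff (y : R.O) : R.red y ≠ 0 ↔ IsUnit y := by
  constructor
  · intro h
    by_contra hu
    exact h (R.red_nonunit y hu)
  · intro hu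
    exact (hu.map R.red).ne_zero

theorem h19r2_pi_ne_zero_iff (a : R.A) : R.π a ≠ 0 ↔ IsUnit a := by
  constructor
  · intro h
    by_contra hu
    exact h (R.π_nonunit a hu)
  · intro hu
    exact (hu.map R.π).ne_zero

/-- a unit of `O` has its inverse in `O` -/
theorem h19r2_inv_mem {y : F} (hy : y ∈ R.O) (hr : R.red ⟨y, hy⟩ ≠ 0) : y⁻¹ ∈ R.O := by
  obtain ⟨u, hu⟩ := (h19r2_red_ne_zero_iff R _).mp hr
  have h1 : ((u⁻¹ : R.Oˣ) : R.O) * ⟨y, hy⟩ = 1 := by rw [← hu]; exact u.inv_mul
  have h2 : (((u⁻¹ : R.Oˣ) : R.O) : F) * y = 1 := by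
    have := congrArg (fun z : R.O => (z : F)) h1
    simpa using this
  have h3 : y⁻¹ = (((u⁻¹ : R.Oˣ) : R.O) : F) := by
    have hy0 : y ≠ 0 := right_ne_zero_of_mul_eq_one h2
    field_simp
    rw [mul_comm]
    exact h2.symm
  rw [h3]
  exact ((u⁻¹ : R.Oˣ) : R.O).2

/-- a constant which is a unit of `O` is a unit of `A` -/
theorem h19r2_const_unit (e : K) (he : algebraMap K F e ∈ R.O)
    (hr : R.red ⟨algebraMap K F e, he⟩ ≠ 0) : ∃ he' : e ∈ R.A, R.π ⟨e, he'⟩ ≠ 0 := by
  have he0 : e ≠ 0 := by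
    rintro rfl
    apply hr
    have : (⟨algebraMap K F 0, he⟩ : R.O) = 0 := Subtype.ext (map_zero _)
    rw [this, map_zero]
  have hmem : e ∈ R.A := by
    by_contra hnot
    have h' : e⁻¹ ∈ R.A := (R.A.mem_or_inv_mem e).resolve_left hnot
    have hnu : ¬ IsUnit (⟨e⁻¹, h'⟩ : R.A) := by
      intro hunit
      obtain ⟨w, hw⟩ := hunit
      apply hnot
      have h1 : ((w⁻¹ : R.Aˣ) : R.A) * ⟨e⁻¹, h'⟩ = 1 := by rw [← hw]; exact w.inv_mul
      have h2 : (((w⁻¹ : R.Aˣ) : R.A) : K) * e⁻¹ = 1 := by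
        have := congrArg (fun z : R.A => (z : K)) h1
        simpa using this
      have h3 : (((w⁻¹ : R.Aˣ) : R.A) : K) = e := by
        field_simp at h2
        exact h2
      exact h3 ▸ ((w⁻¹ : R.Aˣ) : R.A).2
    have h4 : R.red (h19r2_incA R ⟨e⁻¹, h'⟩) = 0 := by
      rw [h19r2_red_incA, R.π_nonunit _ hnu, map_zero]
    have h5 : (⟨algebraMap K F e, he⟩ : R.O) * h19r2_incA R ⟨e⁻¹, h'⟩ = 1 := by
      apply Subtype.ext
      show algebraMap K F e * algebraMap K F e⁻¹ = 1
      rw [← map_mul, mul_inv_cancel₀ he0, map_one]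
    have h6 := congrArg R.red h5
    rw [map_mul, h4, mul_zero, map_one] at h6
    exact zero_ne_one h6
  refine ⟨hmem, ?_⟩
  intro h0
  apply hr
  have : (⟨algebraMap K F e, he⟩ : R.O) = h19r2_incA R ⟨e, hmem⟩ := rfl
  rw [this, h19r2_red_incA, h0, map_zero]

variable (t : F) (ht : t ∈ R.O)

/-- evaluation of integral polynomials at `t`, with values in `O` -/
def h19r2_psi : Polynomial R.A →+* R.O := Polynomial.eval₂RingHom (h19r2_incA R) ⟨t, ht⟩

theorem h19r2_psi_coe (p : Polynomial R.A) :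
    ((h19r2_psi R t ht p : R.O) : F) = aeval t (p.map R.A.subtype) := by
  have h1 : ((h19r2_psi R t ht p : R.O) : F) = R.O.subtype (Polynomial.eval₂ (h19r2_incA R) ⟨t, ht⟩ p) :=
    rfl
  rw [h1, Polynomial.hom_eval₂, Polynomial.aeval_def, Polynomial.eval₂_map]
  rfl

theorem h19r2_red_psi (p : Polynomial R.A) :
    R.red (h19r2_psi R t ht p) = aeval (R.red ⟨t, ht⟩) (p.map R.π) := by
  have h1 : R.red (h19r2_psi R t ht p) = R.red (Polynomial.eval₂ (h19r2_incA R) ⟨t, ht⟩ p) := rfl
  rw [h1, Polynomial.hom_eval₂, Polynomial.aeval_def, Polynomial.eval₂_map]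
  congr 1
  ext a
  exact h19r2_red_incA R a

end pre

section gaussRat

variable {K F k Fb : Type*} [Field K] [Field F] [Algebra K F] [Field k] [Field Fb] [Algebra k Fb]
  [Algebra (RatFunc K) F] [IsScalarTower K (RatFunc K) F]
  [Algebra (RatFunc k) Fb] [IsScalarTower k (RatFunc k) Fb]
variable (R : PreDatum K F k Fb) (ht : yGen K F ∈ R.O)
  (htb : R.red ⟨yGen K F, ht⟩ = yGen k Fb)

/-- the image of an integral polynomial in `F` -/
theorem h19r2_alg_poly (p : Polynomial R.A) :
    algebraMap (RatFunc K) F (algebraMap K[X] (RatFunc K) (p.map R.A.subtype)) =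
      ((h19r2_psi R (yGen K F) ht p : R.O) : F) := by
  rw [bridge_algebraMap_poly, h19r2_psi_coe]

include htb in
/-- the image of the reduction of an integral polynomial in `Fb` -/
theorem h19r2_alg_poly_red (p : Polynomial R.A) :
    algebraMap (RatFunc k) Fb (algebraMap k[X] (RatFunc k) (p.map R.π)) =
      R.red (h19r2_psi R (yGen K F) ht p) := by
  rw [bridge_algebraMap_poly, h19r2_red_psi, htb]

include htb in
theorem h19r2_red_psi_ne_zero (p : Polynomial R.A) (hp : p.map R.π ≠ 0) :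
    R.red (h19r2_psi R (yGen K F) ht p) ≠ 0 := by
  rw [← h19r2_alg_poly_red R ht htb]
  intro h0
  apply hp
  have h1 := (algebraMap (RatFunc k) Fb).injective (h0.trans (map_zero _).symm)
  exact (IsFractionRing.injective k[X] (RatFunc k)) (h1.trans (map_zero _).symm)

include htb in
/-- **the Gauss valuation on `K(X)`**: a unit of `O` in `K(X)` is a quotient of integral
polynomials with nonzero reduction, compatibly with the reduction. -/
theorem h19r2_gauss_frac (x : RatFunc K) (hx : algebraMap (RatFunc K) F x ∈ R.O)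
    (hr : R.red ⟨algebraMap (RatFunc K) F x, hx⟩ ≠ 0) :
    ∃ p q : Polynomial R.A, p.map R.π ≠ 0 ∧ q.map R.π ≠ 0 ∧
      x * algebraMap K[X] (RatFunc K) (q.map R.A.subtype) =
        algebraMap K[X] (RatFunc K) (p.map R.A.subtype) ∧
      R.red ⟨algebraMap (RatFunc K) F x, hx⟩ *
          algebraMap (RatFunc k) Fb (algebraMap k[X] (RatFunc k) (q.map R.π)) =
        algebraMap (RatFunc k) Fb (algebraMap k[X] (RatFunc k) (p.map R.π)) := by
  classical
  have hx0 : x ≠ 0 := by
    rintro rfl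
    apply hr
    have : (⟨algebraMap (RatFunc K) F 0, hx⟩ : R.O) = 0 := Subtype.ext (map_zero _)
    rw [this, map_zero]
  have hnum : x.num ≠ 0 := RatFunc.num_ne_zero hx0
  have hden : x.denom ≠ 0 := RatFunc.denom_ne_zero x
  obtain ⟨c₁, p₁, hc₁, hP₁, hp₁⟩ := h19r2_normalize R.A R.π x.num hnum
  obtain ⟨c₂, q₁, hc₂, hQ₁, hq₁⟩ := h19r2_normalize R.A R.π x.denom hden
  have hden' : algebraMap K[X] (RatFunc K) x.denom ≠ 0 := by
    rw [Ne, map_eq_zero_iff _ (IsFractionRing.injective K[X] (RatFunc K))]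
    exact hden
  have hrel0 : x * algebraMap K[X] (RatFunc K) x.denom = algebraMap K[X] (RatFunc K) x.num :=
    ((div_eq_iff hden').mp (RatFunc.num_div_denom x)).symm
  set e : K := c₁ / c₂ with he
  -- the relation `x * q₁ = e * p₁`
  have hrel : x * algebraMap K[X] (RatFunc K) (q₁.map R.A.subtype) =
      algebraMap K[X] (RatFunc K) (C e * p₁.map R.A.subtype) := by
    have hC2 : algebraMap K[X] (RatFunc K) (C c₂) ≠ 0 := by
      rw [Ne, map_eq_zero_iff _ (IsFractionRing.injective K[X] (RatFunc K)), C_eq_zero]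
      exact hc₂
    rw [hP₁, hQ₁, map_mul, map_mul] at hrel0
    apply mul_left_cancel₀ hC2
    rw [map_mul, he]
    have h3 : (C (c₁ / c₂) : K[X]) = C c₁ * C c₂⁻¹ := by rw [← C_mul, div_eq_mul_inv]
    rw [h3, map_mul]
    have h4 : algebraMap K[X] (RatFunc K) (C c₂) * algebraMap K[X] (RatFunc K) (C c₂⁻¹) = 1 := by
      rw [← map_mul, ← C_mul, mul_inv_cancel₀ hc₂, C_1, map_one]
    calc algebraMap K[X] (RatFunc K) (C c₂) * (x * algebraMap K[X] (RatFunc K) (q₁.map R.A.subtype))
        = x * (algebraMap K[X] (RatFunc K) (C c₂) *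
            algebraMap K[X] (RatFunc K) (q₁.map R.A.subtype)) := by ring
      _ = algebraMap K[X] (RatFunc K) (C c₁) * algebraMap K[X] (RatFunc K) (p₁.map R.A.subtype) :=
          hrel0
      _ = (algebraMap K[X] (RatFunc K) (C c₂) * algebraMap K[X] (RatFunc K) (C c₂⁻¹)) *
            (algebraMap K[X] (RatFunc K) (C c₁) *
              algebraMap K[X] (RatFunc K) (p₁.map R.A.subtype)) := by rw [h4, one_mul]
      _ = _ := by ring
  -- map to `F`
  have hrelF : algebraMap (RatFunc K) F x * ((h19r2_psi R (yGen K F) ht q₁ : R.O) : F) =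
      algebraMap K F e * ((h19r2_psi R (yGen K F) ht p₁ : R.O) : F) := by
    have h1 : algebraMap (RatFunc K) F x *
        algebraMap (RatFunc K) F (algebraMap K[X] (RatFunc K) (q₁.map R.A.subtype)) =
        algebraMap (RatFunc K) F (algebraMap K[X] (RatFunc K) (C e)) *
          algebraMap (RatFunc K) F (algebraMap K[X] (RatFunc K) (p₁.map R.A.subtype)) := by
      rw [← map_mul, hrel, map_mul (algebraMap K[X] (RatFunc K)), map_mul]
    rw [h19r2_alg_poly R ht, h19r2_alg_poly R ht, bridge_algebraMap_poly, aeval_C] at h1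
    exact h1
  have hrp := h19r2_red_psi_ne_zero R ht htb p₁ hp₁
  have hrq := h19r2_red_psi_ne_zero R ht htb q₁ hq₁
  have hpinv : ((h19r2_psi R (yGen K F) ht p₁ : R.O) : F)⁻¹ ∈ R.O :=
    h19r2_inv_mem R (h19r2_psi R (yGen K F) ht p₁).2 hrp
  have hp0 : ((h19r2_psi R (yGen K F) ht p₁ : R.O) : F) ≠ 0 := by
    intro h0
    apply hrp
    have : h19r2_psi R (yGen K F) ht p₁ = 0 := Subtype.ext h0
    rw [this, map_zero]
  have heq : algebraMap K F e = algebraMap (RatFunc K) F x *
      ((h19r2_psi R (yGen K F) ht q₁ : R.O) : F) *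
        ((h19r2_psi R (yGen K F) ht p₁ : R.O) : F)⁻¹ := by
    rw [hrelF, mul_assoc, mul_inv_cancel₀ hp0, mul_one]
  have heO : algebraMap K F e ∈ R.O := by
    rw [heq]
    exact R.O.mul_mem _ _ (R.O.mul_mem _ _ hx (h19r2_psi R (yGen K F) ht q₁).2) hpinv
  have hered : R.red ⟨algebraMap K F e, heO⟩ ≠ 0 := by
    have h1 : (⟨algebraMap K F e, heO⟩ : R.O) * h19r2_psi R (yGen K F) ht p₁ =
        ⟨algebraMap (RatFunc K) F x, hx⟩ * h19r2_psi R (yGen K F) ht q₁ :=
      Subtype.ext hrelF.symm
    intro h0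
    have h2 := congrArg R.red h1
    rw [map_mul, map_mul, h0, zero_mul] at h2
    exact (mul_ne_zero hr hrq) h2.symm
  obtain ⟨heA, hπe⟩ := h19r2_const_unit R e heO hered
  refine ⟨C (⟨e, heA⟩ : R.A) * p₁, q₁, ?_, hq₁, ?_, ?_⟩
  · rw [Polynomial.map_mul, Polynomial.map_C]
    exact mul_ne_zero (C_ne_zero.mpr hπe) hp₁
  · rw [hrel, Polynomial.map_mul, Polynomial.map_C]
    rfl
  · rw [h19r2_alg_poly_red R ht htb, h19r2_alg_poly_red R ht htb, ← map_mul]
    congr 1
    apply Subtype.ext
    rw [map_mul]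
    show algebraMap (RatFunc K) F x * _ = ((h19r2_psi R (yGen K F) ht (C (⟨e, heA⟩ : R.A)) : R.O) : F) * _
    rw [hrelF]
    congr 1
    rw [h19r2_psi_coe, Polynomial.map_C, aeval_C]
    rfl

/-- `O ∩ K(X)` -/
def h19r2_O0 : ValuationSubring (RatFunc K) := R.O.comap (algebraMap (RatFunc K) F)

/-- the reduction on `O ∩ K(X)`, with values in `Fb` -/
def h19r2_phi : h19r2_O0 R →+* Fb :=
  R.red.comp (((algebraMap (RatFunc K) F).comp (h19r2_O0 R).subtype).codRestrict
    R.O.toSubring (fun x => x.2))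

theorem h19r2_phi_apply (x : h19r2_O0 R) :
    h19r2_phi R x = R.red ⟨algebraMap (RatFunc K) F (x : RatFunc K), x.2⟩ := rfl

include htb in
theorem h19r2_phi_mem_range (x : h19r2_O0 R) :
    ∃ r : RatFunc k, algebraMap (RatFunc k) Fb r = h19r2_phi R x := by
  by_cases h0 : h19r2_phi R x = 0
  · exact ⟨0, by rw [h0, map_zero]⟩
  · obtain ⟨p, q, hp, hq, -, hrel⟩ := h19r2_gauss_frac R ht htb (x : RatFunc K) x.2 h0
    have hq' : algebraMap (RatFunc k) Fb (algebraMap k[X] (RatFunc k) (q.map R.π)) ≠ 0 := by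
      rw [h19r2_alg_poly_red R ht htb]
      exact h19r2_red_psi_ne_zero R ht htb q hq
    refine ⟨algebraMap k[X] (RatFunc k) (p.map R.π) / algebraMap k[X] (RatFunc k) (q.map R.π), ?_⟩
    rw [map_div₀, ← hrel, h19r2_phi_apply, mul_div_assoc, div_self hq', mul_one]

/-- the reduction `O ∩ K(X) → k(X)` -/
def h19r2_red0 : h19r2_O0 R →+* RatFunc k where
  toFun x := Classical.choose (h19r2_phi_mem_range R ht htb x)
  map_one' := by
    apply (algebraMap (RatFunc k) Fb).injective
    rw [Classical.choose_spec (h19r2_phi_mem_range R ht htb 1), map_one, map_one]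
  map_mul' x y := by
    apply (algebraMap (RatFunc k) Fb).injective
    rw [Classical.choose_spec (h19r2_phi_mem_range R ht htb (x * y)), map_mul, map_mul,
      Classical.choose_spec (h19r2_phi_mem_range R ht htb x),
      Classical.choose_spec (h19r2_phi_mem_range R ht htb y)]
  map_zero' := by
    apply (algebraMap (RatFunc k) Fb).injective
    rw [Classical.choose_spec (h19r2_phi_mem_range R ht htb 0), map_zero, map_zero]
  map_add' x y := by
    apply (algebraMap (RatFunc k) Fb).injective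
    rw [Classical.choose_spec (h19r2_phi_mem_range R ht htb (x + y)), map_add, map_add,
      Classical.choose_spec (h19r2_phi_mem_range R ht htb x),
      Classical.choose_spec (h19r2_phi_mem_range R ht htb y)]

theorem h19r2_red0_spec (x : h19r2_O0 R) :
    algebraMap (RatFunc k) Fb (h19r2_red0 R ht htb x) = h19r2_phi R x :=
  Classical.choose_spec (h19r2_phi_mem_range R ht htb x)

/-- `(O ∩ K(X), O)` is a compatible pair of reductions -/
theorem h19r2_redPair : H18S18.RedPair (h19r2_O0 R) R.O (h19r2_red0 R ht htb) R.red where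
  mem_iff x := Iff.rfl
  ker x := by
    have h1 : h19r2_red0 R ht htb x = 0 ↔ h19r2_phi R x = 0 := by
      rw [← h19r2_red0_spec R ht htb x]
      constructor
      · intro h
        rw [h, map_zero]
      · intro h
        exact (algebraMap (RatFunc k) Fb).injective (h.trans (map_zero _).symm)
    rw [h1, h19r2_phi_apply, mem_nonunits_iff]
    constructor
    · intro h0 hu
      have h2 : IsUnit (⟨algebraMap (RatFunc K) F (x : RatFunc K), x.2⟩ : R.O) := by
        obtain ⟨u, hu⟩ := hu
        refine IsUnit.of_mul_eq_one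
          (⟨algebraMap (RatFunc K) F (((u⁻¹ : (h19r2_O0 R)ˣ) : h19r2_O0 R) : RatFunc K),
            ((u⁻¹ : (h19r2_O0 R)ˣ) : h19r2_O0 R).2⟩ : R.O) ?_
        apply Subtype.ext
        show algebraMap (RatFunc K) F (x : RatFunc K) *
          algebraMap (RatFunc K) F (((u⁻¹ : (h19r2_O0 R)ˣ) : h19r2_O0 R) : RatFunc K) = 1
        rw [← map_mul, ← hu]
        have h3 : ((u : h19r2_O0 R) : RatFunc K) * (((u⁻¹ : (h19r2_O0 R)ˣ) : h19r2_O0 R) : RatFunc K)
            = 1 := by
          have h4 : (u : h19r2_O0 R) * ((u⁻¹ : (h19r2_O0 R)ˣ) : h19r2_O0 R) = 1 := u.mul_inv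
          exact congrArg (fun z : h19r2_O0 R => (z : RatFunc K)) h4
        rw [h3, map_one]
      exact ((h19r2_red_ne_zero_iff R _).mpr h2) h0
    · intro hnu
      by_contra h0
      apply hnu
      have hinv := h19r2_inv_mem R x.2 h0
      have hx0 : (x : RatFunc K) ≠ 0 := by
        intro hz
        apply h0
        have : (⟨algebraMap (RatFunc K) F (x : RatFunc K), x.2⟩ : R.O) = 0 := by
          apply Subtype.ext
          show algebraMap (RatFunc K) F (x : RatFunc K) = 0
          rw [hz, map_zero]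
        rw [this, map_zero]
      have hmem : (x : RatFunc K)⁻¹ ∈ h19r2_O0 R := by
        show algebraMap (RatFunc K) F (x : RatFunc K)⁻¹ ∈ R.O
        rw [map_inv₀]
        exact hinv
      refine IsUnit.of_mul_eq_one (⟨(x : RatFunc K)⁻¹, hmem⟩ : h19r2_O0 R) ?_
      apply Subtype.ext
      show (x : RatFunc K) * (x : RatFunc K)⁻¹ = 1
      exact mul_inv_cancel₀ hx0
  ker' y := by
    rw [mem_nonunits_iff, ← h19r2_red_ne_zero_iff R y, not_not]
  surj' := R.red_surj
  compat x hx := (h19r2_red0_spec R ht htb x).symm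

variable [FiniteDimensional (RatFunc K) F] [FiniteDimensional (RatFunc k) Fb]

include htb in
/-- **the norm commutes with the reduction**, in fraction form. -/
theorem h19r2_norm_frac (hdeg : finrank (RatFunc k) Fb = finrank (RatFunc K) F)
    (y : F) (hy : y ∈ R.O) (hr : R.red ⟨y, hy⟩ ≠ 0) :
    ∃ p q : Polynomial R.A, p.map R.π ≠ 0 ∧ q.map R.π ≠ 0 ∧
      Algebra.norm (RatFunc K) y * algebraMap K[X] (RatFunc K) (q.map R.A.subtype) =
        algebraMap K[X] (RatFunc K) (p.map R.A.subtype) ∧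
      Algebra.norm (RatFunc k) (R.red ⟨y, hy⟩) * algebraMap k[X] (RatFunc k) (q.map R.π) =
        algebraMap k[X] (RatFunc k) (p.map R.π) := by
  obtain ⟨n, hn1, hn2⟩ := H18S18.h18_norm_red (h19r2_redPair R ht htb) hdeg ⟨y, hy⟩
  have hN0 : Algebra.norm (RatFunc k) (R.red ⟨y, hy⟩) ≠ 0 := by
    rw [Ne, Algebra.norm_eq_zero_iff]
    exact hr
  have hphi : h19r2_phi R n ≠ 0 := by
    rw [← h19r2_red0_spec R ht htb n, hn2]
    intro h0
    exact hN0 ((algebraMap (RatFunc k) Fb).injective (h0.trans (map_zero _).symm))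
  obtain ⟨p, q, hp, hq, h1, h2⟩ := h19r2_gauss_frac R ht htb (n : RatFunc K) n.2 hphi
  refine ⟨p, q, hp, hq, ?_, ?_⟩
  · rw [← hn1]
    exact h1
  · apply (algebraMap (RatFunc k) Fb).injective
    rw [map_mul, ← h2, ← hn2, h19r2_red0_spec R ht htb n]
    rfl

end gaussRat

end H19R2

end
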