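/-
helper19, item 79 (S37) slice R2-FNC: the FIBRE NET COUNT  `H18R2.FNCStatement`.

For a chart `t` (`H18R2.Setting R t`), `c ∈ k`, `y ∈ O` with `red y ≠ 0`:

  `∑_{P ∈ FD(t,c)} ord_P y = ∑_{Q ∈ Fib(t,c)} ord_Q (red y)`.

Proof: with `N = N_{F/K(t)} y`, `N̄ = N_{Fb/k(t̄)} (red y)`:
* local count (`h19r2_local_count`, norm formula over `K[X]`, separable case in char `ℓ`):
  `∑_{P, t(P) = a} ord_P y = ord_{X = a} N`, `∑_{Q, t̄(Q) = c} ord_Q (red y) = ord_{X = c} N̄`;
* the norm commutes with the reduction (`h19r2_norm_frac`, helper18's `h18_norm_red`):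
  `N = p / q`, `N̄ = π p / π q` with `p, q ∈ A[X]` of nonzero reduction;
* Gauss lemma (`h19r2_gauss`): `mult_c (π p) = #{roots a of p | a ∈ A, π a = c}`.
-/
import Mathlib
import Fermat.Agent.S37.R2FNCGauss_helper19
import Fermat.Agent.S37.R2FNCLocal_helper19
import Fermat.Agent.S37.R2FNCRed_helper19

set_option autoImplicit false
set_option linter.style.longLine false
set_option linter.unusedSectionVars false
set_option linter.style.haveILetI false
set_option linter.unusedVariables false
set_option linter.deprecated false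

noncomputable section

namespace H19R2

open Module Polynomial IsDedekindDomain AlgebraicCurve RRalg RRD H18R2 IntermediateField
open scoped WithZero
open H9S18 (ValAt IsDivOf)

section abs

variable {K F k Fb : Type*} [Field K] [IsAlgClosed K] [Field F]
  [Algebra (RatFunc K) F] [Algebra K F] [IsScalarTower K (RatFunc K) F] [Algebra K[X] F]
  [IsScalarTower K[X] (RatFunc K) F] [IsScalarTower K K[X] F]
  [FiniteDimensional (RatFunc K) F] [Algebra.IsSeparable (RatFunc K) F]
  [Field k] [IsAlgClosed k] [Field Fb]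
  [Algebra (RatFunc k) Fb] [Algebra k Fb] [IsScalarTower k (RatFunc k) Fb] [Algebra k[X] Fb]
  [IsScalarTower k[X] (RatFunc k) Fb] [IsScalarTower k k[X] Fb]
  [FiniteDimensional (RatFunc k) Fb] [Algebra.IsSeparable (RatFunc k) Fb]
variable (R : PreDatum K F k Fb) (ht : yGen K F ∈ R.O)
  (htb : R.red ⟨yGen K F, ht⟩ = yGen k Fb)

theorem h19r2_map_ne_zero (p : Polynomial R.A) (hp : p.map R.π ≠ 0) : p.map R.A.subtype ≠ 0 := by
  intro h0
  apply hp
  have h1 : p = 0 := h19r2_map_subtype_injective R.A (by rw [h0, Polynomial.map_zero])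
  rw [h1, Polynomial.map_zero]

open Classical in
include htb in
/-- the residue side of the fibre net count -/
theorem h19r2_fnc_res (c : k) (yb : Fb) (hyb : yb ≠ 0) (Db : Divisor k Fb) (hDb : IsDivOf yb Db)
    (p q : Polynomial R.A) (hp : p.map R.π ≠ 0) (hq : q.map R.π ≠ 0)
    (h2 : Algebra.norm (RatFunc k) yb * algebraMap k[X] (RatFunc k) (q.map R.π) =
        algebraMap k[X] (RatFunc k) (p.map R.π)) :
    (∑ Q ∈ Db.support with ValAt Q (R.red ⟨yGen K F, ht⟩) c, Db Q) =
      (((p.map R.A.subtype).roots.filter (h19r2_InRes R.A R.π c)).card : ℤ) -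
        ((q.map R.A.subtype).roots.filter (h19r2_InRes R.A R.π c)).card := by
  rw [htb, h19r2_local_count k Fb c yb hyb Db hDb,
    h19r2_ordAt_of_mul_eq k c _ (p.map R.π) (q.map R.π) hp hq h2,
    h19r2_gauss R.A R.π R.π_nonunit p hp c, h19r2_gauss R.A R.π R.π_nonunit q hq c]

open Classical in
/-- the generic side of the fibre net count -/
theorem h19r2_fnc_gen (c : k) (y : F) (hy0 : y ≠ 0) (D : Divisor K F) (hD : IsDivOf y D)
    (p q : Polynomial R.A) (hp : p.map R.π ≠ 0) (hq : q.map R.π ≠ 0)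
    (h1 : Algebra.norm (RatFunc K) y * algebraMap K[X] (RatFunc K) (q.map R.A.subtype) =
        algebraMap K[X] (RatFunc K) (p.map R.A.subtype)) :
    (∑ P ∈ D.support with InDisc R (yGen K F) c P, D P) =
      (((p.map R.A.subtype).roots.filter (h19r2_InRes R.A R.π c)).card : ℤ) -
        ((q.map R.A.subtype).roots.filter (h19r2_InRes R.A R.π c)).card := by
  have hP0 := h19r2_map_ne_zero R p hp
  have hQ0 := h19r2_map_ne_zero R q hq
  set PP : K[X] := p.map R.A.subtype with hPP
  set QQ : K[X] := q.map R.A.subtype with hQQ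
  -- the value function
  let val : Place K F → K := fun P' =>
    if h : ∃ a, ValAt P' (yGen K F) a then Classical.choose h else 0
  have hval : ∀ (P' : Place K F) (a : K), ValAt P' (yGen K F) a → val P' = a := by
    intro P' a ha
    have hex : ∃ a, ValAt P' (yGen K F) a := ⟨a, ha⟩
    have h3 : val P' = Classical.choose hex := dif_pos hex
    rw [h3]
    exact H9S18.ValAt.unique P' (Classical.choose_spec hex) ha
  set s : Finset (Place K F) := D.support.filter (fun P' => InDisc R (yGen K F) c P') with hs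
  set T : Finset K := (PP.roots.toFinset ∪ QQ.roots.toFinset ∪ s.image val).filter
    (h19r2_InRes R.A R.π c) with hT
  have hTpred : ∀ a ∈ T, h19r2_InRes R.A R.π c a := fun a ha => (Finset.mem_filter.mp ha).2
  have hmaps : ∀ P' ∈ s, val P' ∈ T := by
    intro P' hP'
    have h4 := (Finset.mem_filter.mp hP').2
    obtain ⟨a, ha, hv, hπ⟩ := h4
    have h5 := hval P' a hv
    rw [hT, Finset.mem_filter]
    refine ⟨?_, ?_⟩
    · apply Finset.mem_union_right
      exact Finset.mem_image_of_mem val hP'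
    · rw [h5]
      exact ⟨ha, hπ⟩
  rw [← Finset.sum_fiberwise_of_maps_to hmaps]
  have hfib : ∀ a ∈ T, (∑ P' ∈ s with val P' = a, D P') =
      (PP.roots.count a : ℤ) - QQ.roots.count a := by
    intro a ha
    have hset : (s.filter (fun P' => val P' = a)) =
        D.support.filter (fun P' => ValAt P' (yGen K F) a) := by
      ext P'
      simp only [hs, Finset.mem_filter]
      constructor
      · rintro ⟨⟨h6, a', ha', hv, hπ⟩, h7⟩
        refine ⟨h6, ?_⟩
        rw [← h7, hval P' a' hv]
        exact hv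
      · rintro ⟨h6, hv⟩
        obtain ⟨haA, hπ⟩ := hTpred a ha
        exact ⟨⟨h6, a, haA, hv, hπ⟩, hval P' a hv⟩
    rw [hset, h19r2_local_count K F a y hy0 D hD,
      h19r2_ordAt_of_mul_eq K a _ PP QQ hP0 hQ0 h1, Polynomial.count_roots,
      Polynomial.count_roots]
  rw [Finset.sum_congr rfl hfib, Finset.sum_sub_distrib]
  have hcP : ∑ a ∈ T, PP.roots.count a = (PP.roots.filter (h19r2_InRes R.A R.π c)).card := by
    apply h19r2_sum_count PP.roots (h19r2_InRes R.A R.π c) T hTpred
    intro a ha hpred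
    rw [hT, Finset.mem_filter]
    exact ⟨Finset.mem_union_left _ (Finset.mem_union_left _ (Multiset.mem_toFinset.mpr ha)), hpred⟩
  have hcQ : ∑ a ∈ T, QQ.roots.count a = (QQ.roots.filter (h19r2_InRes R.A R.π c)).card := by
    apply h19r2_sum_count QQ.roots (h19r2_InRes R.A R.π c) T hTpred
    intro a ha hpred
    rw [hT, Finset.mem_filter]
    exact ⟨Finset.mem_union_left _ (Finset.mem_union_right _ (Multiset.mem_toFinset.mpr ha)), hpred⟩
  rw [← hcP, ← hcQ]
  push_cast
  rfl

include htb in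
/-- **the fibre net count**, abstract form (`F / K(X)`, `Fb / k(X)`). -/
theorem h19r2_fnc_abs (hdeg : finrank (RatFunc k) Fb = finrank (RatFunc K) F) (c : k) :
    FNCAt R (yGen K F) ht c := by
  intro y hy hr D Db hD hDb
  have hy0 : y ≠ 0 := by
    rintro rfl
    apply hr
    have : (⟨0, hy⟩ : R.O) = 0 := rfl
    rw [this, map_zero]
  obtain ⟨p, q, hp, hq, h1, h2⟩ := h19r2_norm_frac R ht htb hdeg y hy hr
  rw [h19r2_fnc_gen R c y hy0 D hD p q hp hq h1,
    h19r2_fnc_res R ht htb c _ hr Db hDb p q hp hq h2]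

end abs

section concrete

theorem h19r2_fncAt_congr {K F k Fb : Type*} [Field K] [Field F] [Algebra K F] [Field k]
    [Field Fb] [Algebra k Fb] (R : PreDatum K F k Fb) (t t' : F) (e : t = t') (ht : t ∈ R.O)
    (ht' : t' ∈ R.O) (c : k) (h : FNCAt R t ht c) : FNCAt R t' ht' c := by
  subst e
  exact h

/-- **R2-FNC**: the fibre net count. -/
theorem h19r2_fnc : FNCStatement := by
  intro K F k Fb _ _ _ _ _ _ R t S c
  haveI : IsAlgClosed K := S.algK
  haveI : CharZero K := S.char0
  haveI : IsAlgClosed k := S.algk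
  haveI : FiniteDimensional K⟮t⟯ F := S.fin
  haveI : FiniteDimensional k⟮R.red ⟨t, S.ht⟩⟯ Fb := S.finb
  haveI : Algebra.IsSeparable k⟮R.red ⟨t, S.ht⟩⟯ Fb := S.sepb
  haveI : CharZero K⟮t⟯ := charZero_of_injective_algebraMap (algebraMap K K⟮t⟯).injective
  haveI : Algebra.IsSeparable K⟮t⟯ F := inferInstance
  letI := bridgePolyAlgebra (K := K) t
  letI := bridgeRatAlgebra t S.htK
  haveI := bridge_tower_K_rat t S.htK
  haveI := bridge_tower_K_poly (K := K) t
  haveI := bridge_tower_poly_rat t S.htK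
  haveI := bridge_finiteDimensional t S.htK
  haveI := bridge_isSeparable t S.htK
  letI := bridgePolyAlgebra (K := k) (R.red ⟨t, S.ht⟩)
  letI := bridgeRatAlgebra (R.red ⟨t, S.ht⟩) S.htk
  haveI := bridge_tower_K_rat (R.red ⟨t, S.ht⟩) S.htk
  haveI := bridge_tower_K_poly (K := k) (R.red ⟨t, S.ht⟩)
  haveI := bridge_tower_poly_rat (R.red ⟨t, S.ht⟩) S.htk
  haveI := bridge_finiteDimensional (R.red ⟨t, S.ht⟩) S.htk
  haveI := bridge_isSeparable (R.red ⟨t, S.ht⟩) S.htk
  have e1 : yGen K F = t := bridge_yGen t S.htK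
  have e2 : yGen k Fb = R.red ⟨t, S.ht⟩ := bridge_yGen (R.red ⟨t, S.ht⟩) S.htk
  have ht' : yGen K F ∈ R.O := by rw [e1]; exact S.ht
  have htb : R.red ⟨yGen K F, ht'⟩ = yGen k Fb := by
    rw [e2]
    congr 1
    exact Subtype.ext e1
  have hdeg : finrank (RatFunc k) Fb = finrank (RatFunc K) F := by
    rw [bridge_finrank (R.red ⟨t, S.ht⟩) S.htk, bridge_finrank t S.htK]
    exact S.deg.symm
  exact h19r2_fncAt_congr R (yGen K F) t e1 ht' S.ht c (h19r2_fnc_abs R ht' htb hdeg c)

end concrete

end H19R2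

end
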