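import Mathlib
import Fermat.Agent.RRD.Riemann
import Fermat.Agent.RRD.Places
import Fermat.Agent.FF.Fiber
import Fermat.Agent.S18.ADefs

/-!
# Item 79 (S37), slice R2-REG (helper28), part B: the generic fibre

`K` algebraically closed, `F / K(t)` finite separable.
* `H28R2.exists_valAt` : a place at which `t` is regular has a value `t(P) ∈ K`;
* `H28R2.isIntegral_of_regular` : a function which is regular at all places where `t` is regular
  is integral over `K[t]` (`K[X]`-algebra structure `X ↦ t`).
-/

set_option autoImplicit false
set_option linter.unusedSectionVars false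
set_option linter.unusedVariables false
set_option linter.style.haveILetI false

noncomputable section

open Polynomial IntermediateField AlgebraicCurve IsDedekindDomain

namespace H28R2

open H9S18 (ValAt)
open RRalg

variable {K F : Type*} [Field K] [IsAlgClosed K] [Field F] [Algebra K F]

/-- a place at which `y` is regular has a value `y(P) ∈ K` -/
theorem exists_valAt (t : F) (ht : Transcendental K t) [FiniteDimensional K⟮t⟯ F]
    [Algebra.IsSeparable K⟮t⟯ F] (P : Place K F) (y : F) (hy : y ∈ P.toValuationSubring) :
    ∃ a : K, ValAt P y a :=
  H27FF.h27ff_exists_const P (RRD.deg_eq_one t ht P) ⟨y, hy⟩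

attribute [local instance] H27L6.h27f_isTorsionFree_B H27L6.h27f_isDedekindDomain_B
  H27L6.h27f_isFractionRing_B

/-- regular at all places where `t` is regular ⇒ integral over `K[t]` -/
theorem isIntegral_of_regular (t : F) (ht : Transcendental K t) [FiniteDimensional K⟮t⟯ F]
    [Algebra.IsSeparable K⟮t⟯ F] (b : F)
    (hb : ∀ P : Place K F, t ∈ P.toValuationSubring → b ∈ P.toValuationSubring) :
    letI := bridgePolyAlgebra (K := K) t
    IsIntegral K[X] b := by
  letI := bridgePolyAlgebra (K := K) t
  letI := bridgeRatAlgebra t ht
  haveI := bridge_tower_K_rat t ht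
  haveI := bridge_tower_K_poly (K := K) t
  haveI := bridge_tower_poly_rat t ht
  haveI := bridge_finiteDimensional t ht
  haveI := RRD.bridge_isSeparable t ht
  have hyg : yGen K F = t := bridge_yGen t ht
  have hmem : b ∈ (algebraMap ↥(integralClosure K[X] F) F).range := by
    apply HeightOneSpectrum.mem_integers_of_valuation_le_one (R := ↥(integralClosure K[X] F)) F b
    intro v
    have h1 := RRD.y_mem_placeFin K F v
    rw [hyg] at h1
    have h2 := hb _ h1
    rw [RH24.h20_mem_iff_adicValuation_le_one, RRD.placeFin_adicValuation] at h2
    exact h2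
  obtain ⟨β, hβ⟩ := hmem
  rw [← hβ]
  exact β.2

end H28R2

end
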