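import Mathlib
import Fermat.Agent.S37.R2Defs_helper18
import Fermat.Agent.S18.UnrGenE_helper28

/-!
# Item 79 (S37), slice R2-REG (helper28), part A: generic lemmas

* `H28R2.gaussData` : a `PreDatum` is a `GaussData` (helper28's S18 interface);
* `H28R2.exists_root_of_red_root` : over an algebraically closed valued field, a root `c` of the
  reduction of `s ∈ A[X]` (reduction `≠ 0`) lifts to a root `a ∈ A` of `s`, `π a = c`;
* `H28R2.poly_mem` (Gauss): `q ∈ K[X]`, `q(t) ∈ O`, `red t` transcendental ⇒ `q ∈ A[X]`.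
-/

set_option autoImplicit false
set_option linter.unusedSectionVars false
set_option linter.unusedVariables false
set_option linter.style.haveILetI false

noncomputable section

open Polynomial IntermediateField

namespace H28R2

open H18R2 H28UG

section Datum

variable {K F k Fb : Type} [Field K] [Field F] [Algebra K F] [Field k] [Field Fb] [Algebra k Fb]
variable (R : PreDatum K F k Fb)

theorem red_eq_zero_iff (x : R.O) : R.red x = 0 ↔ x ∈ nonunits R.O := by
  constructor
  · intro h hu
    have := hu.map R.red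
    rw [h] at this
    exact not_isUnit_zero this
  · intro h
    exact R.red_nonunit x h

theorem mem_A_of_mem_O (c : K) (h : algebraMap K F c ∈ R.O) : c ∈ R.A := by
  by_contra hc
  have hc0 : c ≠ 0 := fun h0 => hc (h0 ▸ R.A.zero_mem)
  have hinv : c⁻¹ ∈ R.A := (R.A.mem_or_inv_mem c).resolve_left hc
  have hnu : ¬ IsUnit (⟨c⁻¹, hinv⟩ : R.A) := by
    intro hu
    obtain ⟨y, hy⟩ := hu.exists_right_inv
    have h1 : c⁻¹ * (y : K) = 1 := by
      have := congrArg (fun z : R.A => (z : K)) hy
      simpa using this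
    have h2 : (y : K) = c := by
      field_simp at h1
      exact h1
    exact hc (h2 ▸ y.2)
  have h0 : R.red ⟨algebraMap K F c⁻¹, R.const_mem _ hinv⟩ = 0 := by
    rw [R.red_const _ hinv, R.π_nonunit _ hnu, map_zero]
  have h1 : (⟨algebraMap K F c⁻¹, R.const_mem _ hinv⟩ : R.O) * ⟨algebraMap K F c, h⟩ = 1 := by
    ext
    show algebraMap K F c⁻¹ * algebraMap K F c = 1
    rw [← map_mul, inv_mul_cancel₀ hc0, map_one]
  have h2 := congrArg R.red h1
  rw [map_mul, h0, zero_mul, map_one] at h2
  exact zero_ne_one h2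

/-- a `PreDatum` is a `GaussData` -/
theorem gaussData : GaussData R.A R.π R.O R.red where
  mem_iff c := ⟨mem_A_of_mem_O R c, R.const_mem c⟩
  ker := red_eq_zero_iff R
  surj := R.red_surj
  compat a h := R.red_const a a.2
  πsurj := R.π_surj

end Datum

section Roots

variable {K : Type} [Field K] [IsAlgClosed K] (A : ValuationSubring K) {k : Type*} [Field k]
  (π : A →+* k)

/-- division by `1 - u X` preserves `A[X]` -/
theorem coeff_mem_of_one_sub_mul (u : K) (hu : u ∈ A) (q : K[X])
    (h : ∀ n, ((1 - C u * X) * q).coeff n ∈ A) : ∀ n, q.coeff n ∈ A := by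
  intro n
  induction n with
  | zero =>
    have := h 0
    rw [sub_mul, one_mul, coeff_sub, mul_assoc, coeff_C_mul, mul_comm X q, coeff_mul_X_zero,
      mul_zero, sub_zero] at this
    exact this
  | succ n ih =>
    have := h (n + 1)
    rw [sub_mul, one_mul, coeff_sub, mul_assoc, coeff_C_mul, mul_comm X q, coeff_mul_X] at this
    have h2 : q.coeff (n + 1) = (q.coeff (n + 1) - u * q.coeff n) + u * q.coeff n := by ring
    rw [h2]
    exact A.add_mem _ _ this (A.mul_mem _ _ hu ih)

/-- **roots and reduction**: a root of the reduction lifts. -/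
theorem exists_root_of_red_root (hπ : ∀ a : A, ¬ IsUnit a → π a = 0) :
    ∀ (d : ℕ) (s : A[X]), s.natDegree = d → s.map π ≠ 0 → ∀ c : k, (s.map π).eval c = 0 →
      ∃ a : A, s.eval a = 0 ∧ π a = c := by
  intro d
  induction d using Nat.strong_induction_on with
  | _ d ih =>
  intro s hd hs c hc
  have hs0 : s ≠ 0 := fun h => hs (by rw [h, Polynomial.map_zero])
  have hinj : Function.Injective (A.subtype : A →+* K) := A.subtype_injective
  have hdegπ : 0 < (s.map π).natDegree := by
    by_contra h0
    have h1 : (s.map π).natDegree = 0 := by omega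
    rw [Polynomial.eq_C_of_natDegree_eq_zero h1, eval_C] at hc
    exact hs (by rw [Polynomial.eq_C_of_natDegree_eq_zero h1, hc, C_0])
  have hdeg : 0 < s.natDegree := lt_of_lt_of_le hdegπ (Polynomial.natDegree_map_le)
  have hdegK : (s.map A.subtype).degree ≠ 0 := by
    rw [Polynomial.degree_map_eq_of_injective hinj]
    intro h0
    have h1 : s.natDegree = 0 :=
      Polynomial.natDegree_eq_zero_iff_degree_le_zero.mpr (le_of_eq h0)
    omega
  obtain ⟨x, hx⟩ := IsAlgClosed.exists_root (s.map A.subtype) hdegK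
  by_cases hxA : x ∈ A
  · -- the root lies in `A`
    have hroot : s.eval (⟨x, hxA⟩ : A) = 0 := by
      apply hinj
      rw [map_zero, ← Polynomial.eval₂_at_apply, ← Polynomial.eval_map]
      exact hx
    by_cases hπx : π ⟨x, hxA⟩ = c
    · exact ⟨_, hroot, hπx⟩
    obtain ⟨s₁, hs₁⟩ := Polynomial.dvd_iff_isRoot.mpr hroot
    have hs₁0 : s₁ ≠ 0 := fun h => hs0 (by rw [hs₁, h, mul_zero])
    have hmap : s.map π = (X - C (π ⟨x, hxA⟩)) * s₁.map π := by
      rw [hs₁, Polynomial.map_mul, Polynomial.map_sub, Polynomial.map_X, Polynomial.map_C]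
    have hs₁π : s₁.map π ≠ 0 := fun h => hs (by rw [hmap, h, mul_zero])
    have hc₁ : (s₁.map π).eval c = 0 := by
      rw [hmap, eval_mul, eval_sub, eval_X, eval_C] at hc
      rcases mul_eq_zero.mp hc with h | h
      · exact absurd (sub_eq_zero.mp h).symm hπx
      · exact h
    have hd₁ : s₁.natDegree < d := by
      rw [← hd, hs₁, Polynomial.natDegree_mul (Polynomial.X_sub_C_ne_zero _) hs₁0,
        Polynomial.natDegree_X_sub_C]
      omega
    obtain ⟨a, ha, hac⟩ := ih _ hd₁ s₁ rfl hs₁π c hc₁
    exact ⟨a, by rw [hs₁, eval_mul, ha, mul_zero], hac⟩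
  · -- the root lies outside `A`: its inverse is in the maximal ideal
    have hx0 : x ≠ 0 := fun h0 => hxA (h0 ▸ A.zero_mem)
    have hu : x⁻¹ ∈ A := (A.mem_or_inv_mem x).resolve_left hxA
    have hnu : ¬ IsUnit (⟨x⁻¹, hu⟩ : A) := by
      intro hunit
      obtain ⟨y, hy⟩ := hunit.exists_right_inv
      have h1 : x⁻¹ * (y : K) = 1 := by
        have := congrArg (fun z : A => (z : K)) hy
        simpa using this
      have h2 : (y : K) = x := by
        field_simp at h1
        exact h1
      exact hxA (h2 ▸ y.2)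
    obtain ⟨q, hq⟩ := Polynomial.dvd_iff_isRoot.mpr hx
    have hq0 : q ≠ 0 := by
      intro h
      rw [h, mul_zero] at hq
      exact hs0 ((Polynomial.map_eq_zero_iff hinj).mp hq)
    have hfac : s.map A.subtype = (1 - C x⁻¹ * X) * (C (-x) * q) := by
      rw [hq]
      have : (1 - C x⁻¹ * X) * (C (-x) * q) = (C (x⁻¹ * x) * X - C x) * q := by
        rw [C_mul, C_neg]; ring
      rw [this, inv_mul_cancel₀ hx0, C_1, one_mul]
    have hcoef : ∀ n, (C (-x) * q).coeff n ∈ A := by
      apply coeff_mem_of_one_sub_mul A x⁻¹ hu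
      intro n
      rw [← hfac, Polynomial.coeff_map]
      exact (s.coeff n).2
    -- descend `C (-x) * q` to `A[X]`
    obtain ⟨s₂, hs₂⟩ : ∃ s₂ : A[X], s₂.map A.subtype = C (-x) * q := by
      have : (C (-x) * q) ∈ Polynomial.lifts (A.subtype : A →+* K) := by
        rw [Polynomial.lifts_iff_coeff_lifts]
        intro n
        exact ⟨⟨_, hcoef n⟩, rfl⟩
      exact this
    have hsA : s = (1 - C (⟨x⁻¹, hu⟩ : A) * X) * s₂ := by
      apply Polynomial.map_injective _ hinj
      rw [hfac, Polynomial.map_mul, hs₂, Polynomial.map_sub, Polynomial.map_one,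
        Polynomial.map_mul, Polynomial.map_C, Polynomial.map_X]
      rfl
    have hmap : s.map π = s₂.map π := by
      rw [hsA, Polynomial.map_mul, Polynomial.map_sub, Polynomial.map_one, Polynomial.map_mul,
        Polynomial.map_C, hπ _ hnu, C_0, zero_mul, sub_zero, one_mul]
    have hd₂ : s₂.natDegree < d := by
      have h1 : s₂.natDegree = (C (-x) * q).natDegree := by
        rw [← hs₂, Polynomial.natDegree_map_eq_of_injective hinj]
      have h2 : (C (-x) * q).natDegree = q.natDegree :=
        Polynomial.natDegree_C_mul (neg_ne_zero.mpr hx0)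
      have h3 : s.natDegree = (s.map A.subtype).natDegree :=
        (Polynomial.natDegree_map_eq_of_injective hinj _).symm
      rw [hq, Polynomial.natDegree_mul (Polynomial.X_sub_C_ne_zero _) hq0,
        Polynomial.natDegree_X_sub_C] at h3
      omega
    obtain ⟨a, ha, hac⟩ := ih _ hd₂ s₂ rfl (hmap ▸ hs) c (hmap ▸ hc)
    exact ⟨a, by rw [hsA, eval_mul, ha, mul_zero], hac⟩

end Roots

section Gauss

variable {K : Type} [Field K] {A : ValuationSubring K} {k : Type*} [Field k] {π : A →+* k}
  {E : Type} [Field E] [Algebra K E] {Eb : Type*} [Field Eb] [Algebra k Eb]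
  {OE : ValuationSubring E} {redE : OE →+* Eb}

/-- **Gauss**: a polynomial `q ∈ K[X]` with `q(t) ∈ OE` has coefficients in `A`. -/
theorem poly_mem (hd : GaussData A π OE redE) (t : OE) (htb : Transcendental k (redE t))
    (q : K[X]) (h : aeval (t : E) q ∈ OE) : ∃ q' : A[X], q'.map A.subtype = q := by
  by_cases hq : q = 0
  · exact ⟨0, by rw [hq, Polynomial.map_zero]⟩
  obtain ⟨γ, q₀, hγ, hq₀, hqq⟩ := H28GV.gv_exists_primitive A q hq
  have hunit : IsUnit (hd.ev t q₀) :=
    hd.isUnit_of_red _ (hd.red_ev_ne_zero t htb q₀ (H28GV.gv_map_ne_zero_of_coeff_one A π q₀ hq₀))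
  have heq : aeval (t : E) q = algebraMap K E γ * ((hd.ev t q₀ : OE) : E) := by
    rw [hqq, map_mul, aeval_C, hd.coe_ev_map]
  have hγA : γ ∈ A := by
    refine hd.const_mem γ ⟨_, h⟩ 1 (hd.ev t q₀) isUnit_one ?_ hunit
    show aeval (t : E) q * ((1 : OE) : E) = _
    rw [heq]
    simp
  refine ⟨C ⟨γ, hγA⟩ * q₀, ?_⟩
  rw [Polynomial.map_mul, Polynomial.map_C, hqq]
  rfl

/-- the reduction of `q'(t)` -/
theorem red_aeval (hd : GaussData A π OE redE) (t : OE) (q' : A[X])
    (h : aeval (t : E) (q'.map A.subtype) ∈ OE) :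
    redE ⟨_, h⟩ = aeval (redE t) (q'.map π) := by
  rw [← hd.red_ev]
  congr 1
  ext
  exact (hd.coe_ev_map t q').symm

end Gauss

end H28R2

end
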