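import Mathlib
import Fermat.Agent.S37.R2RegA_helper28
import Fermat.Agent.S24.A3a
import Fermat.Agent.RR.Bridge

/-!
# Item 79 (S37), slice R2-REG (helper28), part C: integrality passes to the reduction

`(A, π, OE, redE)` a `GaussData` on `E / K`, `t ∈ OE` with `redE t` transcendental and
`[Eb : k(t̄)] = [E : K(t)]`.  If `b ∈ OE` is integral over `K[t]`, then `b` is a root of a monic
polynomial with coefficients in `A[t]`; hence `redE b` lies in every valuation ring of `Eb`
containing `k` and `redE t`.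
-/

set_option autoImplicit false
set_option linter.unusedSectionVars false
set_option linter.unusedVariables false
set_option linter.style.haveILetI false

noncomputable section

open Polynomial IntermediateField Module

namespace H28R2

open H28UG H18S18 RRalg

variable {K : Type} [Field K] {A : ValuationSubring K} {k : Type} [Field k] {π : A →+* k}
  {E : Type} [Field E] [Algebra K E] {Eb : Type} [Field Eb] [Algebra k Eb]
  {OE : ValuationSubring E} {redE : OE →+* Eb}

/-- the coefficients of the minimal polynomial over `K(t)` of an element of `OE` lie in `OE` -/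
theorem minpoly_coeff_mem (hd : GaussData A π OE redE) (t : OE)
    (htb : Transcendental k (redE t)) [FiniteDimensional K⟮(t : E)⟯ E]
    [FiniteDimensional k⟮redE t⟯ Eb]
    (hdeg : finrank k⟮redE t⟯ Eb = finrank K⟮(t : E)⟯ E) (b : OE) (i : ℕ) :
    (((minpoly K⟮(t : E)⟯ (b : E)).coeff i : K⟮(t : E)⟯) : E) ∈ OE := by
  obtain ⟨hF, hF', hRP⟩ := hd.redPair_top t htb
  obtain ⟨p, hpm, hp1, -⟩ := h18_charpoly_red hRP hdeg (⟨(b : E), b.2⟩ : gdO OE E)
  have hroot : aeval (b : E) (p.map (gdO OE ↥K⟮(t : E)⟯).subtype) = 0 := by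
    rw [hp1, aeval_def, ← Polynomial.eval_map]
    exact eval_charpoly_lmul (b : E)
  have hdvd : minpoly K⟮(t : E)⟯ (b : E) ∣ p.map (algebraMap (gdO OE ↥K⟮(t : E)⟯) K⟮(t : E)⟯) :=
    minpoly.dvd K⟮(t : E)⟯ (b : E) hroot
  obtain ⟨g', hg'⟩ := IsIntegrallyClosed.eq_map_mul_C_of_dvd K⟮(t : E)⟯ hpm hdvd
  have hmonic : (minpoly K⟮(t : E)⟯ (b : E)).Monic :=
    minpoly.monic (Algebra.IsIntegral.isIntegral (b : E))
  rw [hmonic.leadingCoeff, C_1, mul_one] at hg'
  rw [← hg', Polynomial.coeff_map]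
  exact (g'.coeff i).2

/-- **integral over `K[t]` and in `OE` ⇒ integral over `A[t]`** -/
theorem exists_monic_of_isIntegral (hd : GaussData A π OE redE) (t : OE)
    (htb : Transcendental k (redE t)) [FiniteDimensional K⟮(t : E)⟯ E]
    [FiniteDimensional k⟮redE t⟯ Eb]
    (hdeg : finrank k⟮redE t⟯ Eb = finrank K⟮(t : E)⟯ E) (b : OE)
    (hb : letI := bridgePolyAlgebra (K := K) (t : E); IsIntegral K[X] (b : E)) :
    ∃ M : Polynomial (Polynomial A), M.Monic ∧ Polynomial.eval₂ (hd.ev t) b M = 0 := by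
  have ht : Transcendental K (t : E) := hd.transcendental t htb
  letI : Algebra K[X] E := bridgePolyAlgebra (K := K) (t : E)
  letI : Algebra K[X] K⟮(t : E)⟯ := (aeval (AdjoinSimple.gen K (t : E))).toRingHom.toAlgebra
  haveI : IsScalarTower K[X] K⟮(t : E)⟯ E := IsScalarTower.of_algebraMap_eq (fun p => by
    show aeval (t : E) p = ((aeval (AdjoinSimple.gen K (t : E)) p : K⟮(t : E)⟯) : E)
    rw [AdjoinSimple.coe_aeval_gen_apply])
  haveI : IsFractionRing K[X] K⟮(t : E)⟯ := RH24.h5a_isFractionRing (t : E) ht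
  have hmin : minpoly K⟮(t : E)⟯ (b : E) = (minpoly K[X] (b : E)).map
      (algebraMap K[X] K⟮(t : E)⟯) := minpoly.isIntegrallyClosed_eq_field_fractions' _ hb
  -- the coefficients of `minpoly K[X] b` lie in `A[X]`
  have hcoef : ∀ i, ∃ q' : A[X], q'.map A.subtype = (minpoly K[X] (b : E)).coeff i := by
    intro i
    apply poly_mem hd t htb
    have h1 := minpoly_coeff_mem hd t htb hdeg b i
    rw [hmin, Polynomial.coeff_map] at h1
    have h2 : ((algebraMap K[X] K⟮(t : E)⟯ ((minpoly K[X] (b : E)).coeff i) : K⟮(t : E)⟯) : E)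
        = aeval (t : E) ((minpoly K[X] (b : E)).coeff i) := by
      show ((aeval (AdjoinSimple.gen K (t : E)) _ : K⟮(t : E)⟯) : E) = _
      rw [AdjoinSimple.coe_aeval_gen_apply]
    rw [h2] at h1
    exact h1
  have hlift : minpoly K[X] (b : E) ∈ Polynomial.lifts (Polynomial.mapRingHom A.subtype) := by
    rw [Polynomial.lifts_iff_coeff_lifts]
    intro i
    obtain ⟨q', hq'⟩ := hcoef i
    exact ⟨q', hq'⟩
  obtain ⟨M, hM, -, hMm⟩ := Polynomial.lifts_and_natDegree_eq_and_monic hlift (minpoly.monic hb)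
  refine ⟨M, hMm, ?_⟩
  apply Subtype.ext
  have h1 : ((Polynomial.eval₂ (hd.ev t) b M : OE) : E)
      = Polynomial.eval₂ (OE.subtype.comp (hd.ev t)) (b : E) M :=
    (Polynomial.hom_eval₂ M (hd.ev t) OE.subtype b)
  have h2 : OE.subtype.comp (hd.ev t)
      = (algebraMap K[X] E).comp (Polynomial.mapRingHom A.subtype) := by
    ext P
    · show ((hd.ev t (C P) : OE) : E) = aeval (t : E) ((C P).map A.subtype)
      rw [hd.coe_ev_map]
    · show ((hd.ev t X : OE) : E) = aeval (t : E) ((X : A[X]).map A.subtype)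
      rw [hd.coe_ev_map]
  rw [h1, h2, ← Polynomial.eval₂_map, hM]
  exact minpoly.aeval K[X] (b : E)

/-- **the reduction of an element of `OE` integral over `K[t]` is integral over `k[t̄]`**, in
valuative form. -/
theorem red_mem_of_isIntegral (hd : GaussData A π OE redE) (t : OE)
    (htb : Transcendental k (redE t)) [FiniteDimensional K⟮(t : E)⟯ E]
    [FiniteDimensional k⟮redE t⟯ Eb]
    (hdeg : finrank k⟮redE t⟯ Eb = finrank K⟮(t : E)⟯ E) (b : OE)
    (hb : letI := bridgePolyAlgebra (K := K) (t : E); IsIntegral K[X] (b : E))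
    (V : ValuationSubring Eb) (hk : ∀ c : k, algebraMap k Eb c ∈ V) (hV : redE t ∈ V) :
    redE b ∈ V := by
  obtain ⟨M, hMm, hM⟩ := exists_monic_of_isIntegral hd t htb hdeg b hb
  have hφ : ∀ P : A[X], (redE.comp (hd.ev t)) P ∈ V := by
    intro P
    show redE (hd.ev t P) ∈ V
    rw [hd.red_ev, aeval_eq_sum_range]
    refine V.sum_mem (fun i _ => ?_)
    rw [Algebra.smul_def]
    exact V.mul_mem _ _ (hk _) (V.pow_mem hV i)
  let φ' : A[X] →+* V := (redE.comp (hd.ev t)).codRestrict V.toSubring hφ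
  have hint : IsIntegral V (redE b) := by
    refine ⟨M.map φ', hMm.map _, ?_⟩
    rw [Polynomial.eval₂_map]
    have h1 : (algebraMap V Eb).comp φ' = redE.comp (hd.ev t) := by
      ext P <;> rfl
    rw [h1, ← Polynomial.hom_eval₂, hM, map_zero]
  obtain ⟨v, hv⟩ := IsIntegrallyClosed.isIntegral_iff.mp hint
  rw [← hv]
  exact v.2

end H28R2

end
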