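import Mathlib
import Fermat.Agent.S37.R2RegB_helper28
import Fermat.Agent.S37.R2RegC_helper28

/-!
# Item 79 (S37), slice R2-REG (helper28): `H18R2.RegStatement`

`y ∈ O` without poles on the fibre disc `FD(t, c)` ⇒ `red y` has no poles on `Fib(t, c)`.

Proof.  There is `s ∈ A[X]` with `(red s)(c) ≠ 0` such that `b = s(t) y` is regular at all places
where `t` is regular (remove the roots `a` of a denominator with `π a = c` one by one:
`exists_root_of_red_root`), so `b` is integral over `K[t]` (`isIntegral_of_regular`), hence over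
`A[t]` (`exists_monic_of_isIntegral`: characteristic polynomial commutes with reduction), hence
`red b` is regular on the fibre; and `(red s)(red t)` is a unit at the places of `Fib(t, c)`.
-/

set_option autoImplicit false
set_option linter.unusedSectionVars false
set_option linter.unusedVariables false
set_option linter.style.haveILetI false

noncomputable section

open Polynomial IntermediateField AlgebraicCurve Module

namespace H28R2

open H18R2 H28UG
open H9S18 (ValAt)
open RRalg

section Place

variable {K F : Type*} [Field K] [Field F] [Algebra K F] (P : Place K F)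

theorem adicValuation_const {a : K} (ha : a ≠ 0) : P.adicValuation (algebraMap K F a) = 1 := by
  have h0 : algebraMap K F a ≠ 0 := (_root_.map_ne_zero (algebraMap K F)).2 ha
  rw [RH24.h20_adicValuation_eq P h0, RH24.h20_ord_algebraMap]
  simp

theorem aeval_mem {t : F} (ht : t ∈ P.toValuationSubring) (q : K[X]) :
    aeval t q ∈ P.toValuationSubring := by
  rw [aeval_eq_sum_range]
  refine sum_mem (fun i _ => ?_)
  rw [Algebra.smul_def]
  exact mul_mem (P.algebraMap_mem' _) (pow_mem ht i)

theorem mem_of_valAt {t : F} {a : K} (h : ValAt P t a) : t ∈ P.toValuationSubring := by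
  have h1 : t - algebraMap K F a ∈ P.toValuationSubring :=
    (RH24.h20_mem_iff_adicValuation_le_one P _).mpr (le_of_lt h)
  have h2 : t = (t - algebraMap K F a) + algebraMap K F a := by ring
  rw [h2]
  exact add_mem h1 (P.algebraMap_mem' a)

/-- a function with value `a'` at `P` takes the value `a ≠ a'` nowhere near `P` -/
theorem adicValuation_sub_of_valAt {t : F} {a a' : K} (h : ValAt P t a') (hne : a ≠ a') :
    P.adicValuation (t - algebraMap K F a) = 1 := by
  have h2 : t - algebraMap K F a = (t - algebraMap K F a') + algebraMap K F (a' - a) := by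
    rw [map_sub]; ring
  have h3 : P.adicValuation (algebraMap K F (a' - a)) = 1 :=
    adicValuation_const P (sub_ne_zero.mpr (Ne.symm hne))
  rw [h2, Valuation.map_add_eq_of_lt_right _ (by rw [h3]; exact h), h3]

/-- the value of `q(t)` at a place where `t` has the value `c` -/
theorem adicValuation_aeval_of_valAt {t : F} {c : K} (h : ValAt P t c) (q : K[X])
    (hq : q.eval c ≠ 0) : P.adicValuation (aeval t q) = 1 := by
  obtain ⟨q₁, hq₁⟩ := Polynomial.X_sub_C_dvd_sub_C_eval (a := c) (p := q)
  have h1 : aeval t q = (t - algebraMap K F c) * aeval t q₁ + algebraMap K F (q.eval c) := by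
    have := congrArg (aeval t) hq₁
    rw [map_sub, map_mul, map_sub, aeval_X, aeval_C, aeval_C] at this
    rw [← this]; ring
  have h3 : P.adicValuation (algebraMap K F (q.eval c)) = 1 := adicValuation_const P hq
  have h4 : P.adicValuation ((t - algebraMap K F c) * aeval t q₁) < 1 := by
    rw [map_mul]
    have h5 : P.adicValuation (aeval t q₁) ≤ 1 :=
      (RH24.h20_mem_iff_adicValuation_le_one P _).mp (aeval_mem P (mem_of_valAt P h) q₁)
    calc P.adicValuation (t - algebraMap K F c) * P.adicValuation (aeval t q₁)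
        ≤ P.adicValuation (t - algebraMap K F c) * 1 := by gcongr
      _ < 1 := by rw [mul_one]; exact h
  rw [h1, Valuation.map_add_eq_of_lt_right _ (by rw [h3]; exact h4), h3]

end Place

/-- an element integral over a ring whose image lies in a valuation ring lies in it -/
theorem mem_of_isIntegral {R₀ : Type*} [CommRing R₀] {L : Type*} [Field L] [Algebra R₀ L]
    (V : ValuationSubring L) (h : ∀ r : R₀, algebraMap R₀ L r ∈ V) {x : L}
    (hx : IsIntegral R₀ x) : x ∈ V := by
  obtain ⟨g, hg, hgx⟩ := hx
  let φ' : R₀ →+* V := (algebraMap R₀ L).codRestrict V.toSubring h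
  have hint : IsIntegral V x := by
    refine ⟨g.map φ', hg.map _, ?_⟩
    rw [Polynomial.eval₂_map]
    have h1 : (algebraMap V L).comp φ' = algebraMap R₀ L := by
      ext r; rfl
    rw [h1]
    exact hgx
  obtain ⟨v, hv⟩ := IsIntegrallyClosed.isIntegral_iff.mp hint
  rw [← hv]
  exact v.2

section Main

variable {K F k Fb : Type} [Field K] [Field F] [Algebra K F] [Field k] [Field Fb] [Algebra k Fb]
variable (R : PreDatum K F k Fb)

/-- **the denominator**: `s ∈ A[X]`, `(red s)(c) ≠ 0`, `s(t) y` integral over `K[t]`. -/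
theorem exists_denominator (t : F) (S : Setting R t) (c : k) (y : F)
    (hyP : ∀ P : Place K F, InDisc R t c P → y ∈ P.toValuationSubring) :
    ∃ s : Polynomial R.A, (s.map R.π).eval c ≠ 0 ∧
      (letI := bridgePolyAlgebra (K := K) t
       IsIntegral K[X] (aeval t (s.map R.A.subtype) * y)) := by
  haveI := S.algK
  haveI := S.char0
  haveI := S.fin
  have ht := S.htK
  haveI : CharZero K⟮t⟯ := charZero_of_injective_algebraMap (algebraMap K K⟮t⟯).injective
  haveI : Algebra.IsAlgebraic K⟮t⟯ F := Algebra.IsAlgebraic.of_finite _ _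
  haveI : Algebra.IsSeparable K⟮t⟯ F := inferInstance
  letI : Algebra K[X] F := bridgePolyAlgebra (K := K) t
  letI : Algebra K[X] K⟮t⟯ := (aeval (AdjoinSimple.gen K t)).toRingHom.toAlgebra
  haveI : IsScalarTower K[X] K⟮t⟯ F := IsScalarTower.of_algebraMap_eq (fun p => by
    show aeval t p = ((aeval (AdjoinSimple.gen K t) p : K⟮t⟯) : F)
    rw [AdjoinSimple.coe_aeval_gen_apply])
  haveI : IsFractionRing K[X] K⟮t⟯ := RH24.h5a_isFractionRing t ht
  have halg : ∀ q : K[X], algebraMap K[X] F q = aeval t q := fun q => rfl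
  -- integral elements are regular where `t` is
  have hreg : ∀ (x : F), IsIntegral K[X] x → ∀ P : Place K F, t ∈ P.toValuationSubring →
      x ∈ P.toValuationSubring := by
    intro x hx P hP
    exact mem_of_isIntegral P.toValuationSubring (fun q => by rw [halg]; exact aeval_mem P hP q) hx
  -- the induction
  have key : ∀ (d : ℕ) (s : Polynomial R.A), s.natDegree = d → s.map R.π ≠ 0 →
      IsIntegral K[X] (aeval t (s.map R.A.subtype) * y) →
      ∃ s' : Polynomial R.A, (s'.map R.π).eval c ≠ 0 ∧
        IsIntegral K[X] (aeval t (s'.map R.A.subtype) * y) := by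
    intro d
    induction d using Nat.strong_induction_on with
    | _ d ih =>
    intro s hd hs hint
    by_cases hc : (s.map R.π).eval c = 0
    swap
    · exact ⟨s, hc, hint⟩
    obtain ⟨a, ha, hac⟩ := exists_root_of_red_root R.A R.π R.π_nonunit d s hd hs c hc
    obtain ⟨s₁, hs₁⟩ := Polynomial.dvd_iff_isRoot.mpr ha
    have hs0 : s ≠ 0 := fun h => hs (by rw [h, Polynomial.map_zero])
    have hs₁0 : s₁ ≠ 0 := fun h => hs0 (by rw [hs₁, h, mul_zero])
    have hs₁π : s₁.map R.π ≠ 0 := by
      intro h
      apply hs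
      rw [hs₁, Polynomial.map_mul, h, mul_zero]
    have hd₁ : s₁.natDegree < d := by
      rw [← hd, hs₁, Polynomial.natDegree_mul (Polynomial.X_sub_C_ne_zero _) hs₁0,
        Polynomial.natDegree_X_sub_C]
      omega
    have hfac : aeval t (s.map R.A.subtype)
        = (t - algebraMap K F (a : K)) * aeval t (s₁.map R.A.subtype) := by
      rw [hs₁, Polynomial.map_mul, map_mul, Polynomial.map_sub, Polynomial.map_X,
        Polynomial.map_C, map_sub, aeval_X, aeval_C]
      rfl
    refine ih _ hd₁ s₁ rfl hs₁π ?_
    apply isIntegral_of_regular t ht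
    intro P hP
    obtain ⟨a', ha'⟩ := exists_valAt t ht P t hP
    by_cases haa : (a : K) = a'
    · -- `P` lies in the fibre disc
      have hin : InDisc R t c P := ⟨(a : K), a.2, haa ▸ ha', hac⟩
      exact mul_mem (aeval_mem P hP _) (hyP P hin)
    · -- `t - a` is a unit at `P`
      have h1 := hreg _ hint P hP
      have h2 := adicValuation_sub_of_valAt P ha' haa
      rw [RH24.h20_mem_iff_adicValuation_le_one] at h1 ⊢
      rw [hfac, mul_assoc, map_mul, h2, one_mul] at h1
      exact h1
  -- the start: some denominator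
  have hyalg : IsAlgebraic K[X] y :=
    (IsFractionRing.isAlgebraic_iff K[X] K⟮t⟯ F).mpr (Algebra.IsAlgebraic.isAlgebraic y)
  obtain ⟨σ, hσ0, hσ⟩ := hyalg.exists_integral_multiple
  obtain ⟨γ, s₀, hγ, hs₀, hσs⟩ := H28GV.gv_exists_primitive R.A σ hσ0
  refine key _ s₀ rfl (H28GV.gv_map_ne_zero_of_coeff_one R.A R.π s₀ hs₀) ?_
  have h1 : aeval t (s₀.map R.A.subtype) * y = algebraMap K[X] F (C γ⁻¹) * (σ • y) := by
    rw [Algebra.smul_def, halg, halg, hσs, map_mul, aeval_C, aeval_C, ← mul_assoc, ← mul_assoc,
      ← map_mul, inv_mul_cancel₀ hγ, map_one, one_mul]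
  rw [h1]
  exact (isIntegral_algebraMap).mul hσ

/-- **R2-REG**. -/
theorem regStatement : RegStatement := by
  intro K F k Fb _ _ _ _ _ _ R t S c y hy hred hP Q hQ
  haveI := S.fin
  haveI := S.finb
  have hd := gaussData R
  have hy0 : y ≠ 0 := by
    rintro rfl
    exact hred (map_zero R.red)
  obtain ⟨s, hsc, hint⟩ := exists_denominator R t S c y
    (fun P hP' => (RH24.h20_mem_iff_ord_nonneg P hy0).mpr (hP P hP'))
  have hb : letI := bridgePolyAlgebra (K := K) t
      IsIntegral K[X] (((hd.ev ⟨t, S.ht⟩ s * ⟨y, hy⟩ : R.O) : R.O) : F) := by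
    have : (((hd.ev ⟨t, S.ht⟩ s * ⟨y, hy⟩ : R.O) : R.O) : F)
        = aeval t (s.map R.A.subtype) * y := by
      push_cast
      rw [hd.coe_ev_map]
    rw [this]
    exact hint
  have hQt : R.red ⟨t, S.ht⟩ ∈ Q.toValuationSubring := mem_of_valAt Q hQ
  have hmem := red_mem_of_isIntegral hd ⟨t, S.ht⟩ S.htk S.deg.symm
    (hd.ev ⟨t, S.ht⟩ s * ⟨y, hy⟩) hb Q.toValuationSubring Q.algebraMap_mem' hQt
  rw [map_mul, hd.red_ev] at hmem
  have hunit := adicValuation_aeval_of_valAt Q hQ (s.map R.π) hsc
  rw [RH24.h20_mem_iff_adicValuation_le_one, map_mul, hunit, one_mul,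
    ← RH24.h20_mem_iff_adicValuation_le_one] at hmem
  exact RH24.h20_ord_nonneg_of_mem Q hmem

end Main

end H28R2

end
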