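import Mathlib
import Fermat.Agent.S37.R2Defs_helper18
import Fermat.Agent.S18.A1Basic
import Fermat.Agent.RRD.Principal

/-!
# Item 79 (S37), slice R2-SHEET (helper23): `H18R2.SheetStatement`

`FNCAt + RegAt + UnifAt ⇒ SheetAt` at a chart `(t, c)`:
the sheet map `r : FD(t,c) → Fib(t,c)` with the net count.

* `h23shComp hv A P`: the composite valuation ring `{x | x(P) ∈ A}` of a place `P` and the
  valuation ring `A` of the constants; functions integral over the chart ring `A[t]` lie in it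
  (`h23sh_intChart_val`), and their reductions are regular on the fibre
  (`h23sh_red_intChart_mem`);
* `h23shCompat`: `Q` is compatible with `P` if `π (b(P)) = (red b)(Q)` for all `b` integral over
  `A[t]`; `h23sh_exists_compat`: every `P ∈ FD(t,c)` has a compatible `Q ∈ Fib(t,c)`
  (a generic `A`-combination of separating functions would contradict FNC);
* `h23sh_good_of_regular`: the net count for functions regular on `FD(t,c)`, by induction on the
  number of zeros (REG + FNC for `m = 0`; divide by `g - g(P₀)`, `g` from UNIF, for `m > 0`);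
* `h23sh_exists_kill`: `s ∈ A[t]` with `red s ≠ 0` killing finitely many poles;
* `h23sh_sheet_core`, `h23sh_sheetStatement : H18R2.SheetStatement`.
-/

set_option autoImplicit false
set_option linter.style.longLine false
set_option linter.unusedSectionVars false
set_option linter.unnecessarySimpa false
set_option linter.style.haveILetI false
set_option linter.unusedVariables false

noncomputable section

namespace H23SH

open AlgebraicCurve IntermediateField H9S18 H18R2 IsDedekindDomain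
open scoped WithZero

/-! ### generalities -/

section Gen

variable {F : Type*} [Field F]

/-- an element integral over a subring of a valuation subring lies in the valuation subring -/
theorem h23sh_mem_of_isIntegral (V : ValuationSubring F) (S : Subring F) (hS : S ≤ V.toSubring)
    {b : F} (hb : IsIntegral S b) : b ∈ V := by
  obtain ⟨p, hp, hpb⟩ := hb
  have h1 : IsIntegral V b := by
    refine ⟨p.map (Subring.inclusion hS), hp.map _, ?_⟩
    rw [Polynomial.eval₂_map]
    exact hpb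
  obtain ⟨y, hy⟩ := (IsIntegrallyClosed.isIntegral_iff (R := V) (K := F)).1 h1
  rw [← hy]
  exact y.2

end Gen

section Ev

variable {K F : Type*} [Field K] [Field F] [Algebra K F]

/-- places of degree one have values -/
theorem h23sh_existsValue_of_deg (h : ∀ P : Place K F, P.deg = 1) : ExistsValue K F := by
  intro P y hy
  have h1 : (⊥ : Subalgebra K P.ResidueField) = ⊤ :=
    Subalgebra.bot_eq_top_of_finrank_eq_one (h P)
  have h2 : IsLocalRing.residue P.toValuationSubring ⟨y, hy⟩ ∈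
      (⊥ : Subalgebra K P.ResidueField) := by
    rw [h1]
    exact Algebra.mem_top
  obtain ⟨c, hc⟩ := Algebra.mem_bot.1 h2
  refine ⟨c, ?_⟩
  have h3 : IsLocalRing.residue P.toValuationSubring
      (⟨y, hy⟩ - algebraMap K P.toValuationSubring c) = 0 := by
    rw [map_sub, ← hc, sub_eq_zero]
    rfl
  rw [IsLocalRing.residue_eq_zero_iff] at h3
  have h4 := (HeightOneSpectrum.intValuation_lt_one_iff_mem P.heightOneSpectrum _).2 h3
  rw [← P.adicValuation_coe] at h4
  exact h4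

theorem h23sh_valAt_pow (P : Place K F) {y : F} {a : K} (h : ValAt P y a) (n : ℕ) :
    ValAt P (y ^ n) (a ^ n) := by
  induction n with
  | zero =>
    simp only [pow_zero]
    have := valAt_const P (1 : K)
    simpa using this
  | succ n ih =>
    rw [pow_succ, pow_succ]
    exact ih.mul P h

/-- the composite valuation ring of a place `P` and a valuation ring `A` of the constants -/
def h23shComp (hv : ExistsValue K F) (A : ValuationSubring K) (P : Place K F) :
    ValuationSubring F where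
  carrier := {x | ∃ α : K, α ∈ A ∧ ValAt P x α}
  mul_mem' := by
    rintro x y ⟨α, hα, hx⟩ ⟨β, hβ, hy⟩
    exact ⟨α * β, mul_mem hα hβ, hx.mul P hy⟩
  one_mem' := ⟨1, one_mem A, by simpa using valAt_const P (1 : K)⟩
  add_mem' := by
    rintro x y ⟨α, hα, hx⟩ ⟨β, hβ, hy⟩
    exact ⟨α + β, add_mem hα hβ, hx.add P hy⟩
  zero_mem' := ⟨0, zero_mem A, by simpa using valAt_const P (0 : K)⟩
  neg_mem' := by
    rintro x ⟨α, hα, hx⟩
    exact ⟨-α, neg_mem hα, hx.neg P⟩
  mem_or_inv_mem' := by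
    intro x
    by_cases hx : x ∈ P.toValuationSubring
    · obtain ⟨α, hα⟩ := hv P x hx
      by_cases hαA : α ∈ A
      · exact Or.inl ⟨α, hαA, hα⟩
      · right
        have hα0 : α ≠ 0 := by
          rintro rfl
          exact hαA (zero_mem A)
        exact ⟨α⁻¹, (A.mem_or_inv_mem α).resolve_left hαA, hα.inv P hα0⟩
    · right
      have hx' : x⁻¹ ∈ P.toValuationSubring :=
        (P.toValuationSubring.mem_or_inv_mem x).resolve_left hx
      refine ⟨0, zero_mem A, ?_⟩
      rw [valAt_zero_iff]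
      have h1 : P.adicValuation x⁻¹ ≤ 1 := (h9a_mem_iff P _).1 hx'
      rcases h1.lt_or_eq with h2 | h2
      · exact h2
      · exfalso
        apply hx
        rw [h9a_mem_iff]
        rw [map_inv₀, inv_eq_one] at h2
        exact h2.le

theorem h23sh_mem_comp (hv : ExistsValue K F) (A : ValuationSubring K) (P : Place K F) {x : F} :
    x ∈ h23shComp hv A P ↔ ∃ α : K, α ∈ A ∧ ValAt P x α := Iff.rfl

end Ev

/-! ### the pre-datum -/

section Pre

variable {K F k Fb : Type*} [Field K] [Field F] [Algebra K F] [Field k] [Field Fb] [Algebra k Fb]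
variable (R : PreDatum K F k Fb)

theorem h23sh_red_zero (h : (0 : F) ∈ R.O) : R.red ⟨0, h⟩ = 0 := by
  have : (⟨0, h⟩ : R.O) = 0 := rfl
  rw [this, map_zero]

theorem h23sh_ne_zero {y : F} (hy : y ∈ R.O) (h : R.red ⟨y, hy⟩ ≠ 0) : y ≠ 0 := by
  rintro rfl
  exact h (h23sh_red_zero R hy)

theorem h23sh_inv_mem {y : F} (hy : y ∈ R.O) (h : R.red ⟨y, hy⟩ ≠ 0) : y⁻¹ ∈ R.O := by
  have h0 : IsUnit (⟨y, hy⟩ : R.O) := by
    by_contra hn
    exact h (R.red_nonunit _ hn)
  obtain ⟨v, hv⟩ := h0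
  have h1 : (v : R.O) * ((v⁻¹ : (R.O)ˣ) : R.O) = 1 := by simp
  have h2 : y * (((v⁻¹ : (R.O)ˣ) : R.O) : F) = 1 := by
    have := congrArg (Subtype.val) h1
    rw [hv] at this
    simpa using this
  have h3 : y⁻¹ = (((v⁻¹ : (R.O)ˣ) : R.O) : F) := inv_eq_of_mul_eq_one_right h2
  rw [h3]
  exact Subtype.mem _

theorem h23sh_red_mul {y z : F} (hy : y ∈ R.O) (hz : z ∈ R.O) :
    R.red ⟨y * z, mul_mem hy hz⟩ = R.red ⟨y, hy⟩ * R.red ⟨z, hz⟩ :=
  map_mul R.red ⟨y, hy⟩ ⟨z, hz⟩

theorem h23sh_red_add {y z : F} (hy : y ∈ R.O) (hz : z ∈ R.O) :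
    R.red ⟨y + z, add_mem hy hz⟩ = R.red ⟨y, hy⟩ + R.red ⟨z, hz⟩ :=
  map_add R.red ⟨y, hy⟩ ⟨z, hz⟩

theorem h23sh_red_sub {y z : F} (hy : y ∈ R.O) (hz : z ∈ R.O) :
    R.red ⟨y - z, sub_mem hy hz⟩ = R.red ⟨y, hy⟩ - R.red ⟨z, hz⟩ :=
  map_sub R.red ⟨y, hy⟩ ⟨z, hz⟩

theorem h23sh_red_congr {y z : F} (h : y = z) (hy : y ∈ R.O) (hz : z ∈ R.O) :
    R.red ⟨y, hy⟩ = R.red ⟨z, hz⟩ := by
  subst h
  rfl

theorem h23sh_red_inv {y : F} (hy : y ∈ R.O) (h : R.red ⟨y, hy⟩ ≠ 0) :
    R.red ⟨y⁻¹, h23sh_inv_mem R hy h⟩ = (R.red ⟨y, hy⟩)⁻¹ := by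
  have hy0 := h23sh_ne_zero R hy h
  have h1 : (⟨y, hy⟩ : R.O) * ⟨y⁻¹, h23sh_inv_mem R hy h⟩ = 1 := by
    ext
    simp [hy0]
  have h2 := congrArg R.red h1
  rw [map_mul, map_one] at h2
  exact eq_inv_of_mul_eq_one_right h2

/-! ### the chart ring -/

theorem h23sh_const_mem_chartRing (t : F) {a : K} (ha : a ∈ R.A) :
    algebraMap K F a ∈ chartRing R t :=
  Subring.subset_closure (Or.inl ⟨⟨a, ha⟩, rfl⟩)

theorem h23sh_t_mem_chartRing (t : F) : t ∈ chartRing R t :=
  Subring.subset_closure (Or.inr rfl)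

theorem h23sh_chartRing_le {t : F} (S : Subring F)
    (hc : ∀ a : K, a ∈ R.A → algebraMap K F a ∈ S) (ht : t ∈ S) : chartRing R t ≤ S := by
  unfold chartRing
  rw [Subring.closure_le]
  rintro x (⟨a, rfl⟩ | hx)
  · exact hc a a.2
  · rw [Set.mem_singleton_iff] at hx
    rw [hx]
    exact ht

theorem h23sh_chartRing_le_O {t : F} (ht : t ∈ R.O) : chartRing R t ≤ R.O.toSubring :=
  h23sh_chartRing_le R _ (fun a ha => R.const_mem a ha) ht

theorem h23sh_intChart_of_mem {t b : F} (hb : b ∈ chartRing R t) : IntChart R t b :=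
  isIntegral_algebraMap (R := chartRing R t) (A := F) (x := ⟨b, hb⟩)

theorem h23sh_intChart_mem_O {t b : F} (ht : t ∈ R.O) (hb : IntChart R t b) : b ∈ R.O :=
  h23sh_mem_of_isIntegral R.O _ (h23sh_chartRing_le_O R ht) hb

/-- (V2) a function integral over the chart ring has a value in `A` at every point where `t`
has a value in `A`. -/
theorem h23sh_intChart_val (hv : ExistsValue K F) {t b : F} {P : Place K F}
    (hP : ∃ a : K, a ∈ R.A ∧ ValAt P t a) (hb : IntChart R t b) :
    ∃ β : K, β ∈ R.A ∧ ValAt P b β := by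
  have h1 : chartRing R t ≤ (h23shComp hv R.A P).toSubring :=
    h23sh_chartRing_le R _ (fun a ha => ⟨a, ha, valAt_const P a⟩) hP
  exact h23sh_mem_of_isIntegral _ _ h1 hb

/-- (V3) the reduction of a function integral over the chart ring is regular wherever `red t`
is regular. -/
theorem h23sh_red_intChart_mem {t b : F} (ht : t ∈ R.O) (hb : IntChart R t b)
    (Q : Place k Fb) (hQ : R.red ⟨t, ht⟩ ∈ Q.toValuationSubring) :
    R.red ⟨b, h23sh_intChart_mem_O R ht hb⟩ ∈ Q.toValuationSubring := by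
  have hbO := h23sh_intChart_mem_O R ht hb
  set i : chartRing R t →+* R.O := Subring.inclusion (h23sh_chartRing_le_O R ht) with hi
  set ρ : chartRing R t →+* Fb := R.red.comp i with hρ
  obtain ⟨p, hp, hpb⟩ := hb
  have h0 : p.eval₂ i ⟨b, hbO⟩ = 0 := by
    apply Subtype.ext
    have := Polynomial.hom_eval₂ p i R.O.subtype ⟨b, hbO⟩
    rw [ValuationSubring.subtype_apply] at this
    rw [this]
    exact hpb
  have h1 : p.eval₂ ρ (R.red ⟨b, hbO⟩) = 0 := by
    rw [hρ, ← Polynomial.hom_eval₂, h0, map_zero]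
  have h2 : IsIntegral ρ.range (R.red ⟨b, hbO⟩) := by
    refine ⟨p.map ρ.rangeRestrict, hp.map _, ?_⟩
    rw [Polynomial.eval₂_map]
    exact h1
  have h3 : ρ.range ≤ Q.toValuationSubring.toSubring := by
    rintro y ⟨⟨x, hx⟩, rfl⟩
    induction hx using Subring.closure_induction with
    | mem x hx =>
      rcases hx with ⟨a, rfl⟩ | hx
      · have : ρ ⟨algebraMap K F (a : K), Subring.subset_closure (Or.inl ⟨a, rfl⟩)⟩ =
            algebraMap k Fb (R.π a) := by
          show R.red ⟨algebraMap K F (a : K), _⟩ = _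
          exact R.red_const a a.2
        rw [this]
        exact Q.algebraMap_mem' _
      · rw [Set.mem_singleton_iff] at hx
        subst hx
        exact hQ
    | zero =>
      have : ρ ⟨0, zero_mem _⟩ = 0 := map_zero ρ
      rw [this]
      exact zero_mem _
    | one =>
      have : ρ ⟨1, one_mem _⟩ = 1 := map_one ρ
      rw [this]
      exact one_mem _
    | add x y hx hy hx' hy' =>
      have : ρ ⟨x + y, add_mem hx hy⟩ = ρ ⟨x, hx⟩ + ρ ⟨y, hy⟩ := map_add ρ ⟨x, hx⟩ ⟨y, hy⟩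
      rw [this]
      exact add_mem hx' hy'
    | neg x hx hx' =>
      have : ρ ⟨-x, neg_mem hx⟩ = -ρ ⟨x, hx⟩ := map_neg ρ ⟨x, hx⟩
      rw [this]
      exact neg_mem hx'
    | mul x y hx hy hx' hy' =>
      have : ρ ⟨x * y, mul_mem hx hy⟩ = ρ ⟨x, hx⟩ * ρ ⟨y, hy⟩ := map_mul ρ ⟨x, hx⟩ ⟨y, hy⟩
      rw [this]
      exact mul_mem hx' hy'
  exact h23sh_mem_of_isIntegral _ _ h3 h2

end Pre

/-! ### weighted counts -/

section Wt

variable {K F : Type*} [Field K] [Field F] [Algebra K F]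

open Classical in
/-- the weighted count of a divisor on a set of places -/
def h23shWt (p : Place K F → Prop) : Divisor K F →+ ℤ :=
  Finsupp.liftAddHom fun P => if p P then AddMonoidHom.id ℤ else 0

open Classical in
theorem h23shWt_apply (p : Place K F → Prop) (D : Divisor K F) :
    h23shWt p D = ∑ P ∈ D.support with p P, D P := by
  unfold h23shWt
  rw [Finsupp.liftAddHom_apply, Finsupp.sum, Finset.sum_filter]
  refine Finset.sum_congr rfl fun P _ => ?_
  split_ifs <;> simp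

theorem h23shWt_eq_zero (p : Place K F → Prop) (D : Divisor K F) (h : ∀ P, p P → D P = 0) :
    h23shWt p D = 0 := by
  classical
  rw [h23shWt_apply]
  refine Finset.sum_eq_zero fun P hP => ?_
  exact h P (Finset.mem_filter.1 hP).2

theorem h23shWt_eq_single (p : Place K F → Prop) (D : Divisor K F) (P₀ : Place K F)
    (h0 : p P₀) (h : ∀ P, p P → P ≠ P₀ → D P = 0) : h23shWt p D = D P₀ := by
  classical
  rw [h23shWt_apply]
  by_cases hP : P₀ ∈ D.support
  · rw [Finset.sum_eq_single_of_mem P₀ (Finset.mem_filter.2 ⟨hP, h0⟩)]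
    intro P hP' hne
    exact h P (Finset.mem_filter.1 hP').2 hne
  · rw [Finsupp.notMem_support_iff.1 hP]
    refine Finset.sum_eq_zero fun P hP' => ?_
    have h1 := Finset.mem_filter.1 hP'
    by_cases hPP : P = P₀
    · rw [hPP]
      exact Finsupp.notMem_support_iff.1 hP
    · exact h P h1.2 hPP

theorem h23shWt_nonneg (p : Place K F → Prop) (D : Divisor K F) (h : ∀ P, p P → 0 ≤ D P) :
    0 ≤ h23shWt p D := by
  classical
  rw [h23shWt_apply]
  exact Finset.sum_nonneg fun P hP => h P (Finset.mem_filter.1 hP).2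

theorem h23shWt_ge (p : Place K F → Prop) (D : Divisor K F) (h : ∀ P, p P → 0 ≤ D P)
    (P₀ : Place K F) (h0 : p P₀) : D P₀ ≤ h23shWt p D := by
  classical
  rw [h23shWt_apply]
  by_cases hP : P₀ ∈ D.support
  · exact Finset.single_le_sum (f := fun P => D P)
      (fun P hP' => h P (Finset.mem_filter.1 hP').2) (Finset.mem_filter.2 ⟨hP, h0⟩)
  · rw [Finsupp.notMem_support_iff.1 hP]
    exact Finset.sum_nonneg fun P hP' => h P (Finset.mem_filter.1 hP').2

/-- if the total count of a nonnegative divisor is `≤ D P₀`, all other points have weight `0` -/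
theorem h23shWt_other (p : Place K F → Prop) (D : Divisor K F) (h : ∀ P, p P → 0 ≤ D P)
    (P₀ : Place K F) (h0 : p P₀) (hle : h23shWt p D ≤ D P₀) (P : Place K F) (hP : p P)
    (hne : P ≠ P₀) : D P = 0 := by
  classical
  by_contra hD
  have hpos : 0 < D P := lt_of_le_of_ne (h P hP) (Ne.symm hD)
  have h1 : D P₀ + D P ≤ h23shWt p D := by
    rw [h23shWt_apply]
    have hPs : P ∈ D.support.filter (fun P => p P) :=
      Finset.mem_filter.2 ⟨Finsupp.mem_support_iff.2 hD, hP⟩
    by_cases hP0 : P₀ ∈ D.support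
    · have hP0s : P₀ ∈ D.support.filter (fun P => p P) := Finset.mem_filter.2 ⟨hP0, h0⟩
      have h2 : ∑ Q ∈ ({P₀, P} : Finset (Place K F)), D Q ≤
          ∑ Q ∈ D.support.filter (fun P => p P), D Q := by
        apply Finset.sum_le_sum_of_subset_of_nonneg
        · intro Q hQ
          rcases Finset.mem_insert.1 hQ with rfl | hQ
          · exact hP0s
          · rw [Finset.mem_singleton.1 hQ]
            exact hPs
        · intro Q hQ _
          exact h Q (Finset.mem_filter.1 hQ).2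
      rw [Finset.sum_pair (Ne.symm hne)] at h2
      exact h2
    · rw [Finsupp.notMem_support_iff.1 hP0, zero_add]
      exact Finset.single_le_sum (f := fun P => D P)
        (fun P hP' => h P (Finset.mem_filter.1 hP').2) hPs
  omega

end Wt

/-! ### the sheet map -/

section Sheet

variable {K F k Fb : Type*} [Field K] [Field F] [Algebra K F] [Field k] [Field Fb] [Algebra k Fb]
variable (R : PreDatum K F k Fb)

/-- `Q` is compatible with `P`: values of functions integral over the chart ring at `P` reduce to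
the values of their reductions at `Q`. -/
def h23shCompat (t : F) (ht : t ∈ R.O) (P : Place K F) (Q : Place k Fb) : Prop :=
  ∀ (b : F) (hb : IntChart R t b) (β : K) (hβ : β ∈ R.A), ValAt P b β →
    ValAt Q (R.red ⟨b, h23sh_intChart_mem_O R ht hb⟩) (R.π ⟨β, hβ⟩)

theorem h23sh_fnc_wt {t : F} {ht : t ∈ R.O} {c : k} (hFNC : FNCAt R t ht c)
    {y : F} (hy : y ∈ R.O) (hred : R.red ⟨y, hy⟩ ≠ 0) {D : Divisor K F} {Db : Divisor k Fb}
    (hD : IsDivOf y D) (hDb : IsDivOf (R.red ⟨y, hy⟩) Db) :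
    h23shWt (InDisc R t c) D = h23shWt (fun Q => ValAt Q (R.red ⟨t, ht⟩) c) Db := by
  rw [h23shWt_apply, h23shWt_apply]
  exact hFNC y hy hred D Db hD hDb

theorem h23sh_valAt_sub_const {P : Place K F} {y : F} {a : K} :
    ValAt P (y - algebraMap K F a) 0 ↔ ValAt P y a := by
  unfold ValAt
  rw [map_zero, sub_zero]

/-- a function integral over the chart ring is regular on the fibre disc -/
theorem h23sh_ord_nonneg_of_intChart (hv : ExistsValue K F) {t b : F} {c : k} {P : Place K F}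
    (hP : InDisc R t c P) (hb : IntChart R t b) : 0 ≤ P.ord b := by
  obtain ⟨a, ha, hat, -⟩ := hP
  obtain ⟨β, -, hβ⟩ := h23sh_intChart_val R hv ⟨a, ha, hat⟩ hb
  exact h9a_ord_nonneg P (hβ.mem P)

/-- the key step of the existence of the sheet map -/
theorem h23sh_exists_sep (hvFb : ExistsValue k Fb) [Infinite k] {t : F} (ht : t ∈ R.O) (c : k)
    (hnc : ∀ c' : k, R.red ⟨t, ht⟩ ≠ algebraMap k Fb c')
    (P : Place K F) (hP : InDisc R t c P)
    (hno : ∀ Q : Place k Fb, ValAt Q (R.red ⟨t, ht⟩) c → ¬ h23shCompat R t ht P Q)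
    (T : Finset (Place k Fb)) (hT : ∀ Q ∈ T, ValAt Q (R.red ⟨t, ht⟩) c) :
    ∃ (b : F) (hb : IntChart R t b), ValAt P b 0 ∧
      R.red ⟨b, h23sh_intChart_mem_O R ht hb⟩ ≠ 0 ∧
      ∀ Q ∈ T, ¬ ValAt Q (R.red ⟨b, h23sh_intChart_mem_O R ht hb⟩) 0 := by
  classical
  induction T using Finset.induction_on with
  | empty =>
    obtain ⟨a, ha, hat, hac⟩ := hP
    have hb : IntChart R t (t - algebraMap K F a) :=
      h23sh_intChart_of_mem R
        (sub_mem (h23sh_t_mem_chartRing R t) (h23sh_const_mem_chartRing R t ha))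
    refine ⟨t - algebraMap K F a, hb, h23sh_valAt_sub_const.2 hat, ?_, by simp⟩
    have h1 : R.red ⟨t - algebraMap K F a, h23sh_intChart_mem_O R ht hb⟩ =
        R.red ⟨t, ht⟩ - algebraMap k Fb c := by
      rw [← hac, ← R.red_const a ha]
      exact h23sh_red_sub R ht (R.const_mem a ha)
    rw [h1]
    intro h0
    exact hnc c (sub_eq_zero.1 h0)
  | insert Q₀ T hQ₀ ih =>
    have hQ₀F : ValAt Q₀ (R.red ⟨t, ht⟩) c := hT Q₀ (Finset.mem_insert_self _ _)
    obtain ⟨bT, hbT, hbTP, -, hbTQ⟩ := ih fun Q hQ => hT Q (Finset.mem_insert_of_mem hQ)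
    -- the function separating `P` from `Q₀`
    have h1 := hno Q₀ hQ₀F
    unfold h23shCompat at h1
    push Not at h1
    obtain ⟨b₀, hb₀, β, hβ, hb₀P, hb₀Q⟩ := h1
    have hb₁ : IntChart R t (b₀ - algebraMap K F β) :=
      hb₀.sub (h23sh_intChart_of_mem R (h23sh_const_mem_chartRing R t hβ))
    have hb₁P : ValAt P (b₀ - algebraMap K F β) 0 := h23sh_valAt_sub_const.2 hb₀P
    have hb₁red : R.red ⟨b₀ - algebraMap K F β, h23sh_intChart_mem_O R ht hb₁⟩ =
        R.red ⟨b₀, h23sh_intChart_mem_O R ht hb₀⟩ - algebraMap k Fb (R.π ⟨β, hβ⟩) := by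
      rw [← R.red_const β hβ]
      exact h23sh_red_sub R (h23sh_intChart_mem_O R ht hb₀) (R.const_mem β hβ)
    have hb₁Q : ¬ ValAt Q₀ (R.red ⟨b₀ - algebraMap K F β, h23sh_intChart_mem_O R ht hb₁⟩) 0 := by
      rw [hb₁red, h23sh_valAt_sub_const]
      exact hb₀Q
    set b₁ := b₀ - algebraMap K F β with hb₁def
    -- values
    have hregT : ∀ Q ∈ insert Q₀ T,
        R.red ⟨bT, h23sh_intChart_mem_O R ht hbT⟩ ∈ Q.toValuationSubring := fun Q hQ =>
      h23sh_red_intChart_mem R ht hbT Q ((hT Q hQ).mem Q)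
    have hreg₁ : ∀ Q ∈ insert Q₀ T,
        R.red ⟨b₁, h23sh_intChart_mem_O R ht hb₁⟩ ∈ Q.toValuationSubring := fun Q hQ =>
      h23sh_red_intChart_mem R ht hb₁ Q ((hT Q hQ).mem Q)
    let u : Place k Fb → k := fun Q =>
      if hQ : Q ∈ insert Q₀ T then Classical.choose (hvFb Q _ (hregT Q hQ)) else 0
    let w : Place k Fb → k := fun Q =>
      if hQ : Q ∈ insert Q₀ T then Classical.choose (hvFb Q _ (hreg₁ Q hQ)) else 0
    have hu : ∀ Q ∈ insert Q₀ T,
        ValAt Q (R.red ⟨bT, h23sh_intChart_mem_O R ht hbT⟩) (u Q) := by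
      intro Q hQ
      simp only [u, dif_pos hQ]
      exact Classical.choose_spec (hvFb Q _ (hregT Q hQ))
    have hw : ∀ Q ∈ insert Q₀ T,
        ValAt Q (R.red ⟨b₁, h23sh_intChart_mem_O R ht hb₁⟩) (w Q) := by
      intro Q hQ
      simp only [w, dif_pos hQ]
      exact Classical.choose_spec (hvFb Q _ (hreg₁ Q hQ))
    have hw₀ : w Q₀ ≠ 0 := by
      intro h0
      apply hb₁Q
      have := hw Q₀ (Finset.mem_insert_self _ _)
      rw [h0] at this
      exact this
    have huT : ∀ Q ∈ T, u Q ≠ 0 := by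
      intro Q hQ h0
      apply hbTQ Q hQ
      have := hu Q (Finset.mem_insert_of_mem hQ)
      rw [h0] at this
      exact this
    obtain ⟨lam, hlam⟩ := Infinite.exists_notMem_finset
      ((insert Q₀ T).image fun Q => -(u Q) / w Q)
    obtain ⟨⟨a, ha⟩, rfl⟩ := R.π_surj lam
    have hgood : ∀ Q ∈ insert Q₀ T, u Q + R.π ⟨a, ha⟩ * w Q ≠ 0 := by
      intro Q hQ h0
      by_cases hwQ : w Q = 0
      · rw [hwQ, mul_zero, add_zero] at h0
        rcases Finset.mem_insert.1 hQ with rfl | hQ'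
        · exact hw₀ hwQ
        · exact huT Q hQ' h0
      · apply hlam
        rw [Finset.mem_image]
        refine ⟨Q, hQ, ?_⟩
        field_simp
        linear_combination -h0
    have hab₁ : IntChart R t (algebraMap K F a * b₁) :=
      (h23sh_intChart_of_mem R (h23sh_const_mem_chartRing R t ha)).mul hb₁
    have hb : IntChart R t (bT + algebraMap K F a * b₁) := hbT.add hab₁
    have hbP : ValAt P (bT + algebraMap K F a * b₁) 0 := by
      have := hbTP.add P ((valAt_const P a).mul P hb₁P)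
      simpa using this
    have hbred : R.red ⟨bT + algebraMap K F a * b₁, h23sh_intChart_mem_O R ht hb⟩ =
        R.red ⟨bT, h23sh_intChart_mem_O R ht hbT⟩ +
          algebraMap k Fb (R.π ⟨a, ha⟩) * R.red ⟨b₁, h23sh_intChart_mem_O R ht hb₁⟩ := by
      rw [← R.red_const a ha, ← h23sh_red_mul R (R.const_mem a ha)
        (h23sh_intChart_mem_O R ht hb₁)]
      exact h23sh_red_add R (h23sh_intChart_mem_O R ht hbT)
        (mul_mem (R.const_mem a ha) (h23sh_intChart_mem_O R ht hb₁))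
    have hbval : ∀ Q ∈ insert Q₀ T,
        ValAt Q (R.red ⟨bT + algebraMap K F a * b₁, h23sh_intChart_mem_O R ht hb⟩)
          (u Q + R.π ⟨a, ha⟩ * w Q) := by
      intro Q hQ
      rw [hbred]
      exact (hu Q hQ).add Q ((valAt_const Q _).mul Q (hw Q hQ))
    refine ⟨bT + algebraMap K F a * b₁, hb, hbP, ?_, ?_⟩
    · exact (hbval Q₀ (Finset.mem_insert_self _ _)).ne_zero Q₀
        (hgood Q₀ (Finset.mem_insert_self _ _))
    · intro Q hQ h0
      exact hgood Q hQ ((hbval Q hQ).unique Q h0)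

/-- **existence of the sheet point**: every point of the fibre disc has a compatible point on
the fibre. -/
theorem h23sh_exists_compat (hpdF : HasPrincipalDivisors K F)
    (hpdFb : HasPrincipalDivisors k Fb) (hvF : ExistsValue K F) (hvFb : ExistsValue k Fb)
    [Infinite k] {t : F} (ht : t ∈ R.O) (c : k)
    (hnc : ∀ c' : k, R.red ⟨t, ht⟩ ≠ algebraMap k Fb c')
    (hFNC : FNCAt R t ht c) (P : Place K F) (hP : InDisc R t c P) :
    ∃ Q : Place k Fb, ValAt Q (R.red ⟨t, ht⟩) c ∧ h23shCompat R t ht P Q := by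
  classical
  by_contra hcon
  have hno : ∀ Q : Place k Fb, ValAt Q (R.red ⟨t, ht⟩) c → ¬ h23shCompat R t ht P Q :=
    fun Q hQ hc => hcon ⟨Q, hQ, hc⟩
  -- the fibre is finite
  have hne : R.red ⟨t, ht⟩ - algebraMap k Fb c ≠ 0 := fun h0 => hnc c (sub_eq_zero.1 h0)
  obtain ⟨D₀, hD₀, -⟩ := hpdFb.exists_divisor _ hne
  have hfib : ∀ Q : Place k Fb, ValAt Q (R.red ⟨t, ht⟩) c → Q ∈ D₀.support := by
    intro Q hQ
    rw [Finsupp.mem_support_iff, hD₀ Q]
    exact (h9a_ord_pos_of_valAt Q hQ hne).ne'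
  obtain ⟨b, hb, hbP, hbred, hbQ⟩ := h23sh_exists_sep R hvFb ht c hnc P hP hno
    (D₀.support.filter fun Q => ValAt Q (R.red ⟨t, ht⟩) c)
    (fun Q hQ => (Finset.mem_filter.1 hQ).2)
  have hbO := h23sh_intChart_mem_O R ht hb
  have hb0 : b ≠ 0 := h23sh_ne_zero R hbO hbred
  obtain ⟨D, hD, -⟩ := hpdF.exists_divisor b hb0
  obtain ⟨Db, hDb, -⟩ := hpdFb.exists_divisor _ hbred
  have h1 := h23sh_fnc_wt R hFNC hbO hbred hD hDb
  have h2 : h23shWt (fun Q => ValAt Q (R.red ⟨t, ht⟩) c) Db = 0 := by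
    apply h23shWt_eq_zero
    intro Q hQ
    rw [hDb Q]
    have hreg := h23sh_red_intChart_mem R ht hb Q (hQ.mem Q)
    obtain ⟨v, hv⟩ := hvFb Q _ hreg
    have hv0 : v ≠ 0 := by
      rintro rfl
      exact hbQ Q (Finset.mem_filter.2 ⟨hfib Q hQ, hQ⟩) hv
    exact hv.ord_eq_zero Q hv0
  have h3 : D P ≤ h23shWt (InDisc R t c) D := by
    apply h23shWt_ge _ _ _ P hP
    intro P' hP'
    rw [hD P']
    exact h23sh_ord_nonneg_of_intChart R hvF hP' hb
  have h4 : 0 < D P := by
    rw [hD P]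
    exact (valAt_zero_iff_ord P hb0).1 hbP
  rw [h1, h2] at h3
  omega

/-! ### the net count -/

theorem h23sh_isDivOf_mul_inv {K F : Type*} [Field K] [Field F] [Algebra K F]
    {f g : F} (hf : f ≠ 0) (hg : g ≠ 0) {D E : Divisor K F}
    (hD : IsDivOf f D) (hE : IsDivOf g E) : IsDivOf (f * g⁻¹) (D - E) := fun P => by
  rw [Finsupp.sub_apply, hD P, hE P, P.ord_mul hf (inv_ne_zero hg), P.ord_inv]
  ring

theorem h23sh_isDivOf_mul' {K F : Type*} [Field K] [Field F] [Algebra K F]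
    {f g : F} (hf : f ≠ 0) (hg : g ≠ 0) {D E : Divisor K F}
    (hD : IsDivOf f D) (hE : IsDivOf g E) : IsDivOf (f * g) (D + E) := fun P => by
  rw [Finsupp.add_apply, hD P, hE P, P.ord_mul hf hg]

theorem h23sh_isDivOf_unique' {K F : Type*} [Field K] [Field F] [Algebra K F]
    {f : F} {D E : Divisor K F} (hD : IsDivOf f D) (hE : IsDivOf f E) : D = E := by
  ext P
  rw [hD P, hE P]

/-- the net count for functions regular on the fibre disc -/
theorem h23sh_good_of_regular (hpdF : HasPrincipalDivisors K F)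
    (hpdFb : HasPrincipalDivisors k Fb) (hvF : ExistsValue K F)
    {t : F} (ht : t ∈ R.O) (c : k)
    (hFNC : FNCAt R t ht c) (hREG : RegAt R t ht c) (hUNIF : UnifAt R t ht c)
    (r : Place K F → Place k Fb)
    (hr : ∀ P, InDisc R t c P → ValAt (r P) (R.red ⟨t, ht⟩) c ∧ h23shCompat R t ht P (r P))
    (m : ℕ) :
    ∀ (y : F) (hy : y ∈ R.O), R.red ⟨y, hy⟩ ≠ 0 → ∀ D : Divisor K F, IsDivOf y D →
      (∀ P, InDisc R t c P → 0 ≤ D P) → h23shWt (InDisc R t c) D = m →
      ∀ Q : Place k Fb, ValAt Q (R.red ⟨t, ht⟩) c →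
        h23shWt (fun P => InDisc R t c P ∧ r P = Q) D = Q.ord (R.red ⟨y, hy⟩) := by
  classical
  induction m with
  | zero =>
    intro y hy hred D hD hnn hm Q hQ
    have hz : ∀ P, InDisc R t c P → D P = 0 := by
      intro P hP
      have h1 := h23shWt_ge _ D hnn P hP
      have h2 := hnn P hP
      rw [hm] at h1
      push_cast at h1
      omega
    rw [h23shWt_eq_zero _ D fun P hP => hz P hP.1]
    obtain ⟨Db, hDb, -⟩ := hpdFb.exists_divisor _ hred
    have h1 := h23sh_fnc_wt R hFNC hy hred hD hDb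
    rw [hm] at h1
    have hnnb : ∀ Q' : Place k Fb, ValAt Q' (R.red ⟨t, ht⟩) c → 0 ≤ Db Q' := by
      intro Q' hQ'
      rw [hDb Q']
      exact hREG y hy hred (fun P hP => by rw [← hD P]; exact hnn P hP) Q' hQ'
    have h2 := h23shWt_ge _ Db hnnb Q hQ
    have h3 := hnnb Q hQ
    rw [← h1] at h2
    push_cast at h2
    rw [← hDb Q]
    omega
  | succ m ih =>
    intro y hy hred D hD hnn hm Q hQ
    have hy0 : y ≠ 0 := h23sh_ne_zero R hy hred
    -- a zero of `y` in the fibre disc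
    have hex : ∃ P₀, InDisc R t c P₀ ∧ 0 < D P₀ := by
      by_contra hcon
      have hz : ∀ P, InDisc R t c P → D P = 0 := by
        intro P hP
        have h2 := hnn P hP
        by_contra h3
        exact hcon ⟨P, hP, lt_of_le_of_ne h2 (Ne.symm h3)⟩
      rw [h23shWt_eq_zero _ D hz] at hm
      push_cast at hm
      omega
    obtain ⟨P₀, hP₀, hDP₀⟩ := hex
    obtain ⟨hQ₀, hC⟩ := hr P₀ hP₀
    obtain ⟨g, hg, hgI, hgQ₀, hgQ⟩ := hUNIF (r P₀) hQ₀
    have hgred : R.red ⟨g, hg⟩ ≠ 0 := by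
      intro h0
      rw [h0] at hgQ₀
      simp at hgQ₀
    obtain ⟨γ, hγ, hgγ⟩ : ∃ γ : K, γ ∈ R.A ∧ ValAt P₀ g γ := by
      obtain ⟨a₀, ha₀, ha₀t, -⟩ := hP₀
      exact h23sh_intChart_val R hvF ⟨a₀, ha₀, ha₀t⟩ hgI
    have hπγ : R.π ⟨γ, hγ⟩ = 0 := by
      have h1 := hC g hgI γ hγ hgγ
      have h2 : ValAt (r P₀) (R.red ⟨g, hg⟩) 0 := by
        rw [valAt_zero_iff_ord _ hgred, hgQ₀]
        exact one_pos
      exact h1.unique _ h2
    -- the function `g₀ = g - γ`
    obtain ⟨g₀, hg₀def⟩ : ∃ g₀ : F, g₀ = g - algebraMap K F γ := ⟨_, rfl⟩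
    have hg₀I : IntChart R t g₀ := by
      rw [hg₀def]
      exact hgI.sub (h23sh_intChart_of_mem R (h23sh_const_mem_chartRing R t hγ))
    have hg₀O : g₀ ∈ R.O := by
      rw [hg₀def]
      exact sub_mem hg (R.const_mem γ hγ)
    have hg₀red : R.red ⟨g₀, hg₀O⟩ = R.red ⟨g, hg⟩ := by
      rw [h23sh_red_congr R hg₀def hg₀O (sub_mem hg (R.const_mem γ hγ)),
        h23sh_red_sub R hg (R.const_mem γ hγ), R.red_const γ hγ, hπγ, map_zero, sub_zero]
    have hg₀red0 : R.red ⟨g₀, hg₀O⟩ ≠ 0 := by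
      rw [hg₀red]
      exact hgred
    have hg₀0 : g₀ ≠ 0 := h23sh_ne_zero R hg₀O hg₀red0
    have hg₀P : ValAt P₀ g₀ 0 := by
      rw [hg₀def]
      exact h23sh_valAt_sub_const.2 hgγ
    obtain ⟨Dg, hDg, -⟩ := hpdF.exists_divisor g₀ hg₀0
    obtain ⟨Dbg, hDbg, -⟩ := hpdFb.exists_divisor _ hg₀red0
    have hDgnn : ∀ P, InDisc R t c P → 0 ≤ Dg P := by
      intro P hP
      rw [hDg P]
      exact h23sh_ord_nonneg_of_intChart R hvF hP hg₀I
    have hDgP₀ : 0 < Dg P₀ := by
      rw [hDg P₀]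
      exact (valAt_zero_iff_ord P₀ hg₀0).1 hg₀P
    have hDbgQ : ∀ Q' : Place k Fb, ValAt Q' (R.red ⟨t, ht⟩) c →
        Dbg Q' = if Q' = r P₀ then 1 else 0 := by
      intro Q' hQ'
      rw [hDbg Q', hg₀red]
      split_ifs with h
      · rw [h]
        exact hgQ₀
      · exact hgQ Q' hQ' h
    have hwtg : h23shWt (InDisc R t c) Dg = 1 := by
      rw [h23sh_fnc_wt R hFNC hg₀O hg₀red0 hDg hDbg,
        h23shWt_eq_single _ Dbg (r P₀) hQ₀ (fun Q' hQ' hne => by
          rw [hDbgQ Q' hQ', if_neg hne]), hDbgQ _ hQ₀, if_pos rfl]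
    have hDgP₀' : Dg P₀ = 1 := by
      have h1 := h23shWt_ge _ Dg hDgnn P₀ hP₀
      rw [hwtg] at h1
      omega
    have hDgother : ∀ P, InDisc R t c P → P ≠ P₀ → Dg P = 0 := by
      intro P hP hne
      exact h23shWt_other _ Dg hDgnn P₀ hP₀ (by rw [hwtg, hDgP₀']) P hP hne
    -- the quotient `y' = y / g₀`
    have hg₀inv : g₀⁻¹ ∈ R.O := h23sh_inv_mem R hg₀O hg₀red0
    have hy'O : y * g₀⁻¹ ∈ R.O := mul_mem hy hg₀inv
    have hy'red : R.red ⟨y * g₀⁻¹, hy'O⟩ = R.red ⟨y, hy⟩ * (R.red ⟨g₀, hg₀O⟩)⁻¹ := by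
      rw [h23sh_red_mul R hy hg₀inv, h23sh_red_inv R hg₀O hg₀red0]
    have hy'red0 : R.red ⟨y * g₀⁻¹, hy'O⟩ ≠ 0 := by
      rw [hy'red]
      exact mul_ne_zero hred (inv_ne_zero hg₀red0)
    have hD' : IsDivOf (y * g₀⁻¹) (D - Dg) := h23sh_isDivOf_mul_inv hy0 hg₀0 hD hDg
    have hD'nn : ∀ P, InDisc R t c P → 0 ≤ (D - Dg) P := by
      intro P hP
      rw [Finsupp.sub_apply]
      by_cases hPP : P = P₀
      · rw [hPP, hDgP₀']
        omega
      · rw [hDgother P hP hPP, sub_zero]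
        exact hnn P hP
    have hD'wt : h23shWt (InDisc R t c) (D - Dg) = m := by
      rw [map_sub, hm, hwtg]
      push_cast
      ring
    have hih := ih (y * g₀⁻¹) hy'O hy'red0 (D - Dg) hD' hD'nn hD'wt Q hQ
    have hDsplit : D = (D - Dg) + Dg := by abel
    rw [hDsplit, map_add, hih, hy'red]
    have hredy : R.red ⟨y, hy⟩ = R.red ⟨y, hy⟩ * (R.red ⟨g₀, hg₀O⟩)⁻¹ * R.red ⟨g₀, hg₀O⟩ := by
      field_simp
    conv_rhs => rw [hredy]
    rw [Q.ord_mul (mul_ne_zero hred (inv_ne_zero hg₀red0)) hg₀red0]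
    congr 1
    -- the count of `g₀`
    rw [← hDbg Q, hDbgQ Q hQ]
    split_ifs with h
    · rw [h23shWt_eq_single _ Dg P₀ ⟨hP₀, h.symm⟩ (fun P hP hne => hDgother P hP.1 hne), hDgP₀']
    · apply h23shWt_eq_zero
      rintro P ⟨hP, hPQ⟩
      apply hDgother P hP
      rintro rfl
      exact h hPQ.symm

theorem h23sh_red_pow {y : F} (hy : y ∈ R.O) (n : ℕ) :
    R.red ⟨y ^ n, pow_mem hy n⟩ = (R.red ⟨y, hy⟩) ^ n :=
  map_pow R.red ⟨y, hy⟩ n

theorem h23sh_red_one : R.red ⟨1, one_mem _⟩ = 1 := map_one R.red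

/-- a function of the chart ring with nonzero reduction and zeros of order `≥ e` at finitely
many given points of the fibre disc -/
theorem h23sh_exists_kill (hvF : ExistsValue K F) {t : F} (ht : t ∈ R.O) (c : k)
    (hnc : ∀ c' : k, R.red ⟨t, ht⟩ ≠ algebraMap k Fb c')
    (T : Finset (Place K F)) (hT : ∀ P ∈ T, InDisc R t c P) (e : ℕ) :
    ∃ (s : F) (hs : s ∈ chartRing R t), R.red ⟨s, h23sh_chartRing_le_O R ht hs⟩ ≠ 0 ∧
      ∀ P ∈ T, (e : ℤ) ≤ P.ord s := by
  classical
  induction T using Finset.induction_on with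
  | empty =>
    refine ⟨1, one_mem _, ?_, by simp⟩
    rw [h23sh_red_congr R rfl _ (one_mem _), h23sh_red_one]
    exact one_ne_zero
  | insert P₀ T hP₀ ih =>
    obtain ⟨s, hs, hsred, hsT⟩ := ih fun P hP => hT P (Finset.mem_insert_of_mem hP)
    have hP₀D := hT P₀ (Finset.mem_insert_self _ _)
    obtain ⟨a₀, ha₀, ha₀t, ha₀c⟩ := id hP₀D
    obtain ⟨u, hudef⟩ : ∃ u : F, u = t - algebraMap K F a₀ := ⟨_, rfl⟩
    have huC : u ∈ chartRing R t := by
      rw [hudef]
      exact sub_mem (h23sh_t_mem_chartRing R t) (h23sh_const_mem_chartRing R t ha₀)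
    have huO : u ∈ R.O := h23sh_chartRing_le_O R ht huC
    have hured : R.red ⟨u, huO⟩ ≠ 0 := by
      rw [h23sh_red_congr R hudef huO (sub_mem ht (R.const_mem a₀ ha₀)),
        h23sh_red_sub R ht (R.const_mem a₀ ha₀), R.red_const a₀ ha₀, ha₀c]
      intro h0
      exact hnc c (sub_eq_zero.1 h0)
    have hu0 : u ≠ 0 := h23sh_ne_zero R huO hured
    have hsO : s ∈ R.O := h23sh_chartRing_le_O R ht hs
    have hs0 : s ≠ 0 := h23sh_ne_zero R hsO hsred
    have huP₀ : 0 < P₀.ord u := by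
      rw [← valAt_zero_iff_ord P₀ hu0, hudef]
      exact h23sh_valAt_sub_const.2 ha₀t
    refine ⟨s * u ^ e, mul_mem hs (pow_mem huC e), ?_, ?_⟩
    · rw [h23sh_red_congr R rfl _ (mul_mem hsO (pow_mem huO e)), h23sh_red_mul R hsO
        (pow_mem huO e), h23sh_red_pow R huO e]
      exact mul_ne_zero hsred (pow_ne_zero e hured)
    · intro P hP
      have hPD := hT P hP
      rw [P.ord_mul hs0 (pow_ne_zero e hu0), h9a_ord_pow]
      have h1 : 0 ≤ P.ord s :=
        h23sh_ord_nonneg_of_intChart R hvF hPD (h23sh_intChart_of_mem R hs)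
      have h2 : 0 ≤ P.ord u :=
        h23sh_ord_nonneg_of_intChart R hvF hPD (h23sh_intChart_of_mem R huC)
      rcases Finset.mem_insert.1 hP with rfl | hP'
      · have h3 : (e : ℤ) * 1 ≤ (e : ℤ) * P.ord u :=
          mul_le_mul_of_nonneg_left (by omega) (by positivity)
        omega
      · have h3 := hsT P hP'
        have h4 : 0 ≤ (e : ℤ) * P.ord u := mul_nonneg (by positivity) h2
        omega

/-- **R2-SHEET**, core form. -/
theorem h23sh_sheet_core (hpdF : HasPrincipalDivisors K F)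
    (hpdFb : HasPrincipalDivisors k Fb) (hvF : ExistsValue K F) (hvFb : ExistsValue k Fb)
    [Infinite k] [Nonempty (Place k Fb)] {t : F} (ht : t ∈ R.O) (c : k)
    (hnc : ∀ c' : k, R.red ⟨t, ht⟩ ≠ algebraMap k Fb c')
    (hFNC : FNCAt R t ht c) (hREG : RegAt R t ht c) (hUNIF : UnifAt R t ht c) :
    SheetAt R t ht c := by
  classical
  have hE := fun P hP => h23sh_exists_compat R hpdF hpdFb hvF hvFb ht c hnc hFNC P hP
  let r : Place K F → Place k Fb := fun P =>
    if hP : InDisc R t c P then Classical.choose (hE P hP) else Classical.arbitrary _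
  have hr : ∀ P, InDisc R t c P →
      ValAt (r P) (R.red ⟨t, ht⟩) c ∧ h23shCompat R t ht P (r P) := by
    intro P hP
    simp only [r, dif_pos hP]
    exact Classical.choose_spec (hE P hP)
  refine ⟨r, fun P hP => (hr P hP).1, ?_⟩
  intro y hy hred D hD Q hQ
  have key : h23shWt (fun P => InDisc R t c P ∧ r P = Q) D = Q.ord (R.red ⟨y, hy⟩) := by
    have hy0 : y ≠ 0 := h23sh_ne_zero R hy hred
    -- kill the poles in the fibre disc
    obtain ⟨s, hsC, hsred, hsT⟩ := h23sh_exists_kill R hvF ht c hnc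
      (D.support.filter fun P => InDisc R t c P ∧ D P < 0)
      (fun P hP => (Finset.mem_filter.1 hP).2.1)
      (∑ P ∈ D.support.filter (fun P => InDisc R t c P ∧ D P < 0), (D P).natAbs)
    have hsO : s ∈ R.O := h23sh_chartRing_le_O R ht hsC
    have hs0 : s ≠ 0 := h23sh_ne_zero R hsO hsred
    obtain ⟨Ds, hDs, -⟩ := hpdF.exists_divisor s hs0
    have hDsnn : ∀ P, InDisc R t c P → 0 ≤ Ds P := by
      intro P hP
      rw [hDs P]
      exact h23sh_ord_nonneg_of_intChart R hvF hP (h23sh_intChart_of_mem R hsC)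
    have hD₁ : IsDivOf (y * s) (D + Ds) := h23sh_isDivOf_mul' hy0 hs0 hD hDs
    have hD₁nn : ∀ P, InDisc R t c P → 0 ≤ (D + Ds) P := by
      intro P hP
      rw [Finsupp.add_apply]
      have h1 := hDsnn P hP
      by_cases hneg : D P < 0
      · have hPT : P ∈ D.support.filter (fun P => InDisc R t c P ∧ D P < 0) :=
          Finset.mem_filter.2 ⟨Finsupp.mem_support_iff.2 (by omega), hP, hneg⟩
        have h2 := hsT P hPT
        have h3 : (D P).natAbs ≤
            ∑ P ∈ D.support.filter (fun P => InDisc R t c P ∧ D P < 0), (D P).natAbs :=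
          Finset.single_le_sum (f := fun P => (D P).natAbs) (fun _ _ => Nat.zero_le _) hPT
        rw [hDs P]
        have h4 : ((D P).natAbs : ℤ) ≤
            ((∑ P ∈ D.support.filter (fun P => InDisc R t c P ∧ D P < 0), (D P).natAbs : ℕ) : ℤ) := by
          exact_mod_cast h3
        omega
      · omega
    have hy₁O : y * s ∈ R.O := mul_mem hy hsO
    have hy₁red : R.red ⟨y * s, hy₁O⟩ = R.red ⟨y, hy⟩ * R.red ⟨s, hsO⟩ :=
      h23sh_red_mul R hy hsO
    have hy₁red0 : R.red ⟨y * s, hy₁O⟩ ≠ 0 := by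
      rw [hy₁red]
      exact mul_ne_zero hred hsred
    have hg₁ := h23sh_good_of_regular R hpdF hpdFb hvF ht c hFNC hREG hUNIF r hr
      (h23shWt (InDisc R t c) (D + Ds)).toNat (y * s) hy₁O hy₁red0 (D + Ds) hD₁ hD₁nn
      (Int.toNat_of_nonneg (h23shWt_nonneg _ _ hD₁nn)).symm Q hQ
    have hg₂ := h23sh_good_of_regular R hpdF hpdFb hvF ht c hFNC hREG hUNIF r hr
      (h23shWt (InDisc R t c) Ds).toNat s hsO hsred Ds hDs hDsnn
      (Int.toNat_of_nonneg (h23shWt_nonneg _ _ hDsnn)).symm Q hQ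
    rw [map_add, hy₁red, Q.ord_mul hred hsred, hg₂] at hg₁
    omega
  rw [h23shWt_apply] at key
  rw [← key]
  refine Finset.sum_congr ?_ fun _ _ => rfl
  ext P
  simp only [Finset.mem_filter]

end Sheet

/-! ### the slice -/

/-- **R2-SHEET** (`H18R2.SheetStatement`). -/
theorem h23sh_sheetStatement : SheetStatement := by
  intro K F k Fb _ _ _ _ _ _ R t S c hFNC hREG hUNIF
  haveI := S.algK
  haveI := S.char0
  haveI := S.algk
  haveI := S.fin
  haveI := S.finb
  haveI := S.sepb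
  haveI : CharZero K⟮t⟯ := charZero_of_injective_algebraMap (algebraMap K K⟮t⟯).injective
  haveI : Algebra.IsSeparable K⟮t⟯ F := inferInstance
  have hpdF : HasPrincipalDivisors K F := RRD.hasPrincipalDivisors t S.htK
  have hpdFb : HasPrincipalDivisors k Fb := RRD.hasPrincipalDivisors (R.red ⟨t, S.ht⟩) S.htk
  have hvF : ExistsValue K F := h23sh_existsValue_of_deg (RRD.deg_eq_one t S.htK)
  have hvFb : ExistsValue k Fb :=
    h23sh_existsValue_of_deg (RRD.deg_eq_one (R.red ⟨t, S.ht⟩) S.htk)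
  haveI : Infinite k := IsAlgClosed.instInfinite
  have hnc : ∀ c' : k, R.red ⟨t, S.ht⟩ ≠ algebraMap k Fb c' := by
    intro c' h
    apply S.htk
    rw [h]
    exact isAlgebraic_algebraMap c'
  haveI : Nonempty (Place k Fb) := by
    by_contra hcon
    rw [not_nonempty_iff] at hcon
    obtain ⟨c', hc'⟩ := RRD.exists_const_of_ord_eq_zero (R.red ⟨t, S.ht⟩) S.htk
      (R.red ⟨t, S.ht⟩) (fun v => (hcon.false v).elim)
    exact hnc c' hc'
  exact h23sh_sheet_core R hpdF hpdFb hvF hvFb S.ht c hnc hFNC hREG hUNIF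

end H23SH

end
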