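import Fermat.Agent.S37.Defs
import Fermat.Agent.S54.Frobenius

/-!
# S37 (item 79): the formal construction `J' := J ⧸ K1` (helper8)

Main results:
* `H8S37.h8s_specialization` : from one reduction kernel `K0` at `A` (and one Frobenius at `A`),
  the specialization datum of `S37` at `A`.
* `H8S37.h8s_specializationExists` : `KernelStatement N → SpecializationExists ℚ ℚ̄ N p (JZero N)`.
-/

set_option autoImplicit false
set_option linter.style.haveILetI false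

noncomputable section

namespace H8S37

open ModularCurve

/-! ### Two Frobenius elements differ by inertia -/

theorem h8s_frob_inv_mul_mem_inertia {A : ValuationSubring (AlgebraicClosure ℚ)} {ℓ : ℕ}
    {φ σ : GQ} (hφ : A.IsFrobeniusAt φ ℓ) (hσ : A.IsFrobeniusAt σ ℓ) :
    φ⁻¹ * σ ∈ A.inertiaSubgroupIn ℚ := by
  obtain ⟨hφd, hφx⟩ := hφ
  obtain ⟨hσd, hσx⟩ := hσ
  refine ⟨(⟨φ, hφd⟩ : A.decompositionSubgroup ℚ)⁻¹ * ⟨σ, hσd⟩, ?_, rfl⟩
  show _ ∈ MonoidHom.ker _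
  rw [MonoidHom.mem_ker]
  ext x
  show ((⟨φ, hφd⟩ : A.decompositionSubgroup ℚ)⁻¹ * ⟨σ, hσd⟩) • x = x
  rw [mul_smul, hσx x, inv_smul_eq_iff, hφx x]

/-! ### The formal construction -/

section Construction

variable {N : ℕ} [NeZero N] (hcomm : HeckeOperatorsCommuteBar N)

/-- `K1`: the largest Hecke-stable subgroup of `K0`. -/
def h8sK1 (K0 : AddSubgroup (JZero N)) :
    letI := heckeModuleBar N
    Submodule HeckeAlg (JZero N) :=
  letI := heckeModuleBar N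
  { carrier := {x | ∀ T : HeckeAlg, T • x ∈ K0}
    add_mem' := fun {a b} ha hb T => by
      rw [smul_add]
      exact K0.add_mem (ha T) (hb T)
    zero_mem' := fun T => by
      rw [smul_zero]
      exact K0.zero_mem
    smul_mem' := fun c x hx T => by
      rw [← mul_smul]
      exact hx (T * c) }

theorem h8s_mem_K1 (K0 : AddSubgroup (JZero N)) (x : JZero N) :
    letI := heckeModuleBar N
    x ∈ h8sK1 K0 ↔ ∀ T : HeckeAlg, T • x ∈ K0 :=
  Iff.rfl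

theorem h8s_K1_le (K0 : AddSubgroup (JZero N)) {x : JZero N}
    (hx : letI := heckeModuleBar N; x ∈ h8sK1 K0) : x ∈ K0 := by
  letI := heckeModuleBar N
  have := hx 1
  rwa [one_smul] at this

end Construction

/-- **The formal construction.** -/
theorem h8s_specialization (N p : ℕ) [NeZero N] (hcomm : HeckeOperatorsCommuteBar N) :
    letI := heckeModuleBar N
    ∀ (_ : SMulCommClass GQ HeckeAlg (JZero N)) (ℓ : ℕ) (hℓ : ℓ.Prime), ¬ ℓ ∣ p →
      ∀ (A : ValuationSubring (AlgebraicClosure ℚ)) (K0 : AddSubgroup (JZero N)),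
        IsReductionKernel N ℓ hℓ A K0 → (∃ φ : GQ, A.IsFrobeniusAt φ ℓ) →
        ∃ (J' : Type) (_ : AddCommGroup J') (_ : Module HeckeAlg J') (sp : JZero N →+ J')
          (F : J' →+ J'),
          IsSpecialization (K := ℚ) p (JZero N) J' A ℓ sp F ∧ SpecialFibreRelation J' ℓ hℓ F := by
  letI := heckeModuleBar N
  intro hsc ℓ hℓ hℓp A K0 hK ⟨φ, hφ⟩
  -- Galois stability of `K1`
  have hinert : ∀ σ ∈ A.inertiaSubgroupIn ℚ, ∀ x : JZero N, σ • x - x ∈ h8sK1 K0 := by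
    intro σ hσ x T
    rw [smul_sub, ← smul_comm σ T x]
    exact hK.inertia σ hσ (T • x)
  have hfrob : ∀ σ : GQ, A.IsFrobeniusAt σ ℓ → ∀ x ∈ h8sK1 K0, σ • x ∈ h8sK1 K0 := by
    intro σ hσ x hx T
    rw [← smul_comm σ T x]
    exact hK.frobenius σ hσ _ (hx T)
  have hTl : ∀ x : JZero N, heckeOperatorBar N ⟨ℓ, hℓ⟩ x = heckeGen ⟨ℓ, hℓ⟩ • x := fun x =>
    (heckeModuleBar_heckeGen_smul hcomm ⟨ℓ, hℓ⟩ x).symm
  have hcong : ∀ σ : GQ, A.IsFrobeniusAt σ ℓ → ∀ x : JZero N,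
      σ • σ • x - heckeGen ⟨ℓ, hℓ⟩ • (σ • x) + ℓ • x ∈ h8sK1 K0 := by
    intro σ hσ x T
    have h := hK.congruence σ hσ (T • x)
    rw [hTl] at h
    have e : T • (σ • σ • x - heckeGen ⟨ℓ, hℓ⟩ • (σ • x) + ℓ • x) =
        σ • σ • (T • x) - heckeGen ⟨ℓ, hℓ⟩ • (σ • (T • x)) + ℓ • (T • x) := by
      rw [smul_add, smul_sub, smul_comm T ℓ x, smul_comm T (heckeGen ⟨ℓ, hℓ⟩) (σ • x),
        ← smul_comm σ T x, ← smul_comm σ T (σ • x), ← smul_comm σ T x]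
    rw [e]
    exact h
  -- the Frobenius endomorphism of `J ⧸ K1`
  let φhom : JZero N →+ JZero N := DistribSMul.toAddMonoidHom (JZero N) φ
  let F : (JZero N ⧸ h8sK1 K0) →+ (JZero N ⧸ h8sK1 K0) :=
    QuotientAddGroup.map (h8sK1 K0).toAddSubgroup (h8sK1 K0).toAddSubgroup φhom
      (fun x hx => hfrob φ hφ x hx)
  have hF : ∀ x : JZero N, F ((h8sK1 K0).mkQ x) = (h8sK1 K0).mkQ (φ • x) := fun x => rfl
  refine ⟨JZero N ⧸ h8sK1 K0, inferInstance, inferInstance, (h8sK1 K0).mkQ.toAddMonoidHom, F,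
    ⟨?_, ?_, ?_, ?_⟩, ?_⟩
  · intro T x
    rfl
  · intro σ hσ x
    show (h8sK1 K0).mkQ (σ • x) = (h8sK1 K0).mkQ x
    rw [← sub_eq_zero, ← map_sub, Submodule.mkQ_apply, Submodule.Quotient.mk_eq_zero]
    exact hinert σ hσ x
  · intro σ hσ x
    show (h8sK1 K0).mkQ (σ • x) = F ((h8sK1 K0).mkQ x)
    rw [hF, ← sub_eq_zero, ← map_sub, Submodule.mkQ_apply, Submodule.Quotient.mk_eq_zero]
    have h1 : (φ⁻¹ * σ) • x - x ∈ h8sK1 K0 :=
      hinert _ (h8s_frob_inv_mul_mem_inertia hφ hσ) x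
    have h2 := hfrob φ hφ _ h1
    rwa [smul_sub, ← mul_smul, mul_inv_cancel_left] at h2
  · rintro x ⟨n, hn⟩ hx
    have hx' : x ∈ h8sK1 K0 := by
      have : (h8sK1 K0).mkQ x = 0 := hx
      rwa [Submodule.mkQ_apply, Submodule.Quotient.mk_eq_zero] at this
    refine hK.torsion_free (p ^ n) ?_ x (h8s_K1_le K0 hx') hn
    exact fun h => hℓp (hℓ.dvd_of_dvd_pow h)
  · intro y
    obtain ⟨x, rfl⟩ := (h8sK1 K0).mkQ_surjective y
    have e1 : F (F ((h8sK1 K0).mkQ x)) = (h8sK1 K0).mkQ (φ • φ • x) := rfl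
    have e2 : heckeGen ⟨ℓ, hℓ⟩ • F ((h8sK1 K0).mkQ x) =
        (h8sK1 K0).mkQ (heckeGen ⟨ℓ, hℓ⟩ • (φ • x)) := rfl
    have e3 : ℓ • (h8sK1 K0).mkQ x = (h8sK1 K0).mkQ (ℓ • x) :=
      (map_nsmul (h8sK1 K0).mkQ ℓ x).symm
    have e4 : (h8sK1 K0).mkQ (φ • φ • x - heckeGen ⟨ℓ, hℓ⟩ • (φ • x) + ℓ • x) = 0 := by
      rw [Submodule.mkQ_apply, Submodule.Quotient.mk_eq_zero]
      exact hcong φ hφ x
    rw [map_add, map_sub] at e4
    show F (F ((h8sK1 K0).mkQ x)) - heckeGen ⟨ℓ, hℓ⟩ • F ((h8sK1 K0).mkQ x) +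
      ℓ • (h8sK1 K0).mkQ x = 0
    rw [e3]
    exact e4

/-- **Assembly of `S37`** from the kernel statement. -/
theorem h8s_specializationExists (N p : ℕ) [NeZero N] (hcomm : HeckeOperatorsCommuteBar N)
    (hker : KernelStatement N) :
    letI := heckeModuleBar N
    ∀ (_ : SMulCommClass GQ HeckeAlg (JZero N)),
      SpecializationExists (K := ℚ) (L := AlgebraicClosure ℚ) N p (JZero N) := by
  letI := heckeModuleBar N
  intro hsc ℓ hℓ hℓNp A hA
  have hℓN : ¬ ℓ ∣ N := fun h => hℓNp (Dvd.dvd.mul_right h p)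
  have hℓp : ¬ ℓ ∣ p := fun h => hℓNp (Dvd.dvd.mul_left h N)
  obtain ⟨K0, hK0⟩ := hker ℓ hℓ hℓN A hA
  exact h8s_specialization N p hcomm hsc ℓ hℓ hℓp A K0 hK0
    (Fermat.Agent.H9.h9_exists_isFrobeniusAt A hℓ hA)

end H8S37

end
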