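import Fermat.Agent.S37.R1_helper10
import Fermat.Agent.S37.RW_helper1

/-!
# S37 (item 79), slice R1Strong, unconditional form (helper10)

`h10r1_strong N : H8S37.R1StrongStatement N` (Riemann's theorem in weak form and `deg P = 1` for
the function field of `X₀(N)` over `ℚ̄` are helper1's `H1RW.riemannWeak_modular` and
`H1RW.deg_eq_one_modular`), and the two halves of `R1` that the assembly consumes.
-/

set_option autoImplicit false

noncomputable section

namespace H10R1

open ModularCurve AlgebraicCurve H8S37

/-- **R1, strong form**: `red (σ x) = ŝ • red x` for `σ` in the decomposition group. -/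
theorem h10r1_strong (N : ℕ) [NeZero N] : R1StrongStatement N :=
  h10r1_strong_of N (H1RW.riemannWeak_modular N) (H1RW.deg_eq_one_modular N)

/-- **R1, inertia half**. -/
theorem h10r1_inertia (N : ℕ) [NeZero N] : R1InertiaStatement N :=
  h8r_R1Inertia_of_strong N (h10r1_strong N)

/-- **R1, Frobenius half**. -/
theorem h10r1_frobenius (N : ℕ) [NeZero N] : R1FrobeniusStatement N :=
  h8r_R1Frobenius_of_strong N (h10r1_strong N)

end H10R1

end
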