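import Fermat.Agent.S37.RedBridge_helper8
import Fermat.Agent.S37.R1Final_helper10
import Fermat.Agent.S37.R3Norm_helper13
import Fermat.Agent.S37.Asm_helper8

/-!
# S37 (item 79): wiring (helper8)

* `h8f_congruence N hR0 : CongruenceStatement N`  (Eichler–Shimura congruence on `Pic0`),
* `h8f_R3 N hR0 : R3Statement N`,
* `h8f_kernel N hR0 hR2 h18 : KernelStatement N`,
* `h8f_S37 N p hR0 hR2 h18 hcomm : ` the frozen statement `S37`.

Open inputs: `R0Statement N` (Hecke inputs), `R2Statement N` (the reduction inputs hold),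
`S18Statement N` (item 75).
-/

set_option autoImplicit false
set_option linter.style.haveILetI false

noncomputable section

namespace H8S37

open ModularCurve AlgebraicCurve

theorem h8f_congruence (N : ℕ) [NeZero N] (hR0 : R0Statement N) : CongruenceStatement N :=
  h8a_congruence_of N hR0 (H1RW.riemannWeak_modular N) (H1RW.deg_eq_one_modular N)
    (fun ℓ _ hℓ hℓN => H13R3.normStatement N ℓ hℓ hℓN)
    (fun ℓ _ hℓ => h8rb_red ℓ hℓ)

theorem h8f_R3 (N : ℕ) [NeZero N] (hR0 : R0Statement N) : R3Statement N :=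
  h8r_R3_of_congruence N (H10R1.h10r1_strong N) (h8f_congruence N hR0)

theorem h8f_kernel (N : ℕ) [NeZero N] (hR0 : R0Statement N) (hR2 : R2Statement N)
    (h18 : S18Statement N) : KernelStatement N :=
  kernelStatement_of_slices N hR2 (H10R1.h10r1_inertia N) (H10R1.h10r1_frobenius N)
    (h8f_R3 N hR0) h18

theorem h8f_S37 (N p : ℕ) [NeZero N] (hR0 : R0Statement N) (hR2 : R2Statement N)
    (h18 : S18Statement N) (hcomm : HeckeOperatorsCommuteBar N) :
    letI := heckeModuleBar N
    ∀ (_ : SMulCommClass (AlgebraicClosure ℚ ≃ₐ[ℚ] AlgebraicClosure ℚ) HeckeAlg (JZero N)),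
      SpecializationExists (K := ℚ) (L := AlgebraicClosure ℚ) N p (JZero N) :=
  h8s_specializationExists N p hcomm (h8f_kernel N hR0 hR2 h18)

end H8S37

end
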