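/-
helper18 (architect of item 79 slice R2): ASSEMBLY of R2.

* `h18r2_abstract : AbstractStatement`   (FNC helper19, REG helper28, SHEET helper23,
                                          INV + ASM lead);
* `h18r2_R2_of` : `UnifJGoodStatement → UnifJZeroStatement → H8S37.R2Statement N`
                  (SettingJ + Final: helper29);
* `h18r2_S37_of` : the frozen statement `S37` from the two remaining inputs (wiring of helper8,
                  R0 by helper2 + helper27, S18 = item 75).
-/
import Mathlib
import Fermat.Agent.S37.R2DefsB_helper18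
import Fermat.Agent.S37.R2FNC_helper19
import Fermat.Agent.S37.R2Reg_helper28
import Fermat.Agent.S37.R2Sheet_helper23
import Fermat.Agent.S37.R2Inv_lead
import Fermat.Agent.S37.R2Asm_lead
import Fermat.Agent.S37.R2Fin_helper29
import Fermat.Agent.S37.R3Final_helper8
import Fermat.Agent.FF.R0Final
import Fermat.Agent.S18.Asm_helper7
import Fermat.Agent.S18.C2HbFinal_helper19
import Fermat.Agent.S18.C7_helper28

set_option autoImplicit false
set_option linter.style.haveILetI false

noncomputable section

open ModularCurve AlgebraicCurve

namespace H18R2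

/-- the abstract layer of R2 -/
theorem h18r2_abstract : AbstractStatement :=
  abstract_of_slices H19R2.h19r2_fnc H28R2.regStatement H23SH.h23sh_sheetStatement
    LeadR2.inv_statement LeadR2.asm_statement

/-- **R2** from the normality of the special fibre. -/
theorem h18r2_R2_of (hU : UnifJGoodStatement) (hZ : UnifJZeroStatement) (N : ℕ) [NeZero N] :
    H8S37.R2Statement N :=
  r2_of_slices h18r2_abstract H29R2F.h29r2f_settingJ hU hZ H29R2F.h29r2f_final N

/-- item 75 in the form consumed by the wiring of S37 -/
theorem h18r2_S18 (N : ℕ) [NeZero N] : H8S37.S18Statement N := by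
  intro ℓ hℓ hℓN A hA h m hm z hmz hz
  haveI : Fact ℓ.Prime := ⟨hℓ⟩
  exact H7S18.h7s18_asm H19S18.h19_localIdemUnr H28UG.gaussStatement N hℓN A hA h m hm z hmz hz

/-- **S37** from the normality of the special fibre. -/
theorem h18r2_S37_of (hU : UnifJGoodStatement) (hZ : UnifJZeroStatement) (N p : ℕ) [NeZero N]
    (hcomm : HeckeOperatorsCommuteBar N) :
    letI := heckeModuleBar N
    ∀ (_ : SMulCommClass (AlgebraicClosure ℚ ≃ₐ[ℚ] AlgebraicClosure ℚ) HeckeAlg (JZero N)),
      SpecializationExists (K := ℚ) (L := AlgebraicClosure ℚ) N p (JZero N) :=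
  H8S37.h8f_S37 N p (H27FF.h27ff_R0Statement N) (h18r2_R2_of hU hZ N) (h18r2_S18 N) hcomm

end H18R2

end
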