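import Fermat.Agent.S37.R2ExCore_helper1
import Fermat.Agent.S37.R2DefsB_helper18
import Fermat.Agent.S18.A1Basic

/-!
# Item 79 (S37), slice R2-EX (helper1): `H18R2.ExStatement`

Every place `Q` of the fibre of `tb` over `c` has a uniformizer `g`, integral over `k[tb]`, which
is a unit at the other places of the fibre.
-/

set_option autoImplicit false
set_option linter.style.longLine false
set_option linter.unusedSectionVars false
set_option linter.unusedVariables false
set_option linter.style.haveILetI false

noncomputable section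

open AlgebraicCurve IntermediateField

namespace H1EX

open H9S18 (ValAt IsDivOf)

/-- **R2-EX** -/
theorem exStatement : H18R2.ExStatement := by
  intro k Fb _ _ _ _ tb htb hfd hsep c Q hQ
  haveI := hfd
  haveI := hsep
  classical
  have hne : tb - algebraMap k Fb c ≠ 0 := by
    intro h
    apply htb
    rw [sub_eq_zero.1 h]
    exact isAlgebraic_algebraMap c
  obtain ⟨D, hD, -⟩ := (RRD.hasPrincipalDivisors tb htb).exists_divisor _ hne
  set T : Finset (Place k Fb) := D.support.filter (fun v => 0 ≤ v.ord tb) with hT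
  have hreg : ∀ Q' : Place k Fb, ValAt Q' tb c → 0 ≤ Q'.ord tb := fun Q' hQ' =>
    RH24.h20_ord_nonneg_of_mem _ (H9S18.ValAt.mem Q' hQ')
  obtain ⟨g, hg0, hgreg, hgQ, hgT⟩ := exists_fibre_unif tb htb Q (hreg Q hQ) T (by
    intro Q' hQ'
    exact (Finset.mem_filter.1 hQ').2)
  refine ⟨g, isIntegral_adjoin_of_regular tb htb g hgreg, hgQ, ?_⟩
  intro Q' hQ' hQQ'
  apply hgT Q' _ hQQ'
  rw [hT, Finset.mem_filter, Finsupp.mem_support_iff, hD Q']
  exact ⟨(H9S18.h9a_ord_pos_of_valAt Q' hQ' hne).ne', hreg Q' hQ'⟩

end H1EX
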