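/-
helper23 (architect of R2-U4, item 79): INTERFACE of `H18R2.UnifJZeroStatement`
(`UnifAt (j, 0)` for `ℓ ∈ {2, 3}`).

Level `N' = u4Level ℓ N` (`lcm(2,N)` for `ℓ = 3`, `lcm(3,N)` for `ℓ = 2`), a tame level for `ℓ`;
chart `h` = the base function of kind `baseKind ℓ` (`h₂` resp. `h₃`) at level `N'`;
tame branch point `c₀ = -64` resp. `-27`; `R = gvPreBar N A B`, `R' = gvPreBar N' A B'`.

* `NormDescentStatement` (U4-NORM, abstract; helper28): `UnifAt R' h c'` ⟹ `UnifAt R t c` when
  the fibre of `t` over `c` maps to the single value `c'` of `h` (norm `F' → F`).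
* `ChartStatement` (U4-CHART; helper2): the chart `h` at level `N'`: `h ∈ O'`, `h` integral over
  `A[j]`, `red h` transcendental, `Fb' / k(red h)` finite separable, and over `j̄ = 0` the only
  value of `h̄` is `c₀`.
* `TameLiftStatement` (generic master at a tame branch point; helper29's plumbing): `LocalLiftAt`
  at `(h, c₀)` for the base function of kind `baseKind ℓ` at a tame level.
* U4-PAIR (helper23): `RedPair` and degrees for the pair of levels `N ∣ N'`;
* U4-ASM (helper23): `UnifJZeroStatement` from all of these.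
-/
import Mathlib
import Fermat.Agent.S37.R2DefsC_helper18
import Fermat.Agent.S18.H18NormRed

set_option autoImplicit false
set_option linter.unusedSectionVars false
set_option synthInstance.maxHeartbeats 400000

noncomputable section

open Polynomial IntermediateField AlgebraicCurve ModularCurve H28GV

namespace H23U4

open H9S18 (ValAt IsDivOf)
open H7S18 H18R2

/-- The auxiliary level for `ℓ ∈ {2, 3}`: `lcm(2, N)` for `ℓ = 3`, `lcm(3, N)` for `ℓ = 2`. -/
def u4Level (ℓ N : ℕ) : ℕ := if ℓ = 3 then Nat.lcm 2 N else Nat.lcm 3 N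

/-- The tame branch point of the chart `h`: `-64` for `h₂` (`ℓ = 3`), `-27` for `h₃` (`ℓ = 2`). -/
def u4Point (ℓ : ℕ) : ℤ := if ℓ = 3 then -64 else -27

/-- **U4-NORM** (abstract norm descent). `F ⊆ F'`, `Fb ⊆ Fb'` finite, `Fb'/Fb` separable, with
compatible Gauss valuations and reductions and no defect; `t` a chart of `F`, `h ∈ O'` integral
over `A[t]`, and over `t̄ = c` the function `h̄` takes the single value `c'`.  Then `UnifAt` at
`(h, c')` upstairs gives `UnifAt` at `(t, c)` downstairs (norm of the uniformizer). -/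
def NormDescentStatement : Prop :=
  ∀ (K F F' k Fb Fb' : Type) [Field K] [Field F] [Field F'] [Algebra K F] [Algebra K F']
    [Algebra F F'] [IsScalarTower K F F']
    [Field k] [Field Fb] [Field Fb'] [Algebra k Fb] [Algebra k Fb'] [Algebra Fb Fb']
    [IsScalarTower k Fb Fb'] [FiniteDimensional F F'] [FiniteDimensional Fb Fb']
    [Algebra.IsSeparable Fb Fb']
    (R : PreDatum K F k Fb) (R' : PreDatum K F' k Fb') (_ : R'.A = R.A)
    (_ : H18S18.RedPair R.O R'.O R.red R'.red)
    (_ : Module.finrank F F' = Module.finrank Fb Fb')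
    (t : F) (S : Setting R t)
    (h : F') (hh : h ∈ R'.O) (_ : IntChart R' (algebraMap F F' t) h)
    (c c' : k)
    (_ : ∀ Q' : Place k Fb', ValAt Q' (algebraMap Fb Fb' (R.red ⟨t, S.ht⟩)) c →
      ValAt Q' (R'.red ⟨h, hh⟩) c'),
    UnifAt R' h hh c' → UnifAt R t S.ht c

/-- **U4-CHART**: the chart `h` (base function of kind `baseKind ℓ`, `ℓ ∈ {2, 3}`) at a tame
level `N'`. -/
def ChartStatement : Prop :=
  ∀ (N' : ℕ) [NeZero N'] (ℓ : ℕ) [Fact ℓ.Prime] (_ : ℓ < 5) (_ : TameLevel ℓ N')
    (A : ValuationSubring (AlgebraicClosure ℚ)) (_ : A.LiesOverPrime ℓ)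
    (B' : GVBasis A (IsLocalRing.residue A) N')
    (t₀ : LaurentSeries ℚ) (_ : IsBase (baseKind ℓ) t₀)
    (h : ↥(modularFunctionFieldBar N'))
    (_ : (h : LaurentSeries (AlgebraicClosure ℚ)) = coeffEmb (AlgebraicClosure ℚ) t₀),
    ∃ hh : h ∈ (gvPreBar N' A B').O,
      IntChart (gvPreBar N' A B') (RH24.Jbar N') h ∧
      Transcendental (IsLocalRing.ResidueField A) ((gvPreBar N' A B').red ⟨h, hh⟩) ∧
      FiniteDimensional (IsLocalRing.ResidueField A)⟮(gvPreBar N' A B').red ⟨h, hh⟩⟯
        ↥(modularFunctionFieldFullC (IsLocalRing.ResidueField A) N') ∧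
      Algebra.IsSeparable (IsLocalRing.ResidueField A)⟮(gvPreBar N' A B').red ⟨h, hh⟩⟯
        ↥(modularFunctionFieldFullC (IsLocalRing.ResidueField A) N') ∧
      ∀ (hj : RH24.Jbar N' ∈ (gvPreBar N' A B').O)
        (Q' : Place (IsLocalRing.ResidueField A)
          ↥(modularFunctionFieldFullC (IsLocalRing.ResidueField A) N')),
        ValAt Q' ((gvPreBar N' A B').red ⟨RH24.Jbar N', hj⟩) 0 →
        ValAt Q' ((gvPreBar N' A B').red ⟨h, hh⟩)
          (((u4Point ℓ : ℤ) : IsLocalRing.ResidueField A))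

/-- **generic TAME master** (LocalLift plumbing at a tame branch point): for the base function
`h` of kind `baseKind ℓ` at a tame level `N'` and a branch point `c₀`, every element of `O'`
with reduction integral over `k[h̄]` lifts locally at `c₀`. -/
def TameLiftStatement : Prop :=
  ∀ (N' : ℕ) [NeZero N'] (ℓ : ℕ) [Fact ℓ.Prime] (_ : TameLevel ℓ N')
    (A : ValuationSubring (AlgebraicClosure ℚ)) (_ : A.LiesOverPrime ℓ)
    (B' : GVBasis A (IsLocalRing.residue A) N')
    (t₀ : LaurentSeries ℚ) (_ : IsBase (baseKind ℓ) t₀)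
    (h : ↥(modularFunctionFieldBar N'))
    (_ : (h : LaurentSeries (AlgebraicClosure ℚ)) = coeffEmb (AlgebraicClosure ℚ) t₀)
    (hh : h ∈ (gvPreBar N' A B').O) (c₀ : ℤ) (_ : c₀ ∈ branchSet (baseKind ℓ)),
    LocalLiftAt (gvPreBar N' A B') h hh ((c₀ : ℤ) : IsLocalRing.ResidueField A)

end H23U4

end
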