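/-
helper23 (architect of R2-U4, item 79): ASSEMBLY of `H18R2.UnifJZeroStatement` from
`LevelDescentStatement` (U4-NORM + U4-PAIR, helper28), `ChartStatement` (U4-CHART, helper2),
`TameLiftStatement` (generic tame master, helper29) and `ExStatement` (R2-EX, helper1).
-/
import Mathlib
import Fermat.Agent.S37.R2U4Defs_helper23
import Fermat.Agent.S18.C9Final_helper4
import Fermat.Agent.S18.C6e_helper9

set_option autoImplicit false
set_option linter.unusedSectionVars false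
set_option linter.unusedVariables false
set_option linter.style.haveILetI false
set_option synthInstance.maxHeartbeats 400000

noncomputable section

open Polynomial IntermediateField AlgebraicCurve ModularCurve H28GV

namespace H23U4

open H9S18 (ValAt IsDivOf)
open H7S18 H18R2

/-- **U4-PAIR** (concrete norm descent for the pair of levels `N ∣ N'`, chart `j`). -/
def LevelDescentStatement : Prop :=
  ∀ (N N' : ℕ) [NeZero N] [NeZero N'] (_ : N ∣ N') (ℓ : ℕ) [Fact ℓ.Prime] (_ : ¬ ℓ ∣ N')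
    (A : ValuationSubring (AlgebraicClosure ℚ)) (_ : A.LiesOverPrime ℓ)
    (B : GVBasis A (IsLocalRing.residue A) N) (B' : GVBasis A (IsLocalRing.residue A) N')
    (ht : RH24.Jbar N ∈ (gvPreBar N A B).O) (ht' : RH24.Jbar N' ∈ (gvPreBar N' A B').O)
    (h : ↥(modularFunctionFieldBar N')) (hh : h ∈ (gvPreBar N' A B').O)
    (_ : IntChart (gvPreBar N' A B') (RH24.Jbar N') h) (c c' : IsLocalRing.ResidueField A)
    (_ : ∀ Q' : Place (IsLocalRing.ResidueField A)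
        ↥(modularFunctionFieldFullC (IsLocalRing.ResidueField A) N'),
      ValAt Q' ((gvPreBar N' A B').red ⟨RH24.Jbar N', ht'⟩) c →
      ValAt Q' ((gvPreBar N' A B').red ⟨h, hh⟩) c'),
    UnifAt (gvPreBar N' A B') h hh c' → UnifAt (gvPreBar N A B) (RH24.Jbar N) ht c

/-- `unifAt_of_localLift` without the full `Setting` (no degree hypothesis on the chart). -/
theorem h23u4_unifAt_of_localLift (hEx : ExStatement)
    {K F k Fb : Type} [Field K] [Field F] [Algebra K F] [Field k] [Field Fb] [Algebra k Fb]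
    [IsAlgClosed k]
    (R : PreDatum K F k Fb) (t : F) (ht : t ∈ R.O)
    (htk : Transcendental k (R.red ⟨t, ht⟩))
    (hfin : FiniteDimensional k⟮R.red ⟨t, ht⟩⟯ Fb)
    (hsep : Algebra.IsSeparable k⟮R.red ⟨t, ht⟩⟯ Fb) (c : k)
    (h : LocalLiftAt R t ht c) : UnifAt R t ht c := by
  intro Q hQ
  obtain ⟨gb, hgi, hg1, hg0⟩ := hEx k Fb (R.red ⟨t, ht⟩) htk hfin hsep c Q hQ
  have hgb0 : gb ≠ 0 := by
    rintro rfl
    rw [Place.ord_zero] at hg1
    exact zero_ne_one hg1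
  obtain ⟨x, hx⟩ := R.red_surj gb
  obtain ⟨a, ha, sb, hai, hred, hsb0, hsb⟩ := h x.1 x.2 (by
    have : (⟨x.1, x.2⟩ : R.O) = x := rfl
    rw [this, hx]
    exact hgi)
  have hx' : R.red ⟨x.1, x.2⟩ = gb := hx
  rw [hx'] at hred
  refine ⟨a, ha, hai, ?_, fun Q' hQ' hne => ?_⟩
  · rw [hred, Q.ord_mul hsb0 hgb0, hsb Q hQ, hg1, zero_add]
  · rw [hred, Q'.ord_mul hsb0 hgb0, hsb Q' hQ', hg0 Q' hQ' hne, zero_add]

theorem h23u4_prime_lt_five {ℓ : ℕ} (hℓ : ℓ.Prime) (h5 : ℓ < 5) : ℓ = 2 ∨ ℓ = 3 := by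
  have h2 := hℓ.two_le
  interval_cases ℓ
  · exact Or.inl rfl
  · exact Or.inr rfl
  · exact absurd hℓ (by decide)

theorem h23u4_level_ne_zero (ℓ N : ℕ) [NeZero N] : u4Level ℓ N ≠ 0 := by
  unfold u4Level
  split_ifs
  · exact Nat.lcm_ne_zero (by norm_num) (NeZero.ne N)
  · exact Nat.lcm_ne_zero (by norm_num) (NeZero.ne N)

theorem h23u4_dvd_level (ℓ N : ℕ) : N ∣ u4Level ℓ N := by
  unfold u4Level
  split_ifs
  · exact Nat.dvd_lcm_right 2 N
  · exact Nat.dvd_lcm_right 3 N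

theorem h23u4_tameLevel {ℓ N : ℕ} (hℓ : ℓ = 2 ∨ ℓ = 3) (hℓN : ¬ ℓ ∣ N) :
    TameLevel ℓ (u4Level ℓ N) := by
  rcases hℓ with rfl | rfl
  · refine ⟨?_, fun _ => ?_, fun h => absurd h (by norm_num)⟩
    · intro hd
      have h1 : (2 : ℕ) ∣ 3 * N := by
        unfold u4Level at hd
        rw [if_neg (by norm_num)] at hd
        exact hd.trans (Nat.lcm_dvd_mul 3 N)
      rcases (Nat.Prime.dvd_mul Nat.prime_two).mp h1 with h | h
      · exact absurd h (by norm_num)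
      · exact hℓN h
    · unfold u4Level
      rw [if_neg (by norm_num)]
      exact Nat.dvd_lcm_left 3 N
  · refine ⟨?_, fun h => absurd h (by norm_num), fun _ => ?_⟩
    · intro hd
      have h1 : (3 : ℕ) ∣ 2 * N := by
        unfold u4Level at hd
        rw [if_pos rfl] at hd
        exact hd.trans (Nat.lcm_dvd_mul 2 N)
      rcases (Nat.Prime.dvd_mul Nat.prime_three).mp h1 with h | h
      · exact absurd h (by norm_num)
      · exact hℓN h
    · unfold u4Level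
      rw [if_pos rfl]
      exact Nat.dvd_lcm_left 2 N

theorem h23u4_exists_base {ℓ : ℕ} (hℓ : ℓ = 2 ∨ ℓ = 3) :
    ∃ t₀ : LaurentSeries ℚ, IsBase (baseKind ℓ) t₀ := by
  rcases hℓ with rfl | rfl
  · exact ⟨_, by
      have : baseKind 2 = 3 := by unfold baseKind; simp
      rw [this]; exact H4HM.isBase_t3⟩
  · exact ⟨_, by
      have : baseKind 3 = 2 := by unfold baseKind; simp
      rw [this]; exact H4HM.isBase_t2⟩

theorem h23u4_point_mem {ℓ : ℕ} (hℓ : ℓ = 2 ∨ ℓ = 3) :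
    u4Point ℓ ∈ branchSet (baseKind ℓ) := by
  rcases hℓ with rfl | rfl
  · unfold u4Point baseKind branchSet
    simp
  · unfold u4Point baseKind branchSet
    simp

theorem h23u4_baseKind_ok {ℓ N' : ℕ} (hT : TameLevel ℓ N') :
    baseKind ℓ = 1 ∨ (baseKind ℓ = 2 ∧ 2 ∣ N') ∨ (baseKind ℓ = 3 ∧ 3 ∣ N') := by
  unfold baseKind
  by_cases h2 : ℓ = 2
  · rw [if_pos h2]
    exact Or.inr (Or.inr ⟨rfl, hT.2.1 h2⟩)
  · rw [if_neg h2]
    by_cases h3 : ℓ = 3
    · rw [if_pos h3]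
      exact Or.inr (Or.inl ⟨rfl, hT.2.2 h3⟩)
    · rw [if_neg h3]
      exact Or.inl rfl

theorem h23u4_mem_O_iff (N : ℕ) [NeZero N] (A : ValuationSubring (AlgebraicClosure ℚ))
    (B : GVBasis A (IsLocalRing.residue A) N) (x : ↥(modularFunctionFieldBar N)) :
    x ∈ (gvPreBar N A B).O ↔
      (x : LaurentSeries (AlgebraicClosure ℚ)) ∈ gvO A (IsLocalRing.residue A) := Iff.rfl

theorem h23u4_Jbar_mem {N N' : ℕ} [NeZero N] [NeZero N']
    (A : ValuationSubring (AlgebraicClosure ℚ))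
    (B : GVBasis A (IsLocalRing.residue A) N) (B' : GVBasis A (IsLocalRing.residue A) N')
    (ht : RH24.Jbar N ∈ (gvPreBar N A B).O) : RH24.Jbar N' ∈ (gvPreBar N' A B').O := by
  have h1 := (h23u4_mem_O_iff N A B _).mp ht
  rw [RH24.coe_Jbar] at h1
  apply (h23u4_mem_O_iff N' A B' _).mpr
  rw [RH24.coe_Jbar]
  exact h1

/-- **R2-U4 from its pieces.** -/
theorem unifJZero_of (hLD : LevelDescentStatement) (hCh : ChartStatement)
    (hTL : TameLiftStatement) (hEx : ExStatement) : UnifJZeroStatement := by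
  intro N _ ℓ hℓF hℓN h5 A hA B ht
  have hℓ : ℓ = 2 ∨ ℓ = 3 := h23u4_prime_lt_five hℓF.out h5
  haveI : NeZero (u4Level ℓ N) := ⟨h23u4_level_ne_zero ℓ N⟩
  have hT : TameLevel ℓ (u4Level ℓ N) := h23u4_tameLevel hℓ hℓN
  obtain ⟨B'⟩ := gv_basis_bar A ℓ hA (u4Level ℓ N) hT.1
  obtain ⟨t₀, ht₀⟩ := h23u4_exists_base hℓ
  obtain ⟨h, hcoe, -, -, -⟩ := H9C6e.fieldBasics (u4Level ℓ N) (baseKind ℓ)
    (h23u4_baseKind_ok hT) t₀ ht₀ (AlgebraicClosure ℚ)
  obtain ⟨hh, hint, htr, hfin, hsep, hfib⟩ := hCh (u4Level ℓ N) ℓ h5 hT A hA B' t₀ ht₀ h hcoe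
  haveI : IsAlgClosed (IsLocalRing.ResidueField A) := gv_residue_isAlgClosed A
  have hLL := hTL (u4Level ℓ N) ℓ hT A hA B' t₀ ht₀ h hcoe hh (u4Point ℓ) (h23u4_point_mem hℓ)
  have hU' := h23u4_unifAt_of_localLift hEx (gvPreBar (u4Level ℓ N) A B') h hh htr hfin hsep _ hLL
  have ht' : RH24.Jbar (u4Level ℓ N) ∈ (gvPreBar (u4Level ℓ N) A B').O :=
    h23u4_Jbar_mem A B B' ht
  exact hLD N (u4Level ℓ N) (h23u4_dvd_level ℓ N) ℓ hT.1 A hA B B' ht ht' h hh hint 0 _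
    (fun Q' hQ' => hfib ht' Q' hQ') hU'

end H23U4

end
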