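/-
Item 79 (S37), slice R2, piece U4-CHART (helper2): `H2U4.chartStatement : H23U4.ChartStatement`.

The chart `h` at a tame level `N'` (`h = h₂` for `ℓ = 3`, `h = h₃` for `ℓ = 2`):
* `H2U4.val_fib`        abstract valuation lemma: `(h - c)^(n+1) = j hⁿ`, `v j < 1` ⇒ `v (h - c) < 1`;
* `H2U4.chart_setting`  an integral `q`-series `t = q⁻¹ + …` with `j ∈ ℚ(t)` is a chart of the Gauss
                        valuation (`H18R2.Setting`), with reduction the coefficientwise reduction;
* the Hauptmodul relations `j h₂² = (h₂ + 256)³`, `j h₃³ = (h₃ + 27)(h₃ + 243)³` give the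
  integrality of `h` over `A[j]` and the fibre statement over `j̄ = 0`.
-/
import Mathlib
import Fermat.Agent.S37.R2U4Defs_helper23
import Fermat.Agent.S37.R2DefsB_helper18
import Fermat.Agent.S37.R2Fin_helper29
import Fermat.Agent.S18.C7Inst_helper28
import Fermat.Agent.S18.C7b_helper27
import Fermat.Agent.S18.C7c_helper16
import Fermat.Agent.S18.C7d_helper4
import Fermat.Agent.S18.C8Branch_helper4
import Fermat.Agent.S18.GVBar_helper28

set_option autoImplicit false
set_option linter.style.longLine false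
set_option linter.unusedSectionVars false
set_option linter.unusedVariables false
set_option linter.style.haveILetI false
set_option synthInstance.maxHeartbeats 400000

noncomputable section

open AlgebraicCurve IntermediateField ModularCurve H28GV

namespace H2U4

/-- abstract fibre lemma -/
theorem val_fib {F Γ : Type*} [Field F] [LinearOrderedCommGroupWithZero Γ] (v : Valuation F Γ)
    (j h c : F) (hc : v c ≤ 1) (n : ℕ) (hrel : (h - c) ^ (n + 1) = j * h ^ n) (hj : v j < 1) :
    v (h - c) < 1 := by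
  by_contra hcon
  have h1 : 1 ≤ v (h - c) := not_lt.mp hcon
  have h2 : v h ≤ v (h - c) := by
    have e : h = (h - c) + c := by ring
    calc v h = v ((h - c) + c) := by rw [← e]
      _ ≤ max (v (h - c)) (v c) := v.map_add _ _
      _ ≤ v (h - c) := max_le le_rfl (hc.trans h1)
  have h3 := congrArg v hrel
  rw [map_pow, map_mul, map_pow] at h3
  have hpos : 0 < v (h - c) ^ n := pow_pos (lt_of_lt_of_le zero_lt_one h1) n
  have h4 : v j * v h ^ n ≤ v j * v (h - c) ^ n := by
    gcongr
  have h5 : v j * v (h - c) ^ n < v (h - c) ^ n := by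
    calc v j * v (h - c) ^ n < 1 * v (h - c) ^ n := by
          gcongr
      _ = v (h - c) ^ n := one_mul _
  have h6 : v (h - c) ^ n ≤ v (h - c) ^ (n + 1) := by
    rw [pow_succ]
    exact le_mul_of_one_le_right' h1
  have h7 : v (h - c) ^ (n + 1) < v (h - c) ^ n := by
    rw [h3]
    exact lt_of_le_of_lt h4 h5
  exact absurd (lt_of_le_of_lt h6 h7) (lt_irrefl _)

/-- constants have valuation `≤ 1` at a place -/
theorem val_const_le {k Fb : Type*} [Field k] [Field Fb] [Algebra k Fb] (Q : Place k Fb) (c : k) :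
    Q.adicValuation (algebraMap k Fb c) ≤ 1 := by
  have h := Q.adicValuation_coe ⟨algebraMap k Fb c, Q.algebraMap_mem' c⟩
  rw [show ((⟨algebraMap k Fb c, Q.algebraMap_mem' c⟩ : Q.toValuationSubring) : Fb) =
    algebraMap k Fb c from rfl] at h
  rw [h]
  exact IsDedekindDomain.HeightOneSpectrum.intValuation_le_one _ _

section Chart

variable (N : ℕ) [NeZero N] (ℓ : ℕ) [Fact ℓ.Prime] (hℓN : ¬ ℓ ∣ N)
  (A : ValuationSubring (AlgebraicClosure ℚ)) (hA : A.LiesOverPrime ℓ)
  (B : GVBasis A (IsLocalRing.residue A) N)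
  (T : LaurentSeries ℤ) (hT1 : T.coeff (-1) = 1)
  (hjT : jq ∈ IntermediateField.adjoin ℚ {coeffMap (Int.castRingHom ℚ) T})
  (h : ↥(modularFunctionFieldBar N))
  (hh : (h : LaurentSeries (AlgebraicClosure ℚ)) =
    coeffEmb (AlgebraicClosure ℚ) (coeffMap (Int.castRingHom ℚ) T))

include hh in
theorem chart_coe_eps :
    (h : LaurentSeries (AlgebraicClosure ℚ)) = gvEps A (coeffMap (Int.castRingHom A) T) := by
  rw [hh, coeffEmb, coeffMap_coeffMap, gvEps_def, coeffMap_coeffMap]
  exact coeffMap_congr (RingHom.ext_int _ _) T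

include hh in
/-- the chart lies in the Gauss valuation ring -/
theorem chart_mem : h ∈ (H18R2.gvPreBar N A B).O := by
  show (h : LaurentSeries (AlgebraicClosure ℚ)) ∈ gvO A (IsLocalRing.residue A)
  rw [chart_coe_eps N A T h hh]
  exact gvEps_mem_gvO A _ _

include hh in
/-- the reduction of the chart is the coefficientwise reduction -/
theorem chart_red (hO : h ∈ (H18R2.gvPreBar N A B).O) :
    (((H18R2.gvPreBar N A B).red ⟨h, hO⟩ :
      ↥(modularFunctionFieldFullC (IsLocalRing.ResidueField A) N)) :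
        LaurentSeries (IsLocalRing.ResidueField A)) =
      coeffMap (Int.castRingHom (IsLocalRing.ResidueField A)) T := by
  have h1 : (⟨(h : LaurentSeries (AlgebraicClosure ℚ)), hO⟩ : gvO A (IsLocalRing.residue A)) =
      ⟨gvEps A (coeffMap (Int.castRingHom A) T), gvEps_mem_gvO A (IsLocalRing.residue A) _⟩ :=
    Subtype.ext (chart_coe_eps N A T h hh)
  show gvRed A (IsLocalRing.residue A) ⟨(h : LaurentSeries (AlgebraicClosure ℚ)), hO⟩ = _
  rw [h1, gvRed_eps, gvRho_def, coeffMap_coeffMap]
  exact coeffMap_congr (RingHom.ext_int _ _) T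

set_option maxHeartbeats 3200000 in
include hℓN hA hT1 hjT hh in
/-- **the chart `h`**: `Setting` for an integral `q`-series `q⁻¹ + …` with `j ∈ ℚ(h)`. -/
theorem chart_setting : H18R2.Setting (H18R2.gvPreBar N A B) h := by
  classical
  haveI hkac : IsAlgClosed (IsLocalRing.ResidueField A) := gv_residue_isAlgClosed A
  haveI hchar : CharP (IsLocalRing.ResidueField A) ℓ :=
    (CharP.charP_iff_prime_eq_zero (Fact.out : ℓ.Prime)).mpr (gv_residue_natCast_eq_zero A ℓ hA)
  have hd := H28UG.gaussData_gv B (gv_residue_surj A) (gv_residue_nonunit A)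
  have hjO := H29R2F.h29r2f_j_mem N A B
  have hredj := H29R2F.h29r2f_red_j N A B hjO
  have hO := chart_mem N A B T h hh
  have hred := chart_red N A B T h hh hO
  have hdegK : Module.finrank (AlgebraicClosure ℚ)⟮RH24.Jbar N⟯ ↥(modularFunctionFieldBar N) =
      dedekindPsi N :=
    H27C7b.h27c7b_deg (AlgebraicClosure ℚ) N
      (fun r hr _ => Nat.cast_ne_zero.mpr hr.ne_zero)
      (modularFunctionFieldBar N) (gv_bar_eq (L := AlgebraicClosure ℚ) N) (RH24.Jbar N)
      (RH24.h8b_coe_Jbar N)
  have hdegk : Module.finrank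
      (IsLocalRing.ResidueField A)⟮(H18R2.gvPreBar N A B).red ⟨RH24.Jbar N, hjO⟩⟯
      ↥(modularFunctionFieldFullC (IsLocalRing.ResidueField A) N) = dedekindPsi N := by
    rw [hredj]
    exact H27C7b.h27c7b_deg (IsLocalRing.ResidueField A) N (gv_residue_char A ℓ hA N hℓN)
      (modularFunctionFieldFullC (IsLocalRing.ResidueField A) N) rfl
      (H27C10.h27c10_jC (IsLocalRing.ResidueField A) N) rfl
  have hjb : Transcendental (IsLocalRing.ResidueField A)
      ((H18R2.gvPreBar N A B).red ⟨RH24.Jbar N, hjO⟩) := by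
    rw [hredj]
    exact H27C10.h27c10_jC_transcendental (IsLocalRing.ResidueField A) N
  -- the reduction of `h`
  have htcoeff : (((H18R2.gvPreBar N A B).red ⟨h, hO⟩ :
      ↥(modularFunctionFieldFullC (IsLocalRing.ResidueField A) N)) :
        LaurentSeries (IsLocalRing.ResidueField A)).coeff (-1) = 1 := by
    rw [hred, coeffMap_coeff, hT1]
    simp
  have hinj : Function.Injective
      (algebraMap ↥(modularFunctionFieldFullC (IsLocalRing.ResidueField A) N)
        (LaurentSeries (IsLocalRing.ResidueField A))) := Subtype.val_injective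
  have htL : Transcendental (IsLocalRing.ResidueField A)
      (((H18R2.gvPreBar N A B).red ⟨h, hO⟩ :
        ↥(modularFunctionFieldFullC (IsLocalRing.ResidueField A) N)) :
          LaurentSeries (IsLocalRing.ResidueField A)) :=
    H28UG.transcendental_of_pole _ (by rw [htcoeff]; exact one_ne_zero)
  have htb : Transcendental (IsLocalRing.ResidueField A)
      ((H18R2.gvPreBar N A B).red ⟨h, hO⟩) :=
    (transcendental_algebraMap_iff hinj).mp htL
  -- `h` is transcendental over `ℚ̄`
  have hcoeffK : (h : LaurentSeries (AlgebraicClosure ℚ)).coeff (-1) = 1 := by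
    rw [hh, coeffEmb, coeffMap_coeff, coeffMap_coeff, hT1]
    simp
  have hinjK : Function.Injective
      (algebraMap ↥(modularFunctionFieldBar N) (LaurentSeries (AlgebraicClosure ℚ))) :=
    Subtype.val_injective
  have htKL : Transcendental (AlgebraicClosure ℚ) (h : LaurentSeries (AlgebraicClosure ℚ)) :=
    H28UG.transcendental_of_pole _ (by rw [hcoeffK]; exact one_ne_zero)
  have htK : Transcendental (AlgebraicClosure ℚ) h :=
    (transcendental_algebraMap_iff hinjK).mp htKL
  -- `j ∈ ℚ̄(h)`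
  have hjt : RH24.Jbar N ∈ (AlgebraicClosure ℚ)⟮h⟯ := by
    obtain ⟨r, s, hrs⟩ := (IntermediateField.mem_adjoin_simple_iff _ _).mp hjT
    rw [IntermediateField.mem_adjoin_simple_iff]
    refine ⟨r.map (algebraMap ℚ (AlgebraicClosure ℚ)), s.map (algebraMap ℚ (AlgebraicClosure ℚ)), ?_⟩
    apply Subtype.ext
    have h1 := congrArg (coeffEmb (AlgebraicClosure ℚ)) hrs
    rw [gv_coeffEmb_jq, map_div₀, coeffEmb, gv_coeffMap_aeval, gv_coeffMap_aeval] at h1
    have h2 : coeffMap (algebraMap ℚ (AlgebraicClosure ℚ)) (coeffMap (Int.castRingHom ℚ) T) =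
        (h : LaurentSeries (AlgebraicClosure ℚ)) := hh.symm
    rw [h2] at h1
    have h3 : ∀ q : Polynomial (AlgebraicClosure ℚ),
        ((Polynomial.aeval h q : ↥(modularFunctionFieldBar N)) :
          LaurentSeries (AlgebraicClosure ℚ)) =
          Polynomial.aeval (h : LaurentSeries (AlgebraicClosure ℚ)) q := fun q =>
      (Polynomial.aeval_algHom_apply
        (laurentBaseChange (AlgebraicClosure ℚ) (modularFunctionFieldFull N)).val h q).symm
    rw [RH24.h8b_coe_Jbar]
    show jqModC (AlgebraicClosure ℚ) =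
      ((Polynomial.aeval h (r.map (algebraMap ℚ (AlgebraicClosure ℚ))) /
        Polynomial.aeval h (s.map (algebraMap ℚ (AlgebraicClosure ℚ))) :
          ↥(modularFunctionFieldBar N)) : LaurentSeries (AlgebraicClosure ℚ))
    rw [h1]
    push_cast
    rw [h3, h3]
  haveI hfdj : FiniteDimensional (AlgebraicClosure ℚ)⟮RH24.Jbar N⟯ ↥(modularFunctionFieldBar N) :=
    (RH24.B_degree N).1
  obtain ⟨hfd0, hdeg0⟩ := hd.finrank_eq ⟨RH24.Jbar N, hjO⟩ ⟨h, hO⟩ hjb htb hjt
    (hdegk.trans hdegK.symm)
  have hfd : FiniteDimensional (AlgebraicClosure ℚ)⟮h⟯ ↥(modularFunctionFieldBar N) := hfd0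
  have hdeg : Module.finrank
      (IsLocalRing.ResidueField A)⟮(H18R2.gvPreBar N A B).red ⟨h, hO⟩⟯
      ↥(modularFunctionFieldFullC (IsLocalRing.ResidueField A) N) =
      Module.finrank (AlgebraicClosure ℚ)⟮h⟯ ↥(modularFunctionFieldBar N) := hdeg0
  haveI := hfd
  have hfdk : FiniteDimensional
      (IsLocalRing.ResidueField A)⟮(H18R2.gvPreBar N A B).red ⟨h, hO⟩⟯
      ↥(modularFunctionFieldFullC (IsLocalRing.ResidueField A) N) :=
    Module.finite_of_finrank_pos (by rw [hdeg]; exact Module.finrank_pos)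
  have hsep := H16C7c.h16_c7Sep (IsLocalRing.ResidueField A) ℓ
    (modularFunctionFieldFullC (IsLocalRing.ResidueField A) N)
    ((H18R2.gvPreBar N A B).red ⟨h, hO⟩) htL htcoeff hfdk
  exact
    { algK := inferInstance
      char0 := inferInstance
      algk := hkac
      ht := hO
      htK := htK
      htk := htb
      fin := hfd
      finb := hfdk
      sepb := hsep
      deg := hdeg.symm }

end Chart

section Rel

open H9S18 (ValAt)
open Polynomial

variable {K F k Fb : Type*} [Field K] [Field F] [Algebra K F] [Field k] [Field Fb] [Algebra k Fb]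

/-- `j h² = (h + 256)³` ⇒ `h` is integral over `A[j]` -/
theorem intChart_cubic (R : H18R2.PreDatum K F k Fb) (j h : F)
    (hrel : j * h ^ 2 = (h + 256) ^ 3) : H18R2.IntChart R j h := by
  have hj : j ∈ H18R2.chartRing R j := Subring.subset_closure (Or.inr rfl)
  refine ⟨X ^ (2 + 1) + (C ((768 : ↥(H18R2.chartRing R j)) - ⟨j, hj⟩) * X ^ 2 + C 196608 * X +
    C 16777216), monic_X_pow_add (lt_of_le_of_lt degree_quadratic_le
      (by exact_mod_cast (by norm_num : (2:ℕ) < 2 + 1))), ?_⟩
  simp only [eval₂_add, eval₂_mul, eval₂_pow, eval₂_X, eval₂_C, eval₂_sub, map_sub]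
  have e1 : algebraMap (↥(H18R2.chartRing R j)) F ⟨j, hj⟩ = j := rfl
  have e2 : algebraMap (↥(H18R2.chartRing R j)) F 768 = 768 := map_ofNat _ _
  have e3 : algebraMap (↥(H18R2.chartRing R j)) F 196608 = 196608 := map_ofNat _ _
  have e4 : algebraMap (↥(H18R2.chartRing R j)) F 16777216 = 16777216 := map_ofNat _ _
  rw [e1, e2, e3, e4]
  linear_combination - hrel

/-- `j h³ = (h + 27)(h + 243)³` ⇒ `h` is integral over `A[j]` -/
theorem intChart_quartic (R : H18R2.PreDatum K F k Fb) (j h : F)
    (hrel : j * h ^ 3 = (h + 27) * (h + 243) ^ 3) : H18R2.IntChart R j h := by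
  have hj : j ∈ H18R2.chartRing R j := Subring.subset_closure (Or.inr rfl)
  refine ⟨X ^ (3 + 1) + (C ((756 : ↥(H18R2.chartRing R j)) - ⟨j, hj⟩) * X ^ 3 + C 196830 * X ^ 2 +
    C 19131876 * X + C 387420489), monic_X_pow_add (lt_of_le_of_lt degree_cubic_le
      (by exact_mod_cast (by norm_num : (3:ℕ) < 3 + 1))), ?_⟩
  simp only [eval₂_add, eval₂_mul, eval₂_pow, eval₂_X, eval₂_C, eval₂_sub, map_sub]
  have e1 : algebraMap (↥(H18R2.chartRing R j)) F ⟨j, hj⟩ = j := rfl
  have e2 : algebraMap (↥(H18R2.chartRing R j)) F 756 = 756 := map_ofNat _ _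
  have e3 : algebraMap (↥(H18R2.chartRing R j)) F 196830 = 196830 := map_ofNat _ _
  have e4 : algebraMap (↥(H18R2.chartRing R j)) F 19131876 = 19131876 := map_ofNat _ _
  have e5 : algebraMap (↥(H18R2.chartRing R j)) F 387420489 = 387420489 := map_ofNat _ _
  rw [e1, e2, e3, e4, e5]
  linear_combination - hrel

/-- in characteristic `3`: over `j = 0` the function `h₂` takes the value `-64` -/
theorem fib_cubic (h3 : (3 : k) = 0) (j h : Fb) (hrel : j * h ^ 2 = (h + 256) ^ 3)
    (Q : Place k Fb) (hj : ValAt Q j 0) : ValAt Q h (((-64 : ℤ) : ℤ) : k) := by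
  have h3' : (3 : Fb) = 0 := by
    have := congrArg (algebraMap k Fb) h3
    rwa [map_ofNat, map_zero] at this
  have hj' : Q.adicValuation j < 1 := by
    have := hj
    unfold H9S18.ValAt at this
    simpa using this
  unfold H9S18.ValAt
  refine val_fib Q.adicValuation j h _ (val_const_le Q _) 2 ?_ hj'
  have e : algebraMap k Fb (((-64 : ℤ) : ℤ) : k) = -64 := by
    rw [Int.cast_neg, Int.cast_ofNat, map_neg, map_ofNat]
  rw [e]
  linear_combination (-1) * hrel + (-192 * h ^ 2 - 61440 * h - 5505024) * h3'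

/-- in characteristic `2`: over `j = 0` the function `h₃` takes the value `-27` -/
theorem fib_quartic (h2 : (2 : k) = 0) (j h : Fb) (hrel : j * h ^ 3 = (h + 27) * (h + 243) ^ 3)
    (Q : Place k Fb) (hj : ValAt Q j 0) : ValAt Q h (((-27 : ℤ) : ℤ) : k) := by
  have h2' : (2 : Fb) = 0 := by
    have := congrArg (algebraMap k Fb) h2
    rwa [map_ofNat, map_zero] at this
  have hj' : Q.adicValuation j < 1 := by
    have := hj
    unfold H9S18.ValAt at this
    simpa using this
  unfold H9S18.ValAt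
  refine val_fib Q.adicValuation j h _ (val_const_le Q _) 3 ?_ hj'
  have e : algebraMap k Fb (((-27 : ℤ) : ℤ) : k) = -27 := by
    rw [Int.cast_neg, Int.cast_ofNat, map_neg, map_ofNat]
  rw [e]
  linear_combination (-1) * hrel +
    ((h + 27) * (-108) * ((h + 27) ^ 2 + (h + 27) * (h + 243) + (h + 243) ^ 2)) * h2'

end Rel

open H4HM in
set_option maxHeartbeats 1600000 in
/-- **U4-CHART** -/
theorem chartStatement : H23U4.ChartStatement := by
  intro N' _ ℓ _ hℓ5 hT A hA B' t₀ ht₀ h hh
  have hp : ℓ.Prime := Fact.out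
  have hℓ : ℓ = 2 ∨ ℓ = 3 := by
    have := hp.two_le
    interval_cases ℓ
    · exact Or.inl rfl
    · exact Or.inr rfl
    · exact absurd hp (by decide)
  have hℓ0 := gv_residue_natCast_eq_zero A ℓ hA
  rcases hℓ with rfl | rfl
  · -- `ℓ = 2`, `h = h₃`
    have e : t₀ = t3 ℚ := H4BR.eq_t3_of_isBase (by simpa [H7S18.baseKind] using ht₀)
    have hT1 : (t3 ℤ).coeff (-1) = 1 := t3_coeff_neg_one ℤ
    have hcm : coeffMap (Int.castRingHom ℚ) (t3 ℤ) = t3 ℚ := coeffMap_t3 _
    have hh' : (h : LaurentSeries (AlgebraicClosure ℚ)) =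
        coeffEmb (AlgebraicClosure ℚ) (coeffMap (Int.castRingHom ℚ) (t3 ℤ)) := by
      rw [hh, e, hcm]
    have hjT : jq ∈ IntermediateField.adjoin ℚ {coeffMap (Int.castRingHom ℚ) (t3 ℤ)} := by
      rw [hcm]
      exact H4C7d.jq_mem_adjoin_t3
    have S := chart_setting N' 2 hT.1 A hA B' (t3 ℤ) hT1 hjT h hh'
    have hred := chart_red N' A B' (t3 ℤ) h hh' S.ht
    rw [coeffMap_t3] at hred
    refine ⟨S.ht, ?_, S.htk, S.finb, S.sepb, ?_⟩
    · apply intChart_quartic
      apply Subtype.ext
      push_cast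
      rw [RH24.h8b_coe_Jbar, hh, e, coeffEmb, coeffMap_t3]
      exact hm3 _
    · intro hj Q' hQ
      have h2 : (2 : IsLocalRing.ResidueField A) = 0 := by exact_mod_cast hℓ0
      have hu : H23U4.u4Point 2 = -27 := by simp [H23U4.u4Point]
      rw [hu]
      refine fib_quartic h2 _ _ ?_ Q' hQ
      apply Subtype.ext
      push_cast
      rw [H29R2F.h29r2f_red_j N' A B' hj, H27C10.h27c10_coe_jC, hred]
      exact hm3 _
  · -- `ℓ = 3`, `h = h₂`
    have e : t₀ = t2 ℚ := H4BR.eq_t2_of_isBase (by simpa [H7S18.baseKind] using ht₀)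
    have hT1 : (t2 ℤ).coeff (-1) = 1 := t2_coeff_neg_one ℤ
    have hcm : coeffMap (Int.castRingHom ℚ) (t2 ℤ) = t2 ℚ := coeffMap_t2 _
    have hh' : (h : LaurentSeries (AlgebraicClosure ℚ)) =
        coeffEmb (AlgebraicClosure ℚ) (coeffMap (Int.castRingHom ℚ) (t2 ℤ)) := by
      rw [hh, e, hcm]
    have hjT : jq ∈ IntermediateField.adjoin ℚ {coeffMap (Int.castRingHom ℚ) (t2 ℤ)} := by
      rw [hcm]
      exact H4C7d.jq_mem_adjoin_t2
    have S := chart_setting N' 3 hT.1 A hA B' (t2 ℤ) hT1 hjT h hh'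
    have hred := chart_red N' A B' (t2 ℤ) h hh' S.ht
    rw [coeffMap_t2] at hred
    refine ⟨S.ht, ?_, S.htk, S.finb, S.sepb, ?_⟩
    · apply intChart_cubic
      apply Subtype.ext
      push_cast
      rw [RH24.h8b_coe_Jbar, hh, e, coeffEmb, coeffMap_t2]
      exact hm2 _
    · intro hj Q' hQ
      have h3 : (3 : IsLocalRing.ResidueField A) = 0 := by exact_mod_cast hℓ0
      have hu : H23U4.u4Point 3 = -64 := by simp [H23U4.u4Point]
      rw [hu]
      refine fib_cubic h3 _ _ ?_ Q' hQ
      apply Subtype.ext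
      push_cast
      rw [H29R2F.h29r2f_red_j N' A B' hj, H27C10.h27c10_coe_jC, hred]
      exact hm2 _

end H2U4

end
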