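import Mathlib
import Fermat.Agent.S37.R2DefsC_helper18
import Fermat.Agent.S18.C6a_helper1
import Fermat.Agent.S18.C6b_helper4
import Fermat.Agent.S18.C12bMod_helper7

/-!
# Item 79 (S37), slice R2-U, stage (C) DESCEND (helper1)

`H1DSC.descendStatement : H18R2.DescendStatement`.

Every element of the Gauss valuation ring `gvOF B` is a quotient `ε f / ε g` of two `A`-integral
series of `F_L` with `ρ g ≠ 0` (`rep_of_mem`); finitely many such series descend to a number
field `K₁` (`desc_family`, from `H1S18.desc_of_mem`); `A₁ = A ∩ K₁` is a DVR, so a series whose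
reduction vanishes is divisible by `ϖ` (`H7S18.h7_exists_div_unif`).
-/

set_option autoImplicit false
set_option linter.style.longLine false
set_option linter.unusedSectionVars false
set_option linter.style.haveILetI false
set_option linter.unusedVariables false
set_option linter.deprecated false
set_option synthInstance.maxHeartbeats 400000
set_option maxHeartbeats 1000000

noncomputable section

open Polynomial IntermediateField AlgebraicCurve ModularCurve H28GV

namespace H1DSC

open H7S18 H1S18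

/-- finitely many series of `ℚ̄ · F₀` descend to a common number field -/
theorem desc_family (F₀ : IntermediateField ℚ (LaurentSeries ℚ)) {ι : Type*} (s : Finset ι)
    (x : ι → LaurentSeries (AlgebraicClosure ℚ)) (hx : ∀ i ∈ s, Desc F₀ (x i)) :
    ∃ K₁ : IntermediateField ℚ (AlgebraicClosure ℚ), FiniteDimensional ℚ K₁ ∧
      ∀ i ∈ s, ∃ x₁ : LaurentSeries K₁, x₁ ∈ laurentBaseChange K₁ F₀ ∧
        coeffMap (algebraMap K₁ (AlgebraicClosure ℚ)) x₁ = x i := by
  classical
  induction s using Finset.induction_on with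
  | empty => exact ⟨⊥, inferInstance, fun i hi => absurd hi (Finset.notMem_empty i)⟩
  | insert a s ha ih =>
    obtain ⟨K₁, hK₁, h₁⟩ := ih (fun i hi => hx i (Finset.mem_insert_of_mem hi))
    obtain ⟨K₂, hK₂, h₂⟩ := hx a (Finset.mem_insert_self a s)
    haveI := hK₁
    haveI := hK₂
    refine ⟨K₁ ⊔ K₂, inferInstance, fun i hi => ?_⟩
    rcases Finset.mem_insert.mp hi with rfl | hi'
    · exact desc_enlarge le_sup_right h₂
    · exact desc_enlarge le_sup_left (h₁ i hi')

section Rep

variable {L : Type} [Field L] [Algebra ℚ L] {A : ValuationSubring L} {k : Type} [Field k]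
  {π : A →+* k} {N : ℕ} [NeZero N]

/-- every element of the Gauss valuation ring is a quotient of two `A`-integral series of `F_L`,
the denominator with nonzero reduction -/
theorem rep_of_mem (B : GVBasis A π N) (hπ : ∀ a : A, π a ≠ 0 → ((a : L))⁻¹ ∈ A)
    (x : ↥(laurentBaseChange L (modularFunctionFieldFull N))) (hx : x ∈ gvOF B) :
    ∃ f g : LaurentSeries A, gvRho A π g ≠ 0 ∧
      gvEps A f ∈ modularFunctionFieldFullC L N ∧ gvEps A g ∈ modularFunctionFieldFullC L N ∧
      (x : LaurentSeries L) * gvEps A g = gvEps A f := by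
  by_cases h : gvRed A π (gvOFincl B ⟨x, hx⟩) = 0
  · have h1 : gvRed A π (1 + gvOFincl B ⟨x, hx⟩) ≠ 0 := by
      rw [map_add, map_one, h, add_zero]
      exact one_ne_zero
    have h2 : ((1 + gvOFincl B ⟨x, hx⟩ : ↥(gvO A π)) : LaurentSeries L) ∈
        modularFunctionFieldFullC L N := by
      show (1 : LaurentSeries L) + (x : LaurentSeries L) ∈ _
      exact add_mem (one_mem _) (gv_coe_mem_full N x)
    obtain ⟨f, g, -, hg, hfL, hgL, -, -, hrel, -⟩ := gv_unit_frac B hπ _ h2 h1
    refine ⟨f - g, g, hg, ?_, hgL, ?_⟩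
    · rw [map_sub]
      exact sub_mem hfL hgL
    · have hrel' : ((1 : LaurentSeries L) + (x : LaurentSeries L)) * gvEps A g = gvEps A f := hrel
      rw [map_sub, ← hrel']
      ring
  · obtain ⟨f, g, -, hg, hfL, hgL, -, -, hrel, -⟩ :=
      gv_unit_frac B hπ (gvOFincl B ⟨x, hx⟩) (gv_coe_mem_full N x) h
    exact ⟨f, g, hg, hfL, hgL, hrel⟩

end Rep

/-- the kernel of the reduction `A₁ → A → k` consists of non-units -/
theorem rho_ker (A : ValuationSubring (AlgebraicClosure ℚ))
    (K₁ : IntermediateField ℚ (AlgebraicClosure ℚ)) (a : ↥(descVal A K₁))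
    (ha : ((IsLocalRing.residue A).comp (descIncl A K₁)) a = 0) : ¬ IsUnit a := by
  intro hu
  have hu' : IsUnit (descIncl A K₁ a) := hu.map (descIncl A K₁)
  have : IsLocalRing.residue A (descIncl A K₁ a) = 0 := ha
  rw [IsLocalRing.residue_eq_zero_iff, IsLocalRing.mem_maximalIdeal] at this
  exact this hu'

/-- **R2-U, stage (C)**: descent to a number field. -/
theorem descendStatement : H18R2.DescendStatement := by
  classical
  intro N _ ℓ _ hℓN A hA B n hn m x hx m' a
  have hπ : ∀ c : A, IsLocalRing.residue A c ≠ 0 → ((c : AlgebraicClosure ℚ))⁻¹ ∈ A :=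
    gv_hpi_of_nonunit (gv_residue_nonunit A)
  -- representations
  have hrep : ∀ i, ∃ f g : LaurentSeries A, gvRho A (IsLocalRing.residue A) g ≠ 0 ∧
      gvEps A f ∈ modularFunctionFieldFullC (AlgebraicClosure ℚ) N ∧
      gvEps A g ∈ modularFunctionFieldFullC (AlgebraicClosure ℚ) N ∧
      ((x i : ↥(modularFunctionFieldBar N)) : LaurentSeries (AlgebraicClosure ℚ)) * gvEps A g =
        gvEps A f := fun i => rep_of_mem B hπ (x i) (hx i)
  choose f g hg hfL hgL hrel using hrep
  -- the number field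
  obtain ⟨Kf, hKf, hdf⟩ := desc_family (modularFunctionFieldFull N) (Finset.univ : Finset (Fin m))
    (fun i => gvEps A (f i)) (fun i _ => desc_of_mem (gv_mem_base_of_full N (hfL i)))
  obtain ⟨Kg, hKg, hdg⟩ := desc_family (modularFunctionFieldFull N) (Finset.univ : Finset (Fin m))
    (fun i => gvEps A (g i)) (fun i _ => desc_of_mem (gv_mem_base_of_full N (hgL i)))
  haveI : NeZero ((n : ℕ) : ℚ) := ⟨by exact_mod_cast hn.ne'⟩
  obtain ⟨ζ, hζ⟩ := HasEnoughRootsOfUnity.exists_primitiveRoot (AlgebraicClosure ℚ) n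
  haveI := hKf
  haveI := hKg
  haveI : FiniteDimensional ℚ ℚ⟮ζ⟯ := IntermediateField.adjoin.finiteDimensional (isIntegral_qbar ζ)
  haveI hKa : FiniteDimensional ℚ
      (IntermediateField.adjoin ℚ (Set.range (fun j => ((a j : ↥A) : AlgebraicClosure ℚ)))) :=
    IntermediateField.finiteDimensional_adjoin (fun y _ => isIntegral_qbar y)
  set K₁ : IntermediateField ℚ (AlgebraicClosure ℚ) :=
    (Kf ⊔ Kg) ⊔ (ℚ⟮ζ⟯ ⊔ IntermediateField.adjoin ℚ
      (Set.range (fun j => ((a j : ↥A) : AlgebraicClosure ℚ)))) with hK₁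
  have hKfle : Kf ≤ K₁ := le_sup_of_le_left le_sup_left
  have hKgle : Kg ≤ K₁ := le_sup_of_le_left le_sup_right
  have hζmem : ζ ∈ K₁ :=
    (le_sup_of_le_right le_sup_left : ℚ⟮ζ⟯ ≤ K₁) (IntermediateField.mem_adjoin_simple_self ℚ ζ)
  have hamem : ∀ j, ((a j : ↥A) : AlgebraicClosure ℚ) ∈ K₁ := fun j =>
    (le_sup_of_le_right le_sup_right : IntermediateField.adjoin ℚ
      (Set.range (fun j => ((a j : ↥A) : AlgebraicClosure ℚ))) ≤ K₁)
      (IntermediateField.subset_adjoin ℚ _ ⟨j, rfl⟩)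
  have hfin : FiniteDimensional ℚ K₁ := inferInstance
  refine ⟨K₁, hfin, ⟨⟨ζ, hζmem⟩, ?_⟩, hamem, ?_⟩
  · exact IsPrimitiveRoot.of_map_of_injective (f := algebraMap K₁ (AlgebraicClosure ℚ))
      (ζ := (⟨ζ, hζmem⟩ : K₁)) hζ (algebraMap K₁ (AlgebraicClosure ℚ)).injective
  intro algRF towRF ϖ hϖ t₁ hG i
  -- the DVR
  obtain ⟨hdvr, -, -⟩ := H4DVR.dvrStatement ℓ A hA K₁ hfin
  haveI := hdvr
  -- the descended series
  obtain ⟨F1, hF1mem, hF1eq⟩ := desc_enlarge hKfle (hdf i (Finset.mem_univ i))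
  obtain ⟨G1, hG1mem, hG1eq⟩ := desc_enlarge hKgle (hdg i (Finset.mem_univ i))
  have hFcoeff : ∀ k, algebraMap K₁ (AlgebraicClosure ℚ) (F1.coeff k)
      = (((f i).coeff k : A) : AlgebraicClosure ℚ) := by
    intro k
    have := congrArg (fun s => HahnSeries.coeff s k) hF1eq
    exact this
  have hGcoeff : ∀ k, algebraMap K₁ (AlgebraicClosure ℚ) (G1.coeff k)
      = (((g i).coeff k : A) : AlgebraicClosure ℚ) := by
    intro k
    have := congrArg (fun s => HahnSeries.coeff s k) hG1eq
    exact this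
  have hFmem : ∀ k, F1.coeff k ∈ descVal A K₁ := by
    intro k
    show algebraMap K₁ (AlgebraicClosure ℚ) (F1.coeff k) ∈ A
    rw [hFcoeff]
    exact ((f i).coeff k).2
  have hGmem : ∀ k, G1.coeff k ∈ descVal A K₁ := by
    intro k
    show algebraMap K₁ (AlgebraicClosure ℚ) (G1.coeff k) ∈ A
    rw [hGcoeff]
    exact ((g i).coeff k).2
  set f' : LaurentSeries (descVal A K₁) := liftSeries (descVal A K₁) F1 hFmem with hf'
  set g' : LaurentSeries (descVal A K₁) := liftSeries (descVal A K₁) G1 hGmem with hg'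
  have hf'ε : coeffMap (descVal A K₁).subtype f' = F1 := coeffMap_subtype_liftSeries _ _ _
  have hg'ε : coeffMap (descVal A K₁).subtype g' = G1 := coeffMap_subtype_liftSeries _ _ _
  have hf'incl : coeffMap (descIncl A K₁) f' = f i := by
    ext k
    exact hFcoeff k
  have hg'incl : coeffMap (descIncl A K₁) g' = g i := by
    ext k
    exact hGcoeff k
  have hρg' : coeffMap ((IsLocalRing.residue A).comp (descIncl A K₁)) g' ≠ 0 := by
    rw [← coeffMap_coeffMap, hg'incl]
    exact hg i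
  have hεg0 : gvEps A (g i) ≠ 0 := gvEps_ne_zero_of_rho A (IsLocalRing.residue A) (g i) (hg i)
  have hG10 : G1 ≠ 0 := by
    intro h0
    apply hεg0
    rw [← hG1eq, h0, map_zero]
  -- the element `x₁ = F1 / G1`
  set eF : FK K₁ N := ⟨F1, hF1mem⟩ with heF
  set eG : FK K₁ N := ⟨G1, hG1mem⟩ with heG
  have heG0 : eG ≠ 0 := fun h => hG10 (congrArg Subtype.val h)
  have hcoe : ((eF / eG : FK K₁ N) : LaurentSeries K₁) = F1 / G1 := rfl
  have hmulG : ((eF / eG : FK K₁ N) : LaurentSeries K₁) * G1 = F1 := by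
    rw [hcoe, div_mul_cancel₀ _ hG10]
  refine ⟨eF / eG, ?_, ?_, ?_⟩
  · rw [hcoe, map_div₀, hF1eq, hG1eq, eq_div_iff hεg0]
    exact hrel i
  · refine hG f' g' (eF / eG) hρg' ?_
    rw [hf'ε, hg'ε]
    exact hmulG
  · intro hred
    -- `ρ f = 0`
    have hred' : gvRed A (IsLocalRing.residue A) (gvOFincl B ⟨x i, hx i⟩) = 0 := by
      have := congrArg (fun z : ↥(modularFunctionFieldFullC (IsLocalRing.ResidueField A) N) =>
        (z : LaurentSeries (IsLocalRing.ResidueField A))) hred
      exact this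
    have hρf : gvRho A (IsLocalRing.residue A) (f i) = 0 := by
      have h1 := gvRed_eq A (IsLocalRing.residue A) (gvOFincl B ⟨x i, hx i⟩) (f i) (g i) (hg i)
        (hrel i)
      rw [hred'] at h1
      have h2 := h1.symm
      rw [div_eq_zero_iff] at h2
      rcases h2 with h2 | h2
      · exact h2
      · exact absurd h2 (hg i)
    have hρf' : coeffMap ((IsLocalRing.residue A).comp (descIncl A K₁)) f' = 0 := by
      rw [← coeffMap_coeffMap, hf'incl]
      exact hρf
    obtain ⟨W, hW⟩ := h7_exists_div_unif (descVal A K₁) ϖ hϖ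
      ((IsLocalRing.residue A).comp (descIncl A K₁)) (rho_ker A K₁) f' hρf'
    rw [hf'ε] at hW
    have hϖ0 : ((ϖ : ↥(descVal A K₁)) : K₁) ≠ 0 := fun h => hϖ.ne_zero (Subtype.ext h)
    have hπF : algebraMap ↥(descVal A K₁) (FK K₁ N) ϖ ≠ 0 := by
      rw [IsScalarTower.algebraMap_apply ↥(descVal A K₁) K₁ (FK K₁ N)]
      exact (_root_.map_ne_zero _).2 hϖ0
    have hπcoe : ((algebraMap ↥(descVal A K₁) (FK K₁ N) ϖ : FK K₁ N) : LaurentSeries K₁) =
        HahnSeries.single 0 ((ϖ : ↥(descVal A K₁)) : K₁) := by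
      rw [IsScalarTower.algebraMap_apply ↥(descVal A K₁) K₁ (FK K₁ N)]
      show algebraMap K₁ (LaurentSeries K₁) (algebraMap ↥(descVal A K₁) K₁ ϖ) = _
      rw [algebraMap_laurentSeries_eq_single]
      rfl
    have hs0 : (HahnSeries.single (0 : ℤ) ((ϖ : ↥(descVal A K₁)) : K₁)) ≠ 0 := by
      simpa using hϖ0
    refine ⟨(eF / eG) * (algebraMap ↥(descVal A K₁) (FK K₁ N) ϖ)⁻¹, hG W g' _ hρg' ?_, ?_⟩
    · have h1 : (((eF / eG) * (algebraMap ↥(descVal A K₁) (FK K₁ N) ϖ)⁻¹ : FK K₁ N) :
          LaurentSeries K₁) = (F1 / G1) *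
            ((algebraMap ↥(descVal A K₁) (FK K₁ N) ϖ : FK K₁ N) : LaurentSeries K₁)⁻¹ := rfl
      rw [h1, hπcoe, hg'ε, hW]
      field_simp
    · rw [sub_zero]
      field_simp

end H1DSC

end
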