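/-
helper18: item 79 (S37), slice R2-U, stage (A): `LiftCoreStatement`, the transfer of
`InChartAt` over the DVR `R₁` (number field level) to the `LocalLiftAt` conclusion over `L`.
-/
import Mathlib
import Fermat.Agent.S37.R2DefsC_helper18
import Fermat.Agent.S37.R2Basic_helper18

set_option autoImplicit false
set_option linter.unusedSectionVars false
set_option linter.style.haveILetI false

noncomputable section

open Polynomial IntermediateField AlgebraicCurve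

namespace H18R2

open H9S18 (ValAt IsDivOf)
open H7S18

section Core

variable {R₁ : Type} [CommRing R₁]
  {K₁ : Type} [Field K₁] [Algebra R₁ K₁]
  {L : Type} [Field L] [Algebra K₁ L]
  {F₁ : Type} [Field F₁] [Algebra K₁ F₁] [Algebra R₁ F₁] [IsScalarTower R₁ K₁ F₁]
  {F : Type} [Field F] [Algebra L F] [Algebra K₁ F] [IsScalarTower K₁ L F]
  [Algebra F₁ F] [IsScalarTower K₁ F₁ F]
  {k Fb : Type} [Field k] [Field Fb] [Algebra k Fb]

/-- the inclusion `R₁ → A` -/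
def lcIota (R : PreDatum L F k Fb)
    (hR₁A : ∀ a : R₁, algebraMap K₁ L (algebraMap R₁ K₁ a) ∈ R.A) : R₁ →+* R.A where
  toFun a := ⟨algebraMap K₁ L (algebraMap R₁ K₁ a), hR₁A a⟩
  map_one' := by ext; simp
  map_mul' x y := by ext; simp
  map_zero' := by ext; simp
  map_add' x y := by ext; simp

theorem lc_comp (R : PreDatum L F k Fb)
    (hR₁A : ∀ a : R₁, algebraMap K₁ L (algebraMap R₁ K₁ a) ∈ R.A) :
    (algebraMap F₁ F).comp (algebraMap R₁ F₁) =
      (R.O.subtype.comp R.constHom).comp (lcIota R hR₁A) := by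
  ext a
  show algebraMap F₁ F (algebraMap R₁ F₁ a) =
    algebraMap L F (algebraMap K₁ L (algebraMap R₁ K₁ a))
  rw [IsScalarTower.algebraMap_apply R₁ K₁ F₁, ← IsScalarTower.algebraMap_apply K₁ F₁ F,
    ← IsScalarTower.algebraMap_apply K₁ L F]

/-- **Lemma A** -/
theorem lc_aeval (R : PreDatum L F k Fb)
    (hR₁A : ∀ a : R₁, algebraMap K₁ L (algebraMap R₁ K₁ a) ∈ R.A)
    {t₁ : F₁} (ht : algebraMap F₁ F t₁ ∈ R.O) (p : R₁[X]) :
    algebraMap F₁ F (aeval t₁ p) =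
      (((p.map (lcIota R hR₁A)).eval₂ R.constHom ⟨algebraMap F₁ F t₁, ht⟩ : R.O) : F) := by
  have h1 : (((p.map (lcIota R hR₁A)).eval₂ R.constHom ⟨algebraMap F₁ F t₁, ht⟩ : R.O) : F) =
      R.O.subtype ((p.map (lcIota R hR₁A)).eval₂ R.constHom ⟨algebraMap F₁ F t₁, ht⟩) := rfl
  rw [h1, Polynomial.hom_eval₂, eval₂_map, ← lc_comp (F₁ := F₁) R hR₁A, aeval_def,
    Polynomial.hom_eval₂]
  rfl

theorem lc_aeval_mem (R : PreDatum L F k Fb)
    (hR₁A : ∀ a : R₁, algebraMap K₁ L (algebraMap R₁ K₁ a) ∈ R.A)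
    {t₁ : F₁} (ht : algebraMap F₁ F t₁ ∈ R.O) (p : R₁[X]) :
    algebraMap F₁ F (aeval t₁ p) ∈ R.O := by
  rw [lc_aeval R hR₁A ht]
  exact Subtype.property _

theorem lc_red_aeval (R : PreDatum L F k Fb)
    (hR₁A : ∀ a : R₁, algebraMap K₁ L (algebraMap R₁ K₁ a) ∈ R.A)
    {t₁ : F₁} (ht : algebraMap F₁ F t₁ ∈ R.O) (p : R₁[X])
    (h : algebraMap F₁ F (aeval t₁ p) ∈ R.O) :
    R.red ⟨algebraMap F₁ F (aeval t₁ p), h⟩ =
      aeval (R.red ⟨algebraMap F₁ F t₁, ht⟩) (p.map (R.π.comp (lcIota R hR₁A))) := by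
  have h : (⟨algebraMap F₁ F (aeval t₁ p), h⟩ : R.O) =
      (p.map (lcIota R hR₁A)).eval₂ R.constHom ⟨algebraMap F₁ F t₁, ht⟩ :=
    Subtype.ext (lc_aeval R hR₁A ht p)
  rw [h, R.red_eval₂, Polynomial.map_map]

/-- the image of the chart ring `R₁[t₁]` lies in the chart ring `A[t]` -/
theorem lc_mem_chartRing (R : PreDatum L F k Fb)
    (hR₁A : ∀ a : R₁, algebraMap K₁ L (algebraMap R₁ K₁ a) ∈ R.A)
    {t₁ : F₁} (s : F₁) (hs : s ∈ Algebra.adjoin R₁ {t₁}) :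
    algebraMap F₁ F s ∈ chartRing R (algebraMap F₁ F t₁) := by
  rw [Algebra.adjoin_singleton_eq_range_aeval] at hs
  obtain ⟨p, rfl⟩ := hs
  show algebraMap F₁ F (aeval t₁ p) ∈ _
  rw [aeval_def, Polynomial.hom_eval₂, lc_comp (F₁ := F₁) R hR₁A, eval₂_eq_sum_range]
  refine Subring.sum_mem _ fun i _ => Subring.mul_mem _ ?_ (Subring.pow_mem _ ?_ _)
  · exact Subring.subset_closure (Or.inl ⟨lcIota R hR₁A (p.coeff i), rfl⟩)
  · exact Subring.subset_closure (Or.inr rfl)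

/-- the map of chart rings -/
def lcChartHom (R : PreDatum L F k Fb)
    (hR₁A : ∀ a : R₁, algebraMap K₁ L (algebraMap R₁ K₁ a) ∈ R.A) (t₁ : F₁) :
    Algebra.adjoin R₁ {t₁} →+* chartRing R (algebraMap F₁ F t₁) where
  toFun s := ⟨algebraMap F₁ F (s : F₁), lc_mem_chartRing R hR₁A (s : F₁) s.2⟩
  map_one' := by ext; simp
  map_mul' x y := by ext; simp
  map_zero' := by ext; simp
  map_add' x y := by ext; simp

/-- **Lemma C** -/
theorem lc_intChart (R : PreDatum L F k Fb)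
    (hR₁A : ∀ a : R₁, algebraMap K₁ L (algebraMap R₁ K₁ a) ∈ R.A)
    {t₁ a₁ : F₁} (ha : IsInt R₁ t₁ a₁) :
    IntChart R (algebraMap F₁ F t₁) (algebraMap F₁ F a₁) := by
  refine IsIntegral.map_of_comp_eq (lcChartHom R hR₁A t₁) (algebraMap F₁ F) ?_ ha
  ext s
  rfl

end Core

/-- in a DVR, an element not divisible by the uniformizer is a unit -/
theorem lc_isUnit_of_not_dvd {R₁ : Type} [CommRing R₁] [IsDomain R₁]
    [IsDiscreteValuationRing R₁] {ϖ : R₁} (hϖ : Irreducible ϖ) {a : R₁} (h : ¬ ϖ ∣ a) :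
    IsUnit a := by
  by_contra hu
  have h1 : a ∈ IsLocalRing.maximalIdeal R₁ := (IsLocalRing.mem_maximalIdeal a).mpr hu
  rw [hϖ.maximalIdeal_eq, Ideal.mem_span_singleton] at h1
  exact h h1

/-- **(A)** `LiftCoreStatement`, proved. -/
theorem h18r2_liftCore : LiftCoreStatement := by
  intro R₁ _ _ _ K₁ _ _ _ _ L _ _ F₁ _ _ _ _ F _ _ _ _ _ _ k Fb _ _ _ R ϖ hϖ t₁ ht₁ ht htk hR₁A
    hϖ0 c₁ 𝔪 hϖ𝔪 hc𝔪 h𝔪top x₁ hin hx
  classical
  have htR : Transcendental R₁ t₁ := H21S18.transcendental_base (K := K₁) ht₁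
  set ι : R₁ →+* R.A := lcIota R hR₁A with hι
  set T : R.O := ⟨algebraMap F₁ F t₁, ht⟩ with hT
  have hπι0 : ∀ a : R₁, ϖ ∣ a → R.π (ι a) = 0 := by
    rintro a ⟨b, rfl⟩
    rw [map_mul, map_mul]
    have : R.π (ι ϖ) = 0 := hϖ0
    rw [this, zero_mul]
  have hπιu : ∀ a : R₁, ¬ ϖ ∣ a → R.π (ι a) ≠ 0 := by
    intro a ha
    exact (((lc_isUnit_of_not_dvd hϖ ha).map ι).map R.π).ne_zero
  -- Gauss units have nonzero reduction
  have hgu : ∀ s : F₁, IsGaussUnit R₁ ϖ t₁ s → ∃ hs : algebraMap F₁ F s ∈ R.O,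
      R.red ⟨algebraMap F₁ F s, hs⟩ ≠ 0 := by
    intro s hs
    obtain ⟨p, rfl⟩ := H21S18.exists_poly_of_mem hs.1
    have hp : ¬ (C ϖ ∣ p) := (H21S18.isGaussUnit_aeval_iff htR p).mp hs
    refine ⟨lc_aeval_mem R hR₁A ht p, ?_⟩
    rw [lc_red_aeval R hR₁A ht p]
    have hp0 : p.map (R.π.comp ι) ≠ 0 := by
      intro h0
      apply hp
      rw [Polynomial.C_dvd_iff_dvd_coeff]
      intro i
      by_contra hi
      have := hπιu (p.coeff i) hi
      apply this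
      have h1 := congrArg (fun q => Polynomial.coeff q i) h0
      simpa using h1
    intro h0
    exact hp0 ((transcendental_iff_injective.mp htk) (by rw [h0, map_zero]))
  -- Lemma B
  have hB : ∀ z : F₁, GInt R₁ ϖ t₁ z → algebraMap F₁ F z ∈ R.O := by
    rintro z ⟨s, hs, hsz⟩
    obtain ⟨hsO, hsred⟩ := hgu s hs
    have h1 : algebraMap F₁ F (s * z) ∈ R.O := (lc_intChart R hR₁A hsz).mem_O R ht
    have h2 : (algebraMap F₁ F s)⁻¹ ∈ R.O := R.inv_mem_of_red_ne_zero hsO hsred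
    have hs0 : algebraMap F₁ F s ≠ 0 := by
      intro h0
      apply hsred
      have : (⟨algebraMap F₁ F s, hsO⟩ : R.O) = 0 := Subtype.ext h0
      rw [this, map_zero]
    have h3 : algebraMap F₁ F z = (algebraMap F₁ F s)⁻¹ * algebraMap F₁ F (s * z) := by
      rw [map_mul, ← mul_assoc, inv_mul_cancel₀ hs0, one_mul]
    rw [h3]
    exact R.O.mul_mem _ _ h2 h1
  -- the chart data
  obtain ⟨s, hs𝔪, a₁, ha₁, z, hz, hsz⟩ := hin
  obtain ⟨p, hp⟩ := H21S18.exists_poly_of_mem s.2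
  have hsO : algebraMap F₁ F (s : F₁) ∈ R.O := by
    rw [← hp]
    exact lc_aeval_mem R hR₁A ht p
  have haO : algebraMap F₁ F a₁ ∈ R.O := (lc_intChart R hR₁A ha₁).mem_O R ht
  have hzO : algebraMap F₁ F z ∈ R.O := hB z hz
  refine ⟨algebraMap F₁ F a₁, haO, R.red ⟨algebraMap F₁ F (s : F₁), hsO⟩,
    lc_intChart R hR₁A ha₁, ?_, ?_, ?_⟩
  · -- the congruence
    have hϖF : algebraMap F₁ F (algebraMap R₁ F₁ ϖ) = ((R.constHom (ι ϖ) : R.O) : F) := by
      have := congrArg (fun f : R₁ →+* F => f ϖ) (lc_comp (F₁ := F₁) R hR₁A)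
      exact this
    have h1 : (⟨algebraMap F₁ F (s : F₁), hsO⟩ : R.O) * ⟨algebraMap F₁ F x₁, hx⟩ -
        ⟨algebraMap F₁ F a₁, haO⟩ = R.constHom (ι ϖ) * ⟨algebraMap F₁ F z, hzO⟩ := by
      apply Subtype.ext
      show algebraMap F₁ F (s : F₁) * algebraMap F₁ F x₁ - algebraMap F₁ F a₁ =
        ((R.constHom (ι ϖ) : R.O) : F) * algebraMap F₁ F z
      rw [← hϖF, ← map_mul, ← map_mul, ← map_sub, hsz]
    have h2 := congrArg R.red h1
    rw [map_sub, map_mul, map_mul, R.red_constHom] at h2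
    have h3 : R.π (ι ϖ) = 0 := hϖ0
    rw [h3, map_zero, zero_mul, sub_eq_zero] at h2
    exact h2.symm
  all_goals
    have hpc : ¬ ϖ ∣ p.eval c₁ := by
      intro hdvd
      apply hs𝔪
      obtain ⟨q, hq⟩ := Polynomial.dvd_iff_isRoot.mpr
        (show (p - C (p.eval c₁)).IsRoot c₁ by simp)
      obtain ⟨b, hb⟩ := hdvd
      have hpq : p = (X - C c₁) * q + C ϖ * C b := by
        rw [← hq, ← C_mul, ← hb]
        ring
      have hmem1 : (⟨aeval t₁ (X - C c₁), H21S18.aeval_mem t₁ _⟩ : Algebra.adjoin R₁ {t₁}) ∈ 𝔪 :=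
        hc𝔪 _ (by simp)
      have hs_eq : s = ⟨aeval t₁ (X - C c₁), H21S18.aeval_mem t₁ _⟩ *
          ⟨aeval t₁ q, H21S18.aeval_mem t₁ _⟩ +
          algebraMap R₁ (Algebra.adjoin R₁ {t₁}) ϖ * algebraMap R₁ (Algebra.adjoin R₁ {t₁}) b := by
        apply Subtype.ext
        show (s : F₁) = aeval t₁ (X - C c₁) * aeval t₁ q + algebraMap R₁ F₁ ϖ * algebraMap R₁ F₁ b
        rw [← hp, hpq]
        simp
      rw [hs_eq]
      exact 𝔪.add_mem (𝔪.mul_mem_right _ hmem1) (𝔪.mul_mem_right _ hϖ𝔪)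
    have hval : (p.map (R.π.comp ι)).eval (R.π (ι c₁)) ≠ 0 := by
      have : (p.map (R.π.comp ι)).eval (R.π (ι c₁)) = R.π (ι (p.eval c₁)) := by
        rw [Polynomial.eval_map]
        exact Polynomial.eval₂_at_apply (R.π.comp ι) c₁
      rw [this]
      exact hπιu _ hpc
    have hred : R.red ⟨algebraMap F₁ F (s : F₁), hsO⟩ =
        aeval (R.red T) (p.map (R.π.comp ι)) := by
      have heq : (⟨algebraMap F₁ F (s : F₁), hsO⟩ : R.O) =
          ⟨algebraMap F₁ F (aeval t₁ p), lc_aeval_mem R hR₁A ht p⟩ :=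
        Subtype.ext (congrArg (algebraMap F₁ F) hp.symm)
      rw [heq]
      exact lc_red_aeval R hR₁A ht p (lc_aeval_mem R hR₁A ht p)
  · rw [hred]
    intro h0
    have hp0 : p.map (R.π.comp ι) = 0 :=
      (transcendental_iff_injective.mp htk) (by rw [h0, map_zero])
    rw [hp0] at hval
    simp at hval
  · intro Q hQ
    rw [hred]
    exact (valAt_aeval Q hQ (p.map (R.π.comp ι))).ord_eq_zero Q hval

end H18R2

end
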