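/-
Item 79 (S37), slice R2, stage B1 (helper2): abstract local normality at an unramified point.

`R` DVR with fraction field `K₁` (char 0), `L ⊇ K₁` algebraically closed and algebraic over `K₁`,
`F₁ / K₁(t)` finite with unramified Gauss prime, `F' = L · F₁`; outside the branch set `S ⊆ ℤ`
the extension `F' / L(t)` is unramified; `𝔪 ∋ ϖ, t - c₁` a maximal ideal of `R[t]` with
`c₁ - c ∈ Rˣ` for all `c ∈ S`.  Then `GInt x ∧ IntModPi x ⟹ InChartAt 𝔪 x`.

Proof: places of `F₁ / K₁` through `𝔪` extend to places of `F' / L` (C6c) which are not over a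
branch point, hence are unramified over `L(t)`; the uniformizer descends to `K₁[t]`
(`H19S18.h19_exists_descended_uniformizer`); then `H18R2.h18r2_localNormalUnr`.
-/
import Mathlib
import Fermat.Agent.S37.R2LN_helper18
import Fermat.Agent.S37.R2DefsC_helper18
import Fermat.Agent.S18.C12aGlue_helper19
import Fermat.Agent.S18.C6c_helper1

set_option autoImplicit false
set_option linter.unusedSectionVars false
set_option linter.style.haveILetI false

namespace H2R2U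

open Polynomial IntermediateField AlgebraicCurve H7S18

/-- the places of `F₁ / K₁` through `𝔪` are unramified over `K₁(t)` -/
theorem places_unr
    (R : Type) [CommRing R] [IsDomain R] [IsDiscreteValuationRing R]
    (K₁ : Type) [Field K₁] [CharZero K₁] [Algebra R K₁] [IsFractionRing R K₁]
    (L : Type) [Field L] [Algebra K₁ L] [IsAlgClosed L] [Algebra.IsAlgebraic K₁ L]
    (F₁ : Type) [Field F₁] [Algebra K₁ F₁] [Algebra R F₁] [IsScalarTower R K₁ F₁]
    (F' : Type) [Field F'] [Algebra L F'] [Algebra K₁ F'] [IsScalarTower K₁ L F']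
    [Algebra F₁ F'] [IsScalarTower K₁ F₁ F'] [Algebra.IsAlgebraic F₁ F']
    (t : F₁) (ht : Transcendental K₁ t)
    (hfin : FiniteDimensional K₁⟮t⟯ F₁)
    (hfin' : FiniteDimensional L⟮algebraMap F₁ F' t⟯ F')
    (S : Finset ℤ) (hUO : UnrOutside ℤ L S (algebraMap F₁ F' t))
    (c₁ : R) (hc₁ : ∀ c ∈ S, IsUnit (c₁ - ((c : ℤ) : R)))
    (𝔪 : Ideal (Algebra.adjoin R {t})) (h𝔪 : 𝔪.IsMaximal)
    (hc𝔪 : ∀ s : Algebra.adjoin R {t}, (s : F₁) = t - algebraMap R F₁ c₁ → s ∈ 𝔪)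
    (V : Place K₁ F₁) (hV : Through R K₁ t 𝔪 V) :
    ∃ Q : K₁[X], V.ord (Polynomial.aeval t Q) = 1 := by
  classical
  obtain ⟨hVt, hVc⟩ := hV
  have htK' : Transcendental K₁ (algebraMap F₁ F' t) :=
    (transcendental_algebraMap_iff (algebraMap F₁ F').injective).mpr ht
  have htL' : Transcendental L (algebraMap F₁ F' t) := htK'.extendScalars L
  obtain ⟨W', ε, hε, hW'⟩ := H1S18.placeDescent K₁ L F₁ F' t ht hfin hfin' V
  have hεZ : (0 : ℤ) < ε := by exact_mod_cast hε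
  have h1 : 0 ≤ W'.ord (algebraMap F₁ F' t) := by
    rw [hW']
    exact mul_nonneg hεZ.le hVt
  have hcastF' : ∀ c : ℤ, algebraMap ℤ F' c = algebraMap F₁ F' ((c : ℤ) : F₁) := by
    intro c
    rw [map_intCast, eq_intCast]
  have h2 : ∀ c ∈ S, W'.ord (algebraMap F₁ F' t - algebraMap ℤ F' c) ≤ 0 := by
    intro c hc
    rw [hcastF', ← map_sub, hW']
    apply mul_nonpos_of_nonneg_of_nonpos hεZ.le
    by_contra hpos
    rw [not_le] at hpos
    -- `t - c ∈ 𝔪` and `t - c₁ ∈ 𝔪`, so the unit `c₁ - c` lies in `𝔪`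
    have hmemt : t ∈ Algebra.adjoin R {t} := Algebra.self_mem_adjoin_singleton R t
    have hs1mem : t - algebraMap R F₁ ((c : ℤ) : R) ∈ Algebra.adjoin R {t} :=
      sub_mem hmemt (Subalgebra.algebraMap_mem _ _)
    have hs2mem : t - algebraMap R F₁ c₁ ∈ Algebra.adjoin R {t} :=
      sub_mem hmemt (Subalgebra.algebraMap_mem _ _)
    have hcast : algebraMap R F₁ ((c : ℤ) : R) = ((c : ℤ) : F₁) := map_intCast _ _
    have hs1 : (⟨_, hs1mem⟩ : Algebra.adjoin R {t}) ∈ 𝔪 := by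
      apply hVc
      show 0 < V.ord (t - algebraMap R F₁ ((c : ℤ) : R))
      rw [hcast]
      exact hpos
    have hs2 : (⟨_, hs2mem⟩ : Algebra.adjoin R {t}) ∈ 𝔪 := hc𝔪 _ rfl
    have hdiff : algebraMap R (Algebra.adjoin R {t}) (c₁ - ((c : ℤ) : R)) ∈ 𝔪 := by
      have h3 : algebraMap R (Algebra.adjoin R {t}) (c₁ - ((c : ℤ) : R))
          = (⟨_, hs1mem⟩ : Algebra.adjoin R {t}) - ⟨_, hs2mem⟩ := by
        apply Subtype.ext
        show algebraMap R F₁ (c₁ - ((c : ℤ) : R)) = (t - algebraMap R F₁ ((c : ℤ) : R))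
          - (t - algebraMap R F₁ c₁)
        rw [map_sub]
        ring
      rw [h3]
      exact 𝔪.sub_mem hs1 hs2
    have hunit : IsUnit (algebraMap R (Algebra.adjoin R {t}) (c₁ - ((c : ℤ) : R))) :=
      (hc₁ c hc).map _
    exact h𝔪.ne_top (Ideal.eq_top_of_isUnit_mem _ hdiff hunit)
  obtain ⟨Q', hQ'⟩ := hUO W' h1 h2
  obtain ⟨Q₀, hQ₀⟩ := H19S18.h19_exists_descended_uniformizer W' K₁ htL' h1 Q' hQ'
  refine ⟨Q₀, ?_⟩
  rw [aeval_algebraMap_apply, hW'] at hQ₀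
  exact H19S18.h19_eq_one_of_natCast_mul_eq_one hQ₀

/-- **B1**: abstract local normality at an unramified point. -/
theorem absLocalUnr : H18R2.AbsLocalUnrStatement := by
  intro R _ _ _ K₁ _ _ _ _ L _ _ _ _ F₁ _ _ _ _ F' _ _ _ _ _ _ _ ϖ hϖ t ht hfin hfin' hunr
    S hUO c₁ hc₁ 𝔪 h𝔪 hϖ𝔪 hc𝔪 x hx hxx
  exact H18R2.h18r2_localNormalUnr R K₁ F₁ ϖ hϖ t ht hfin hunr 𝔪 h𝔪 hϖ𝔪
    (fun V hV => places_unr R K₁ L F₁ F' t ht hfin hfin' S hUO c₁ hc₁ 𝔪 h𝔪 hc𝔪 V hV) x hx hxx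

end H2R2U
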