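/-
helper27: item 79 (S37), slice R2-U, stage B3 = abstract local normality at a TAME branch point,
with the horizontal data given over the algebraic closure `L` of `K₁` (as delivered by C8).

`h27_absLocalTame` : `R` DVR, `K₁ = Frac R`, `L / K₁` algebraic, algebraically closed,
`F₁ / K₁(t)` finite with unramified Gauss prime, `F' = L F₁`; the places of `F' / L` are
unramified over `L(t)` outside the branch set `S ⊆ ℤ` (pairwise distinct modulo `ϖ`), and tame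
(ramification index dividing `e₀ ∈ Rˣ`) over `c₀ ∈ S`.  Then every `x ∈ O_{F₁}` which is integral
over `R[t]` modulo `ϖ` lies in `(M₀ / ϖ)_𝔪` for `𝔪 = (ϖ, t - c₀)`.

Proof: descent of places `F₁ → F'` (`H1S18.placeDescent`) + `H18R2.h18r2_localNormalTame`.
-/
import Mathlib
import Fermat.Agent.S37.R2LN_helper18
import Fermat.Agent.S18.C6c_helper1
import Fermat.Agent.S18.C12aOrd_helper19
import Fermat.Agent.S37.R2DefsC_helper18

set_option autoImplicit false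
set_option linter.unusedSectionVars false
set_option linter.style.haveILetI false

namespace H27R2U

open Polynomial IntermediateField AlgebraicCurve H7S18

/-- `ε * n = 1` with `ε : ℕ` forces `n = 1`. -/
theorem eq_one_of_natCast_mul_eq_one {ε : ℕ} {n : ℤ} (h : (ε : ℤ) * n = 1) : n = 1 := by
  rcases Int.mul_eq_one_iff_eq_one_or_neg_one.mp h with ⟨-, h2⟩ | ⟨h1, -⟩
  · exact h2
  · omega

section

variable (R : Type) [CommRing R] [IsDomain R] [IsDiscreteValuationRing R]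
  (K₁ : Type) [Field K₁] [CharZero K₁] [Algebra R K₁] [IsFractionRing R K₁]
  (L : Type) [Field L] [Algebra K₁ L] [IsAlgClosed L] [Algebra.IsAlgebraic K₁ L]
  (F₁ : Type) [Field F₁] [Algebra K₁ F₁] [Algebra R F₁] [IsScalarTower R K₁ F₁]
  (F' : Type) [Field F'] [Algebra L F'] [Algebra K₁ F'] [IsScalarTower K₁ L F']
  [Algebra F₁ F'] [IsScalarTower K₁ F₁ F'] [Algebra.IsAlgebraic F₁ F']

/-- comparison of places: every place of `F₁ / K₁` is the restriction of a place of `F' / L`. -/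
theorem place_key (t : F₁) (ht : Transcendental K₁ t)
    (hfin : FiniteDimensional K₁⟮t⟯ F₁)
    (hfin' : FiniteDimensional L⟮algebraMap F₁ F' t⟯ F') (V : Place K₁ F₁) :
    ∃ (W' : Place L F') (ε : ℕ), 0 < ε ∧
      ∀ f : F₁, W'.ord (algebraMap F₁ F' f) = ε * V.ord f :=
  H1S18.placeDescent K₁ L F₁ F' t ht hfin hfin' V

/-- a place through `𝔪 ∋ t - c₀` has `ord (t - c) ≤ 0` for the other branch points `c`. -/
theorem ord_other_le (t : F₁)
    (𝔪 : Ideal (Algebra.adjoin R {t})) (h𝔪 : 𝔪.IsMaximal)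
    (c₀ c : R) (hu : IsUnit (c - c₀))
    (hc : ∀ s : Algebra.adjoin R {t}, (s : F₁) = t - algebraMap R F₁ c₀ → s ∈ 𝔪)
    (V : Place K₁ F₁) (hV : Through R K₁ t 𝔪 V) :
    V.ord (t - algebraMap R F₁ c) ≤ 0 := by
  by_contra hpos
  rw [not_le] at hpos
  have htmem : t ∈ Algebra.adjoin R {t} := Algebra.subset_adjoin (Set.mem_singleton t)
  let T : Algebra.adjoin R {t} := ⟨t, htmem⟩
  have h1 : T - algebraMap R (Algebra.adjoin R {t}) c ∈ 𝔪 := by
    apply hV.2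
    have : (((T - algebraMap R (Algebra.adjoin R {t}) c : Algebra.adjoin R {t})) : F₁) =
        t - algebraMap R F₁ c := rfl
    rw [this]
    exact hpos
  have h2 : T - algebraMap R (Algebra.adjoin R {t}) c₀ ∈ 𝔪 := hc _ rfl
  have h3 : algebraMap R (Algebra.adjoin R {t}) (c - c₀) ∈ 𝔪 := by
    have : algebraMap R (Algebra.adjoin R {t}) (c - c₀) =
        (T - algebraMap R (Algebra.adjoin R {t}) c₀) -
          (T - algebraMap R (Algebra.adjoin R {t}) c) := by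
      rw [map_sub]; ring
    rw [this]
    exact 𝔪.sub_mem h2 h1
  exact h𝔪.ne_top (Ideal.eq_top_of_isUnit_mem _ h3 (hu.map _))

set_option maxHeartbeats 1000000 in
/-- **B3, explicit form.** -/
theorem h27_absLocalTame
    (ϖ : R) (hϖ : Irreducible ϖ) (t : F₁) (ht : Transcendental K₁ t)
    (hfin : FiniteDimensional K₁⟮t⟯ F₁)
    (hfin' : FiniteDimensional L⟮algebraMap F₁ F' t⟯ F')
    (hunr : UnrGauss R K₁ ϖ t)
    (S : Finset ℤ) (hS1 : ∀ c ∈ S, ∀ c' ∈ S, c ≠ c' → IsUnit ((c - c' : ℤ) : R))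
    (e₀ : ℕ) (he₀ : IsUnit (e₀ : R)) (hζ : ∃ ζ : R, IsPrimitiveRoot ζ e₀)
    (hUO : UnrOutside ℤ L S (algebraMap F₁ F' t))
    (c₀ : ℤ) (hc₀ : c₀ ∈ S)
    (hTA : ∀ W : Place L F', 0 < W.ord (algebraMap F₁ F' t - algebraMap ℤ F' c₀) →
      W.ord (algebraMap F₁ F' t - algebraMap ℤ F' c₀) ∣ (e₀ : ℤ))
    (𝔪 : Ideal (Algebra.adjoin R {t})) (h𝔪 : 𝔪.IsMaximal)
    (hϖ𝔪 : algebraMap R (Algebra.adjoin R {t}) ϖ ∈ 𝔪)
    (hc : ∀ s : Algebra.adjoin R {t}, (s : F₁) = t - algebraMap R F₁ ((c₀ : ℤ) : R) → s ∈ 𝔪)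
    (x : F₁) (hx : GInt R ϖ t x) (hxx : H18R2.IntModPi R ϖ t x) :
    InChartAt R ϖ t 𝔪 x := by
  classical
  have htK' : Transcendental K₁ (algebraMap F₁ F' t) :=
    (transcendental_algebraMap_iff (algebraMap F₁ F').injective).mpr ht
  have htL' : Transcendental L (algebraMap F₁ F' t) := htK'.extendScalars L
  haveI : CharZero L := charZero_of_injective_algebraMap (algebraMap K₁ L).injective
  have key := place_key K₁ L F₁ F' t ht hfin hfin'
  have hcastR : ∀ c : ℤ, algebraMap R F₁ ((c : ℤ) : R) = ((c : ℤ) : F₁) := by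
    intro c
    rw [map_intCast]
  have hcastF' : ∀ c : ℤ, algebraMap ℤ F' c = algebraMap F₁ F' ((c : ℤ) : F₁) := by
    intro c
    rw [map_intCast, eq_intCast]
  have hsubF' : ∀ c : ℤ, algebraMap F₁ F' t - algebraMap ℤ F' c =
      algebraMap F₁ F' (t - algebraMap R F₁ ((c : ℤ) : R)) := by
    intro c
    rw [hcastF', hcastR, map_sub]
  refine H18R2.h18r2_localNormalTame R K₁ F₁ ϖ hϖ t ht hfin hunr 𝔪 h𝔪 hϖ𝔪 ((c₀ : ℤ) : R) hc
    e₀ he₀ hζ ?_ ?_ x hx hxx
  · intro V hV hV0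
    obtain ⟨W', ε, hε, hW'⟩ := key V
    have hεZ : (0 : ℤ) < ε := by exact_mod_cast hε
    have h1 : 0 ≤ W'.ord (algebraMap F₁ F' t) := by
      rw [hW']
      exact mul_nonneg hεZ.le hV.1
    have h2 : ∀ c ∈ S, W'.ord (algebraMap F₁ F' t - algebraMap ℤ F' c) ≤ 0 := by
      intro c hcS
      rw [hsubF', hW']
      refine mul_nonpos_of_nonneg_of_nonpos hεZ.le ?_
      by_cases hcc : c = c₀
      · rw [hcc]
        exact hV0
      · refine ord_other_le R K₁ F₁ t 𝔪 h𝔪 ((c₀ : ℤ) : R) ((c : ℤ) : R) ?_ hc V hV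
        have := hS1 c hcS c₀ hc₀ hcc
        rwa [Int.cast_sub] at this
    obtain ⟨Q', hQ'⟩ := hUO W' h1 h2
    obtain ⟨Q₀, hQ₀⟩ := H19S18.h19_exists_descended_uniformizer W' K₁ htL' h1 Q' hQ'
    refine ⟨Q₀, ?_⟩
    rw [aeval_algebraMap_apply, hW'] at hQ₀
    exact eq_one_of_natCast_mul_eq_one hQ₀
  · intro V hV
    obtain ⟨W', ε, hε, hW'⟩ := key V
    have hεZ : (0 : ℤ) < ε := by exact_mod_cast hε
    have h1 : 0 < W'.ord (algebraMap F₁ F' t - algebraMap ℤ F' c₀) := by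
      rw [hsubF', hW']
      exact mul_pos hεZ hV
    have h2 := hTA W' h1
    rw [hsubF', hW'] at h2
    exact dvd_of_mul_left_dvd h2

end

/-- **B3** = `H18R2.AbsLocalTameStatement`, proved. -/
theorem h27_absLocalTameStatement : H18R2.AbsLocalTameStatement := by
  intro R _ _ _ K₁ _ _ _ _ L _ _ _ _ F₁ _ _ _ _ F' _ _ _ _ _ _ _ ϖ hϖ t ht hfin hfin' hunr
    S hS1 e₀ he₀ hζ hUO c₀ hc₀ hTA 𝔪 h𝔪 hϖ𝔪 hc x hx hxx
  exact h27_absLocalTame R K₁ L F₁ F' ϖ hϖ t ht hfin hfin' hunr S hS1 e₀ he₀ hζ hUO c₀ hc₀ hTA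
    𝔪 h𝔪 hϖ𝔪 hc x hx hxx

end H27R2U
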