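/-
helper27: item 79 (S37), slice R2-U, lemma M1 (for the MASTER assembly):
an element `x ∈ O` whose reduction is integral over `k[red t]` satisfies a monic equation over
`A[t]` modulo the kernel of `red`:
  `∃ n, Q : ℕ → A[X],  red (x ^ n + ∑_{i<n} Q_i(t) x ^ i) = 0`.
-/
import Mathlib
import Fermat.Agent.S37.R2Basic_helper18

set_option autoImplicit false
set_option linter.unusedSectionVars false

noncomputable section

open Polynomial

namespace H27R2U

open H18R2

section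

variable {K F k Fb : Type*} [Field K] [Field F] [Algebra K F] [Field k] [Field Fb] [Algebra k Fb]
variable (R : PreDatum K F k Fb)

/-- every element of `k[tb]` is a polynomial in `tb` with coefficients in `k`, and these lift
to `A[X]`. -/
theorem exists_lift_of_mem_adjoin (tb : Fb) (y : Fb) (hy : y ∈ Algebra.adjoin k {tb}) :
    ∃ Q : (R.A)[X], Polynomial.aeval tb (Q.map R.π) = y := by
  rw [Algebra.adjoin_singleton_eq_range_aeval] at hy
  obtain ⟨q, hq⟩ := hy
  obtain ⟨Q, hQ⟩ := Polynomial.map_surjective R.π R.π_surj q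
  exact ⟨Q, by rw [hQ]; exact hq⟩

/-- **M1** (form in `O`). -/
theorem m1 (T x : R.O) (hint : IsIntegral (Algebra.adjoin k {R.red T}) (R.red x)) :
    ∃ (n : ℕ) (Q : ℕ → (R.A)[X]),
      R.red (x ^ n + ∑ i ∈ Finset.range n, (Q i).eval₂ R.constHom T * x ^ i) = 0 := by
  classical
  obtain ⟨p, hp, hpx⟩ := hint
  have hex : ∀ i : ℕ, ∃ Q : (R.A)[X],
      Polynomial.aeval (R.red T) (Q.map R.π) = ((p.coeff i : Algebra.adjoin k {R.red T}) : Fb) :=
    fun i => exists_lift_of_mem_adjoin R (R.red T) _ (p.coeff i).2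
  choose Q hQ using hex
  refine ⟨p.natDegree, Q, ?_⟩
  rw [map_add, map_pow, map_sum]
  have h1 : ∀ i ∈ Finset.range p.natDegree,
      R.red ((Q i).eval₂ R.constHom T * x ^ i) =
        algebraMap (Algebra.adjoin k {R.red T}) Fb (p.coeff i) * R.red x ^ i := by
    intro i _
    rw [map_mul, map_pow, R.red_eval₂, hQ]
    rfl
  rw [Finset.sum_congr rfl h1]
  rw [Polynomial.eval₂_eq_sum_range, Finset.sum_range_succ, hp.coeff_natDegree, map_one,
    one_mul] at hpx
  rw [add_comm]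
  exact hpx

/-- **M1**, in the exact form consumed by the MASTER (helper29). -/
theorem h27_m1 (T X : R.O) (h : IsIntegral (Algebra.adjoin k {R.red T}) (R.red X)) :
    ∃ (n : ℕ) (Q : ℕ → (R.A)[X]),
      R.red (X ^ n + ∑ i ∈ Finset.range n, (Q i).eval₂ R.constHom T * X ^ i) = 0 :=
  m1 R T X h

/-- **M1** (form in `F`, chart `t`, element `x`). -/
theorem m1' (t : F) (ht : t ∈ R.O) (x : F) (hx : x ∈ R.O)
    (hint : IsIntegral (Algebra.adjoin k {R.red ⟨t, ht⟩}) (R.red ⟨x, hx⟩)) :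
    ∃ (n : ℕ) (Q : ℕ → (R.A)[X])
      (hz : x ^ n + ∑ i ∈ Finset.range n,
        Polynomial.aeval t ((Q i).map R.A.subtype) * x ^ i ∈ R.O),
      R.red ⟨_, hz⟩ = 0 := by
  obtain ⟨n, Q, h⟩ := m1 R ⟨t, ht⟩ ⟨x, hx⟩ hint
  have hcoe : (((⟨x, hx⟩ : R.O) ^ n + ∑ i ∈ Finset.range n,
      (Q i).eval₂ R.constHom ⟨t, ht⟩ * (⟨x, hx⟩ : R.O) ^ i : R.O) : F) =
      x ^ n + ∑ i ∈ Finset.range n, Polynomial.aeval t ((Q i).map R.A.subtype) * x ^ i := by
    have h2 : ∀ q : (R.A)[X], ((q.eval₂ R.constHom ⟨t, ht⟩ : R.O) : F) =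
        Polynomial.aeval t (q.map R.A.subtype) := by
      intro q
      have h3 : ((q.eval₂ R.constHom ⟨t, ht⟩ : R.O) : F) =
          R.O.subtype (q.eval₂ R.constHom ⟨t, ht⟩) := rfl
      rw [h3, Polynomial.hom_eval₂, aeval_def, eval₂_map]
      rfl
    push_cast
    simp only [h2]
  refine ⟨n, Q, ?_, ?_⟩
  · rw [← hcoe]
    exact Subtype.property _
  · have : (⟨x ^ n + ∑ i ∈ Finset.range n,
        Polynomial.aeval t ((Q i).map R.A.subtype) * x ^ i, by
          rw [← hcoe]; exact Subtype.property _⟩ : R.O) =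
        (⟨x, hx⟩ : R.O) ^ n + ∑ i ∈ Finset.range n,
          (Q i).eval₂ R.constHom ⟨t, ht⟩ * (⟨x, hx⟩ : R.O) ^ i := Subtype.ext hcoe.symm
    rw [this]
    exact h

end

end H27R2U

end
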