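/-
helper29: item 79 (S37), slice R2-U: the unconditional results of the MASTER assembly.

* `H29R2M.unifJGood : H18R2.UnifJGoodStatement`  (R2-U123);
* `H29R2M.tameLift  : H23U4.TameLiftStatement`   (the generic tame master, for R2-U4).
-/
import Mathlib
import Fermat.Agent.S37.R2UMaster_helper29
import Fermat.Agent.S37.R2UM1_helper27
import Fermat.Agent.S37.R2Ex_helper1
import Fermat.Agent.S37.R2LiftCore_helper18
import Fermat.Agent.S37.R2Descend_helper1
import Fermat.Agent.S37.R2UB1_helper2
import Fermat.Agent.S37.R2UB2_helper16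
import Fermat.Agent.S37.R2UB3_helper27
import Fermat.Agent.S37.R2U4Defs_helper23

set_option autoImplicit false
set_option synthInstance.maxHeartbeats 400000
set_option maxHeartbeats 1000000

noncomputable section

open Polynomial IntermediateField AlgebraicCurve ModularCurve H28GV

namespace H29R2M

open H7S18 H18R2

/-- **M1** (helper27). -/
theorem m1Statement : M1Statement :=
  fun _ _ _ _ _ _ _ _ _ _ R T X h => H27R2U.h27_m1 R T X h

/-- **R2-U123**: `UnifJGoodStatement`, unconditional. -/
theorem unifJGood : UnifJGoodStatement :=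
  master m1Statement H1EX.exStatement h18r2_liftCore H1DSC.descendStatement
    H2R2U.absLocalUnr H27R2U.h27_absLocalTameStatement H16R2U.h16_absLocalInftyStatement

/-- **the generic tame master** (for R2-U4), unconditional. -/
theorem tameLift : H23U4.TameLiftStatement := by
  intro N' _ ℓ _ hT A hA B' t₀ ht₀ h hcoe hh c₀ hc₀
  have hℓ : ℓ.Prime := Fact.out
  exact localLift_fin N' A m1Statement h18r2_liftCore H1DSC.descendStatement
    H2R2U.absLocalUnr H27R2U.h27_absLocalTameStatement ℓ hT.1 hA B' (baseKind ℓ)
    (h7_baseKind_ok hT) t₀ ht₀ h hcoe hh (red_transcendental N' A B' (baseKind ℓ) t₀ ht₀ h hcoe hh)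
    _ (Or.inr ⟨c₀, hc₀, rfl, h7_branchIndex_coprime hℓ hT,
      fun R₁ _ hunit => (h7_branch_units hℓ R₁ hunit).1⟩)

end H29R2M

end
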