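/-
helper23 (architect of R2-U4, item 79): `H18R2.UnifJZeroStatement` from U4-PAIR
(`H23U4.LevelDescentStatement`, helper28) alone: all other pieces are plugged in
(U4-CHART helper2, tame master helper29, R2-EX helper1).
-/
import Mathlib
import Fermat.Agent.S37.R2U4Asm_helper23
import Fermat.Agent.S37.R2U4Chart_helper2
import Fermat.Agent.S37.R2UFinal_helper29
import Fermat.Agent.S37.R2Ex_helper1

set_option autoImplicit false

namespace H23U4

/-- **R2-U4** modulo U4-PAIR. -/
theorem unifJZero_of_pair (hLD : LevelDescentStatement) : H18R2.UnifJZeroStatement :=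
  unifJZero_of hLD H2U4.chartStatement H29R2M.tameLift H1EX.exStatement

end H23U4
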