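/-
helper19, item 79 (S37) slice R2 (for U4-NORM, helper28): the pushforward norm formula
`Divisor.PushforwardNormFormula K F F'` for a finite SEPARABLE extension of function fields
all of whose places have degree one -- no characteristic-zero / perfect-field hypothesis.
Combines helper27's generic `H27FF.h27ff_pushforward_norm_of` with the separable AKLB norm
formula `H19R2.h19r2_valuation_norm`.
-/
import Mathlib
import Fermat.Agent.FF.NormFormula
import Fermat.Agent.S37.R2FNCRelNorm_helper19

set_option autoImplicit false
set_option linter.style.haveILetI false
set_option linter.deprecated false
set_option linter.unusedSectionVars false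

noncomputable section

open AlgebraicCurve IsDedekindDomain IntermediateField
open scoped WithZero

namespace H19R2

variable {K F F' : Type*} [Field K] [Field F] [Field F'] [Algebra K F] [Algebra K F']
  [Algebra F F'] [IsScalarTower K F F']

attribute [local instance] H27FF.h27ff_tower H27FF.h27ff_isFractionRing
  H27FF.h27ff_isDedekindDomain H27FF.h27ff_finite H27FF.h27ff_isTorsionFree

/-- **pushforward norm formula, separable case** (any characteristic): if `F'/F` is finite
separable and every place of `F'` has degree one, then `ord_v (N f) = (π_* div f)(v)`. -/
theorem h19r2_pushforwardNormFormula_sep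
    [FiniteDimensional F F'] [Algebra.IsSeparable F F'] [Algebra.IsIntegral F F']
    [HasPrincipalDivisors K F'] (hdeg : ∀ w : Place K F', w.deg = 1) :
    Divisor.PushforwardNormFormula K F F' := by
  refine H27FF.h27ff_pushforward_norm_of hdeg ?_
  intro v _ x hx
  exact h19r2_valuation_norm (K := F) (L := F') v.heightOneSpectrum Finset.univ
    (fun P => ⟨fun _ => H27FF.h27ff_liesOver v P, fun _ => Finset.mem_univ _⟩) x hx

end H19R2

end
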