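import Mathlib
import Fermat.Agent.S37.R2Defs_helper18
import Fermat.Agent.S37.R2Sheet_helper23
import Fermat.Agent.S37.R2FNCPush_helper19
import Fermat.Agent.S18.H18NormRed
import Fermat.Agent.FF.SumRam

/-!
# Item 79 (S37), slice R2-U4, piece NORM (helper28): norm descent of `UnifAt`

`R`, `R'` pre-data for `F ⊆ F'`, `Fb ⊆ Fb'` (compatible reductions, `[Fb' : Fb] = [F' : F]`).
If `h ∈ F'` is integral over `A[t]`, takes the single value `c'` on the fibre of `t` over `c`,
and `UnifAt R' h c'` holds, then `UnifAt R t c` holds: `g := N_{F'/F}(g')`.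

* `H28U4.valAt_algebraMap` : values and restriction of places;
* `H28U4.intChart_norm` : the norm of a function integral over `A[h]` is integral over `A[t]`;
* `H28U4.ord_norm_eq_one`, `H28U4.ord_norm_eq_zero` : the two cases of the norm formula;
* `H28U4.normDescent` : the descent.
-/

set_option autoImplicit false
set_option linter.unusedSectionVars false
set_option linter.unusedVariables false
set_option linter.style.haveILetI false

noncomputable section

open AlgebraicCurve IntermediateField Module

namespace H28U4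

open H18R2 H23SH
open H9S18 (ValAt)

section Restrict

variable {K F F' : Type*} [Field K] [Field F] [Field F'] [Algebra K F] [Algebra K F']
  [Algebra F F'] [IsScalarTower K F F'] [Algebra.IsIntegral F F']

/-- a function of `F` has the same values at `w` and at its restriction -/
theorem valAt_algebraMap (w : Place K F') {y : F} {a : K} (h : ValAt (w.restrict F) y a) :
    ValAt w (algebraMap F F' y) a := by
  unfold ValAt at h ⊢
  have h1 : algebraMap F F' y - algebraMap K F' a = algebraMap F F' (y - algebraMap K F a) := by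
    rw [IsScalarTower.algebraMap_apply K F F', ← map_sub]
  rw [h1]
  by_cases h0 : y - algebraMap K F a = 0
  · rw [h0, map_zero, map_zero]
    exact zero_lt_one
  · have h0' : algebraMap F F' (y - algebraMap K F a) ≠ 0 := by
      rw [Ne, map_eq_zero]
      exact h0
    rw [RH24.h20_adicValuation_lt_one_iff _ h0] at h
    rw [RH24.h20_adicValuation_lt_one_iff _ h0', w.ord_restrict]
    have he : 0 < Place.ramificationIndex (F := F) w := w.ramificationIndex_pos (F := F)
    positivity

end Restrict

/-! ### the norm formula at a fibre -/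

section Norm

variable {k Fb Fb' : Type*} [Field k] [Field Fb] [Field Fb'] [Algebra k Fb] [Algebra k Fb']
  [Algebra Fb Fb'] [IsScalarTower k Fb Fb'] [FiniteDimensional Fb Fb']
  [Algebra.IsSeparable Fb Fb'] [HasPrincipalDivisors k Fb']

/-- every place has a place above it -/
theorem exists_restrict_eq (hdeg : ∀ w : Place k Fb', w.deg = 1) (Q : Place k Fb) :
    ∃ Q' : Place k Fb', Q'.restrict Fb = Q := by
  classical
  haveI : Algebra.IsIntegral Fb Fb' := Algebra.IsIntegral.of_finite _ _
  have h := H27FF.h27ff_sum_ramification_inertia (F' := Fb') hdeg Q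
  by_contra hne
  have hne : ∀ w : Place k Fb', w.restrict Fb ≠ Q := fun w hw => hne ⟨w, hw⟩
  have hempty : Q.fiber Fb' = ∅ := by
    rw [Finset.eq_empty_iff_forall_notMem]
    intro w hw
    exact hne w (Place.mem_fiber.mp hw)
  rw [hempty, Finset.sum_empty] at h
  have hpos : 0 < Module.finrank Fb Fb' := Module.finrank_pos
  have : (0 : ℤ) = (Module.finrank Fb Fb' : ℤ) := h
  omega

/-- **norm formula, case 1**: `x` has a simple zero at `Q'` and is a unit at the other places
over `Q = Q'|_{Fb}`. -/
theorem ord_norm_eq_one (hdeg : ∀ w : Place k Fb', w.deg = 1) (x : Fb') (Q' : Place k Fb')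
    (h1 : Q'.ord x = 1)
    (h0 : ∀ w : Place k Fb', w.restrict Fb = Q'.restrict Fb → w ≠ Q' → w.ord x = 0) :
    (Q'.restrict Fb).ord (Algebra.norm Fb x) = 1 := by
  classical
  haveI : Algebra.IsIntegral Fb Fb' := Algebra.IsIntegral.of_finite _ _
  have hx : x ≠ 0 := by
    rintro rfl
    rw [Place.ord_zero] at h1
    exact zero_ne_one h1
  obtain ⟨D, hD, -⟩ := HasPrincipalDivisors.exists_divisor (K := k) x hx
  have hNF := H19R2.h19r2_pushforwardNormFormula_sep (K := k) (F := Fb) (F' := Fb') hdeg
  rw [← hNF x hx D hD (Q'.restrict Fb), Divisor.pushforward_apply]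
  rw [Finset.sum_eq_single Q']
  · rw [if_pos rfl, hD, h1, H27FF.h27ff_inertiaDeg_place Q' (hdeg Q')]
    simp
  · intro w _ hw
    split_ifs with hr
    · rw [hD, h0 w hr hw, zero_mul]
    · rfl
  · intro hQ'
    exfalso
    rw [Finsupp.mem_support_iff, not_not, hD, h1] at hQ'
    exact one_ne_zero hQ'

/-- **norm formula, case 2**: `x` is a unit at all places over `Q`. -/
theorem ord_norm_eq_zero (hdeg : ∀ w : Place k Fb', w.deg = 1) (x : Fb') (hx : x ≠ 0)
    (Q : Place k Fb)
    (h0 : ∀ w : Place k Fb', w.restrict Fb = Q → w.ord x = 0) :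
    Q.ord (Algebra.norm Fb x) = 0 := by
  classical
  haveI : Algebra.IsIntegral Fb Fb' := Algebra.IsIntegral.of_finite _ _
  obtain ⟨D, hD, -⟩ := HasPrincipalDivisors.exists_divisor (K := k) x hx
  have hNF := H19R2.h19r2_pushforwardNormFormula_sep (K := k) (F := Fb) (F' := Fb') hdeg
  rw [← hNF x hx D hD Q, Divisor.pushforward_apply]
  refine Finset.sum_eq_zero fun w _ => ?_
  split_ifs with hr
  · rw [hD, h0 w hr, zero_mul]
  · rfl

end Norm

/-! ### integrality of the norm -/

section Int

variable {K F F' k Fb Fb' : Type*} [Field K] [Field F] [Field F'] [Algebra K F] [Algebra K F']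
  [Algebra F F'] [IsScalarTower K F F']
  [Field k] [Field Fb] [Field Fb'] [Algebra k Fb] [Algebra k Fb']
variable (R : PreDatum K F k Fb) (R' : PreDatum K F' k Fb')

/-- an element integral over a subring of the integral closure lies in the integral closure -/
theorem mem_integralClosure_of_le {S₀ : Type*} [CommRing S₀] {E : Type*} [Field E] [Algebra S₀ E]
    (T : Subring E) (hT : ∀ x ∈ T, IsIntegral S₀ x) {x : E} (hx : IsIntegral T x) :
    IsIntegral S₀ x := by
  obtain ⟨p, hp, hpx⟩ := hx
  let C := integralClosure S₀ E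
  let i : T →+* C := (T.subtype).codRestrict C.toSubring (fun y => hT y y.2)
  have h1 : IsIntegral C x := by
    refine ⟨p.map i, hp.map _, ?_⟩
    rw [Polynomial.eval₂_map]
    exact hpx
  exact isIntegral_trans (A := C) x h1

/-- the norm of a function integral over `A[h]`, `h` integral over `A[t]`, is integral over
`A[t]` -/
theorem intChart_norm (hA : R'.A = R.A) (t : F) (h g' : F')
    (hint : IntChart R' (algebraMap F F' t) h) (hg' : IntChart R' h g') :
    IntChart R t (Algebra.norm F g') := by
  letI : Algebra (chartRing R t) F' := ((algebraMap F F').comp (chartRing R t).subtype).toAlgebra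
  haveI : IsScalarTower (chartRing R t) F F' := IsScalarTower.of_algebraMap_eq (fun x => rfl)
  have hmap : ∀ x : chartRing R t, algebraMap (chartRing R t) F' x = algebraMap F F' (x : F) :=
    fun x => rfl
  -- the chart ring `A[t']` of `F'` consists of integral elements
  have h1 : ∀ x ∈ chartRing R' (algebraMap F F' t), IsIntegral (chartRing R t) x := by
    intro x hx
    have hle : chartRing R' (algebraMap F F' t) ≤ (algebraMap (chartRing R t) F').range := by
      apply h23sh_chartRing_le R'
      · intro a ha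
        rw [hA] at ha
        refine ⟨⟨algebraMap K F a, h23sh_const_mem_chartRing R t ha⟩, ?_⟩
        rw [hmap]
        exact (IsScalarTower.algebraMap_apply K F F' a).symm
      · exact ⟨⟨t, h23sh_t_mem_chartRing R t⟩, rfl⟩
    obtain ⟨y, rfl⟩ := hle hx
    exact isIntegral_algebraMap
  have h2 : IsIntegral (chartRing R t) h := mem_integralClosure_of_le _ h1 hint
  have h3 : ∀ x ∈ chartRing R' h, IsIntegral (chartRing R t) x := by
    intro x hx
    have hle : chartRing R' h ≤ (integralClosure (chartRing R t) F').toSubring := by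
      apply h23sh_chartRing_le R'
      · intro a ha
        exact h1 _ (h23sh_const_mem_chartRing R' _ ha)
      · exact h2
    exact hle hx
  have h4 : IsIntegral (chartRing R t) g' := mem_integralClosure_of_le _ h3 hg'
  exact Algebra.isIntegral_norm F h4

end Int

/-! ### the descent -/

section Main

variable {K F F' k Fb Fb' : Type*} [Field K] [Field F] [Field F'] [Algebra K F] [Algebra K F']
  [Algebra F F'] [IsScalarTower K F F']
  [Field k] [Field Fb] [Field Fb'] [Algebra k Fb] [Algebra k Fb']
  [Algebra Fb Fb'] [IsScalarTower k Fb Fb'] [FiniteDimensional Fb Fb']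
  [Algebra.IsSeparable Fb Fb'] [HasPrincipalDivisors k Fb']

/-- **U4-NORM**: norm descent of `UnifAt`. -/
theorem normDescent (R : PreDatum K F k Fb) (R' : PreDatum K F' k Fb') (hA : R'.A = R.A)
    (hpair : H18S18.RedPair R.O R'.O R.red R'.red)
    (hfr : Module.finrank Fb Fb' = Module.finrank F F')
    (hdeg : ∀ w : Place k Fb', w.deg = 1)
    (t : F) (ht : t ∈ R.O) (h : F') (hh : h ∈ R'.O)
    (hint : IntChart R' (algebraMap F F' t) h) (c c' : k)
    (hfib : ∀ Q' : Place k Fb', ValAt Q' (algebraMap Fb Fb' (R.red ⟨t, ht⟩)) c →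
      ValAt Q' (R'.red ⟨h, hh⟩) c')
    (hU : UnifAt R' h hh c') : UnifAt R t ht c := by
  haveI : Algebra.IsIntegral Fb Fb' := Algebra.IsIntegral.of_finite _ _
  haveI : FiniteDimensional F F' :=
    Module.finite_of_finrank_pos (by rw [← hfr]; exact Module.finrank_pos)
  intro Q hQ
  obtain ⟨Q', hQ'⟩ := exists_restrict_eq hdeg Q
  have hval : ∀ w : Place k Fb', ValAt (w.restrict Fb) (R.red ⟨t, ht⟩) c →
      ValAt w (R'.red ⟨h, hh⟩) c' := fun w hw => hfib w (valAt_algebraMap w hw)
  obtain ⟨g', hg'O, hg'int, hg'1, hg'0⟩ := hU Q' (hval Q' (by rw [hQ']; exact hQ))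
  obtain ⟨n, hn1, hn2⟩ := H18S18.h18_norm_red hpair hfr ⟨g', hg'O⟩
  have hne : R'.red ⟨g', hg'O⟩ ≠ 0 := by
    intro h0
    rw [h0, Place.ord_zero] at hg'1
    exact zero_ne_one hg'1
  refine ⟨(n : F), n.2, ?_, ?_, ?_⟩
  · rw [hn1]
    exact intChart_norm R R' hA t h g' hint hg'int
  · show Q.ord (R.red n) = 1
    rw [hn2, ← hQ']
    refine ord_norm_eq_one hdeg _ Q' hg'1 ?_
    intro w hw hwne
    exact hg'0 w (hval w (by rw [hw, hQ']; exact hQ)) hwne
  · intro Q₂ hQ₂ hne₂
    show Q₂.ord (R.red n) = 0
    rw [hn2]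
    refine ord_norm_eq_zero hdeg _ hne Q₂ ?_
    intro w hw
    refine hg'0 w (hval w (by rw [hw]; exact hQ₂)) ?_
    rintro rfl
    exact hne₂ (hw.symm.trans hQ')

end Main

end H28U4

end
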