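import Mathlib
import Fermat.Agent.S37.R2U4Defs_helper23
import Fermat.Agent.S37.R2U4Norm_helper28
import Fermat.Agent.RRD.Principal
import Fermat.Agent.FF.CharZero

/-!
# Item 79 (S37), slice R2-U4, piece NORM (helper28): `H23U4.NormDescentStatement`

The interface statement of helper23, from `H28U4.normDescent`: the hypotheses "all places of
`Fb'` have degree one" and `HasPrincipalDivisors k Fb'` follow from the `Setting` of the chart
`t` downstairs (`Fb' / k(t̄)` is finite separable, `k` algebraically closed).
-/

set_option autoImplicit false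
set_option linter.unusedSectionVars false
set_option linter.unusedVariables false
set_option linter.style.haveILetI false

noncomputable section

open AlgebraicCurve IntermediateField Module

namespace H28U4

open H18R2
open H9S18 (ValAt)

/-- a finite separable extension of a separable function field is separable over `K(z)` -/
theorem isSeparable_top {K F F' : Type*} [Field K] [Field F] [Field F'] [Algebra K F]
    [Algebra K F'] [Algebra F F'] [IsScalarTower K F F'] (z : F)
    [Algebra.IsSeparable K⟮z⟯ F] [Algebra.IsSeparable F F'] :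
    Algebra.IsSeparable K⟮algebraMap F F' z⟯ F' := by
  let φ : F →ₐ[K] F' := IsScalarTower.toAlgHom K F F'
  have hmap : (K⟮z⟯).map φ = K⟮algebraMap F F' z⟯ := by
    rw [IntermediateField.adjoin_map, Set.image_singleton]
    rfl
  let e₁ : K⟮z⟯ ≃+* K⟮algebraMap F F' z⟯ :=
    ((IntermediateField.equivMap K⟮z⟯ φ).trans (IntermediateField.equivOfEq hmap)).toRingEquiv
  haveI : Algebra.IsSeparable K⟮z⟯ F' := Algebra.IsSeparable.trans K⟮z⟯ F F'
  exact Algebra.IsSeparable.of_equiv_equiv e₁ (RingEquiv.refl F') (by ext x; rfl)

/-- **U4-NORM** in the form of the interface. -/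
theorem normDescentStatement : H23U4.NormDescentStatement := by
  intro K F F' k Fb Fb' _ _ _ _ _ _ _ _ _ _ _ _ _ _ _ _ _ R R' hA hpair hfr t S h hh hint c c'
    hfib hU
  haveI := S.algk
  haveI := S.finb
  haveI := S.sepb
  have htr : Transcendental k (algebraMap Fb Fb' (R.red ⟨t, S.ht⟩)) :=
    H27FF.h27ff_transcendental_algebraMap S.htk
  haveI := H27FF.h27ff_finiteDimensional_top (K := k) (F' := Fb') (R.red ⟨t, S.ht⟩)
  haveI := isSeparable_top (K := k) (F' := Fb') (R.red ⟨t, S.ht⟩)
  haveI : HasPrincipalDivisors k Fb' := RRD.hasPrincipalDivisors _ htr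
  exact normDescent R R' hA hpair hfr.symm (fun w => RRD.deg_eq_one _ htr w) t S.ht h hh hint
    c c' hfib hU

end H28U4

end
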