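import Mathlib

/-!
# Item 79 (S37), slice R2-U4, piece PAIR (helper28), part A: towers of intermediate fields

`A ≤ B` intermediate fields of `E / F`, `B` an `A`-algebra by the inclusion:
* `H28U4.finrank_inclusion` : `finrank A B = relfinrank A B`;
* `H28U4.isSeparable_inclusion` : `B / A` is separable if the elements of `B` are separable over a
  smaller intermediate field `C ≤ A`.
-/

set_option autoImplicit false
set_option linter.unusedSectionVars false
set_option linter.unusedVariables false
set_option linter.style.haveILetI false

noncomputable section

open IntermediateField Module

namespace H28U4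

variable {F E : Type*} [Field F] [Field E] [Algebra F E]

/-- the degree of `B / A` for the inclusion algebra is the relative degree -/
theorem finrank_inclusion {A B : IntermediateField F E} (h : A ≤ B) :
    letI : Algebra A B := (IntermediateField.inclusion h).toRingHom.toAlgebra
    Module.finrank A B = IntermediateField.relfinrank A B := by
  letI : Algebra A B := (IntermediateField.inclusion h).toRingHom.toAlgebra
  rw [IntermediateField.relfinrank_eq_finrank_of_le h]
  let e : B ≃ₗ[A] (IntermediateField.extendScalars h) :=
    { toFun := fun x => ⟨x.1, (IntermediateField.mem_extendScalars h).mpr x.2⟩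
      invFun := fun x => ⟨x.1, (IntermediateField.mem_extendScalars h).mp x.2⟩
      map_add' := fun _ _ => rfl
      map_smul' := fun _ _ => rfl
      left_inv := fun _ => rfl
      right_inv := fun _ => rfl }
  exact e.finrank_eq

/-- separability of `B / A` from separability over a smaller field, elementwise in `E` -/
theorem isSeparable_inclusion {C A B : IntermediateField F E} (hCA : C ≤ A) (h : A ≤ B)
    (hsep : ∀ z ∈ B, IsSeparable C z) :
    letI : Algebra A B := (IntermediateField.inclusion h).toRingHom.toAlgebra
    Algebra.IsSeparable A B := by
  letI : Algebra A B := (IntermediateField.inclusion h).toRingHom.toAlgebra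
  letI : Algebra C A := (IntermediateField.inclusion hCA).toRingHom.toAlgebra
  haveI : IsScalarTower C A E := IsScalarTower.of_algebraMap_eq (fun x => rfl)
  haveI : IsScalarTower A B E := IsScalarTower.of_algebraMap_eq (fun x => rfl)
  refine ⟨fun x => ?_⟩
  have h1 : IsSeparable A (x : E) := IsSeparable.tower_top A (hsep x x.2)
  exact IsSeparable.of_algHom (IsScalarTower.toAlgHom A B E) h1

end H28U4

end
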