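/-
helper23 (architect of R2-U4, item 79): U4-PAIR = `H23U4.LevelDescentStatement`, cheap version.

Levels `N ∣ N'`, `ℓ ∤ N'`, `R = gvPreBar N A B`, `R' = gvPreBar N' A B'`: the Gauss valuation rings
and reductions are compatible (`H18S18.RedPair`), `[F_N' : F_N] = ψ(N')/ψ(N) = [Fb_N' : Fb_N]`,
`Fb_N' / Fb_N` is separable; so `H28U4.normDescentStatement` (helper28) applies.

DESIGN RULE (the first version ran out of memory): the kernel must never compare objects living
over two different levels (`modularFunctionFieldBar N' =?= modularFunctionFieldBar N` is decided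
only after a huge unfolding).  So: coercion facts are proved GENERICALLY (`h23u4_coe_algebraMap`),
unfolding lemmas are single-level (`h23u4_mem_O_iff`, `h23u4_coe_red`, `h23u4_pre_A`), and the two
levels meet only through equalities of `q`-series used by `rw`.
Degree lemmas are those of helper28 (R2U4Pair, withdrawn), generic tower lemmas from
`R2U4PairA_helper28`.
-/
import Mathlib
import Fermat.Agent.S37.R2U4Asm_helper23
import Fermat.Agent.S37.R2U4NormStmt_helper28
import Fermat.Agent.S37.R2U4PairA_helper28
import Fermat.Agent.S37.R2Fin_helper29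
import Fermat.Agent.S18.C11b_helper12
import Fermat.Agent.S18.C7b_helper27
import Fermat.Agent.S18.C10Red_helper27
import Fermat.Agent.S18.GVSepJ_helper28

set_option autoImplicit false
set_option linter.unusedSectionVars false
set_option linter.unusedVariables false
set_option linter.style.haveILetI false
set_option synthInstance.maxHeartbeats 400000

noncomputable section

open Polynomial IntermediateField AlgebraicCurve ModularCurve H28GV

namespace H23U4

open H9S18 (ValAt IsDivOf)
open H7S18 H18R2

/-! ### generic facts on the inclusion algebra (no levels involved) -/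

section Generic

variable {K L : Type*} [Field K] [Field L] [Algebra K L]

/-- the inclusion algebra of two intermediate fields -/
@[reducible] def h23u4Alg {E F : IntermediateField K L} (h : E ≤ F) : Algebra ↥E ↥F :=
  (IntermediateField.inclusion h).toRingHom.toAlgebra

theorem h23u4_coe_algebraMap {E F : IntermediateField K L} (h : E ≤ F) (x : ↥E) :
    ((@algebraMap ↥E ↥F _ _ (h23u4Alg h) x : ↥F) : L) = (x : L) := rfl

theorem h23u4_isScalarTower {E F : IntermediateField K L} (h : E ≤ F) :
    @IsScalarTower K ↥E ↥F _ (h23u4Alg h).toSMul _ :=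
  letI := h23u4Alg h
  IsScalarTower.of_algebraMap_eq (fun x => rfl)

theorem h23u4_finrank_incl {E F : IntermediateField K L} (h : E ≤ F) :
    @Module.finrank ↥E ↥F _ _ (h23u4Alg h).toModule = IntermediateField.relfinrank E F :=
  H28U4.finrank_inclusion h

theorem h23u4_isSeparable_incl {C E F : IntermediateField K L} (hCE : C ≤ E) (h : E ≤ F)
    (hsep : ∀ z ∈ F, IsSeparable C z) :
    @Algebra.IsSeparable ↥E ↥F _ _ (h23u4Alg h) :=
  H28U4.isSeparable_inclusion hCE h hsep

end Generic


/-! ### single-level unfolding lemmas -/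

section Single

variable (N : ℕ) [NeZero N] (A : ValuationSubring (AlgebraicClosure ℚ))
  (B : GVBasis A (IsLocalRing.residue A) N)

theorem h23u4_pre_A : (gvPreBar N A B).A = A := rfl

/-- the reduction of the Gauss pre-datum, as a `q`-series -/
theorem h23u4_coe_red (x : ↥(modularFunctionFieldBar N)) (hx : x ∈ (gvPreBar N A B).O) :
    (((gvPreBar N A B).red ⟨x, hx⟩ :
      ↥(modularFunctionFieldFullC (IsLocalRing.ResidueField A) N)) :
        LaurentSeries (IsLocalRing.ResidueField A)) =
      gvRed A (IsLocalRing.residue A)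
        ⟨(x : LaurentSeries (AlgebraicClosure ℚ)), (h23u4_mem_O_iff N A B x).mp hx⟩ := rfl

end Single

/-- the kernel of the reduction of a pre-datum is the maximal ideal -/
theorem h23u4_red_eq_zero_iff {K F k Fb : Type*} [Field K] [Field F] [Algebra K F] [Field k]
    [Field Fb] [Algebra k Fb] (R : PreDatum K F k Fb) (x : R.O) :
    R.red x = 0 ↔ x ∈ nonunits R.O := by
  constructor
  · intro h hu
    have := hu.map R.red
    rw [h] at this
    exact not_isUnit_zero this
  · intro h
    exact R.red_nonunit x h

/-! ### two levels: only through equalities of `q`-series -/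

section Two

variable {N N' : ℕ} [NeZero N] [NeZero N'] (A : ValuationSubring (AlgebraicClosure ℚ))
  (B : GVBasis A (IsLocalRing.residue A) N) (B' : GVBasis A (IsLocalRing.residue A) N')

theorem h23u4_mem_iff_of_coe (x : ↥(modularFunctionFieldBar N))
    (y : ↥(modularFunctionFieldBar N'))
    (hxy : (y : LaurentSeries (AlgebraicClosure ℚ)) = (x : LaurentSeries (AlgebraicClosure ℚ))) :
    y ∈ (gvPreBar N' A B').O ↔ x ∈ (gvPreBar N A B).O := by
  rw [h23u4_mem_O_iff, h23u4_mem_O_iff, hxy]

theorem h23u4_coe_red_of_coe (x : ↥(modularFunctionFieldBar N))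
    (y : ↥(modularFunctionFieldBar N'))
    (hxy : (y : LaurentSeries (AlgebraicClosure ℚ)) = (x : LaurentSeries (AlgebraicClosure ℚ)))
    (hx : x ∈ (gvPreBar N A B).O) (hy : y ∈ (gvPreBar N' A B').O) :
    (((gvPreBar N' A B').red ⟨y, hy⟩ :
      ↥(modularFunctionFieldFullC (IsLocalRing.ResidueField A) N')) :
        LaurentSeries (IsLocalRing.ResidueField A)) =
    (((gvPreBar N A B).red ⟨x, hx⟩ :
      ↥(modularFunctionFieldFullC (IsLocalRing.ResidueField A) N)) :
        LaurentSeries (IsLocalRing.ResidueField A)) := by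
  rw [h23u4_coe_red, h23u4_coe_red]
  congr 1
  exact Subtype.ext hxy

end Two


/-! ### degrees -/

section Deg

variable (k : Type) [Field k]

/-- `[F_k(N) : k(j)] = ψ(N)` inside `k((q))` -/
theorem h23u4_relfinrank_jC (N : ℕ) [NeZero N]
    (hchar : ∀ r : ℕ, r.Prime → r ∣ N → (r : k) ≠ 0) :
    relfinrank (adjoin k {jqModC k}) (modularFunctionFieldFullC k N) = dedekindPsi N := by
  rw [← H27C7b.h27c7b_deg k N hchar (modularFunctionFieldFullC k N) rfl
    (H27C10.h27c10_jC k N) rfl, H27C7b.h27c7b_finrank_eq_relfinrank]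
  rfl

/-- `[F_k(N') : F_k(N)] · ψ(N) = ψ(N')` -/
theorem h23u4_relfinrank_fullC_mul {N N' : ℕ} [NeZero N] [NeZero N'] (h : N ∣ N')
    (hchar : ∀ r : ℕ, r.Prime → r ∣ N' → (r : k) ≠ 0) :
    dedekindPsi N *
      relfinrank (modularFunctionFieldFullC k N) (modularFunctionFieldFullC k N') =
      dedekindPsi N' := by
  have h1 := relfinrank_mul_relfinrank (H27C7b.h27c7b_adjoin_le k N) (full_degeneracyC_le k h)
  rw [h23u4_relfinrank_jC k N (fun r hr hrN => hchar r hr (hrN.trans h)),
    h23u4_relfinrank_jC k N' hchar] at h1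
  exact h1

end Deg

/-- `[F_N' : F_N] · ψ(N) = ψ(N')` over `ℚ̄` -/
theorem h23u4_relfinrank_bar_mul {N N' : ℕ} [NeZero N] [NeZero N'] (h : N ∣ N') :
    dedekindPsi N * relfinrank (modularFunctionFieldBar N) (modularFunctionFieldBar N') =
      dedekindPsi N' := by
  have h1 := relfinrank_mul_relfinrank (H12C11b.jField_le N) (H12C11b.bar_le h)
  rw [H12C11b.relfinrank_jField N, H12C11b.relfinrank_jField N'] at h1
  exact h1

/-! ### the pair of levels -/

section Pair

variable {N N' : ℕ} [NeZero N] [NeZero N'] (A : ValuationSubring (AlgebraicClosure ℚ))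
  (B : GVBasis A (IsLocalRing.residue A) N) (B' : GVBasis A (IsLocalRing.residue A) N')

/-- **the pair of levels is a compatible pair of reductions** -/
theorem h23u4_redPair (hNN' : N ∣ N') :
    @H18S18.RedPair ↥(modularFunctionFieldBar N) ↥(modularFunctionFieldBar N') _ _
      (h23u4Alg (H12C11b.bar_le hNN'))
      (gvPreBar N A B).O (gvPreBar N' A B').O
      ↥(modularFunctionFieldFullC (IsLocalRing.ResidueField A) N)
      ↥(modularFunctionFieldFullC (IsLocalRing.ResidueField A) N') _ _
      (h23u4Alg (full_degeneracyC_le (IsLocalRing.ResidueField A) hNN'))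
      (gvPreBar N A B).red (gvPreBar N' A B').red := by
  letI iF := h23u4Alg (H12C11b.bar_le hNN')
  letI iFb := h23u4Alg (full_degeneracyC_le (IsLocalRing.ResidueField A) hNN')
  have h1 : ∀ x : ↥(modularFunctionFieldBar N),
      algebraMap ↥(modularFunctionFieldBar N) ↥(modularFunctionFieldBar N') x ∈
        (gvPreBar N' A B').O ↔ x ∈ (gvPreBar N A B).O := fun x =>
    h23u4_mem_iff_of_coe A B B' x _ (h23u4_coe_algebraMap (H12C11b.bar_le hNN') x)
  have h2 : ∀ (x : (gvPreBar N A B).O)
      (hx : algebraMap ↥(modularFunctionFieldBar N) ↥(modularFunctionFieldBar N') (x : _) ∈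
        (gvPreBar N' A B').O),
      (gvPreBar N' A B').red ⟨algebraMap ↥(modularFunctionFieldBar N)
          ↥(modularFunctionFieldBar N') (x : _), hx⟩ =
        algebraMap ↥(modularFunctionFieldFullC (IsLocalRing.ResidueField A) N)
          ↥(modularFunctionFieldFullC (IsLocalRing.ResidueField A) N')
          ((gvPreBar N A B).red x) := by
    intro x hx
    apply Subtype.ext
    rw [h23u4_coe_algebraMap (full_degeneracyC_le (IsLocalRing.ResidueField A) hNN')]
    exact h23u4_coe_red_of_coe A B B' x.1 _ (h23u4_coe_algebraMap (H12C11b.bar_le hNN') x.1)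
      x.2 hx
  exact ⟨h1, h23u4_red_eq_zero_iff _, h23u4_red_eq_zero_iff _,
    (gvPreBar N' A B').red_surj, h2⟩

end Pair


/-! ### the level descent -/

section Main

variable {N N' : ℕ} [NeZero N] [NeZero N'] (A : ValuationSubring (AlgebraicClosure ℚ))
  (B : GVBasis A (IsLocalRing.residue A) N) (B' : GVBasis A (IsLocalRing.residue A) N')

theorem h23u4_algebraMap_Jbar (hNN' : N ∣ N') :
    @algebraMap ↥(modularFunctionFieldBar N) ↥(modularFunctionFieldBar N') _ _
      (h23u4Alg (H12C11b.bar_le hNN')) (RH24.Jbar N) = RH24.Jbar N' := by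
  apply Subtype.ext
  rw [h23u4_coe_algebraMap, RH24.coe_Jbar, RH24.coe_Jbar]

theorem h23u4_algebraMap_red_Jbar (hNN' : N ∣ N')
    (ht : RH24.Jbar N ∈ (gvPreBar N A B).O) (ht' : RH24.Jbar N' ∈ (gvPreBar N' A B').O) :
    @algebraMap ↥(modularFunctionFieldFullC (IsLocalRing.ResidueField A) N)
      ↥(modularFunctionFieldFullC (IsLocalRing.ResidueField A) N') _ _
      (h23u4Alg (full_degeneracyC_le (IsLocalRing.ResidueField A) hNN'))
      ((gvPreBar N A B).red ⟨RH24.Jbar N, ht⟩) = (gvPreBar N' A B').red ⟨RH24.Jbar N', ht'⟩ := by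
  apply Subtype.ext
  rw [h23u4_coe_algebraMap]
  refine (h23u4_coe_red_of_coe A B B' (RH24.Jbar N) (RH24.Jbar N') ?_ ht ht').symm
  rw [RH24.coe_Jbar, RH24.coe_Jbar]

end Main

set_option maxHeartbeats 4000000 in
/-- **U4-PAIR**: level descent of `UnifAt`. -/
theorem levelDescent : LevelDescentStatement := by
  intro N N' _ _ hNN' ℓ _ hℓN' A hA B B' ht ht' h hh hint c c' hfib hU
  have hℓN : ¬ ℓ ∣ N := fun hd => hℓN' (hd.trans hNN')
  haveI hkac : IsAlgClosed (IsLocalRing.ResidueField A) := gv_residue_isAlgClosed A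
  haveI hchar : CharP (IsLocalRing.ResidueField A) ℓ :=
    (CharP.charP_iff_prime_eq_zero (Fact.out : ℓ.Prime)).mpr (gv_residue_natCast_eq_zero A ℓ hA)
  letI iF : Algebra ↥(modularFunctionFieldBar N) ↥(modularFunctionFieldBar N') :=
    h23u4Alg (H12C11b.bar_le hNN')
  haveI : IsScalarTower (AlgebraicClosure ℚ) ↥(modularFunctionFieldBar N)
      ↥(modularFunctionFieldBar N') := h23u4_isScalarTower (H12C11b.bar_le hNN')
  letI iFb : Algebra ↥(modularFunctionFieldFullC (IsLocalRing.ResidueField A) N)
      ↥(modularFunctionFieldFullC (IsLocalRing.ResidueField A) N') :=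
    h23u4Alg (full_degeneracyC_le (IsLocalRing.ResidueField A) hNN')
  haveI : IsScalarTower (IsLocalRing.ResidueField A)
      ↥(modularFunctionFieldFullC (IsLocalRing.ResidueField A) N)
      ↥(modularFunctionFieldFullC (IsLocalRing.ResidueField A) N') :=
    h23u4_isScalarTower (full_degeneracyC_le (IsLocalRing.ResidueField A) hNN')
  -- degrees
  have hψ : 0 < dedekindPsi N := H12C11b.dedekindPsi_pos N
  have hψ' : 0 < dedekindPsi N' := H12C11b.dedekindPsi_pos N'
  have hd1 := h23u4_relfinrank_bar_mul hNN'
  have hd2 := h23u4_relfinrank_fullC_mul (IsLocalRing.ResidueField A) hNN'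
    (gv_residue_char A ℓ hA N' hℓN')
  have hfr1 : Module.finrank ↥(modularFunctionFieldBar N) ↥(modularFunctionFieldBar N') =
      relfinrank (modularFunctionFieldBar N) (modularFunctionFieldBar N') :=
    h23u4_finrank_incl (H12C11b.bar_le hNN')
  have hfr2 : Module.finrank ↥(modularFunctionFieldFullC (IsLocalRing.ResidueField A) N)
      ↥(modularFunctionFieldFullC (IsLocalRing.ResidueField A) N') =
      relfinrank (modularFunctionFieldFullC (IsLocalRing.ResidueField A) N)
        (modularFunctionFieldFullC (IsLocalRing.ResidueField A) N') :=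
    h23u4_finrank_incl (full_degeneracyC_le (IsLocalRing.ResidueField A) hNN')
  have hfr : Module.finrank ↥(modularFunctionFieldBar N) ↥(modularFunctionFieldBar N') =
      Module.finrank ↥(modularFunctionFieldFullC (IsLocalRing.ResidueField A) N)
        ↥(modularFunctionFieldFullC (IsLocalRing.ResidueField A) N') := by
    rw [hfr1, hfr2]
    exact Nat.eq_of_mul_eq_mul_left hψ (hd1.trans hd2.symm)
  have hpos1 : 0 < Module.finrank ↥(modularFunctionFieldBar N) ↥(modularFunctionFieldBar N') := by
    rw [hfr1]
    rcases Nat.eq_zero_or_pos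
      (relfinrank (modularFunctionFieldBar N) (modularFunctionFieldBar N')) with h0 | h0
    · rw [h0, mul_zero] at hd1
      omega
    · exact h0
  haveI : FiniteDimensional ↥(modularFunctionFieldBar N) ↥(modularFunctionFieldBar N') :=
    Module.finite_of_finrank_pos hpos1
  have hpos2 : 0 < Module.finrank ↥(modularFunctionFieldFullC (IsLocalRing.ResidueField A) N)
      ↥(modularFunctionFieldFullC (IsLocalRing.ResidueField A) N') := lt_of_lt_of_eq hpos1 hfr
  haveI : FiniteDimensional ↥(modularFunctionFieldFullC (IsLocalRing.ResidueField A) N)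
      ↥(modularFunctionFieldFullC (IsLocalRing.ResidueField A) N') :=
    Module.finite_of_finrank_pos hpos2
  -- separability
  haveI : Algebra.IsSeparable ↥(modularFunctionFieldFullC (IsLocalRing.ResidueField A) N)
      ↥(modularFunctionFieldFullC (IsLocalRing.ResidueField A) N') :=
    h23u4_isSeparable_incl (H27C7b.h27c7b_adjoin_le (IsLocalRing.ResidueField A) N)
      (full_degeneracyC_le (IsLocalRing.ResidueField A) hNN')
      (fun z hz => gv_full_isSeparable (IsLocalRing.ResidueField A) ℓ N' z hz)
  -- the chart downstairs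
  have S : Setting (gvPreBar N A B) (RH24.Jbar N) := H29R2F.h29r2f_settingJ N ℓ hℓN A hA B
  have hA' : (gvPreBar N' A B').A = (gvPreBar N A B).A :=
    (h23u4_pre_A N' A B').trans (h23u4_pre_A N A B).symm
  have hpair := h23u4_redPair A B B' hNN'
  have hint' : IntChart (gvPreBar N' A B')
      (algebraMap ↥(modularFunctionFieldBar N) ↥(modularFunctionFieldBar N') (RH24.Jbar N)) h := by
    rw [h23u4_algebraMap_Jbar hNN']
    exact hint
  have hfib' : ∀ Q' : Place (IsLocalRing.ResidueField A)
      ↥(modularFunctionFieldFullC (IsLocalRing.ResidueField A) N'),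
      ValAt Q' (algebraMap ↥(modularFunctionFieldFullC (IsLocalRing.ResidueField A) N)
        ↥(modularFunctionFieldFullC (IsLocalRing.ResidueField A) N')
        ((gvPreBar N A B).red ⟨RH24.Jbar N, S.ht⟩)) c →
      ValAt Q' ((gvPreBar N' A B').red ⟨h, hh⟩) c' := by
    intro Q' hQ'
    rw [h23u4_algebraMap_red_Jbar A B B' hNN' S.ht ht'] at hQ'
    exact hfib Q' hQ'
  exact H28U4.normDescentStatement (AlgebraicClosure ℚ) ↥(modularFunctionFieldBar N)
    ↥(modularFunctionFieldBar N') (IsLocalRing.ResidueField A)
    ↥(modularFunctionFieldFullC (IsLocalRing.ResidueField A) N)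
    ↥(modularFunctionFieldFullC (IsLocalRing.ResidueField A) N')
    (gvPreBar N A B) (gvPreBar N' A B') hA' hpair hfr (RH24.Jbar N) S h hh hint' c c' hfib' hU

end H23U4

end
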