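/-
helper23 (architect of R2-U4, item 79): `H18R2.UnifJZeroStatement`, UNCONDITIONAL.
Pieces: U4-NORM + U4-PAIR (helper28), U4-CHART (helper2), tame master (helper29), R2-EX (helper1),
assembly (helper23).
-/
import Mathlib
import Fermat.Agent.S37.R2U4Final_helper23
import Fermat.Agent.S37.R2U4PairFix_helper23

set_option autoImplicit false

namespace H23U4

/-- **R2-U4**: normality of the special fibre over `j = 0` for `ℓ ∈ {2, 3}`. -/
theorem unifJZero : H18R2.UnifJZeroStatement :=
  unifJZero_of_pair levelDescent

end H23U4
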