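import Mathlib
import Fermat.Agent.RRD.Dual

/-!
# Item 79 (S37), slice R2-EX, core (helper1): uniformizers on a fibre

`F / K` a function field over an algebraically closed field (any characteristic), `y`
a separating transcendental element.  For a place `Q` at which `y` is regular and a finite set `T`
of such places there is `g ∈ F` without poles outside the poles of `y`, with a simple zero at `Q`
and without zero at the other places of `T`  (`H1EX.exists_fibre_unif`).

Proof: Riemann–Roch for `E = M (y)_∞ - Q` (`RRD.rr_large_of`), and a vector space over an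
infinite field is not a finite union of proper subspaces.
-/

set_option autoImplicit false
set_option linter.style.longLine false
set_option linter.unusedSectionVars false
set_option linter.unusedVariables false
set_option linter.style.haveILetI false

noncomputable section

open AlgebraicCurve IntermediateField Module

namespace H1EX

variable {K F : Type*} [Field K] [IsAlgClosed K] [Field F] [Algebra K F]

section Core

variable (y : F) (hy : Transcendental K y) [FiniteDimensional K⟮y⟯ F]
  [Algebra.IsSeparable K⟮y⟯ F]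

theorem degree_eq_sum' (D : Divisor K F) :
    Divisor.degree D = ∑ v ∈ D.support, D v * (v.deg : ℤ) := by
  rw [Divisor.degree, Finsupp.liftAddHom_apply, Finsupp.sum]
  rfl

include hy in
/-- the degree of an effective divisor is at least its multiplicity at a place -/
theorem le_degree_of_eff (D : Divisor K F) (hD : ∀ v, 0 ≤ D v) (v₀ : Place K F) :
    D v₀ ≤ Divisor.degree D := by
  classical
  rw [degree_eq_sum']
  have hterm : ∀ v ∈ D.support, 0 ≤ D v * (v.deg : ℤ) := fun v _ =>
    mul_nonneg (hD v) (Int.natCast_nonneg _)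
  by_cases hv : v₀ ∈ D.support
  · have := Finset.single_le_sum hterm hv
    rwa [RRD.deg_eq_one y hy v₀, Nat.cast_one, mul_one] at this
  · rw [Finsupp.notMem_support_iff.1 hv]
    exact Finset.sum_nonneg hterm

include hy in
/-- a transcendental element has a pole -/
theorem exists_pole : ∃ v : Place K F, v.ord y < 0 := by
  by_contra hcon
  push Not at hcon
  obtain ⟨c, hc⟩ := RRD.exists_const_of_ord_eq_zero y hy y hcon
  exact hy (hc ▸ isAlgebraic_algebraMap c)

include hy in
/-- **R2-EX, core.** -/
theorem exists_fibre_unif (Q : Place K F) (hQ : 0 ≤ Q.ord y) (T : Finset (Place K F))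
    (hT : ∀ Q' ∈ T, 0 ≤ Q'.ord y) :
    ∃ g : F, g ≠ 0 ∧ (∀ v : Place K F, 0 ≤ v.ord y → 0 ≤ v.ord g) ∧ Q.ord g = 1 ∧
      ∀ Q' ∈ T, Q' ≠ Q → Q'.ord g = 0 := by
  classical
  have hy0 : y ≠ 0 := fun h => hy (h ▸ isAlgebraic_zero)
  obtain ⟨Dy, hDy, -⟩ := (RRD.hasPrincipalDivisors y hy).exists_divisor y hy0
  -- the pole divisor of `y`
  set Dinf : Divisor K F := Dy.mapRange (fun n : ℤ => max (-n) 0) (by simp) with hDinf
  have hDinf_apply : ∀ v, Dinf v = max (-(v.ord y)) 0 := by
    intro v
    rw [hDinf, Finsupp.mapRange_apply, hDy v]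
  have hDinf_nonneg : ∀ v, 0 ≤ Dinf v := fun v => by
    rw [hDinf_apply]
    exact le_max_right _ _
  have hDinf_zero : ∀ v : Place K F, 0 ≤ v.ord y → Dinf v = 0 := fun v hv => by
    rw [hDinf_apply]
    exact max_eq_right (by omega)
  obtain ⟨v₀, hv₀⟩ := exists_pole y hy
  have hdeg_inf : 1 ≤ Divisor.degree Dinf := by
    refine le_trans ?_ (le_degree_of_eff y hy Dinf hDinf_nonneg v₀)
    rw [hDinf_apply]
    exact le_trans (by omega) (le_max_left _ _)
  set g₀ : ℕ := RRD.genusY y hy with hg₀
  set M : ℕ := 2 * g₀ + 2 with hM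
  set E : Divisor K F := M • Dinf - Finsupp.single Q 1 with hE
  have hE_apply : ∀ v, E v = M * Dinf v - (if v = Q then 1 else 0) := by
    intro v
    rw [hE, Finsupp.sub_apply, Finsupp.smul_apply, Finsupp.single_apply, nsmul_eq_mul]
    simp only [eq_comm]
  have hdegE : (2 * g₀ + 1 : ℤ) ≤ Divisor.degree E := by
    rw [hE, map_sub, map_nsmul, Divisor.degree_single, RRD.deg_eq_one y hy Q, nsmul_eq_mul]
    push_cast
    nlinarith
  have hrankE := RRD.rr_large_of y hy E (by rw [← hg₀]; linarith)
  haveI := RRD.finite_Ldiv_of y hy E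
  -- the subspaces `L(E - Q')`
  have hsub : ∀ Q' : Place K F, RRD.Ldiv K F (E - Finsupp.single Q' 1) ≤ RRD.Ldiv K F E := by
    intro Q' f hf
    rw [RRD.mem_Ldiv_iff_ord] at hf ⊢
    rcases hf with h | h
    · exact Or.inl h
    · right
      intro v
      have := h v
      rw [Finsupp.sub_apply, Finsupp.single_apply] at this
      split_ifs at this <;> omega
  have hrank : ∀ Q' : Place K F,
      (finrank K ↥(RRD.Ldiv K F (E - Finsupp.single Q' 1)) : ℤ) = Divisor.degree E - (g₀ : ℤ) := by
    intro Q'
    have hd : Divisor.degree (E - Finsupp.single Q' 1) = Divisor.degree E - 1 := by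
      rw [map_sub, Divisor.degree_single, RRD.deg_eq_one y hy Q']
      push_cast
      ring
    have := RRD.rr_large_of y hy (E - Finsupp.single Q' 1) (by rw [← hg₀, hd]; linarith)
    rw [this, hd, ← hg₀]
    ring
  -- proper subspaces of `L(E)`
  let S : Place K F → Subspace K ↥(RRD.Ldiv K F E) := fun Q' =>
    Submodule.comap (RRD.Ldiv K F E).subtype (RRD.Ldiv K F (E - Finsupp.single Q' 1))
  have hS : ∀ Q', S Q' ≠ ⊤ := by
    intro Q' htop
    have hle : RRD.Ldiv K F E ≤ RRD.Ldiv K F (E - Finsupp.single Q' 1) := by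
      intro f hf
      have : (⟨f, hf⟩ : ↥(RRD.Ldiv K F E)) ∈ S Q' := by
        rw [htop]
        exact Submodule.mem_top
      exact this
    haveI := RRD.finite_Ldiv_of y hy (E - Finsupp.single Q' 1)
    have h1 := Submodule.finrank_mono hle
    have h2 := hrank Q'
    have h3 : (finrank K ↥(RRD.Ldiv K F E) : ℤ) ≤ finrank K ↥(RRD.Ldiv K F (E - Finsupp.single Q' 1)) := by
      exact_mod_cast h1
    rw [hrankE, h2, ← hg₀] at h3
    linarith
  haveI : Infinite K := IsAlgClosed.instInfinite
  have hcover := Subspace.biUnion_ne_univ_of_top_notMem (k := K) (E := ↥(RRD.Ldiv K F E))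
    (s := (insert Q T).image S) (by
      intro hmem
      obtain ⟨Q', -, hQ'⟩ := Finset.mem_image.1 hmem
      exact hS Q' hQ')
  obtain ⟨x, hx⟩ : ∃ x : ↥(RRD.Ldiv K F E), x ∉ ⋃ p ∈ (insert Q T).image S, (p : Set ↥(RRD.Ldiv K F E)) := by
    by_contra hcon
    push Not at hcon
    exact hcover (Set.eq_univ_of_forall hcon)
  have hxS : ∀ Q' ∈ insert Q T, (x : F) ∉ RRD.Ldiv K F (E - Finsupp.single Q' 1) := by
    intro Q' hQ' hmem
    apply hx
    simp only [Set.mem_iUnion]
    exact ⟨S Q', Finset.mem_image_of_mem S hQ', hmem⟩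
  have hx0 : (x : F) ≠ 0 := by
    intro h0
    apply hxS Q (Finset.mem_insert_self Q T)
    rw [h0]
    exact Submodule.zero_mem _
  have hxE : ∀ v : Place K F, -E v ≤ v.ord (x : F) := by
    have := (RRD.mem_Ldiv_iff_ord (E := E)).1 x.2
    exact this.resolve_left hx0
  have hexact : ∀ Q' ∈ insert Q T, Q'.ord (x : F) = -E Q' := by
    intro Q' hQ'
    have h1 := hxS Q' hQ'
    rw [RRD.mem_Ldiv_iff_ord] at h1
    push Not at h1
    obtain ⟨v, hv⟩ := h1.2
    rw [Finsupp.sub_apply, Finsupp.single_apply] at hv
    have h2 := hxE v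
    split_ifs at hv with h
    · subst h
      omega
    · omega
  refine ⟨(x : F), hx0, ?_, ?_, ?_⟩
  · intro v hv
    have h1 := hxE v
    rw [hE_apply, hDinf_zero v hv] at h1
    split_ifs at h1 <;> omega
  · rw [hexact Q (Finset.mem_insert_self Q T), hE_apply, hDinf_zero Q hQ, if_pos rfl]
    ring
  · intro Q' hQ' hne
    rw [hexact Q' (Finset.mem_insert_of_mem hQ'), hE_apply, hDinf_zero Q' (hT Q' hQ'), if_neg hne]
    ring

include hy in
/-- a function without poles outside the poles of `y` is integral over `K[y]` (polynomial ring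
form) -/
theorem isIntegral_poly_of_regular (g : F) (hg : ∀ v : Place K F, 0 ≤ v.ord y → 0 ≤ v.ord g) :
    letI := RRalg.bridgePolyAlgebra (K := K) y
    IsIntegral (Polynomial K) g := by
  letI := RRalg.bridgePolyAlgebra (K := K) y
  letI := RRalg.bridgeRatAlgebra y hy
  haveI := RRalg.bridge_tower_K_rat y hy
  haveI := RRalg.bridge_tower_K_poly (K := K) y
  haveI := RRalg.bridge_tower_poly_rat y hy
  haveI := RRalg.bridge_finiteDimensional y hy
  haveI := RRD.bridge_isSeparable y hy
  have hyg : RRalg.yGen K F = y := RRalg.bridge_yGen y hy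
  have hmem : g ∈ RRD.Afin K F 0 := by
    rw [RRD.mem_Afin]
    intro P
    rw [Finsupp.zero_apply, WithZero.exp_zero, ← RH24.h20_mem_iff_adicValuation_le_one]
    rcases eq_or_ne g 0 with rfl | hg0
    · exact zero_mem _
    rw [RH24.h20_mem_iff_ord_nonneg _ hg0]
    apply hg
    have := RRD.y_mem_placeFin K F P
    rw [hyg] at this
    exact RH24.h20_ord_nonneg_of_mem _ this
  rw [RRD.Afin_zero] at hmem
  exact hmem

include hy in
/-- a function without poles outside the poles of `y` is integral over `K[y]` -/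
theorem isIntegral_adjoin_of_regular (g : F) (hg : ∀ v : Place K F, 0 ≤ v.ord y → 0 ≤ v.ord g) :
    IsIntegral (Algebra.adjoin K {y}) g := by
  have h := isIntegral_poly_of_regular y hy g hg
  letI := RRalg.bridgePolyAlgebra (K := K) y
  obtain ⟨p, hp, hpg⟩ := h
  let φ : Polynomial K →+* Algebra.adjoin K {y} :=
    (Polynomial.aeval (⟨y, Algebra.self_mem_adjoin_singleton K y⟩ : Algebra.adjoin K {y})
      : Polynomial K →ₐ[K] Algebra.adjoin K {y}).toRingHom
  have hφ : (algebraMap (Algebra.adjoin K {y}) F).comp φ = algebraMap (Polynomial K) F := by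
    apply Polynomial.ringHom_ext
    · intro a
      show ((Polynomial.aeval (⟨y, Algebra.self_mem_adjoin_singleton K y⟩ : Algebra.adjoin K {y})
        (Polynomial.C a) : Algebra.adjoin K {y}) : F) = Polynomial.aeval y (Polynomial.C a)
      rw [Polynomial.aeval_C, Polynomial.aeval_C]
      rfl
    · show ((Polynomial.aeval (⟨y, Algebra.self_mem_adjoin_singleton K y⟩ : Algebra.adjoin K {y})
        Polynomial.X : Algebra.adjoin K {y}) : F) = Polynomial.aeval y Polynomial.X
      rw [Polynomial.aeval_X, Polynomial.aeval_X]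
  refine ⟨p.map φ, hp.map φ, ?_⟩
  rw [Polynomial.eval₂_map, hφ]
  exact hpg

end Core

end H1EX
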