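/-
helper18: item 79 (S37), slice R2-U: `unifAt_of_localLift'`, the variant of
`H18R2.unifAt_of_localLift` WITHOUT `Setting` (no degree hypothesis): only what `ExStatement`
consumes.  For charts like `h₂`, `h₃` at the auxiliary level (R2-U4).
-/
import Mathlib
import Fermat.Agent.S37.R2UAbs_helper18

set_option autoImplicit false
set_option linter.unusedSectionVars false

noncomputable section

open AlgebraicCurve IntermediateField

namespace H18R2

open H9S18 (ValAt IsDivOf)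

/-- **R2-U (abstract part), without `Setting`**. -/
theorem unifAt_of_localLift' (hEx : ExStatement)
    {K F k Fb : Type} [Field K] [Field F] [Algebra K F] [Field k] [Field Fb] [Algebra k Fb]
    [IsAlgClosed k]
    (R : PreDatum K F k Fb) (t : F) (ht : t ∈ R.O)
    (htk : Transcendental k (R.red ⟨t, ht⟩))
    (hfin : FiniteDimensional k⟮R.red ⟨t, ht⟩⟯ Fb)
    (hsep : Algebra.IsSeparable k⟮R.red ⟨t, ht⟩⟯ Fb) (c : k)
    (h : LocalLiftAt R t ht c) : UnifAt R t ht c := by
  intro Q hQ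
  obtain ⟨gb, hgi, hg1, hg0⟩ := hEx k Fb (R.red ⟨t, ht⟩) htk hfin hsep c Q hQ
  have hgb0 : gb ≠ 0 := by
    rintro rfl
    rw [Place.ord_zero] at hg1
    exact zero_ne_one hg1
  obtain ⟨x, hx⟩ := R.red_surj gb
  obtain ⟨a, ha, sb, hai, hred, hsb0, hsb⟩ := h x.1 x.2 (by
    have : (⟨x.1, x.2⟩ : R.O) = x := rfl
    rw [this, hx]
    exact hgi)
  have hx' : R.red ⟨x.1, x.2⟩ = gb := hx
  rw [hx'] at hred
  refine ⟨a, ha, hai, ?_, fun Q' hQ' hne => ?_⟩
  · rw [hred, Q.ord_mul hsb0 hgb0, hsb Q hQ, hg1, zero_add]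
  · rw [hred, Q'.ord_mul hsb0 hgb0, hsb Q' hQ', hg0 Q' hQ' hne, zero_add]

end H18R2

end
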