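/-
helper16: item 79 (S37), slice R2, stage B2 = `AbsLocalInfty`: local normality of the special
fibre at the maximal ideal `𝔪 = (ϖ, t⁻¹)` of the chart `R[t⁻¹]` ("the cusps"), abstract form.

Setting (binder list of `H7S18.AbstractKummerStatement`): `R` a DVR with fraction field `K₁`
(char 0), `L ⊇ K₁` algebraically closed and algebraic over `K₁`, `F₁ / K₁(t)` finite with
unramified Gauss prime, `F' ⊇ F₁` the function field over `L`.  Horizontal data over `L`:
`F' / L(t)` is unramified outside the branch set `S ⊆ ℤ` at finite `t`, and the ramification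
indices over `t = ∞` divide `e`, a unit of `R` with `ζ_e ∈ R`.  Then every `x ∈ O_{F₁}` which is
integral modulo `ϖ` over `R[t⁻¹]` lies in `(M_∞ / ϖ)_𝔪`.

Proof: `h18r2_localNormalTame` in the chart `t⁻¹` at `c = 0` (`UnrGauss` for `t⁻¹` by
`H21S18.unrGauss_inv`); the places through `𝔪` are compared with the places of `F' / L` by
`H1S18.placeDescent`; a place through `𝔪` with `t` finite is not over a branch point `c ≠ 0`
(`1 - c t⁻¹ ∉ 𝔪`), and a uniformizer `Q(t)` descends to `K₁` and is rewritten as a polynomial in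
`t⁻¹`.
-/
import Mathlib
import Fermat.Agent.S37.R2LN_helper18
import Fermat.Agent.S37.R2DefsC_helper18
import Fermat.Agent.S18.C12aOrd_helper19
import Fermat.Agent.S18.C6c_helper1
import Fermat.Agent.S18.Connected_helper21

set_option autoImplicit false
set_option linter.unusedSectionVars false
set_option linter.style.longLine false

open Polynomial IntermediateField AlgebraicCurve

namespace H16R2U

open H7S18 H18R2

/-- `ε * n = 1` with `ε : ℕ` forces `n = 1`. -/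
theorem h16_eq_one_of_natCast_mul_eq_one {ε : ℕ} {n : ℤ} (h : (ε : ℤ) * n = 1) : n = 1 := by
  rcases Int.mul_eq_one_iff_eq_one_or_neg_one.mp h with ⟨-, h2⟩ | ⟨h1, -⟩
  · exact h2
  · omega

/-- **B2 (`AbsLocalInfty`)**, with the place comparison `key` as a hypothesis. -/
theorem h16_absLocalInfty_of_key
    (R : Type) [CommRing R] [IsDomain R] [IsDiscreteValuationRing R]
    (K₁ : Type) [Field K₁] [CharZero K₁] [Algebra R K₁] [IsFractionRing R K₁]
    (L : Type) [Field L] [Algebra K₁ L] [IsAlgClosed L] [Algebra.IsAlgebraic K₁ L]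
    (F₁ : Type) [Field F₁] [Algebra K₁ F₁] [Algebra R F₁] [IsScalarTower R K₁ F₁]
    (F' : Type) [Field F'] [Algebra L F'] [Algebra K₁ F'] [IsScalarTower K₁ L F']
    [Algebra F₁ F'] [IsScalarTower K₁ F₁ F']
    (ϖ : R) (hϖ : Irreducible ϖ) (t : F₁) (ht : Transcendental K₁ t)
    (hfin : FiniteDimensional K₁⟮t⟯ F₁)
    (hunr : UnrGauss R K₁ ϖ t)
    (key : ∀ V : Place K₁ F₁, ∃ (W' : Place L F') (ε : ℕ), 0 < ε ∧
      ∀ f : F₁, W'.ord (algebraMap F₁ F' f) = ε * V.ord f)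
    (S : Finset ℤ)
    (hUO : UnrOutside ℤ L S (algebraMap F₁ F' t))
    (e : ℕ) (he : IsUnit (e : R)) (hζ : ∃ ζ : R, IsPrimitiveRoot ζ e)
    (hInf : ∀ W : Place L F', W.ord (algebraMap F₁ F' t) < 0 →
      W.ord (algebraMap F₁ F' t) ∣ (e : ℤ))
    (𝔪 : Ideal (Algebra.adjoin R {t⁻¹})) (h𝔪 : 𝔪.IsMaximal)
    (hϖ𝔪 : algebraMap R (Algebra.adjoin R {t⁻¹}) ϖ ∈ 𝔪)
    (ht𝔪 : ∀ s : Algebra.adjoin R {t⁻¹}, (s : F₁) = t⁻¹ → s ∈ 𝔪)
    (x : F₁) (hx : GInt R ϖ t⁻¹ x) (hxx : IntModPi R ϖ t⁻¹ x) :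
    InChartAt R ϖ t⁻¹ 𝔪 x := by
  classical
  have htR : Transcendental R t := H19S18.h19_transc R K₁ ht
  have ht0 : t ≠ 0 := H21S18.ne_zero_of_transcendental htR
  have hti0 : t⁻¹ ≠ 0 := inv_ne_zero ht0
  have hϖp : Prime ϖ := H21S18.prime_of_irreducible hϖ
  have hti : Transcendental K₁ t⁻¹ := H21S18.transcendental_inv ht
  have hfin' : FiniteDimensional K₁⟮t⁻¹⟯ F₁ :=
    H21S18.finiteDimensional_transport (H21S18.adjoin_inv_eq (K := K₁) t).symm hfin
  have hunr' : UnrGauss R K₁ ϖ t⁻¹ := H21S18.unrGauss_inv hϖp htR hunr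
  have htK' : Transcendental K₁ (algebraMap F₁ F' t) :=
    (transcendental_algebraMap_iff (algebraMap F₁ F').injective).mpr ht
  have htL' : Transcendental L (algebraMap F₁ F' t) := htK'.extendScalars L
  have hsub0 : t⁻¹ - algebraMap R F₁ 0 = t⁻¹ := by rw [map_zero, sub_zero]
  have hcastF' : ∀ c : ℤ, algebraMap ℤ F' c = algebraMap F₁ F' ((c : ℤ) : F₁) := by
    intro c
    rw [map_intCast, eq_intCast]
  refine h18r2_localNormalTame R K₁ F₁ ϖ hϖ t⁻¹ hti hfin' hunr' 𝔪 h𝔪 hϖ𝔪 0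
    (fun s hs => ht𝔪 s (by rw [hs, hsub0])) e he hζ ?_ ?_ x hx hxx
  · -- places through `𝔪` at which `t` is finite are unramified
    intro V hV hV0
    rw [hsub0] at hV0
    obtain ⟨hV1, hV2⟩ := hV
    have hVti : V.ord t⁻¹ = 0 := le_antisymm hV0 hV1
    have hVt : V.ord t = 0 := by
      have := V.ord_inv t
      rw [hVti] at this
      omega
    obtain ⟨W', ε, hε, hW'⟩ := key V
    have hεZ : (0 : ℤ) < ε := by exact_mod_cast hε
    have h1 : 0 ≤ W'.ord (algebraMap F₁ F' t) := by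
      rw [hW', hVt, mul_zero]
    have h2 : ∀ c ∈ S, W'.ord (algebraMap F₁ F' t - algebraMap ℤ F' c) ≤ 0 := by
      intro c _
      rw [hcastF', ← map_sub, hW']
      apply mul_nonpos_of_nonneg_of_nonpos hεZ.le
      by_contra hcon
      push Not at hcon
      -- `1 - c t⁻¹` has positive order, so it lies in `𝔪`
      have htc0 : t - ((c : ℤ) : F₁) ≠ 0 := by
        intro h0
        rw [h0, V.ord_zero] at hcon
        exact lt_irrefl _ hcon
      set u : F₁ := 1 - ((c : ℤ) : F₁) * t⁻¹ with hu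
      have hfac : t - ((c : ℤ) : F₁) = t * u := by
        rw [hu, mul_sub, mul_one, mul_comm ((c : ℤ) : F₁), ← mul_assoc, mul_inv_cancel₀ ht0,
          one_mul]
      have hu0 : u ≠ 0 := by
        intro h0
        rw [hfac, h0, mul_zero] at htc0
        exact htc0 rfl
      have hordu : 0 < V.ord u := by
        rw [hfac, V.ord_mul ht0 hu0, hVt, zero_add] at hcon
        exact hcon
      have humem : u ∈ Algebra.adjoin R {t⁻¹} := by
        rw [hu]
        refine Subalgebra.sub_mem _ (Subalgebra.one_mem _) (Subalgebra.mul_mem _ ?_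
          (Algebra.subset_adjoin (Set.mem_singleton _)))
        have : ((c : ℤ) : F₁) = algebraMap R F₁ ((c : ℤ) : R) := by rw [map_intCast]
        rw [this]
        exact Subalgebra.algebraMap_mem _ _
      have h3 : (⟨u, humem⟩ : Algebra.adjoin R {t⁻¹}) ∈ 𝔪 := hV2 ⟨u, humem⟩ hordu
      have h4 : (⟨t⁻¹, Algebra.subset_adjoin (Set.mem_singleton _)⟩ : Algebra.adjoin R {t⁻¹}) ∈ 𝔪 :=
        ht𝔪 _ rfl
      have h5 : (1 : Algebra.adjoin R {t⁻¹}) ∈ 𝔪 := by
        have h6 : (1 : Algebra.adjoin R {t⁻¹})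
            = ⟨u, humem⟩ + algebraMap R (Algebra.adjoin R {t⁻¹}) ((c : ℤ) : R) *
              ⟨t⁻¹, Algebra.subset_adjoin (Set.mem_singleton _)⟩ := by
          apply Subtype.ext
          have hcoe : ((algebraMap R (Algebra.adjoin R {t⁻¹}) ((c : ℤ) : R) :
              Algebra.adjoin R {t⁻¹}) : F₁) = ((c : ℤ) : F₁) := by
            rw [Subalgebra.coe_algebraMap, map_intCast]
          rw [Subalgebra.coe_add, Subalgebra.coe_mul, Subalgebra.coe_one, hcoe]
          show (1 : F₁) = u + ((c : ℤ) : F₁) * t⁻¹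
          rw [hu]
          ring
        rw [h6]
        exact 𝔪.add_mem h3 (𝔪.mul_mem_left _ h4)
      exact h𝔪.ne_top ((Ideal.eq_top_iff_one 𝔪).mpr h5)
    obtain ⟨Q', hQ'⟩ := hUO W' h1 h2
    obtain ⟨Q₀, hQ₀⟩ := H19S18.h19_exists_descended_uniformizer W' K₁ htL' h1 Q' hQ'
    rw [aeval_algebraMap_apply, hW'] at hQ₀
    have hQ₁ : V.ord (Polynomial.aeval t Q₀) = 1 := h16_eq_one_of_natCast_mul_eq_one hQ₀
    -- rewrite as a polynomial in `t⁻¹`
    refine ⟨Polynomial.reflect Q₀.natDegree Q₀, ?_⟩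
    have h7 := H21S18.pow_mul_aeval_inv (R := K₁) ht0 (Polynomial.reflect Q₀.natDegree Q₀)
      (N := Q₀.natDegree) ((Polynomial.natDegree_reflect_le).trans (max_le le_rfl le_rfl))
    rw [Polynomial.reflect_reflect] at h7
    have hne : Polynomial.aeval t⁻¹ (Polynomial.reflect Q₀.natDegree Q₀) ≠ 0 := by
      intro h0
      rw [h0, mul_zero] at h7
      rw [← h7, V.ord_zero] at hQ₁
      exact zero_ne_one hQ₁
    rw [← h7, V.ord_mul (pow_ne_zero _ ht0) hne] at hQ₁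
    have h8 : V.ord (t ^ Q₀.natDegree) = 0 := by
      rw [← zpow_natCast, V.ord_zpow, hVt, mul_zero]
    rw [h8, zero_add] at hQ₁
    exact hQ₁
  · -- places over `t = ∞`: the ramification index divides `e`
    intro V hV
    rw [hsub0] at hV ⊢
    have hVt : V.ord t = - V.ord t⁻¹ := by
      have := V.ord_inv t
      omega
    obtain ⟨W', ε, hε, hW'⟩ := key V
    have hεZ : (0 : ℤ) < ε := by exact_mod_cast hε
    have h1 : W'.ord (algebraMap F₁ F' t) < 0 := by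
      rw [hW']
      apply mul_neg_of_pos_of_neg hεZ
      omega
    have h2 := hInf W' h1
    rw [hW'] at h2
    have h3 : V.ord t ∣ (e : ℤ) := dvd_of_mul_left_dvd h2
    rw [hVt] at h3
    exact (neg_dvd).mp h3

/-- **B2 (`AbsLocalInfty`)**: local normality at the maximal ideal `(ϖ, t⁻¹)` of the chart
`R[t⁻¹]`. -/
theorem h16_absLocalInfty
    (R : Type) [CommRing R] [IsDomain R] [IsDiscreteValuationRing R]
    (K₁ : Type) [Field K₁] [CharZero K₁] [Algebra R K₁] [IsFractionRing R K₁]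
    (L : Type) [Field L] [Algebra K₁ L] [IsAlgClosed L] [Algebra.IsAlgebraic K₁ L]
    (F₁ : Type) [Field F₁] [Algebra K₁ F₁] [Algebra R F₁] [IsScalarTower R K₁ F₁]
    (F' : Type) [Field F'] [Algebra L F'] [Algebra K₁ F'] [IsScalarTower K₁ L F']
    [Algebra F₁ F'] [IsScalarTower K₁ F₁ F'] [Algebra.IsAlgebraic F₁ F']
    (ϖ : R) (hϖ : Irreducible ϖ) (t : F₁) (ht : Transcendental K₁ t)
    (hfin : FiniteDimensional K₁⟮t⟯ F₁)
    (hfin' : FiniteDimensional L⟮algebraMap F₁ F' t⟯ F')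
    (hunr : UnrGauss R K₁ ϖ t)
    (S : Finset ℤ)
    (hUO : UnrOutside ℤ L S (algebraMap F₁ F' t))
    (e : ℕ) (he : IsUnit (e : R)) (hζ : ∃ ζ : R, IsPrimitiveRoot ζ e)
    (hInf : ∀ W : Place L F', W.ord (algebraMap F₁ F' t) < 0 →
      W.ord (algebraMap F₁ F' t) ∣ (e : ℤ))
    (𝔪 : Ideal (Algebra.adjoin R {t⁻¹})) (h𝔪 : 𝔪.IsMaximal)
    (hϖ𝔪 : algebraMap R (Algebra.adjoin R {t⁻¹}) ϖ ∈ 𝔪)
    (ht𝔪 : ∀ s : Algebra.adjoin R {t⁻¹}, (s : F₁) = t⁻¹ → s ∈ 𝔪)
    (x : F₁) (hx : GInt R ϖ t⁻¹ x) (hxx : IntModPi R ϖ t⁻¹ x) :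
    InChartAt R ϖ t⁻¹ 𝔪 x := by
  have key : ∀ V : Place K₁ F₁, ∃ (W' : Place L F') (ε : ℕ), 0 < ε ∧
      ∀ f : F₁, W'.ord (algebraMap F₁ F' f) = ε * V.ord f :=
    fun V => H1S18.placeDescent K₁ L F₁ F' t ht hfin hfin' V
  exact h16_absLocalInfty_of_key R K₁ L F₁ F' ϖ hϖ t ht hfin hunr key S hUO e he hζ hInf 𝔪 h𝔪
    hϖ𝔪 ht𝔪 x hx hxx

/-- **B2** in the architect's packaging. -/
theorem h16_absLocalInftyStatement : H18R2.AbsLocalInftyStatement := by
  intro R _ _ _ K₁ _ _ _ _ L _ _ _ _ F₁ _ _ _ _ F' _ _ _ _ _ _ _ ϖ hϖ t ht hfin hfin' hunr S e he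
    hζ hUO hInf 𝔪 h𝔪 hϖ𝔪 ht𝔪 x hx hxx
  exact h16_absLocalInfty R K₁ L F₁ F' ϖ hϖ t ht hfin hfin' hunr S hUO e he hζ hInf 𝔪 h𝔪 hϖ𝔪
    ht𝔪 x hx hxx

end H16R2U
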