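/-
S37 (item 79), slice R3-W (helper29): `H8S37.WStatement N ℓ` for a prime `ℓ ∤ N`
(the partial Atkin–Lehner swap at level `N ℓ`), from `S37/R3W_helper29.lean`.
-/
import Mathlib
import Fermat.Agent.S37.R3W_helper29
import Fermat.Agent.S37.R3Defs

set_option autoImplicit false

noncomputable section

open ModularCurve RH24

namespace H29W

/-- **R3-W**: the partial Atkin–Lehner swap at level `N ℓ` exists (`ℓ` prime, `ℓ ∤ N`). -/
theorem h29w_WStatement (N ℓ : ℕ) [NeZero N] [NeZero ℓ] (hℓ : ℓ.Prime) (hℓN : ¬ ℓ ∣ N) :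
    H8S37.WStatement N ℓ := by
  refine ⟨h29w_W N ℓ hℓ hℓN, h29w_W_const N ℓ hℓ hℓN, ?_, ?_⟩
  · intro d hd
    rw [h29w_W_Jgen]
    congr 1
    apply Subtype.ext
    exact h29w_swap_of_not_dvd N ℓ hℓ _ (fun h => hℓN (h.trans hd))
  · intro d hd
    rw [h29w_W_Jgen]
    congr 1
    apply Subtype.ext
    rw [h29w_swap_of_dvd N ℓ hℓ _ (Dvd.intro_left _ rfl)]
    exact Nat.mul_div_cancel _ hℓ.pos

end H29W

end
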