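import Fermat.Agent.S37.Defs
import Fermat.Agent.S37.Bounded_helper8

/-!
# S37 (item 79): interface for the slices R1 (strong form) and R3 (helper8)

* `h8r_arithBar τ` : the coefficientwise action of an automorphism `τ` of `k` on
  `Fbar = modularFunctionFieldFullC k N ⊆ k((q))`, as a `SemilinearAut k Fbar`;
* `h8r_resAut A σ hσ` : the automorphism of the residue field of `A` induced by `σ` in the
  decomposition group of `A`;
* `R1StrongStatement` : `red (σ x) = ŝ • red x`;
* `CongruenceStatement` : `r_* T_ℓ E = (Fr_* + ℓ Fr_*⁻¹) r_* E` on `Pic0`.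
-/

set_option autoImplicit false
set_option linter.style.haveILetI false

noncomputable section

namespace H8S37

open ModularCurve AlgebraicCurve HahnSeries

/-! ### Coefficientwise automorphisms of `Fbar` -/

section ArithBar

variable {k : Type*} [Field k] (N : ℕ)

theorem h8r_coeffMap_mem (τ : k →+* k) {x : LaurentSeries k}
    (hx : x ∈ modularFunctionFieldFullC k N) :
    coeffMap τ x ∈ modularFunctionFieldFullC k N := by
  unfold modularFunctionFieldFullC at hx ⊢
  induction hx using IntermediateField.adjoin_induction with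
  | mem y hy =>
    obtain ⟨d, hd, hdN, rfl⟩ := hy
    haveI := hd
    rw [coeffMap_qExpand, coeffMap_jqModC]
    exact IntermediateField.subset_adjoin k _ ⟨d, hd, hdN, rfl⟩
  | algebraMap c =>
    rw [coeffMap_algebraMap]
    exact IntermediateField.algebraMap_mem _ _
  | add x y _ _ hx hy => rw [map_add]; exact add_mem hx hy
  | inv x _ hx => rw [map_inv₀]; exact inv_mem hx
  | mul x y _ _ hx hy => rw [map_mul]; exact mul_mem hx hy

/-- coefficientwise action of `τ : k ≃+* k` on `Fbar`, as a ring automorphism. -/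
def h8r_arithRingAut (τ : k ≃+* k) :
    modularFunctionFieldFullC k N ≃+* modularFunctionFieldFullC k N where
  toFun x := ⟨coeffMap (τ : k →+* k) (x : LaurentSeries k), h8r_coeffMap_mem N _ x.2⟩
  invFun x := ⟨coeffMap (τ.symm : k →+* k) (x : LaurentSeries k), h8r_coeffMap_mem N _ x.2⟩
  left_inv x := Subtype.ext <| by
    show coeffMap (τ.symm : k →+* k) (coeffMap (τ : k →+* k) (x : LaurentSeries k)) = _
    rw [coeffMap_coeffMap,
      coeffMap_congr (g := RingHom.id k) (RingHom.ext fun a => τ.symm_apply_apply a), coeffMap_id]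
  right_inv x := Subtype.ext <| by
    show coeffMap (τ : k →+* k) (coeffMap (τ.symm : k →+* k) (x : LaurentSeries k)) = _
    rw [coeffMap_coeffMap,
      coeffMap_congr (g := RingHom.id k) (RingHom.ext fun a => τ.apply_symm_apply a), coeffMap_id]
  map_mul' x y := Subtype.ext (map_mul (coeffMap (τ : k →+* k)) _ _)
  map_add' x y := Subtype.ext (map_add (coeffMap (τ : k →+* k)) _ _)

@[simp]
theorem h8r_coe_arithRingAut (τ : k ≃+* k) (x : modularFunctionFieldFullC k N) :
    ((h8r_arithRingAut N τ x : modularFunctionFieldFullC k N) : LaurentSeries k) =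
      coeffMap (τ : k →+* k) (x : LaurentSeries k) := rfl

/-- coefficientwise action of `τ : k ≃+* k` on `Fbar`, as a semilinear automorphism. -/
def h8r_arithBar (τ : k ≃+* k) : SemilinearAut k (modularFunctionFieldFullC k N) :=
  ⟨(h8r_arithRingAut N τ, τ), fun a => Subtype.ext (coeffMap_algebraMap (τ : k →+* k) a)⟩

@[simp]
theorem h8r_coe_arithBar_smul (τ : k ≃+* k) (x : modularFunctionFieldFullC k N) :
    ((h8r_arithBar N τ • x : modularFunctionFieldFullC k N) : LaurentSeries k) =
      coeffMap (τ : k →+* k) (x : LaurentSeries k) := rfl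

theorem h8r_arithBar_one : h8r_arithBar N (1 : k ≃+* k) = 1 := by
  refine Subtype.ext (Prod.ext (RingEquiv.ext fun x => Subtype.ext ?_) rfl)
  show coeffMap ((1 : k ≃+* k) : k →+* k) (x : LaurentSeries k) = (x : LaurentSeries k)
  have h1 : ((1 : k ≃+* k) : k →+* k) = RingHom.id k := RingHom.ext fun _ => rfl
  rw [h1, coeffMap_id]

theorem h8r_arithBar_mul (τ τ' : k ≃+* k) :
    h8r_arithBar N (τ * τ') = h8r_arithBar N τ * h8r_arithBar N τ' := by
  refine Subtype.ext (Prod.ext (RingEquiv.ext fun x => Subtype.ext ?_) rfl)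
  show coeffMap ((τ * τ' : k ≃+* k) : k →+* k) (x : LaurentSeries k) =
    coeffMap (τ : k →+* k) (coeffMap (τ' : k →+* k) (x : LaurentSeries k))
  rw [coeffMap_coeffMap]
  exact coeffMap_congr (RingHom.ext fun _ => rfl) _

end ArithBar

/-! ### The residue automorphism of an element of the decomposition group -/

section ResAut

variable (A : ValuationSubring (AlgebraicClosure ℚ))

/-- the automorphism of the residue field of `A` induced by `σ` in the decomposition group. -/
def h8r_resAut (σ : GQ) (hσ : σ ∈ A.decompositionSubgroup ℚ) :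
    IsLocalRing.ResidueField A ≃+* IsLocalRing.ResidueField A :=
  MulSemiringAction.toRingEquiv (A.decompositionSubgroup ℚ) (IsLocalRing.ResidueField A) ⟨σ, hσ⟩

@[simp]
theorem h8r_resAut_apply (σ : GQ) (hσ : σ ∈ A.decompositionSubgroup ℚ)
    (x : IsLocalRing.ResidueField A) :
    h8r_resAut A σ hσ x = (⟨σ, hσ⟩ : A.decompositionSubgroup ℚ) • x := rfl

theorem h8r_resAut_frobenius {ℓ : ℕ} {σ : GQ} (h : A.IsFrobeniusAt σ ℓ)
    (x : IsLocalRing.ResidueField A) :
    h8r_resAut A σ h.mem_decompositionSubgroup x = x ^ ℓ :=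
  h.smul_residue_eq x

theorem h8r_resAut_inertia {σ : GQ} (h : σ ∈ A.inertiaSubgroupIn ℚ)
    (hσ : σ ∈ A.decompositionSubgroup ℚ) : h8r_resAut A σ hσ = 1 := by
  obtain ⟨τ, hτ, rfl⟩ := h
  ext x
  have hτ' : τ ∈ MonoidHom.ker _ := hτ
  rw [MonoidHom.mem_ker] at hτ'
  have := congrArg (fun e : RingAut (IsLocalRing.ResidueField A) => e x) hτ'
  have h2 : (⟨(A.decompositionSubgroup ℚ).subtype τ, hσ⟩ : A.decompositionSubgroup ℚ) = τ :=
    Subtype.ext rfl
  rw [h8r_resAut_apply, h2]
  exact this

end ResAut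

/-! ### The statements -/

/-- **R1, strong form**: the reduction map is equivariant for the decomposition group. -/
def R1StrongStatement (N : ℕ) [NeZero N] : Prop :=
  ∀ (ℓ : ℕ), ℓ.Prime → ¬ ℓ ∣ N →
    ∀ A : ValuationSubring (AlgebraicClosure ℚ), A.LiesOverPrime ℓ →
      ∀ (σ : GQ) (hσ : σ ∈ A.decompositionSubgroup ℚ) (x : JZero N),
        reductionModL A N (σ • x) = h8r_arithBar N (h8r_resAut A σ hσ) • reductionModL A N x

/-- `R1StrongStatement` gives both halves of `R1`. -/
theorem h8r_R1Inertia_of_strong (N : ℕ) [NeZero N] (h : R1StrongStatement N) :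
    R1InertiaStatement N := by
  intro ℓ hℓ hℓN A hA σ hσ x
  have hσd : σ ∈ A.decompositionSubgroup ℚ := by
    obtain ⟨τ, -, rfl⟩ := hσ
    exact τ.2
  rw [h ℓ hℓ hℓN A hA σ hσd x, h8r_resAut_inertia A hσ hσd, h8r_arithBar_one, one_smul]

theorem h8r_R1Frobenius_of_strong (N : ℕ) [NeZero N] (h : R1StrongStatement N) :
    R1FrobeniusStatement N := by
  intro ℓ hℓ hℓN A hA σ hσ x hx
  rw [h ℓ hℓ hℓN A hA σ hσ.mem_decompositionSubgroup x, hx]
  exact smul_zero (A := JZeroC (IsLocalRing.ResidueField A) N)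
    (h8r_arithBar N (h8r_resAut A σ hσ.mem_decompositionSubgroup))

/-- **The Eichler–Shimura congruence** on `Pic0`:
`red (T_ℓ x) = Fr • red x + ℓ • Fr⁻¹ • red x`, where `Fr` is the coefficientwise action of the
residue automorphism of a Frobenius element `φ` at `A`. -/
def CongruenceStatement (N : ℕ) [NeZero N] : Prop :=
  ∀ (ℓ : ℕ) (hℓ : ℓ.Prime), ¬ ℓ ∣ N →
    ∀ A : ValuationSubring (AlgebraicClosure ℚ), A.LiesOverPrime ℓ →
      ∀ (φ : GQ) (hφ : A.IsFrobeniusAt φ ℓ) (x : JZero N),
        reductionModL A N (heckeOperatorBar N ⟨ℓ, hℓ⟩ x) =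
          h8r_arithBar N (h8r_resAut A φ hφ.mem_decompositionSubgroup) • reductionModL A N x +
          ℓ • ((h8r_arithBar N (h8r_resAut A φ hφ.mem_decompositionSubgroup))⁻¹ •
            reductionModL A N x)

/-- abstract form of the last step. -/
theorem h8r_quadratic_aux {J Jb G : Type*} [AddCommGroup J] [AddCommGroup Jb] [Group G]
    [DistribMulAction G Jb] (red : J →+ Jb) (g : G) (T S : J → J) (ℓ : ℕ)
    (hS : ∀ x, red (S x) = g • red x)
    (hT : ∀ x, red (T x) = g • red x + ℓ • (g⁻¹ • red x)) (x : J) :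
    red (S (S x) - T (S x) + ℓ • x) = 0 := by
  rw [map_add, map_sub, map_nsmul, hS, hS, hT, hS, inv_smul_smul]
  abel

/-- `R3` from the congruence and the strong form of `R1`. -/
theorem h8r_R3_of_congruence (N : ℕ) [NeZero N] (h1 : R1StrongStatement N)
    (hc : CongruenceStatement N) : R3Statement N := by
  intro ℓ hℓ hℓN A hA σ hσ x
  exact h8r_quadratic_aux (reductionModL A N)
    (h8r_arithBar N (h8r_resAut A σ hσ.mem_decompositionSubgroup))
    (fun y => heckeOperatorBar N ⟨ℓ, hℓ⟩ y) (fun y => σ • y) ℓ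
    (fun y => h1 ℓ hℓ hℓN A hA σ hσ.mem_decompositionSubgroup y)
    (fun y => hc ℓ hℓ hℓN A hA σ hσ y) x

end H8S37

end
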